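/-
S16 (Eisenstein ideal index), shared definitions for all chunks (lead).
Everything lives in `Fermat.Agent.S16Lib`.
-/
import Fermat.Statements.S16

set_option autoImplicit false

open CongruenceSubgroup UpperHalfPlane ModularFormClass
open scoped MatrixGroups ModularForm

namespace Fermat.Agent.S16Lib

/-- The sum of the divisors of `k` that are prime to `p` (the `k`-th coefficient of the weight two
Eisenstein series of level `p`). -/
def sigp (p k : ℕ) : ℕ := ∑ d ∈ k.divisors with ¬ p ∣ d, d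

/-- `X ≡ 1 mod ℓ^s`: the `q`-expansion of `X` has constant term `1` and all higher coefficients
are `ℓ`-integral rationals divisible by `ℓ^s`. -/
def Cong (p ℓ s : ℕ) (X : ModularForm (Gamma0 p) 2) : Prop :=
  qCoeff X 0 = 1 ∧ ∀ k : ℕ, 1 ≤ k → ∃ a b : ℤ, ¬ (ℓ : ℤ) ∣ b ∧ qCoeff X k = (ℓ : ℂ) ^ s * a / b

theorem Cong.mono {p ℓ s t : ℕ} {X : ModularForm (Gamma0 p) 2} (h : Cong p ℓ s X) (hts : t ≤ s) :
    Cong p ℓ t X := by
  refine ⟨h.1, fun k hk => ?_⟩
  obtain ⟨a, b, hb, hab⟩ := h.2 k hk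
  refine ⟨(ℓ : ℤ) ^ (s - t) * a, b, hb, ?_⟩
  rw [hab]
  have : (ℓ : ℂ) ^ s = (ℓ : ℂ) ^ t * (ℓ : ℂ) ^ (s - t) := by
    rw [← pow_add, Nat.add_sub_cancel' hts]
  rw [this]
  push_cast
  ring

/-- The translation `T = [[1,1],[0,1]]` as an element of `Γ₀(p)`. -/
def gT (p : ℕ) : Gamma0 p := ⟨ModularGroup.T, by
  rw [Gamma0_mem]; simp [ModularGroup.T]⟩

/-- A homomorphism `Γ₀(p) → ℂ` with integer values. -/
def IsInt (p : ℕ) (φ : Additive (Gamma0 p) →+ ℂ) : Prop := ∀ γ, ∃ m : ℤ, φ γ = m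

end Fermat.Agent.S16Lib
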