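import Fermat.Agent.Lib.S16.EisP
import Fermat.Agent.Lib.S23.LevelOne
import Fermat.Prelude.Def_ModularForm_HeckeOperatorForms
import Fermat.Prelude.Thm_ModularFormClass_qCoeff_heckeT
import Fermat.Prelude.Thm_ModularFormClass_qCoeff_heckeU

/-!
# S16 library: the Eisenstein series `ep16_E p` is a Hecke eigenform

`T_ℓ E = (1 + ℓ) E` for primes `ℓ ∤ p`, and `U_p E = E` for `p` prime.
-/

set_option autoImplicit false

namespace Fermat.Agent.S16Lib

open UpperHalfPlane ModularForm CongruenceSubgroup MatrixGroups Filter Matrix.SpecialLinearGroup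
  EisensteinSeries Fermat.Agent.LibS23
open scoped Manifold Topology

/-! ### Divisor-sum identities -/

/-- The Hecke relation for `σ = σ₁` at a prime `l`. -/
theorem ep16_sigma_hecke {l : ℕ} (hl : l.Prime) {n : ℕ} (hn : n ≠ 0) :
    ArithmeticFunction.sigma 1 (n * l) +
        (if l ∣ n then l * ArithmeticFunction.sigma 1 (n / l) else 0) =
      (1 + l) * ArithmeticFunction.sigma 1 n := by
  obtain ⟨a, m, hlm, rfl⟩ := Nat.exists_eq_pow_mul_and_not_dvd hn l hl.ne_one
  have hcop : ∀ b : ℕ, Nat.Coprime (l ^ b) m := fun b =>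
    Nat.Coprime.pow_left b ((Nat.Prime.coprime_iff_not_dvd hl).mpr hlm)
  have hσ : ∀ b : ℕ, ArithmeticFunction.sigma 1 (l ^ b * m) =
      (∑ j ∈ Finset.range (b + 1), l ^ j) * ArithmeticFunction.sigma 1 m := by
    intro b
    rw [ArithmeticFunction.isMultiplicative_sigma.map_mul_of_coprime (hcop b),
      ArithmeticFunction.sigma_apply_prime_pow hl]
    simp
  have h1 : l ^ a * m * l = l ^ (a + 1) * m := by ring
  rw [h1, hσ (a + 1), hσ a]
  cases a with
  | zero =>
    have hnd : ¬ l ∣ l ^ 0 * m := by simpa using hlm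
    rw [if_neg hnd]
    simp [Finset.sum_range_succ]
  | succ b =>
    have hd : l ∣ l ^ (b + 1) * m := Dvd.dvd.mul_right (dvd_pow_self l (Nat.succ_ne_zero b)) m
    have hdiv : l ^ (b + 1) * m / l = l ^ b * m := by
      rw [pow_succ, mul_assoc, mul_comm l m, ← mul_assoc, Nat.mul_div_cancel _ hl.pos]
    rw [if_pos hd, hdiv, hσ b, Finset.sum_range_succ (fun j => l ^ j) (b + 1 + 1),
      Finset.sum_range_succ (fun j => l ^ j) (b + 1)]
    ring

/-- The Hecke relation for `σ'` (divisors prime to `p`) at a prime `l ∤ p`. -/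
theorem ep16_sigma'_hecke {p l : ℕ} (hp : p ≠ 0) (hl : l.Prime) (hlp : ¬ l ∣ p) {n : ℕ}
    (hn : n ≠ 0) :
    ep16_sigma p (n * l) + (if l ∣ n then l * ep16_sigma p (n / l) else 0) =
      (1 + l) * ep16_sigma p n := by
  have hcop : Nat.Coprime l p := (Nat.Prime.coprime_iff_not_dvd hl).mpr hlp
  have hS := ep16_sigma_hecke hl hn
  have e1 := ep16_sigma_add p (n * l) hp
  have e2 := ep16_sigma_add p n hp
  by_cases hpn : p ∣ n
  · obtain ⟨m, rfl⟩ := hpn
    have hm : m ≠ 0 := by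
      rintro rfl
      simp at hn
    have hppos : 0 < p := Nat.pos_of_ne_zero hp
    have hSm := ep16_sigma_hecke hl hm
    have hd1 : p ∣ p * m * l := Dvd.dvd.mul_right (dvd_mul_right p m) l
    have hq1 : p * m * l / p = m * l := by
      rw [mul_assoc, Nat.mul_div_cancel_left _ hppos]
    have hq2 : p * m / p = m := Nat.mul_div_cancel_left _ hppos
    rw [if_pos hd1, hq1] at e1
    rw [if_pos (dvd_mul_right p m), hq2] at e2
    by_cases hlm : l ∣ m
    · have hln : l ∣ p * m := Dvd.dvd.mul_left hlm p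
      obtain ⟨r, rfl⟩ := hlm
      have hq3 : p * (l * r) / l = p * r := by
        rw [← mul_assoc, mul_comm p l, mul_assoc, Nat.mul_div_cancel_left _ hl.pos]
      have hq4 : l * r / l = r := Nat.mul_div_cancel_left _ hl.pos
      have e3 := ep16_sigma_add p (p * r) hp
      rw [if_pos (dvd_mul_right p r), Nat.mul_div_cancel_left _ hppos] at e3
      rw [if_pos hln, hq3] at hS ⊢
      rw [if_pos (dvd_mul_right l r), hq4] at hSm
      rw [e1, e2, e3] at hS
      have hSm' := congrArg (fun x => p * x) hSm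
      beta_reduce at hSm'
      nlinarith [hS, hSm']
    · have hln : ¬ l ∣ p * m := fun h => hlm (hcop.dvd_of_dvd_mul_left h)
      rw [if_neg hln] at hS ⊢
      rw [if_neg hlm] at hSm
      rw [e1, e2] at hS
      have hSm' := congrArg (fun x => p * x) hSm
      beta_reduce at hSm'
      nlinarith [hS, hSm']
  · have hpnl : ¬ p ∣ n * l := fun h => hpn (hcop.symm.dvd_of_dvd_mul_right h)
    rw [if_neg hpnl, add_zero] at e1
    rw [if_neg hpn, add_zero] at e2
    by_cases hln : l ∣ n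
    · have hpq : ¬ p ∣ n / l := fun h => hpn (h.trans (Nat.div_dvd_of_dvd hln))
      have e3 := ep16_sigma_add p (n / l) hp
      rw [if_neg hpq, add_zero] at e3
      rw [if_pos hln] at hS ⊢
      rw [← e1, ← e2, ← e3]
      exact hS
    · rw [if_neg hln] at hS ⊢
      rw [← e1, ← e2]
      exact hS

/-- `σ'(n p) = σ'(n)` for `p` prime. -/
theorem ep16_sigma'_mul_self {p : ℕ} (hp : p.Prime) {n : ℕ} (hn : n ≠ 0) :
    ep16_sigma p (n * p) = ep16_sigma p n := by
  unfold ep16_sigma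
  congr 1
  ext d
  simp only [Finset.mem_filter, Nat.mem_divisors]
  constructor
  · rintro ⟨⟨hd, -⟩, hpd⟩
    have hcop : Nat.Coprime d p := ((Nat.Prime.coprime_iff_not_dvd hp).mpr hpd).symm
    exact ⟨⟨hcop.dvd_of_dvd_mul_right hd, hn⟩, hpd⟩
  · rintro ⟨⟨hd, -⟩, hpd⟩
    exact ⟨⟨Dvd.dvd.mul_right hd p, Nat.mul_ne_zero hn hp.ne_zero⟩, hpd⟩

/-! ### The eigen-equations -/

theorem ep16_coeffHeckeT {p l : ℕ} (hp : p ≠ 0) (hl : l.Prime) (hlp : ¬ l ∣ p) (n : ℕ) :
    ModularForm.coeffHeckeT 2 l (ep16_coeff p) n = ((1 : ℂ) + l) * ep16_coeff p n := by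
  rw [ModularForm.coeffHeckeT_apply]
  by_cases hn : n = 0
  · subst hn
    simp [ep16_coeff]
    ring
  · have hnl : n * l ≠ 0 := Nat.mul_ne_zero hn hl.ne_zero
    have h := ep16_sigma'_hecke hp hl hlp hn
    by_cases hln : l ∣ n
    · have hq : n / l ≠ 0 := by
        obtain ⟨r, rfl⟩ := hln
        rw [Nat.mul_div_cancel_left _ hl.pos]
        rintro rfl
        simp at hn
      rw [if_pos hln] at h ⊢
      simp only [ep16_coeff, hn, hnl, hq, if_false]
      have h' := congrArg (Nat.cast : ℕ → ℂ) h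
      push_cast at h'
      rw [← h']
      norm_num
    · rw [if_neg hln] at h ⊢
      simp only [ep16_coeff, hn, hnl, if_false]
      have h' := congrArg (Nat.cast : ℕ → ℂ) h
      push_cast at h'
      rw [← h']

theorem ep16_coeffHeckeU {p : ℕ} (hp : p.Prime) (n : ℕ) :
    ModularForm.coeffHeckeU p (ep16_coeff p) n = ep16_coeff p n := by
  rw [ModularForm.coeffHeckeU_apply]
  by_cases hn : n = 0
  · subst hn
    simp
  · have hnp : n * p ≠ 0 := Nat.mul_ne_zero hn hp.ne_zero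
    simp only [ep16_coeff, hn, hnp, if_false]
    rw [ep16_sigma'_mul_self hp hn]

theorem ep16_qCoeff_fun (p : ℕ) [NeZero p] :
    ModularFormClass.qCoeff (⇑(ep16_E p) : ℍ → ℂ) = ep16_coeff p := by
  funext n
  exact ep16_qCoeff p n

/-- `T_ℓ E = (1 + ℓ) E` for every prime `ℓ ∤ p`. -/
theorem ep16_heckeT_eq (p : ℕ) [NeZero p] {l : ℕ} (hl : l.Prime) (hlp : ¬ l ∣ p) :
    ModularForm.heckeTLin 2 hl hlp (ep16_E p) = ((1 : ℂ) + l) • ep16_E p := by
  have hp : p ≠ 0 := NeZero.ne p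
  apply DFunLike.coe_injective
  have hQ1 : QExp (⇑(ModularForm.heckeTLin 2 hl hlp (ep16_E p)) : ℍ → ℂ) := QExp.of_gamma0 _
  have hQ2 : QExp (⇑(((1 : ℂ) + l) • ep16_E p) : ℍ → ℂ) := QExp.of_gamma0 _
  refine qx_injective hQ1 hQ2 ?_
  ext n
  have h1 : (qx (⇑(ModularForm.heckeTLin 2 hl hlp (ep16_E p)) : ℍ → ℂ)).coeff n =
      ModularForm.coeffHeckeT 2 l (ep16_coeff p) n := by
    rw [ModularForm.coe_heckeTLin_apply, ← ep16_qCoeff_fun p]
    exact ModularFormClass.qCoeff_heckeT (ep16_E p)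
      (CongruenceSubgroup.one_mem_strictPeriods_Gamma0 p) hl.ne_zero n
  have h2 : (qx (⇑(((1 : ℂ) + l) • ep16_E p) : ℍ → ℂ)).coeff n =
      ((1 : ℂ) + l) * ep16_coeff p n := by
    have hc : (⇑(((1 : ℂ) + l) • ep16_E p) : ℍ → ℂ) = ((1 : ℂ) + l) • (⇑(ep16_E p) : ℍ → ℂ) :=
      rfl
    rw [hc, qx_smul _ (QExp.of_gamma0 (ep16_E p))]
    simp only [PowerSeries.coeff_smul, smul_eq_mul]
    congr 1
    exact ep16_qExpansion_coeff p n
  rw [h1, h2, ep16_coeffHeckeT hp hl hlp]

/-- `U_p E = E` for `p` prime. -/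
theorem ep16_heckeU_eq (p : ℕ) [NeZero p] (hp : p.Prime) :
    ModularForm.heckeULin 2 (dvd_refl p) (ep16_E p) = ep16_E p := by
  apply DFunLike.coe_injective
  have hQ1 : QExp (⇑(ModularForm.heckeULin 2 (dvd_refl p) (ep16_E p)) : ℍ → ℂ) :=
    QExp.of_gamma0 _
  have hQ2 : QExp (⇑(ep16_E p) : ℍ → ℂ) := QExp.of_gamma0 _
  refine qx_injective hQ1 hQ2 ?_
  ext n
  have h1 : (qx (⇑(ModularForm.heckeULin 2 (dvd_refl p) (ep16_E p)) : ℍ → ℂ)).coeff n =
      ModularForm.coeffHeckeU p (ep16_coeff p) n := by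
    rw [ModularForm.coe_heckeULin_apply, ← ep16_qCoeff_fun p]
    exact ModularFormClass.qCoeff_heckeU (ep16_E p)
      (CongruenceSubgroup.one_mem_strictPeriods_Gamma0 p) hp.ne_zero n
  rw [h1, ep16_coeffHeckeU hp]
  exact (ep16_qExpansion_coeff p n).symm

end Fermat.Agent.S16Lib
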