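/-
S16, chunk L1 part 1 (helper1): `ℓ`-integrality toolkit.

* `l1_Zl ℓ : Subring ℂ` — the `ℓ`-integral rationals `ℤ_(ℓ) ⊆ ℂ`;
* `l1_Dvd ℓ s x` — `x ∈ ℓ^s ℤ_(ℓ)` (this is literally the coefficient condition in `Cong`);
* `l1_PDvd ℓ s A` — all coefficients of the power series `A` lie in `ℓ^s ℤ_(ℓ)`
  (`l1_PDvd ℓ 0 A`: `A` has `ℓ`-integral coefficients);
with the closure lemmas needed for congruence computations with `q`-expansions.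
-/
import Mathlib

set_option autoImplicit false

namespace Fermat.Agent.S16Lib

variable {ℓ : ℕ} [Fact ℓ.Prime]

theorem l1_prime_int (ℓ : ℕ) [Fact ℓ.Prime] : Prime (ℓ : ℤ) :=
  Nat.prime_iff_prime_int.mp Fact.out

theorem l1_ell_ne_zero (ℓ : ℕ) [Fact ℓ.Prime] : (ℓ : ℂ) ≠ 0 :=
  Nat.cast_ne_zero.mpr (Fact.out : ℓ.Prime).ne_zero

theorem l1_not_dvd_mul {a b : ℤ} (ha : ¬ (ℓ : ℤ) ∣ a) (hb : ¬ (ℓ : ℤ) ∣ b) : ¬ (ℓ : ℤ) ∣ a * b :=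
  fun h => ((l1_prime_int ℓ).dvd_or_dvd h).elim ha hb

omit [Fact ℓ.Prime] in
theorem l1_cast_ne_zero {b : ℤ} (hb : ¬ (ℓ : ℤ) ∣ b) : (b : ℂ) ≠ 0 := by
  intro h
  apply hb
  have : b = 0 := by exact_mod_cast h
  rw [this]
  exact dvd_zero _

/-- The subring `ℤ_(ℓ) ⊆ ℂ` of `ℓ`-integral rational numbers. -/
def l1_Zl (ℓ : ℕ) [Fact ℓ.Prime] : Subring ℂ where
  carrier := {x | ∃ a b : ℤ, ¬ (ℓ : ℤ) ∣ b ∧ x = a / b}
  mul_mem' := by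
    rintro x y ⟨a, b, hb, rfl⟩ ⟨a', b', hb', rfl⟩
    refine ⟨a * a', b * b', l1_not_dvd_mul hb hb', ?_⟩
    have h1 := l1_cast_ne_zero hb
    have h2 := l1_cast_ne_zero hb'
    push_cast
    field_simp
  one_mem' := ⟨1, 1, fun h => (l1_prime_int ℓ).not_dvd_one h, by simp⟩
  add_mem' := by
    rintro x y ⟨a, b, hb, rfl⟩ ⟨a', b', hb', rfl⟩
    refine ⟨a * b' + a' * b, b * b', l1_not_dvd_mul hb hb', ?_⟩
    have h1 := l1_cast_ne_zero hb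
    have h2 := l1_cast_ne_zero hb'
    push_cast
    field_simp
  zero_mem' := ⟨0, 1, fun h => (l1_prime_int ℓ).not_dvd_one h, by simp⟩
  neg_mem' := by
    rintro x ⟨a, b, hb, rfl⟩
    refine ⟨-a, b, hb, ?_⟩
    push_cast
    ring

theorem l1_mem_Zl {x : ℂ} : x ∈ l1_Zl ℓ ↔ ∃ a b : ℤ, ¬ (ℓ : ℤ) ∣ b ∧ x = a / b := Iff.rfl

theorem l1_int_mem (m : ℤ) : (m : ℂ) ∈ l1_Zl ℓ := intCast_mem _ m

theorem l1_nat_mem (m : ℕ) : (m : ℂ) ∈ l1_Zl ℓ := natCast_mem _ m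

theorem l1_inv_int_mem {m : ℤ} (h : ¬ (ℓ : ℤ) ∣ m) : ((m : ℂ))⁻¹ ∈ l1_Zl ℓ :=
  ⟨1, m, h, by simp⟩

theorem l1_inv_nat_mem {m : ℕ} (h : ¬ ℓ ∣ m) : ((m : ℂ))⁻¹ ∈ l1_Zl ℓ :=
  ⟨1, m, fun h' => h (Int.natCast_dvd_natCast.mp h'), by simp⟩

theorem l1_ratio_mem (a : ℤ) {b : ℤ} (h : ¬ (ℓ : ℤ) ∣ b) : (a : ℂ) / b ∈ l1_Zl ℓ :=
  ⟨a, b, h, rfl⟩

/-- `x ∈ ℓ^s ℤ_(ℓ)`. -/
def l1_Dvd (ℓ s : ℕ) [Fact ℓ.Prime] (x : ℂ) : Prop := ∃ y ∈ l1_Zl ℓ, x = (ℓ : ℂ) ^ s * y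

theorem l1_Dvd_iff {s : ℕ} {x : ℂ} :
    l1_Dvd ℓ s x ↔ ∃ a b : ℤ, ¬ (ℓ : ℤ) ∣ b ∧ x = (ℓ : ℂ) ^ s * a / b := by
  constructor
  · rintro ⟨y, ⟨a, b, hb, rfl⟩, rfl⟩
    exact ⟨a, b, hb, by ring⟩
  · rintro ⟨a, b, hb, rfl⟩
    exact ⟨a / b, ⟨a, b, hb, rfl⟩, by ring⟩

theorem l1_Dvd_zero_iff {x : ℂ} : l1_Dvd ℓ 0 x ↔ x ∈ l1_Zl ℓ := by
  constructor
  · rintro ⟨y, hy, rfl⟩
    simpa using hy
  · intro h
    exact ⟨x, h, by simp⟩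

namespace l1_Dvd

variable {s t : ℕ} {x y : ℂ}

theorem mem (h : l1_Dvd ℓ s x) : x ∈ l1_Zl ℓ := by
  obtain ⟨y, hy, rfl⟩ := h
  exact mul_mem (pow_mem (l1_nat_mem ℓ) s) hy

theorem mono (h : l1_Dvd ℓ s x) (hts : t ≤ s) : l1_Dvd ℓ t x := by
  obtain ⟨y, hy, rfl⟩ := h
  refine ⟨(ℓ : ℂ) ^ (s - t) * y, mul_mem (pow_mem (l1_nat_mem ℓ) _) hy, ?_⟩
  rw [← mul_assoc, ← pow_add, Nat.add_sub_cancel' hts]

theorem zero' : l1_Dvd ℓ s 0 := ⟨0, zero_mem _, by simp⟩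

theorem add (hx : l1_Dvd ℓ s x) (hy : l1_Dvd ℓ s y) : l1_Dvd ℓ s (x + y) := by
  obtain ⟨x', hx', rfl⟩ := hx
  obtain ⟨y', hy', rfl⟩ := hy
  exact ⟨x' + y', add_mem hx' hy', by ring⟩

theorem neg (hx : l1_Dvd ℓ s x) : l1_Dvd ℓ s (-x) := by
  obtain ⟨x', hx', rfl⟩ := hx
  exact ⟨-x', neg_mem hx', by ring⟩

theorem sub (hx : l1_Dvd ℓ s x) (hy : l1_Dvd ℓ s y) : l1_Dvd ℓ s (x - y) := by
  rw [sub_eq_add_neg]
  exact hx.add hy.neg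

theorem mul (hx : l1_Dvd ℓ s x) (hy : l1_Dvd ℓ t y) : l1_Dvd ℓ (s + t) (x * y) := by
  obtain ⟨x', hx', rfl⟩ := hx
  obtain ⟨y', hy', rfl⟩ := hy
  exact ⟨x' * y', mul_mem hx' hy', by ring⟩

theorem mul_left (hx : x ∈ l1_Zl ℓ) (hy : l1_Dvd ℓ s y) : l1_Dvd ℓ s (x * y) := by
  obtain ⟨y', hy', rfl⟩ := hy
  exact ⟨x * y', mul_mem hx hy', by ring⟩

theorem mul_right (hx : l1_Dvd ℓ s x) (hy : y ∈ l1_Zl ℓ) : l1_Dvd ℓ s (x * y) := by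
  rw [mul_comm]
  exact hx.mul_left hy

theorem sum {ι : Type*} (S : Finset ι) {f : ι → ℂ} (h : ∀ i ∈ S, l1_Dvd ℓ s (f i)) :
    l1_Dvd ℓ s (∑ i ∈ S, f i) := by
  classical
  induction S using Finset.induction_on with
  | empty => simpa using zero'
  | insert a S ha ih =>
    rw [Finset.sum_insert ha]
    exact (h a (Finset.mem_insert_self a S)).add
      (ih fun i hi => h i (Finset.mem_insert_of_mem hi))

end l1_Dvd

theorem l1_Dvd_of_mem {x : ℂ} (h : x ∈ l1_Zl ℓ) : l1_Dvd ℓ 0 x := l1_Dvd_zero_iff.mpr h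

theorem l1_Dvd_pow_mul (s : ℕ) {x : ℂ} (h : x ∈ l1_Zl ℓ) : l1_Dvd ℓ s ((ℓ : ℂ) ^ s * x) :=
  ⟨x, h, rfl⟩

/-- For an integer `m`: `m ∈ ℓ^s ℤ_(ℓ)` iff `ℓ^s ∣ m` in `ℤ`. -/
theorem l1_Dvd_int_iff {s : ℕ} {m : ℤ} : l1_Dvd ℓ s (m : ℂ) ↔ (ℓ : ℤ) ^ s ∣ m := by
  constructor
  · intro h
    obtain ⟨a, b, hb, hab⟩ := l1_Dvd_iff.mp h
    have hb0 := l1_cast_ne_zero hb
    have h1 : (m : ℂ) * b = (ℓ : ℂ) ^ s * a := by
      rw [hab]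
      field_simp
    have h2 : m * b = (ℓ : ℤ) ^ s * a := by exact_mod_cast h1
    have hcop : IsCoprime ((ℓ : ℤ) ^ s) b :=
      IsCoprime.pow_left ((l1_prime_int ℓ).coprime_iff_not_dvd.mpr hb)
    exact hcop.dvd_of_dvd_mul_right ⟨a, h2⟩
  · rintro ⟨a, rfl⟩
    exact ⟨a, l1_int_mem a, by push_cast; ring⟩

theorem l1_Dvd_of_int_dvd {s : ℕ} {m : ℤ} (h : (ℓ : ℤ) ^ s ∣ m) : l1_Dvd ℓ s (m : ℂ) :=
  l1_Dvd_int_iff.mpr h

/-- Cancelling an `ℓ`-adic unit. -/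
theorem l1_Dvd_of_mul_int {s : ℕ} {x : ℂ} {u : ℤ} (hu : ¬ (ℓ : ℤ) ∣ u)
    (h : l1_Dvd ℓ s ((u : ℂ) * x)) : l1_Dvd ℓ s x := by
  have hu0 := l1_cast_ne_zero hu
  have := h.mul_left (l1_inv_int_mem hu)
  rwa [← mul_assoc, inv_mul_cancel₀ hu0, one_mul] at this

/-! ### power series -/

open PowerSeries

/-- All coefficients of `A` lie in `ℓ^s ℤ_(ℓ)`. -/
def l1_PDvd (ℓ s : ℕ) [Fact ℓ.Prime] (A : PowerSeries ℂ) : Prop :=
  ∀ n, l1_Dvd ℓ s (coeff n A)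

namespace l1_PDvd

variable {s t : ℕ} {A B A' B' : PowerSeries ℂ}

theorem mono (h : l1_PDvd ℓ s A) (hts : t ≤ s) : l1_PDvd ℓ t A := fun n => (h n).mono hts

theorem zero' : l1_PDvd ℓ s 0 := fun n => by simpa using l1_Dvd.zero'

theorem add (hA : l1_PDvd ℓ s A) (hB : l1_PDvd ℓ s B) : l1_PDvd ℓ s (A + B) := fun n => by
  rw [map_add]
  exact (hA n).add (hB n)

theorem neg (hA : l1_PDvd ℓ s A) : l1_PDvd ℓ s (-A) := fun n => by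
  rw [map_neg]
  exact (hA n).neg

theorem sub (hA : l1_PDvd ℓ s A) (hB : l1_PDvd ℓ s B) : l1_PDvd ℓ s (A - B) := fun n => by
  rw [map_sub]
  exact (hA n).sub (hB n)

theorem mul (hA : l1_PDvd ℓ s A) (hB : l1_PDvd ℓ t B) : l1_PDvd ℓ (s + t) (A * B) := fun n => by
  rw [coeff_mul]
  exact l1_Dvd.sum _ fun i _ => (hA i.1).mul (hB i.2)

theorem mul_left (hA : l1_PDvd ℓ 0 A) (hB : l1_PDvd ℓ s B) : l1_PDvd ℓ s (A * B) := by
  have := hA.mul hB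
  rwa [zero_add] at this

theorem mul_right (hA : l1_PDvd ℓ s A) (hB : l1_PDvd ℓ 0 B) : l1_PDvd ℓ s (A * B) := by
  have := hA.mul hB
  rwa [add_zero] at this

theorem one' : l1_PDvd ℓ 0 (1 : PowerSeries ℂ) := fun n => by
  rw [coeff_one]
  split_ifs
  · exact l1_Dvd_of_mem (one_mem _)
  · exact l1_Dvd.zero'

theorem pow (hA : l1_PDvd ℓ 0 A) (n : ℕ) : l1_PDvd ℓ 0 (A ^ n) := by
  induction n with
  | zero => simpa using one'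
  | succ n ih =>
    rw [pow_succ]
    exact ih.mul_left hA

theorem smul {c : ℂ} (hc : c ∈ l1_Zl ℓ) (hA : l1_PDvd ℓ s A) : l1_PDvd ℓ s (c • A) := fun n => by
  rw [coeff_smul, smul_eq_mul]
  exact (hA n).mul_left hc

theorem sum {ι : Type*} (S : Finset ι) {f : ι → PowerSeries ℂ} (h : ∀ i ∈ S, l1_PDvd ℓ s (f i)) :
    l1_PDvd ℓ s (∑ i ∈ S, f i) := fun n => by
  rw [map_sum]
  exact l1_Dvd.sum _ fun i hi => h i hi n

/-- congruences multiply -/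
theorem mul_congr (hA : l1_PDvd ℓ 0 A) (hB' : l1_PDvd ℓ 0 B') (h1 : l1_PDvd ℓ s (A - A'))
    (h2 : l1_PDvd ℓ s (B - B')) : l1_PDvd ℓ s (A * B - A' * B') := by
  have : A * B - A' * B' = A * (B - B') + (A - A') * B' := by ring
  rw [this]
  exact (hA.mul_left h2).add (h1.mul_right hB')

/-- congruences can be raised to powers -/
theorem pow_congr (hA : l1_PDvd ℓ 0 A) (hA' : l1_PDvd ℓ 0 A') (h : l1_PDvd ℓ s (A - A')) (n : ℕ) :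
    l1_PDvd ℓ s (A ^ n - A' ^ n) := by
  induction n with
  | zero => simpa using zero'
  | succ n ih =>
    rw [pow_succ, pow_succ]
    exact mul_congr (hA.pow n) hA' ih h

end l1_PDvd

theorem l1_PDvd_C {s : ℕ} {c : ℂ} (hc : l1_Dvd ℓ s c) : l1_PDvd ℓ s (C c) := fun n => by
  rw [coeff_C]
  split_ifs
  · exact hc
  · exact l1_Dvd.zero'

theorem l1_PDvd_X : l1_PDvd ℓ 0 (X : PowerSeries ℂ) := fun n => by
  rw [coeff_X]
  split_ifs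
  · exact l1_Dvd_of_mem (one_mem _)
  · exact l1_Dvd.zero'

theorem l1_PDvd_map_int (A : PowerSeries ℤ) : l1_PDvd ℓ 0 (A.map (Int.castRingHom ℂ)) := fun n => by
  rw [coeff_map]
  exact l1_Dvd_of_mem (l1_int_mem _)

/-- shifting: `X * A` has coefficients in `ℓ^s ℤ_(ℓ)` up to index `m + 1` iff `A` has up to `m`. -/
theorem l1_coeff_X_mul_succ (A : PowerSeries ℂ) (n : ℕ) : coeff (n + 1) (X * A) = coeff n A := by
  rw [mul_comm, coeff_succ_mul_X]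

/-- Dividing by a unit power series with integer coefficients, in a range of coefficients:
if the coefficients of `U * A` up to `m` are in `ℓ^s ℤ_(ℓ)`, then so are those of `A`. -/
theorem l1_range_of_unit_mul {s : ℕ} (U : PowerSeries ℤ) (hU : constantCoeff U = 1)
    (A : PowerSeries ℂ) (m : ℕ)
    (h : ∀ n ≤ m, l1_Dvd ℓ s (coeff n (U.map (Int.castRingHom ℂ) * A))) :
    ∀ n ≤ m, l1_Dvd ℓ s (coeff n A) := by
  have hu : IsUnit U := by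
    rw [PowerSeries.isUnit_iff_constantCoeff, hU]
    exact isUnit_one
  obtain ⟨V, hV⟩ := hu.exists_left_inv
  have hA : A = V.map (Int.castRingHom ℂ) * (U.map (Int.castRingHom ℂ) * A) := by
    rw [← mul_assoc, ← map_mul, hV, map_one, one_mul]
  intro n hn
  rw [hA, coeff_mul]
  refine l1_Dvd.sum _ fun i hi => ?_
  have hi2 : i.2 ≤ m := by
    have := Finset.HasAntidiagonal.mem_antidiagonal.mp hi
    omega
  refine l1_Dvd.mul_left ?_ (h i.2 hi2)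
  rw [coeff_map]
  exact l1_int_mem _

/-- Dividing by a unit power series with integer coefficients (all coefficients). -/
theorem l1_PDvd_of_unit_mul {s : ℕ} (U : PowerSeries ℤ) (hU : constantCoeff U = 1)
    (A : PowerSeries ℂ) (h : l1_PDvd ℓ s (U.map (Int.castRingHom ℂ) * A)) : l1_PDvd ℓ s A :=
  fun n => l1_range_of_unit_mul U hU A n (fun k _ => h k) n le_rfl

theorem l1_PDvd_zero_iff {A : PowerSeries ℂ} : l1_PDvd ℓ 0 A ↔ ∀ n, coeff n A ∈ l1_Zl ℓ :=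
  forall_congr' fun _ => l1_Dvd_zero_iff

/-- multiplying by an `ℓ`-integral series preserves divisibility in a range of coefficients -/
theorem l1_range_mul {s : ℕ} {A B : PowerSeries ℂ} (m : ℕ)
    (hA : ∀ n ≤ m, l1_Dvd ℓ s (coeff n A)) (hB : l1_PDvd ℓ 0 B) :
    ∀ n ≤ m, l1_Dvd ℓ s (coeff n (A * B)) := by
  intro n hn
  rw [coeff_mul]
  refine l1_Dvd.sum _ fun i hi => ?_
  have hi1 : i.1 ≤ m := by
    have := Finset.HasAntidiagonal.mem_antidiagonal.mp hi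
    omega
  exact (hA i.1 hi1).mul_right (hB i.2).mem

end Fermat.Agent.S16Lib
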