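/-
S16, UPPER (helper5): the three "B-W" no-go theorems from the two trace relations.

For a weight two form `H` on `Γ₀(p)` with `q`-expansion `h`, and `U = U_p` on `q`-series:

* (TR1)  `U (U h) = h`                                  (`bw16_TR1`, coefficientwise)
* (TR2)  `p h² + U ((U h)²) = (p + 1) a₀(h)² E₄`        (`bw16_TR2`, coefficientwise, `n ≥ 1`)

These are *hypotheses* here (they are the trace of `H` and of `H²` to level one).  From them:

* `bw16_NG3` : `p ≡ 1 mod 3`  ⟹ no `X` with `Cong p 3 1 X`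
* `bw16_NG5` : `p ≡ 1 mod 4`  ⟹ no `X` with `Cong p 2 2 X`
* `bw16_NG6` : `p ≡ 3 mod 8`  ⟹ no `X` with `Cong p 2 3 X`
* `bw16_TR2_of_trace` : (TR2) from a level-one weight four form with the coefficients of
  `h² + p⁻¹ U ((U h)²)` (every level-one form of weight four is a multiple of `E₄`).
-/
import Fermat.Agent.Lib.S16.Defs
import Fermat.Agent.Lib.S16.Zl
import Fermat.Agent.Lib.S16.EisHecke

set_option autoImplicit false

namespace Fermat.Agent.S16Lib

open UpperHalfPlane ModularForm CongruenceSubgroup MatrixGroups ModularFormClass PowerSeries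
open Fermat.Agent.LibS23

/-- `U_p` on power series -/
noncomputable def bw16_U (p : ℕ) (h : PowerSeries ℂ) : PowerSeries ℂ :=
  PowerSeries.mk fun k => PowerSeries.coeff (p * k) h

theorem bw16_coeff_U (p : ℕ) (h : PowerSeries ℂ) (k : ℕ) :
    coeff k (bw16_U p h) = coeff (p * k) h := by
  simp [bw16_U]

theorem bw16_U_add (p : ℕ) (a b : PowerSeries ℂ) : bw16_U p (a + b) = bw16_U p a + bw16_U p b := by
  ext k
  simp [bw16_coeff_U]

theorem bw16_U_sub (p : ℕ) (a b : PowerSeries ℂ) : bw16_U p (a - b) = bw16_U p a - bw16_U p b := by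
  ext k
  simp [bw16_coeff_U]

theorem bw16_U_C_mul (p : ℕ) (c : ℂ) (a : PowerSeries ℂ) :
    bw16_U p (C c * a) = C c * bw16_U p a := by
  ext k
  simp [bw16_coeff_U]

theorem bw16_U_C (p : ℕ) (hp : p ≠ 0) (c : ℂ) : bw16_U p (C c) = C c := by
  ext k
  rw [bw16_coeff_U, coeff_C, coeff_C]
  by_cases hk : k = 0
  · simp [hk]
  · rw [if_neg hk, if_neg (Nat.mul_ne_zero hp hk)]

theorem bw16_U_one (p : ℕ) (hp : p ≠ 0) : bw16_U p 1 = 1 := by
  have := bw16_U_C p hp 1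
  simpa using this

theorem bw16_PDvd_U {ℓ : ℕ} [Fact ℓ.Prime] {s : ℕ} (p : ℕ) {a : PowerSeries ℂ}
    (ha : l1_PDvd ℓ s a) : l1_PDvd ℓ s (bw16_U p a) := fun n => by
  rw [bw16_coeff_U]
  exact ha _

/-- symmetric sums -/
theorem bw16_sum_symm (n : ℕ) (g : ℕ → ℂ) (hg : ∀ i, i ≤ n → g (n - i) = g i) :
    ∑ i ∈ Finset.range (n + 1), g i
      = 2 * ∑ i ∈ (Finset.range (n + 1)).filter (fun i => 2 * i < n), g i
        + (if 2 ∣ n then g (n / 2) else 0) := by
  have h1 : ∑ i ∈ Finset.range (n + 1), g i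
      = ∑ i ∈ (Finset.range (n + 1)).filter (fun i => 2 * i < n), g i
        + ∑ i ∈ (Finset.range (n + 1)).filter (fun i => ¬ 2 * i < n), g i :=
    (Finset.sum_filter_add_sum_filter_not _ _ _).symm
  have h2 : ∑ i ∈ (Finset.range (n + 1)).filter (fun i => ¬ 2 * i < n), g i
      = ∑ i ∈ ((Finset.range (n + 1)).filter (fun i => ¬ 2 * i < n)).filter (fun i => n < 2 * i),
          g i
        + ∑ i ∈ ((Finset.range (n + 1)).filter (fun i => ¬ 2 * i < n)).filter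
            (fun i => ¬ n < 2 * i), g i :=
    (Finset.sum_filter_add_sum_filter_not _ _ _).symm
  have h3 : ∑ i ∈ ((Finset.range (n + 1)).filter (fun i => ¬ 2 * i < n)).filter
        (fun i => n < 2 * i), g i
      = ∑ i ∈ (Finset.range (n + 1)).filter (fun i => 2 * i < n), g i := by
    refine Finset.sum_nbij' (fun i => n - i) (fun i => n - i) ?_ ?_ ?_ ?_ ?_
    · intro i hi
      simp only [Finset.mem_filter, Finset.mem_range] at hi ⊢
      omega
    · intro i hi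
      simp only [Finset.mem_filter, Finset.mem_range] at hi ⊢
      omega
    · intro i hi
      simp only [Finset.mem_filter, Finset.mem_range] at hi
      omega
    · intro i hi
      simp only [Finset.mem_filter, Finset.mem_range] at hi
      omega
    · intro i hi
      simp only [Finset.mem_filter, Finset.mem_range] at hi
      exact (hg i (by omega)).symm
  have h4 : ∑ i ∈ ((Finset.range (n + 1)).filter (fun i => ¬ 2 * i < n)).filter
        (fun i => ¬ n < 2 * i), g i = if 2 ∣ n then g (n / 2) else 0 := by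
    by_cases h2n : 2 ∣ n
    · rw [if_pos h2n]
      have : ((Finset.range (n + 1)).filter (fun i => ¬ 2 * i < n)).filter
          (fun i => ¬ n < 2 * i) = {n / 2} := by
        ext i
        simp only [Finset.mem_filter, Finset.mem_range, Finset.mem_singleton]
        omega
      rw [this, Finset.sum_singleton]
    · rw [if_neg h2n]
      have : ((Finset.range (n + 1)).filter (fun i => ¬ 2 * i < n)).filter
          (fun i => ¬ n < 2 * i) = ∅ := by
        ext i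
        simp only [Finset.mem_filter, Finset.mem_range, Finset.notMem_empty, iff_false]
        omega
      rw [this, Finset.sum_empty]
  rw [h1, h2, h3, h4]
  ring

theorem bw16_sq_sub_self_dvd {z : ℂ} (hz : z ∈ l1_Zl 2) : l1_Dvd 2 1 (z ^ 2 - z) := by
  have : Fact (Nat.Prime 2) := ⟨Nat.prime_two⟩
  obtain ⟨a, b, hb, rfl⟩ := l1_mem_Zl.mp hz
  have hb0 : (b : ℂ) ≠ 0 := l1_cast_ne_zero hb
  have hbo : ¬ (2 : ℤ) ∣ b := by exact_mod_cast hb
  have h2 : (2 : ℤ) ∣ a * (a - b) := by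
    rcases Int.emod_two_eq_zero_or_one a with ha | ha
    · exact Dvd.dvd.mul_right (Int.dvd_of_emod_eq_zero ha) _
    · refine Dvd.dvd.mul_left ?_ _
      omega
  obtain ⟨c, hc⟩ := h2
  refine l1_Dvd_iff.mpr ⟨c, b * b, l1_not_dvd_mul hb hb, ?_⟩
  have hc' : (a : ℂ) * ((a : ℂ) - b) = 2 * c := by exact_mod_cast hc
  push_cast
  field_simp
  linear_combination hc'

/-- Frobenius modulo `2` -/
theorem bw16_frob {z : PowerSeries ℂ} (hz : l1_PDvd 2 0 z) (n : ℕ) :
    l1_Dvd 2 1 (coeff n (z ^ 2) - (if 2 ∣ n then coeff (n / 2) z else 0)) := by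
  have : Fact (Nat.Prime 2) := ⟨Nat.prime_two⟩
  have hmem : ∀ k, coeff k z ∈ l1_Zl 2 := fun k => l1_Dvd_zero_iff.mp (hz k)
  rw [pow_two, coeff_mul, Finset.Nat.sum_antidiagonal_eq_sum_range_succ
    (fun i j => coeff i z * coeff j z),
    bw16_sum_symm n (fun i => coeff i z * coeff (n - i) z) (fun i hi => by
      have : n - (n - i) = i := by omega
      rw [this]
      ring)]
  have hS : (∑ i ∈ (Finset.range (n + 1)).filter (fun i => 2 * i < n),
      coeff i z * coeff (n - i) z) ∈ l1_Zl 2 :=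
    Subring.sum_mem _ (fun i _ => Subring.mul_mem _ (hmem i) (hmem (n - i)))
  have h1 : l1_Dvd 2 1 (2 * ∑ i ∈ (Finset.range (n + 1)).filter (fun i => 2 * i < n),
      coeff i z * coeff (n - i) z) := by
    have := l1_Dvd_pow_mul (ℓ := 2) 1 hS
    simpa using this
  by_cases h2n : 2 ∣ n
  · rw [if_pos h2n, if_pos h2n]
    have hn2 : n - n / 2 = n / 2 := by omega
    have h2 := bw16_sq_sub_self_dvd (hmem (n / 2))
    have h3 := h1.add h2
    rw [hn2]
    convert h3 using 1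
    ring
  · rw [if_neg h2n, if_neg h2n]
    simpa using h1


/-- the quantity `p * coeff n (x ^ 2) + coeff (p * n) ((U x) ^ 2)` -/
noncomputable def bw16_W (p : ℕ) (x : PowerSeries ℂ) (n : ℕ) : ℂ :=
  (p : ℂ) * coeff n (x ^ 2) + coeff (p * n) ((bw16_U p x) ^ 2)

theorem bw16_W_mem {ℓ : ℕ} [Fact ℓ.Prime] (p : ℕ) {x : PowerSeries ℂ} (hx : l1_PDvd ℓ 0 x)
    (n : ℕ) : bw16_W p x n ∈ l1_Zl ℓ := by
  unfold bw16_W
  refine Subring.add_mem _ (Subring.mul_mem _ (l1_nat_mem p) ?_) ?_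
  · exact l1_Dvd_zero_iff.mp ((hx.pow 2) n)
  · exact l1_Dvd_zero_iff.mp (((bw16_PDvd_U p hx).pow 2) _)

theorem bw16_W_C_mul (p : ℕ) (c : ℂ) (x : PowerSeries ℂ) (n : ℕ) :
    bw16_W p (C c * x) n = c ^ 2 * bw16_W p x n := by
  unfold bw16_W
  rw [bw16_U_C_mul, mul_pow, mul_pow, ← map_pow, coeff_C_mul, coeff_C_mul]
  ring

theorem bw16_coeff_sq_expand (c : ℂ) (x : PowerSeries ℂ) (n : ℕ) (hn : 1 ≤ n) :
    coeff n ((1 + C c * x) ^ 2) = 2 * c * coeff n x + c ^ 2 * coeff n (x ^ 2) := by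
  have e : (1 + C c * x) ^ 2 = 1 + C c * x + C c * x + C c * (C c * x ^ 2) := by ring
  have hn0 : n ≠ 0 := by omega
  rw [e, map_add, map_add, map_add, coeff_one, if_neg hn0, coeff_C_mul, coeff_C_mul, coeff_C_mul]
  ring

/-- expansion of `W` at `1 + c x` -/
theorem bw16_expand (p : ℕ) (hp : p ≠ 0) (c : ℂ) (x : PowerSeries ℂ)
    (hT1 : ∀ n, coeff (p * (p * n)) x = coeff n x) (n : ℕ) (hn : 1 ≤ n) :
    bw16_W p (1 + C c * x) n
      = 2 * c * ((p : ℂ) + 1) * coeff n x + c ^ 2 * bw16_W p x n := by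
  have hU : bw16_U p (1 + C c * x) = 1 + C c * bw16_U p x := by
    rw [bw16_U_add, bw16_U_one p hp, bw16_U_C_mul]
  have hpn : 1 ≤ p * n := Nat.mul_pos (Nat.pos_of_ne_zero hp) hn
  unfold bw16_W
  rw [hU, bw16_coeff_sq_expand c x n hn, bw16_coeff_sq_expand c _ (p * n) hpn, bw16_coeff_U, hT1]
  ring

/-- `W` is even for `2`-integral `x` (Frobenius) -/
theorem bw16_W_even (p : ℕ) (hp : Odd p) {x : PowerSeries ℂ} (hx : l1_PDvd 2 0 x)
    (hT1 : ∀ n, coeff (p * (p * n)) x = coeff n x) (n : ℕ) : l1_Dvd 2 1 (bw16_W p x n) := by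
  have hmem : ∀ k, coeff k x ∈ l1_Zl 2 := fun k => l1_Dvd_zero_iff.mp (hx k)
  have h1 := bw16_frob hx n
  have h2 := bw16_frob (bw16_PDvd_U p hx) (p * n)
  have hiff : 2 ∣ p * n ↔ 2 ∣ n := by
    constructor
    · intro h
      rcases (Nat.Prime.dvd_mul Nat.prime_two).mp h with h' | h'
      · exact absurd (even_iff_two_dvd.mpr h') (Nat.not_even_iff_odd.mpr hp)
      · exact h'
    · intro h
      exact Dvd.dvd.mul_left h p
  have hd : ∀ (z : ℂ), z ∈ l1_Zl 2 → l1_Dvd 2 1 (((p : ℂ) + 1) * z) := by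
    intro z hz
    obtain ⟨k, hk⟩ := hp
    have h3 : ((p : ℂ) + 1) * z = (2 : ℂ) ^ 1 * (((k + 1 : ℕ) : ℂ) * z) := by
      rw [hk]
      push_cast
      ring
    rw [h3]
    exact l1_Dvd_pow_mul 1 (Subring.mul_mem _ (l1_nat_mem _) hz)
  unfold bw16_W
  by_cases h2n : 2 ∣ n
  · rw [if_pos h2n] at h1
    rw [if_pos (hiff.mpr h2n), bw16_coeff_U] at h2
    have hidx : p * (p * n / 2) = p * (p * (n / 2)) := by
      rw [Nat.mul_div_assoc p h2n]
    rw [hidx, hT1] at h2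
    have h3 := ((h1.mul_left (l1_nat_mem p)).add h2).add (hd _ (hmem (n / 2)))
    convert h3 using 1
    ring
  · rw [if_neg h2n, sub_zero] at h1
    rw [if_neg (fun h => h2n (hiff.mp h)), sub_zero] at h2
    exact (h1.mul_left (l1_nat_mem p)).add h2

/-! ### the trace relations as hypotheses -/

/-- (TR1) for a form -/
def bw16_TR1 (p : ℕ) (H : ModularForm (Gamma0 p) 2) : Prop :=
  ∀ n : ℕ, qCoeff H (p * (p * n)) = qCoeff H n

/-- (TR2) for a form -/
def bw16_TR2 (p : ℕ) (H : ModularForm (Gamma0 p) 2) : Prop :=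
  ∀ n : ℕ, 1 ≤ n → bw16_W p (qExpansion 1 H) n
    = 240 * ((p : ℂ) + 1) * (qCoeff H 0) ^ 2 * (ArithmeticFunction.sigma 3 n : ℂ)

/-- the normalised series `x` with `X = 1 + ℓ ^ s * x` -/
theorem bw16_exists_x {ℓ : ℕ} [Fact ℓ.Prime] {p s : ℕ} {X : ModularForm (Gamma0 p) 2}
    (h : Cong p ℓ s X) :
    ∃ x : PowerSeries ℂ, l1_PDvd ℓ 0 x ∧ coeff 0 x = 0 ∧
      qExpansion 1 X = 1 + C ((ℓ : ℂ) ^ s) * x := by
  have hℓ : ((ℓ : ℂ) ^ s) ≠ 0 := pow_ne_zero _ (l1_ell_ne_zero ℓ)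
  refine ⟨PowerSeries.mk fun k => if k = 0 then 0 else qCoeff X k / (ℓ : ℂ) ^ s, ?_,
    by simp, ?_⟩
  · intro k
    rw [coeff_mk]
    by_cases hk : k = 0
    · rw [if_pos hk]
      exact l1_Dvd.zero'
    · rw [if_neg hk]
      obtain ⟨y, hy, hxy⟩ := l1_Dvd_iff.mpr (h.2 k (by omega))
      rw [l1_Dvd_zero_iff, hxy, mul_div_cancel_left₀ _ hℓ]
      exact hy
  · ext k
    rw [map_add, coeff_one, coeff_C_mul, coeff_mk]
    by_cases hk : k = 0
    · subst hk
      rw [if_pos rfl, if_pos rfl, mul_zero, add_zero]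
      exact h.1
    · rw [if_neg hk, if_neg hk, zero_add, mul_div_cancel₀ _ hℓ]
      rfl

/-- the basic relation `2 ℓ^s (p+1) x_n + ℓ^(2s) W_n(x) = 240 (p+1) σ₃(n)` -/
theorem bw16_star {ℓ : ℕ} [Fact ℓ.Prime] {p s : ℕ} (hp : p ≠ 0) {X : ModularForm (Gamma0 p) 2}
    (h : Cong p ℓ s X) (hTR1 : bw16_TR1 p X) (hTR2 : bw16_TR2 p X) :
    ∃ x : PowerSeries ℂ, l1_PDvd ℓ 0 x ∧ coeff 0 x = 0 ∧
      (∀ n, coeff (p * (p * n)) x = coeff n x) ∧
      ∀ n, 1 ≤ n → 2 * (ℓ : ℂ) ^ s * ((p : ℂ) + 1) * coeff n x + ((ℓ : ℂ) ^ s) ^ 2 * bw16_W p x n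
        = 240 * ((p : ℂ) + 1) * (ArithmeticFunction.sigma 3 n : ℂ) := by
  have hℓ : ((ℓ : ℂ) ^ s) ≠ 0 := pow_ne_zero _ (l1_ell_ne_zero ℓ)
  obtain ⟨x, hx, hx0, hX⟩ := bw16_exists_x h
  have hT1 : ∀ n, coeff (p * (p * n)) x = coeff n x := by
    intro n
    have h1 := hTR1 n
    unfold qCoeff at h1
    rw [hX, map_add, map_add, coeff_one, coeff_one, coeff_C_mul, coeff_C_mul] at h1
    by_cases hn : n = 0
    · subst hn
      simp
    · rw [if_neg hn, if_neg (Nat.mul_ne_zero hp (Nat.mul_ne_zero hp hn)), zero_add, zero_add]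
        at h1
      exact mul_left_cancel₀ hℓ h1
  refine ⟨x, hx, hx0, hT1, fun n hn => ?_⟩
  have h2 := hTR2 n hn
  rw [h.1, hX, bw16_expand p hp _ x hT1 n hn] at h2
  rw [h2]
  ring


theorem bw16_sigma_sq {p : ℕ} (hp : p.Prime) :
    ArithmeticFunction.sigma 3 (p * (p * 1)) = 1 + p ^ 3 + p ^ 6 := by
  rw [mul_one, ← pow_two, ArithmeticFunction.sigma_apply_prime_pow hp]
  simp [Finset.sum_range_succ]

/-- **NG3** from the trace relations: `p ≡ 1 mod 3` excludes `X ≡ 1 mod 3`. -/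
theorem bw16_NG3 (p : ℕ) [Fact p.Prime] (h3 : p % 3 = 1) (X : ModularForm (Gamma0 p) 2)
    (hTR1 : bw16_TR1 p X) (hTR2 : bw16_TR2 p X) : ¬ Cong p 3 1 X := by
  intro h
  have hp : p.Prime := Fact.out
  obtain ⟨x, hx, -, hT1, hstar⟩ := bw16_star hp.ne_zero h hTR1 hTR2
  have hcong : ∀ n, 1 ≤ n →
      l1_Dvd 3 1 (coeff n x - 40 * (ArithmeticFunction.sigma 3 n : ℂ)) := by
    intro n hn
    have h1 := hstar n hn
    have h2 : (((2 * (p + 1) : ℕ) : ℤ) : ℂ) * (coeff n x - 40 * (ArithmeticFunction.sigma 3 n : ℂ))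
        = ((3 : ℕ) : ℂ) ^ 1 * (-(bw16_W p x n)) := by
      push_cast
      push_cast at h1
      linear_combination (1 / 3 : ℂ) * h1
    refine l1_Dvd_of_mul_int (u := ((2 * (p + 1) : ℕ) : ℤ)) ?_ ?_
    · intro hd
      have hd' : 3 ∣ 2 * (p + 1) := by exact_mod_cast hd
      omega
    · rw [h2]
      exact l1_Dvd_pow_mul 1 (Subring.neg_mem _ (bw16_W_mem p hx n))
  have hc1 := hcong 1 le_rfl
  have hc2 := hcong (p * (p * 1)) (Nat.mul_pos hp.pos (Nat.mul_pos hp.pos one_pos))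
  rw [hT1 1] at hc2
  have hd := hc1.sub hc2
  have hint : l1_Dvd 3 1 (((40 * (ArithmeticFunction.sigma 3 (p * (p * 1)) : ℤ)
      - 40 * (ArithmeticFunction.sigma 3 1 : ℤ) : ℤ)) : ℂ) := by
    convert hd using 1
    push_cast
    ring
  rw [l1_Dvd_int_iff, bw16_sigma_sq hp, ArithmeticFunction.sigma_one] at hint
  have hz := (ZMod.intCast_zmod_eq_zero_iff_dvd _ 3).mpr (by simpa using hint)
  have hp3 : (p : ZMod 3) = 1 := by
    have := (ZMod.natCast_eq_natCast_iff' p 1 3).mpr (by omega)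
    simpa using this
  push_cast at hz
  rw [hp3] at hz
  revert hz
  decide

/-- **NG5** from the trace relations: `p ≡ 1 mod 4` excludes `X ≡ 1 mod 4`. -/
theorem bw16_NG5 (p : ℕ) [Fact p.Prime] (h4 : p % 4 = 1) (X : ModularForm (Gamma0 p) 2)
    (hTR1 : bw16_TR1 p X) (hTR2 : bw16_TR2 p X) : ¬ Cong p 2 2 X := by
  intro h
  have hp : p.Prime := Fact.out
  obtain ⟨x, hx, hx0, hT1, hstar⟩ := bw16_star hp.ne_zero h hTR1 hTR2
  have hodd : Odd p := Nat.odd_iff.mpr (by omega)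
  obtain ⟨m, hm, hmodd⟩ : ∃ m : ℕ, p + 1 = 2 * m ∧ ¬ 2 ∣ m := ⟨(p + 1) / 2, by omega, by omega⟩
  have hmC : (p : ℂ) + 1 = 2 * (m : ℂ) := by exact_mod_cast hm
  have hmu : ¬ ((2 : ℕ) : ℤ) ∣ ((m : ℕ) : ℤ) := by
    intro hd
    exact hmodd (by exact_mod_cast hd)
  have h2mem : l1_Dvd 2 1 (2 : ℂ) := by
    have := l1_Dvd_pow_mul (ℓ := 2) 1 (Subring.one_mem _)
    simpa using this
  -- step 1: `x` is even
  have hx2 : ∀ n, l1_Dvd 2 1 (coeff n x) := by
    intro n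
    by_cases hn : n = 0
    · subst hn
      rw [hx0]
      exact l1_Dvd.zero'
    · have h1 := hstar n (by omega)
      have h2 : (((m : ℕ) : ℤ) : ℂ) * coeff n x
          = 2 * ((15 * m * ArithmeticFunction.sigma 3 n : ℕ) : ℂ) - bw16_W p x n := by
        push_cast
        push_cast at h1
        rw [hmC] at h1
        linear_combination (1 / 16 : ℂ) * h1
      refine l1_Dvd_of_mul_int hmu ?_
      rw [h2]
      exact (h2mem.mul_right (l1_nat_mem _)).sub (bw16_W_even p hodd hx hT1 n)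
  -- step 2: `y = x / 2`
  have hy : ∃ y : PowerSeries ℂ, l1_PDvd 2 0 y ∧ x = C 2 * y := by
    refine ⟨PowerSeries.mk fun n => coeff n x / 2, fun n => ?_, ?_⟩
    · obtain ⟨z, hz, hxz⟩ := hx2 n
      rw [coeff_mk, hxz, l1_Dvd_zero_iff]
      have : ((2 : ℕ) : ℂ) ^ 1 * z / 2 = z := by
        push_cast
        ring
      rw [this]
      exact hz
    · ext n
      rw [coeff_C_mul, coeff_mk]
      ring
  obtain ⟨y, hy, rfl⟩ := hy
  have hT1y : ∀ n, coeff (p * (p * n)) y = coeff n y := by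
    intro n
    have := hT1 n
    rw [coeff_C_mul, coeff_C_mul] at this
    exact mul_left_cancel₀ two_ne_zero this
  have hcong : ∀ n, 1 ≤ n →
      l1_Dvd 2 2 (coeff n y - 15 * (ArithmeticFunction.sigma 3 n : ℂ)) := by
    intro n hn
    have h1 := hstar n hn
    rw [bw16_W_C_mul, coeff_C_mul] at h1
    have h2 : (((m : ℕ) : ℤ) : ℂ) * (coeff n y - 15 * (ArithmeticFunction.sigma 3 n : ℂ))
        = -(2 * bw16_W p y n) := by
      push_cast
      push_cast at h1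
      rw [hmC] at h1
      linear_combination (1 / 32 : ℂ) * h1
    refine l1_Dvd_of_mul_int hmu ?_
    rw [h2]
    exact (h2mem.mul (bw16_W_even p hodd hy hT1y n)).neg
  have hc1 := hcong 1 le_rfl
  have hc2 := hcong (p * (p * 1)) (Nat.mul_pos hp.pos (Nat.mul_pos hp.pos one_pos))
  rw [hT1y 1] at hc2
  have hd := hc1.sub hc2
  have hint : l1_Dvd 2 2 (((15 * (ArithmeticFunction.sigma 3 (p * (p * 1)) : ℤ)
      - 15 * (ArithmeticFunction.sigma 3 1 : ℤ) : ℤ)) : ℂ) := by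
    convert hd using 1
    push_cast
    ring
  rw [l1_Dvd_int_iff, bw16_sigma_sq hp, ArithmeticFunction.sigma_one] at hint
  have hz := (ZMod.intCast_zmod_eq_zero_iff_dvd _ 4).mpr (by simpa using hint)
  have hp4 : (p : ZMod 4) = 1 := by
    have := (ZMod.natCast_eq_natCast_iff' p 1 4).mpr (by omega)
    simpa using this
  push_cast at hz
  rw [hp4] at hz
  revert hz
  decide


theorem bw16_coeff_one_sq {g : PowerSeries ℂ} (hg0 : coeff 0 g = 0) : coeff 1 (g ^ 2) = 0 := by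
  rw [pow_two, coeff_mul, Finset.Nat.sum_antidiagonal_eq_sum_range_succ
    (fun i j => coeff i g * coeff j g)]
  simp [Finset.sum_range_succ, hg0]

/-- **NG6** for `p ≡ 3 mod 8` from the trace relation (TR2): no `X ≡ 1 mod 8`. -/
theorem bw16_NG6 (p : ℕ) [Fact p.Prime] (h8 : p % 8 = 3) (X : ModularForm (Gamma0 p) 2)
    (hTR2 : ∀ H : ModularForm (Gamma0 p) 2, bw16_TR2 p H) : ¬ Cong p 2 3 X := by
  intro h
  have hp : p.Prime := Fact.out
  have hp0 : p ≠ 0 := hp.ne_zero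
  have : NeZero p := ⟨hp0⟩
  obtain ⟨x, hx, hx0, hX⟩ := bw16_exists_x h
  set a0 : ℂ := ((p : ℂ) - 1) / 24 with ha0
  -- the Eisenstein series
  set e : PowerSeries ℂ := PowerSeries.mk fun k => if k = 0 then 0 else (ep16_sigma p k : ℂ)
    with he
  have hE : qExpansion 1 (ep16_E p) = C a0 + e := by
    ext k
    have h1 : coeff k (qExpansion 1 (ep16_E p)) = ep16_coeff p k := ep16_qCoeff p k
    rw [h1, map_add, coeff_C, he, coeff_mk, ep16_coeff]
    by_cases hk : k = 0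
    · rw [if_pos hk, if_pos hk, if_pos hk, add_zero]
    · rw [if_neg hk, if_neg hk, if_neg hk, zero_add]
  have hUe : bw16_U p e = e := by
    ext k
    rw [bw16_coeff_U, he, coeff_mk, coeff_mk]
    by_cases hk : k = 0
    · subst hk
      simp
    · rw [if_neg hk, if_neg (Nat.mul_ne_zero hp0 hk), mul_comm p k, ep16_sigma'_mul_self hp hk]
  have he0 : coeff 0 e = 0 := by rw [he, coeff_mk, if_pos rfl]
  have hs1 : ep16_sigma p 1 = 1 := by
    unfold ep16_sigma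
    have : (Nat.divisors 1).filter (fun d => ¬ p ∣ d) = {1} := by
      ext d
      simp only [Nat.divisors_one, Finset.mem_filter, Finset.mem_singleton]
      constructor
      · rintro ⟨h, -⟩; exact h
      · rintro rfl
        exact ⟨rfl, fun h => hp.one_lt.ne' (Nat.dvd_one.mp h)⟩
    rw [this]
    simp
  have he1 : coeff 1 e = 1 := by
    rw [he, coeff_mk, if_neg one_ne_zero, hs1]
    simp
  have hep : coeff p e = 1 := by
    rw [he, coeff_mk, if_neg hp0]
    have := ep16_sigma'_mul_self hp (one_ne_zero : (1 : ℕ) ≠ 0)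
    rw [one_mul] at this
    rw [this, hs1]
    simp
  have hePD : l1_PDvd 2 0 e := by
    intro k
    rw [he, coeff_mk, l1_Dvd_zero_iff]
    by_cases hk : k = 0
    · rw [if_pos hk]
      exact Subring.zero_mem _
    · rw [if_neg hk]
      exact l1_nat_mem _
  -- TR2 for the Eisenstein series at `n = 1`
  have hsq : ∀ n, coeff n ((C a0 + e) ^ 2)
      = (if n = 0 then a0 * a0 else 0) + 2 * a0 * coeff n e + coeff n (e ^ 2) := by
    intro n
    have e1 : (C a0 + e) ^ 2 = C (a0 * a0) + C a0 * e + C a0 * e + e ^ 2 := by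
      rw [map_mul]
      ring
    rw [e1, map_add, map_add, map_add, coeff_C, coeff_C_mul]
    ring
  have hS : 12 * coeff p (e ^ 2) = ((p : ℂ) + 1) * ((p : ℂ) - 1) * (5 * (p : ℂ) - 6) := by
    have h1 := hTR2 (ep16_E p) 1 le_rfl
    have hq0 : qCoeff (ep16_E p) 0 = a0 := ep16_qCoeff_zero p
    rw [hq0, hE] at h1
    unfold bw16_W at h1
    rw [bw16_U_add, bw16_U_C p hp0, hUe, hsq, hsq, mul_one, if_neg one_ne_zero, if_neg hp0,
      he1, hep, bw16_coeff_one_sq he0, ArithmeticFunction.sigma_one] at h1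
    push_cast at h1
    linear_combination (12 : ℂ) * h1
  -- the form `f = E - a0 X`
  have hκ : ∃ κ : ℂ, κ ∈ l1_Zl 2 ∧ a0 * (2 : ℂ) ^ 3 = 2 * κ := by
    obtain ⟨t, ht⟩ : ∃ t : ℕ, p = 8 * t + 3 := ⟨p / 8, by omega⟩
    refine ⟨((4 * (t : ℤ) + 1 : ℤ) : ℂ) / ((3 : ℤ) : ℂ), l1_ratio_mem _ (by decide), ?_⟩
    have hpC : (p : ℂ) = 8 * (t : ℂ) + 3 := by exact_mod_cast ht
    rw [ha0, hpC]
    push_cast
    ring
  obtain ⟨κ, hκm, hκ⟩ := hκ
  have hf : qExpansion 1 (ep16_E p - a0 • X) = e - C 2 * (C κ * x) := by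
    have h2 : qx ((⇑(ep16_E p) : ℍ → ℂ) - a0 • (⇑X : ℍ → ℂ))
        = qx ⇑(ep16_E p) - a0 • qx ⇑X := by
      have hQ : QExp (a0 • (⇑X : ℍ → ℂ)) := QExp.of_gamma0 (a0 • X)
      rw [qx_sub (QExp.of_gamma0 (ep16_E p)) hQ, qx_smul _ (QExp.of_gamma0 X)]
    have h3 : qx ⇑(ep16_E p) = C a0 + e := hE
    have h4 : qx ⇑X = 1 + C (((2 : ℕ) : ℂ) ^ 3) * x := hX
    change qx ((⇑(ep16_E p) : ℍ → ℂ) - a0 • (⇑X : ℍ → ℂ)) = _
    rw [h2, h3, h4]
    ext k
    simp only [map_add, map_sub, coeff_C_mul, PowerSeries.coeff_smul, smul_eq_mul, coeff_C,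
      coeff_one]
    by_cases hk : k = 0
    · subst hk
      simp [hx0, he0]
    · simp only [if_neg hk]
      push_cast
      linear_combination (-(coeff k x)) * hκ
  -- TR2 for `f` at `n = 1`
  have hg0 : coeff 0 (e - C 2 * (C κ * x)) = 0 := by
    rw [map_sub, he0, coeff_C_mul, coeff_C_mul, hx0]
    ring
  have h1 : bw16_W p (qExpansion 1 ((⇑(ep16_E p) : ℍ → ℂ) - a0 • (⇑X : ℍ → ℂ))) 1
      = 240 * ((p : ℂ) + 1) * (coeff 0 (qExpansion 1 ((⇑(ep16_E p) : ℍ → ℂ) - a0 • (⇑X : ℍ → ℂ)))) ^ 2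
        * (ArithmeticFunction.sigma 3 1 : ℂ) := hTR2 (ep16_E p - a0 • X) 1 le_rfl
  rw [hf, hg0] at h1
  unfold bw16_W at h1
  set w : PowerSeries ℂ := C κ * bw16_U p x with hw
  have hwPD : l1_PDvd 2 0 w := by
    intro k
    rw [hw, coeff_C_mul, l1_Dvd_zero_iff]
    exact Subring.mul_mem _ hκm (l1_Dvd_zero_iff.mp (bw16_PDvd_U p hx k))
  have hUg : bw16_U p (e - C 2 * (C κ * x)) = e - C 2 * w := by
    rw [bw16_U_sub, hUe, bw16_U_C_mul, bw16_U_C_mul]
  have e2 : (e - C 2 * w) ^ 2 = e ^ 2 - C 4 * (e * w - w ^ 2) := by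
    rw [show (C (2 : ℂ) : PowerSeries ℂ) = 2 from map_ofNat C 2,
      show (C (4 : ℂ) : PowerSeries ℂ) = 4 from map_ofNat C 4]
    ring
  rw [bw16_coeff_one_sq hg0, hUg, e2, mul_one, map_sub, coeff_C_mul] at h1
  have h5 : coeff p (e ^ 2) = 4 * coeff p (e * w - w ^ 2) := by
    linear_combination h1
  have hmem : coeff p (e * w - w ^ 2) ∈ l1_Zl 2 :=
    l1_Dvd_zero_iff.mp (((hePD.mul_left hwPD).sub (hwPD.pow 2)) p)
  have h4mem : l1_Dvd 2 4 ((12 : ℂ) * (4 * coeff p (e * w - w ^ 2))) := by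
    have h6 : (12 : ℂ) * (4 * coeff p (e * w - w ^ 2))
        = ((2 : ℕ) : ℂ) ^ 4 * (((3 : ℕ) : ℂ) * coeff p (e * w - w ^ 2)) := by
      push_cast
      ring
    rw [h6]
    exact l1_Dvd_pow_mul 4 (Subring.mul_mem _ (l1_nat_mem 3) hmem)
  rw [← h5, hS] at h4mem
  have hint : l1_Dvd 2 4 ((((p : ℤ) + 1) * ((p : ℤ) - 1) * (5 * (p : ℤ) - 6) : ℤ) : ℂ) := by
    convert h4mem using 1
    push_cast
    ring
  rw [l1_Dvd_int_iff] at hint
  have hz := (ZMod.intCast_zmod_eq_zero_iff_dvd _ 16).mpr (by simpa using hint)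
  have hp16 : (p : ZMod 16) = 3 ∨ (p : ZMod 16) = 11 := by
    rcases (show p % 16 = 3 ∨ p % 16 = 11 by omega) with h | h
    · left
      have := (ZMod.natCast_eq_natCast_iff' p 3 16).mpr (by omega)
      simpa using this
    · right
      have := (ZMod.natCast_eq_natCast_iff' p 11 16).mpr (by omega)
      simpa using this
  push_cast at hz
  rcases hp16 with h | h <;> rw [h] at hz <;> revert hz <;> decide


/-! ### bridge: (TR2) from the level-one trace of `H ^ 2` -/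

/-- a level-one form of weight four is a multiple of `E₄` -/
theorem bw16_levelOne_four (T : ModularForm 𝒮ℒ 4) (n : ℕ) (hn : 1 ≤ n) :
    qCoeff T n = 240 * qCoeff T 0 * (ArithmeticFunction.sigma 3 n : ℂ) := by
  set c : ℂ := coeff 0 (qExpansion 1 T) with hc
  have hE0 : coeff 0 (qx ⇑(E₄)) = 1 := EisensteinSeries.E_qExpansion_coeff_zero (by norm_num) ⟨2, rfl⟩
  have hq : qx (⇑(T - c • E₄) : ℍ → ℂ) = qx ⇑T - c • qx ⇑(E₄) := by
    have h1 : (⇑(T - c • E₄) : ℍ → ℂ) = ⇑T - c • ⇑(E₄) := rfl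
    have hQ : QExp (c • (⇑(E₄) : ℍ → ℂ)) := QExp.of_levelOne (c • E₄)
    rw [h1, qx_sub (QExp.of_levelOne T) hQ, qx_smul _ (QExp.of_levelOne E₄)]
  have hz : T - c • E₄ = 0 := by
    apply ModularForm.sturm_bound_levelOne
    have h0 : coeff 0 (qExpansion 1 (⇑(T - c • E₄) : ℍ → ℂ)) = 0 := by
      change coeff 0 (qx (⇑(T - c • E₄) : ℍ → ℂ)) = 0
      rw [hq, map_sub, PowerSeries.coeff_smul, hE0, smul_eq_mul, mul_one]
      exact sub_self _
    have h1 : (1 : ℕ∞) ≤ (qExpansion 1 (⇑(T - c • E₄) : ℍ → ℂ)).order := by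
      refine PowerSeries.nat_le_order _ 1 (fun i hi => ?_)
      have : i = 0 := by omega
      rw [this]
      exact h0
    refine lt_of_lt_of_le ?_ h1
    norm_num
  have hT : qx ⇑T = c • qx ⇑(E₄) := by
    have h2 : qx (⇑(T - c • E₄) : ℍ → ℂ) = 0 := by
      rw [hz]
      exact qx_zero
    rw [hq] at h2
    exact sub_eq_zero.mp h2
  have hn0 : n ≠ 0 := by omega
  have hE : coeff n (qx ⇑(E₄)) = 240 * (ArithmeticFunction.sigma 3 n : ℂ) := by
    have := EisensteinSeries.E_qExpansion_coeff (k := 4) (by norm_num) ⟨2, rfl⟩ n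
    rw [if_neg hn0] at this
    rw [show qx ⇑(E₄) = qExpansion 1 ⇑(E₄) from rfl, this,
      show bernoulli 4 = -1 / 30 by decide +kernel]
    norm_num
  change coeff n (qx ⇑T) = 240 * c * _
  rw [hT, PowerSeries.coeff_smul, hE, smul_eq_mul]
  ring

/-- (TR2) from the trace of `H ^ 2` to level one -/
theorem bw16_TR2_of_trace (p : ℕ) (hp : p ≠ 0) (H : ModularForm (Gamma0 p) 2)
    (hT : ∃ T : ModularForm 𝒮ℒ 4, ∀ n : ℕ, qCoeff T n
      = coeff n ((qExpansion 1 H) ^ 2)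
        + (p : ℂ)⁻¹ * coeff (p * n) ((bw16_U p (qExpansion 1 H)) ^ 2)) :
    bw16_TR2 p H := by
  obtain ⟨T, hT⟩ := hT
  have hpC : (p : ℂ) ≠ 0 := by exact_mod_cast hp
  intro n hn
  have h1 := bw16_levelOne_four T n hn
  rw [hT n, hT 0] at h1
  have h00 : coeff 0 ((qExpansion 1 H) ^ 2) = (qCoeff H 0) ^ 2 := by
    rw [pow_two, coeff_mul]
    simp [qCoeff, pow_two]
  have h01 : coeff (p * 0) ((bw16_U p (qExpansion 1 H)) ^ 2) = (qCoeff H 0) ^ 2 := by
    rw [mul_zero, pow_two, coeff_mul]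
    simp [qCoeff, pow_two, bw16_coeff_U]
  rw [h00, h01] at h1
  unfold bw16_W
  field_simp at h1 ⊢
  linear_combination h1

/-- the three B-W no-go theorems from the trace relations for all forms -/
theorem bw16_main (p : ℕ) [Fact p.Prime]
    (hTR1 : ∀ H : ModularForm (Gamma0 p) 2, bw16_TR1 p H)
    (hTR2 : ∀ H : ModularForm (Gamma0 p) 2, bw16_TR2 p H) :
    (p % 3 = 1 → ∀ X : ModularForm (Gamma0 p) 2, ¬ Cong p 3 1 X) ∧
    (p % 4 = 1 → ∀ X : ModularForm (Gamma0 p) 2, ¬ Cong p 2 2 X) ∧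
    (p % 8 = 3 → ∀ X : ModularForm (Gamma0 p) 2, ¬ Cong p 2 3 X) :=
  ⟨fun h X => bw16_NG3 p h X (hTR1 X) (hTR2 X), fun h X => bw16_NG5 p h X (hTR1 X) (hTR2 X),
    fun h X => bw16_NG6 p h X hTR2⟩

end Fermat.Agent.S16Lib
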