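/-
S16, chunk B-disc (helper4), part 1: the bridge from weakly holomorphic modular functions on
`Γ₀(N)` with RATIONAL `q`-expansion to algebra over `ℚ(j)` inside `ℚ((q))`.

* `bd16_WH N` : the `ℚ`-subalgebra of `ℚ((q))` of `q`-expansions of weakly holomorphic modular
  functions on `Γ₀(N)` (S24's `IsWH`);
* `bd16_normRel` : the homogeneous norm relation of degree `ψ = |SL₂(ℤ) : Γ₀(N)|` over `ℚ[j]`
  for `a, b ∈ bd16_WH N`, `b ≠ 0`;
* `bd16_monicRel` : the monic norm relation of degree `ψ` over `ℚ[j]` for `a ∈ bd16_WH N`;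
* `bd16_finrank_le` : a subfield of `ℚ((q))` consisting of fractions of elements of `bd16_WH N`
  has degree `≤ ψ` over `ℚ(j)`;
* `bd16_isIntegral` : elements of `bd16_WH N` are integral over `ℚ[j]`.
-/
import Fermat.Agent.Lib.S24.NormRel
import Fermat.Agent.Lib.S24.WHGen
import Fermat.Agent.Lib.S24.DegBound
import Fermat.Agent.Lib.S28.CAChart

set_option autoImplicit false

namespace Fermat.Agent.S16Lib

open UpperHalfPlane ModularForm CongruenceSubgroup MatrixGroups Filter Matrix.SpecialLinearGroup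
open SlashInvariantForm IntermediateField
open scoped Manifold Topology
open Fermat.Agent.LibS23 Fermat.Agent.S20Lib Fermat.Agent.S24Lib Fermat.Agent.S28Lib ModularCurve

noncomputable section

/-! ### the coefficient embedding `ℚ((q)) → ℂ((q))` -/

/-- the coefficientwise embedding `ℚ((q)) → ℂ((q))` -/
def bd16_iota : LaurentSeries ℚ →+* LaurentSeries ℂ := coeffMap (algebraMap ℚ ℂ)

theorem bd16_iota_coeff (x : LaurentSeries ℚ) (k : ℤ) :
    (bd16_iota x).coeff k = algebraMap ℚ ℂ (x.coeff k) := rfl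

theorem bd16_iota_injective : Function.Injective bd16_iota := by
  intro x y h
  ext k
  have := congrArg (fun s : LaurentSeries ℂ => s.coeff k) h
  simp only [bd16_iota_coeff] at this
  exact (algebraMap ℚ ℂ).injective this

theorem bd16_iota_algebraMap (c : ℚ) :
    bd16_iota (algebraMap ℚ (LaurentSeries ℚ) c) = HahnSeries.C (algebraMap ℚ ℂ c) := by
  rw [bd16_iota, algebraMap_laurentSeries_eq_single, coeffMap_single]
  rfl

theorem bd16_iota_C (c : ℚ) : bd16_iota (HahnSeries.C c) = HahnSeries.C (algebraMap ℚ ℂ c) := by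
  rw [bd16_iota, HahnSeries.C_apply, coeffMap_single]
  rfl

theorem bd16_iota_jq : bd16_iota jq = jqModC ℂ := by
  rw [bd16_iota, ← jqModC_rat, coeffMap_jqModC]

theorem bd16_iota_jqd (d : ℕ) [NeZero d] :
    bd16_iota (qExpand ℚ d jq) = coeffMap iotaK (Jgen d) := by
  rw [coeffMap_Jgen, bd16_iota, ModularCurve.coeffMap_qExpand, ← bd16_iota, bd16_iota_jq]

theorem bd16_coeff_C_mul {R : Type*} [CommRing R] (c : R) (x : LaurentSeries R) (m : ℤ) :
    (HahnSeries.C c * x).coeff m = c * x.coeff m := by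
  rw [HahnSeries.C_mul_eq_smul, HahnSeries.coeff_smul, smul_eq_mul]

/-- descent of `ℂ`-linear relations between rational series along a `ℚ`-linear functional -/
theorem bd16_descent {ι : Type*} [Fintype ι] (lam : ℂ →ₗ[ℚ] ℚ) (φ : ι → LaurentSeries ℚ)
    (c : ι → ℂ) (h : ∑ i, HahnSeries.C (c i) * bd16_iota (φ i) = 0) :
    ∑ i, HahnSeries.C (lam (c i)) * φ i = 0 := by
  ext m
  have hm := congrArg (fun x : LaurentSeries ℂ => x.coeff m) h
  simp only [HahnSeries.coeff_sum, HahnSeries.coeff_zero, bd16_coeff_C_mul, bd16_iota_coeff] at hm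
  have h2 := congrArg lam hm
  rw [map_sum, map_zero] at h2
  rw [HahnSeries.coeff_sum, HahnSeries.coeff_zero]
  rw [← h2]
  refine Finset.sum_congr rfl fun i _ => ?_
  rw [bd16_coeff_C_mul]
  have h3 : c i * algebraMap ℚ ℂ ((φ i).coeff m) = ((φ i).coeff m) • c i := by
    rw [Algebra.smul_def, mul_comm]
  rw [h3, map_smul, smul_eq_mul, mul_comm]

/-! ### the algebra of rational `q`-expansions of weakly holomorphic functions -/

section
variable (N : ℕ) [NeZero N]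

/-- rational `q`-expansions of weakly holomorphic modular functions on `Γ₀(N)` -/
def bd16_WH : Subalgebra ℚ (LaurentSeries ℚ) where
  carrier := {x | ∃ h : ℍ → ℂ, IsWH N h (bd16_iota x)}
  mul_mem' := by
    rintro x y ⟨h1, H1⟩ ⟨h2, H2⟩
    exact ⟨h1 * h2, by rw [map_mul]; exact H1.mul H2⟩
  one_mem' := ⟨1, by rw [map_one]; exact isWH_one⟩
  add_mem' := by
    rintro x y ⟨h1, H1⟩ ⟨h2, H2⟩
    exact ⟨h1 + h2, by rw [map_add]; exact H1.add H2⟩
  zero_mem' := ⟨0, by rw [map_zero]; exact isWH_zero⟩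
  algebraMap_mem' := fun c =>
    ⟨fun _ => algebraMap ℚ ℂ c, by rw [bd16_iota_algebraMap]; exact isWH_const _⟩

variable {N}

theorem bd16_mem_WH {x : LaurentSeries ℚ} :
    x ∈ bd16_WH N ↔ ∃ h : ℍ → ℂ, IsWH N h (bd16_iota x) := Iff.rfl

theorem bd16_jqd_mem {d : ℕ} [NeZero d] (hd : d ∣ N) : qExpand ℚ d jq ∈ bd16_WH N :=
  ⟨jLvl d, by rw [bd16_iota_jqd]; exact isWH_jLvl hd⟩

variable (N) in
theorem bd16_isWH_jAn : IsWH N jAn (jqModC ℂ) := by
  have h := isWH_jLvl (N := N) (d := 1) (one_dvd N)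
  rwa [jLvl_one, coeffMap_Jgen, qExpand_one_apply] at h

variable (N) in
theorem bd16_jq_mem : jq ∈ bd16_WH N :=
  ⟨jAn, by rw [bd16_iota_jq]; exact bd16_isWH_jAn N⟩

theorem bd16_isWH_pow {h : ℍ → ℂ} {φ : LaurentSeries ℂ} (H : IsWH N h φ) (n : ℕ) :
    IsWH N (h ^ n) (φ ^ n) := by
  induction n with
  | zero => simpa using isWH_one (N := N)
  | succ n ih =>
    rw [pow_succ, pow_succ]
    exact ih.mul H

/-- the `q`-expansion principle for the monomials `j^i a^k b^(n-k)` -/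
theorem bd16_series_rel {a' b' : ℍ → ℂ} {a b : LaurentSeries ℚ}
    (Ha : IsWH N a' (bd16_iota a)) (Hb : IsWH N b' (bd16_iota b)) (m n : ℕ)
    (c : Fin (m + 1) × Fin (n + 1) → ℂ)
    (h : ∀ z, ∑ p : Fin (m + 1) × Fin (n + 1),
      c p * (jAn z ^ (p.1 : ℕ) * a' z ^ (p.2 : ℕ) * b' z ^ (n - (p.2 : ℕ))) = 0) :
    ∑ p : Fin (m + 1) × Fin (n + 1), HahnSeries.C (c p)
      * bd16_iota (jq ^ (p.1 : ℕ) * a ^ (p.2 : ℕ) * b ^ (n - (p.2 : ℕ))) = 0 := by
  have H : IsWH N (∑ p : Fin (m + 1) × Fin (n + 1),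
        fun z => c p * ((jAn ^ (p.1 : ℕ) * a' ^ (p.2 : ℕ) * b' ^ (n - (p.2 : ℕ))) z))
      (∑ p : Fin (m + 1) × Fin (n + 1), HahnSeries.C (c p)
        * bd16_iota (jq ^ (p.1 : ℕ) * a ^ (p.2 : ℕ) * b ^ (n - (p.2 : ℕ)))) := by
    refine IsWH.sum _ fun p _ => IsWH.const_mul (c p) ?_
    rw [map_mul, map_mul, map_pow, map_pow, map_pow, bd16_iota_jq]
    exact ((bd16_isWH_pow (bd16_isWH_jAn N) _).mul (bd16_isWH_pow Ha _)).mul
      (bd16_isWH_pow Hb _)
  refine H.eq_zero_iff.mp ?_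
  funext z
  rw [Finset.sum_apply]
  simpa using h z

/-! ### the norm relations -/

variable (N) in
/-- the homogeneous norm relation over `ℚ[j]` -/
theorem bd16_normRel {a b : LaurentSeries ℚ} (ha : a ∈ bd16_WH N) (hb : b ∈ bd16_WH N)
    (hb0 : b ≠ 0) :
    ∃ (m : ℕ) (κ : Fin (m + 1) × Fin (Fintype.card (Q N) + 1) → ℚ) (i₁ : Fin (m + 1)),
      κ (i₁, Fin.last (Fintype.card (Q N))) ≠ 0 ∧
      ∑ p : Fin (m + 1) × Fin (Fintype.card (Q N) + 1), HahnSeries.C (κ p)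
        * (jq ^ (p.1 : ℕ) * a ^ (p.2 : ℕ) * b ^ (Fintype.card (Q N) - (p.2 : ℕ))) = 0 := by
  obtain ⟨a', Ha⟩ := ha
  obtain ⟨b', Hb⟩ := hb
  have hb0' : b' ≠ 0 := fun h =>
    hb0 (bd16_iota_injective (by rw [Hb.eq_zero_iff.mp h, map_zero]))
  have hWa : IsWMF N a' := by
    obtain ⟨M, G, hG, -⟩ := Ha
    exact ⟨M, G, hG⟩
  have hWb : IsWMF N b' := by
    obtain ⟨M, G, hG, -⟩ := Hb
    exact ⟨M, G, hG⟩
  obtain ⟨p, hpψ, hrel⟩ := exists_normForm_relation hWa hWb hb0'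
  set ψ := Fintype.card (Q N) with hψ
  set m := (Finset.range (ψ + 1)).sup (fun k => (p k).natDegree) with hm
  have hdeg : ∀ k ∈ Finset.range (ψ + 1), (p k).natDegree < m + 1 := fun k hk =>
    Nat.lt_succ_of_le (Finset.le_sup (f := fun k => (p k).natDegree) hk)
  set c : Fin (m + 1) × Fin (ψ + 1) → ℂ := fun x => (p (x.2 : ℕ)).coeff (x.1 : ℕ) with hc
  set i₁ : Fin (m + 1) := ⟨(p ψ).natDegree, hdeg ψ (Finset.mem_range.mpr (Nat.lt_succ_self ψ))⟩
    with hi₁
  have hci : c (i₁, Fin.last ψ) ≠ 0 := by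
    simpa [hc, hi₁] using hpψ
  have key := bd16_series_rel Ha Hb m ψ c ?_
  · obtain ⟨lam, hlam⟩ : ∃ lam : ℂ →ₗ[ℚ] ℚ, lam (c (i₁, Fin.last ψ)) ≠ 0 := by
      by_contra hcon
      push Not at hcon
      exact hci ((Module.forall_dual_apply_eq_zero_iff ℚ (c (i₁, Fin.last ψ))).mp hcon)
    exact ⟨m, fun x => lam (c x), i₁, hlam, bd16_descent lam _ c key⟩
  · intro z
    rw [Fintype.sum_prod_type, Finset.sum_comm]
    have h1 : ∀ j : Fin (ψ + 1), ∑ i : Fin (m + 1), c (i, j)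
          * (jAn z ^ (i : ℕ) * a' z ^ (j : ℕ) * b' z ^ (ψ - (j : ℕ)))
        = (p (j : ℕ)).eval (jAn z) * a' z ^ (j : ℕ) * b' z ^ (ψ - (j : ℕ)) := by
      intro j
      rw [Polynomial.eval_eq_sum_range' (hdeg j (Finset.mem_range.mpr j.2)),
        ← Fin.sum_univ_eq_sum_range (fun i => (p (j : ℕ)).coeff i * jAn z ^ i) (m + 1),
        Finset.sum_mul, Finset.sum_mul]
      refine Finset.sum_congr rfl fun i _ => ?_
      simp only [hc]
      ring
    rw [Finset.sum_congr rfl fun j _ => h1 j]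
    rw [Fin.sum_univ_eq_sum_range (fun k => (p k).eval (jAn z)
      * a' z ^ k * b' z ^ (ψ - k)) (ψ + 1)]
    exact hrel z

/-- the monic norm relation for weakly holomorphic modular functions -/
theorem bd16_exists_monic_relation {a : ℍ → ℂ} (ha : IsWMF N a) :
    ∃ p : ℕ → Polynomial ℂ, ∀ z, a z ^ Fintype.card (Q N)
      + ∑ k ∈ Finset.range (Fintype.card (Q N)), (p k).eval (jAn z) * a z ^ k = 0 := by
  obtain ⟨Ma, Ga, hGa⟩ := ha
  set A : Q N → ℍ → ℂ := conjFun Ga with hA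
  set B : Q N → ℍ → ℂ := fun _ => 1 with hB
  have hc : ∀ k, ∃ p : Polynomial ℂ, ∀ z, (normPoly A B).coeff k z = p.eval (jAn z) := by
    intro k
    have hmem : (normPoly A B).coeff k ∈ GRing :=
      normPoly_coeff_mem GRing A B (fun q => conjFun_mem_GRing Ga q)
        (fun q => GRing.one_mem) k
    refine jPoly_of_invariant hmem.1 hmem.2 fun γ z => ?_
    have := normPoly_coeff_fixed (compRingHom γ) (MulAction.toPerm (toSL γ)⁻¹) A B
      (fun q => funext fun w => conjFun_smul Ga γ q w)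
      (fun q => rfl) k
    exact congrFun this z
  choose p hp using hc
  refine ⟨p, fun z => ?_⟩
  have h1 := normPoly_homogeneous_eval (fun q => A q z) (fun q => B q z) q0
  have h2 : ∀ k, (normPoly (fun q => A q z) (fun q => B q z)).coeff k
      = (p k).eval (jAn z) := by
    intro k
    rw [← hp k z]
    have := normPoly_map (Pi.evalRingHom (fun _ : ℍ => ℂ) z) A B
    have h3 := congrArg (fun P => Polynomial.coeff P k) this
    simp only [Polynomial.coeff_map] at h3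
    exact h3.symm
  have h4 : (normPoly (fun q => A q z) (fun q => B q z)).coeff (Fintype.card (Q N)) = 1 := by
    rw [normPoly_coeff_card]
    simp [hB]
  rw [Finset.sum_range_succ, h4] at h1
  simp only [h2] at h1
  rw [hA] at h1
  simp only [conjFun_q0 Ga hGa, hB, Pi.one_apply, one_pow, mul_one, one_mul] at h1
  rw [add_comm]
  exact h1

variable (N) in
/-- the monic norm relation over `ℚ[j]` -/
theorem bd16_monicRel {a : LaurentSeries ℚ} (ha : a ∈ bd16_WH N) :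
    ∃ (m : ℕ) (κ : Fin (m + 1) × Fin (Fintype.card (Q N)) → ℚ),
      a ^ Fintype.card (Q N) + ∑ p : Fin (m + 1) × Fin (Fintype.card (Q N)),
        HahnSeries.C (κ p) * (jq ^ (p.1 : ℕ) * a ^ (p.2 : ℕ)) = 0 := by
  obtain ⟨a', Ha⟩ := ha
  have hWa : IsWMF N a' := by
    obtain ⟨M, G, hG, -⟩ := Ha
    exact ⟨M, G, hG⟩
  obtain ⟨p, hrel⟩ := bd16_exists_monic_relation hWa
  set ψ := Fintype.card (Q N) with hψ
  set m := (Finset.range ψ).sup (fun k => (p k).natDegree) with hm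
  have hdeg : ∀ k ∈ Finset.range ψ, (p k).natDegree < m + 1 := fun k hk =>
    Nat.lt_succ_of_le (Finset.le_sup (f := fun k => (p k).natDegree) hk)
  set c : Fin (m + 1) × Fin ψ → ℂ := fun x => (p (x.2 : ℕ)).coeff (x.1 : ℕ) with hc
  -- the relation between the functions, as a weakly holomorphic function
  have H : IsWH N (a' ^ ψ + ∑ x : Fin (m + 1) × Fin ψ,
        fun z => c x * ((jAn ^ (x.1 : ℕ) * a' ^ (x.2 : ℕ)) z))
      (bd16_iota a ^ ψ + ∑ x : Fin (m + 1) × Fin ψ, HahnSeries.C (c x)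
        * bd16_iota (jq ^ (x.1 : ℕ) * a ^ (x.2 : ℕ))) := by
    refine (bd16_isWH_pow Ha ψ).add (IsWH.sum _ fun x _ => IsWH.const_mul (c x) ?_)
    rw [map_mul, map_pow, map_pow, bd16_iota_jq]
    exact (bd16_isWH_pow (bd16_isWH_jAn N) _).mul (bd16_isWH_pow Ha _)
  have h0 : (a' ^ ψ + ∑ x : Fin (m + 1) × Fin ψ,
        fun z => c x * ((jAn ^ (x.1 : ℕ) * a' ^ (x.2 : ℕ)) z)) = 0 := by
    funext z
    rw [Pi.add_apply, Finset.sum_apply, Fintype.sum_prod_type, Finset.sum_comm]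
    have h1 : ∀ j : Fin ψ, ∑ i : Fin (m + 1), c (i, j)
          * ((jAn ^ (i : ℕ) * a' ^ (j : ℕ)) z)
        = (p (j : ℕ)).eval (jAn z) * a' z ^ (j : ℕ) := by
      intro j
      rw [Polynomial.eval_eq_sum_range' (hdeg j (Finset.mem_range.mpr j.2)),
        ← Fin.sum_univ_eq_sum_range (fun i => (p (j : ℕ)).coeff i * jAn z ^ i) (m + 1),
        Finset.sum_mul]
      refine Finset.sum_congr rfl fun i _ => ?_
      simp only [hc, Pi.mul_apply, Pi.pow_apply]
      ring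
    rw [Finset.sum_congr rfl fun j _ => h1 j]
    rw [Fin.sum_univ_eq_sum_range (fun k => (p k).eval (jAn z) * a' z ^ k) ψ]
    exact hrel z
  have key := H.eq_zero_iff.mp h0
  obtain ⟨lam, hlam⟩ : ∃ lam : ℂ →ₗ[ℚ] ℚ, lam 1 = 1 := by
    obtain ⟨f, hf⟩ : ∃ f : ℂ →ₗ[ℚ] ℚ, f 1 ≠ 0 := by
      by_contra hcon
      push Not at hcon
      exact one_ne_zero ((Module.forall_dual_apply_eq_zero_iff ℚ (1 : ℂ)).mp hcon)
    refine ⟨(f 1)⁻¹ • f, ?_⟩
    rw [LinearMap.smul_apply, smul_eq_mul, inv_mul_cancel₀ hf]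
  -- descent, with the extra index `none` for the leading term
  have hd := bd16_descent (ι := Option (Fin (m + 1) × Fin ψ)) lam
    (fun o => o.elim (a ^ ψ) fun x => jq ^ (x.1 : ℕ) * a ^ (x.2 : ℕ))
    (fun o => o.elim 1 c) ?_
  · rw [Fintype.sum_option] at hd
    simp only [Option.elim_none, Option.elim_some, hlam, map_one, one_mul] at hd
    exact ⟨m, fun x => lam (c x), hd⟩
  · rw [Fintype.sum_option]
    simp only [Option.elim_none, Option.elim_some, map_one, one_mul, map_pow]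
    rw [← key]

end

/-! ### consequences over `ℚ(j)` -/

theorem bd16_transcendental_jq : Transcendental ℚ jq :=
  ca_transcendental_jqModC ℚ

theorem bd16_transcendental_jE (E : IntermediateField ℚ (LaurentSeries ℚ)) (hj : jq ∈ E) :
    Transcendental ℚ (⟨jq, hj⟩ : E) := by
  intro halg
  apply bd16_transcendental_jq
  obtain ⟨p, hp, h0⟩ := halg
  refine ⟨p, hp, ?_⟩
  have h1 := congrArg (algebraMap E (LaurentSeries ℚ)) h0
  rw [Polynomial.aeval_def, Polynomial.hom_eval₂, map_zero] at h1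
  rw [Polynomial.aeval_def, ← h1]
  congr 1
  exact Subsingleton.elim _ _

/-- the root statement: `y = a / b` is a root of a nonzero polynomial of degree `≤ n` over
`ℚ(j)`, given a homogeneous relation of degree `n` over `ℚ[j]` with nonzero top coefficient. -/
theorem bd16_root (E : IntermediateField ℚ (LaurentSeries ℚ)) (hj : jq ∈ E) (n m : ℕ) (y : E)
    (a b : LaurentSeries ℚ) (hb : b ≠ 0) (hy : (y : LaurentSeries ℚ) = a / b)
    (κ : Fin (m + 1) × Fin (n + 1) → ℚ) (i₁ : Fin (m + 1)) (hκ : κ (i₁, Fin.last n) ≠ 0)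
    (hrel : ∑ p : Fin (m + 1) × Fin (n + 1),
      HahnSeries.C (κ p) * (jq ^ (p.1 : ℕ) * a ^ (p.2 : ℕ) * b ^ (n - (p.2 : ℕ))) = 0) :
    ∃ P : Polynomial ℚ⟮(⟨jq, hj⟩ : E)⟯, P ≠ 0 ∧ P.natDegree ≤ n ∧ Polynomial.aeval y P = 0 := by
  set t : E := ⟨jq, hj⟩ with ht
  set g : ℚ⟮t⟯ := AdjoinSimple.gen ℚ t with hg
  have hgJ : algebraMap ℚ⟮t⟯ E g = t := AdjoinSimple.algebraMap_gen ℚ t
  have hgtr : ∀ p : Polynomial ℚ, p ≠ 0 → Polynomial.aeval g p ≠ 0 := by
    intro p hp h0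
    apply bd16_transcendental_jE E hj
    refine ⟨p, hp, ?_⟩
    rw [← ht, ← hgJ, Polynomial.aeval_algebraMap_apply, h0, map_zero]
  set pj : Fin (n + 1) → Polynomial ℚ := fun j =>
    ∑ i : Fin (m + 1), Polynomial.C (κ (i, j)) * Polynomial.X ^ (i : ℕ) with hpj
  set P : Polynomial ℚ⟮t⟯ :=
    ∑ j : Fin (n + 1), Polynomial.C (Polynomial.aeval g (pj j)) * Polynomial.X ^ (j : ℕ) with hP
  refine ⟨P, ?_, degB_natDegree_sum_monomial n _, ?_⟩
  · intro h0
    have h1 : P.coeff ((Fin.last n : Fin (n + 1)) : ℕ) = Polynomial.aeval g (pj (Fin.last n)) :=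
      degB_coeff_sum_monomial n _ _
    rw [h0, Polynomial.coeff_zero] at h1
    refine hgtr (pj (Fin.last n)) ?_ h1.symm
    intro h2
    have h3 : (pj (Fin.last n)).coeff (i₁ : ℕ) = κ (i₁, Fin.last n) :=
      degB_coeff_sum_monomial m _ _
    rw [h2, Polynomial.coeff_zero] at h3
    exact hκ h3.symm
  · rw [hP, degB_aeval_sum_monomial]
    have hterm : ∀ j : Fin (n + 1), algebraMap ℚ⟮t⟯ E (Polynomial.aeval g (pj j))
        = ∑ i : Fin (m + 1), algebraMap ℚ E (κ (i, j)) * t ^ (i : ℕ) := by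
      intro j
      rw [← Polynomial.aeval_algebraMap_apply, hgJ, hpj]
      exact degB_aeval_sum_monomial m _ _
    simp only [hterm]
    apply Subtype.ext
    simp only [eq_ratCast]
    push_cast
    rw [hy]
    have key : b ^ n * (∑ j : Fin (n + 1), (∑ i : Fin (m + 1),
          ((κ (i, j) : ℚ) : LaurentSeries ℚ) * jq ^ (i : ℕ)) * (a / b) ^ (j : ℕ))
        = ∑ p : Fin (m + 1) × Fin (n + 1),
          HahnSeries.C (κ p) * (jq ^ (p.1 : ℕ) * a ^ (p.2 : ℕ) * b ^ (n - (p.2 : ℕ))) := by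
      rw [Fintype.sum_prod_type_right, Finset.mul_sum]
      refine Finset.sum_congr rfl fun j _ => ?_
      rw [Finset.sum_mul, Finset.mul_sum]
      refine Finset.sum_congr rfl fun i _ => ?_
      have hj' : (j : ℕ) ≤ n := Nat.lt_succ_iff.mp j.2
      have h1 : b ^ n = b ^ (j : ℕ) * b ^ (n - (j : ℕ)) := by
        rw [← pow_add, Nat.add_sub_cancel' hj']
      have h2 : (a / b) ^ (j : ℕ) * b ^ (j : ℕ) = a ^ (j : ℕ) := by
        rw [div_pow, div_mul_cancel₀ _ (pow_ne_zero _ hb)]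
      rw [← eq_ratCast (algebraMap ℚ (LaurentSeries ℚ)) (κ (i, j)),
        algebraMap_laurentSeries_eq_single, ← HahnSeries.C_apply, h1]
      calc b ^ (j : ℕ) * b ^ (n - (j : ℕ)) * (HahnSeries.C (κ (i, j)) * jq ^ (i : ℕ) * (a / b) ^ (j : ℕ))
          = HahnSeries.C (κ (i, j)) * (jq ^ (i : ℕ) * ((a / b) ^ (j : ℕ) * b ^ (j : ℕ))
              * b ^ (n - (j : ℕ))) := by ring
        _ = _ := by rw [h2]
    rw [hrel] at key
    rcases mul_eq_zero.mp key with h | h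
    · exact absurd h (pow_ne_zero _ hb)
    · exact h

section
variable (N : ℕ) [NeZero N]

/-- **degree bound**: a subfield of `ℚ((q))` of fractions of rational `q`-expansions of weakly
holomorphic functions on `Γ₀(N)` has degree `≤ |SL₂(ℤ) : Γ₀(N)|` over `ℚ(j)`. -/
theorem bd16_finrank_le (E : IntermediateField ℚ (LaurentSeries ℚ)) (hj : jq ∈ E)
    (hE : ∀ y ∈ E, ∃ a ∈ bd16_WH N, ∃ b ∈ bd16_WH N, b ≠ 0 ∧ y = a / b) :
    Module.Finite ℚ⟮(⟨jq, hj⟩ : E)⟯ E ∧
      Module.finrank ℚ⟮(⟨jq, hj⟩ : E)⟯ E ≤ Fintype.card (Q N) := by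
  apply degB_finrank_le_of_forall
  intro y
  obtain ⟨a, ha, b, hb, hb0, hy⟩ := hE y y.2
  obtain ⟨m, κ, i₁, hκ, hrel⟩ := bd16_normRel N ha hb hb0
  exact bd16_root E hj _ m y a b hb0 hy κ i₁ hκ hrel

/-- fields generated by elements of `bd16_WH N` consist of fractions -/
theorem bd16_adjoin_div (S : Set (LaurentSeries ℚ)) (hS : S ⊆ bd16_WH N) :
    ∀ y ∈ IntermediateField.adjoin ℚ S,
      ∃ a ∈ bd16_WH N, ∃ b ∈ bd16_WH N, b ≠ 0 ∧ y = a / b := by
  intro y hy
  have hle : Algebra.adjoin ℚ S ≤ bd16_WH N := Algebra.adjoin_le hS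
  obtain ⟨r, hr, s, hs, rfl⟩ := IntermediateField.mem_adjoin_iff_div.mp hy
  by_cases hs0 : s = 0
  · exact ⟨0, zero_mem _, 1, one_mem _, one_ne_zero, by rw [hs0]; simp⟩
  · exact ⟨r, hle hr, s, hle hs, hs0, rfl⟩

omit [NeZero N] in
theorem bd16_isIntegral_of_rel {R A : Type*} [CommRing R] [CommRing A] [Algebra R A] (x : A)
    (ψ : ℕ) (cf : Fin ψ → R)
    (h : x ^ ψ + ∑ j : Fin ψ, algebraMap R A (cf j) * x ^ (j : ℕ) = 0) : IsIntegral R x := by
  refine ⟨Polynomial.X ^ ψ + ∑ j : Fin ψ, Polynomial.C (cf j) * Polynomial.X ^ (j : ℕ),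
    Polynomial.monic_X_pow_add (Polynomial.degree_sum_fin_lt cf), ?_⟩
  rw [Polynomial.eval₂_add, Polynomial.eval₂_pow, Polynomial.eval₂_X, Polynomial.eval₂_finsetSum]
  simp only [Polynomial.eval₂_mul, Polynomial.eval₂_C, Polynomial.eval₂_pow, Polynomial.eval₂_X]
  exact h

/-- **integrality**: rational `q`-expansions of weakly holomorphic functions on `Γ₀(N)` are
integral over `ℚ[j]`. -/
theorem bd16_isIntegral (E : IntermediateField ℚ (LaurentSeries ℚ)) (hj : jq ∈ E) (x : E)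
    (hx : (x : LaurentSeries ℚ) ∈ bd16_WH N) :
    IsIntegral (Algebra.adjoin ℚ {(⟨jq, hj⟩ : E)}) x := by
  obtain ⟨m, κ, hrel⟩ := bd16_monicRel N hx
  generalize Fintype.card (Q N) = ψ at κ hrel
  have hmem : ∀ j : Fin ψ, (∑ i : Fin (m + 1), ((κ (i, j) : ℚ) : E) * (⟨jq, hj⟩ : E) ^ (i : ℕ))
      ∈ Algebra.adjoin ℚ {(⟨jq, hj⟩ : E)} := by
    intro j
    refine Subalgebra.sum_mem _ fun i _ => Subalgebra.mul_mem _ ?_
      (Subalgebra.pow_mem _ (Algebra.self_mem_adjoin_singleton ℚ _) _)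
    rw [← eq_ratCast (algebraMap ℚ E) (κ (i, j))]
    exact Subalgebra.algebraMap_mem _ _
  refine bd16_isIntegral_of_rel x ψ (fun j => ⟨_, hmem j⟩) ?_
  apply Subtype.ext
  rw [ZeroMemClass.coe_zero, ← hrel, Fintype.sum_prod_type_right]
  have hcoe : ∀ j : Fin ψ, ((algebraMap (Algebra.adjoin ℚ {(⟨jq, hj⟩ : E)}) E
      ⟨_, hmem j⟩ : E) : LaurentSeries ℚ)
      = ∑ i : Fin (m + 1), HahnSeries.C (κ (i, j)) * jq ^ (i : ℕ) := by
    intro j
    show ((∑ i : Fin (m + 1), ((κ (i, j) : ℚ) : E) * (⟨jq, hj⟩ : E) ^ (i : ℕ) : E) :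
      LaurentSeries ℚ) = _
    push_cast
    refine Finset.sum_congr rfl fun i _ => ?_
    rw [← eq_ratCast (algebraMap ℚ (LaurentSeries ℚ)) (κ (i, j)),
      algebraMap_laurentSeries_eq_single, ← HahnSeries.C_apply]
  push_cast
  congr 1
  refine Finset.sum_congr rfl fun j _ => ?_
  rw [hcoe j, Finset.sum_mul]
  refine Finset.sum_congr rfl fun i _ => ?_
  ring

end

end

end Fermat.Agent.S16Lib
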