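/-
S16, chunk B-disc (helper4), part 2: integrality of reductions.  For a prime `ℓ ∤ N` and the
field `k` of characteristic `ℓ` from the S28 library: if an INTEGER Laurent series `a` is the
`q`-expansion of a weakly holomorphic modular function on `Γ₀(N)`, then its reduction
`ā ∈ k((q))` is integral over `k[J]`  (`bd16_red_isIntegral`).

Proof: `E = ℚ(j(q^d) (d ∣ N), a)` has degree `≤ ψ(N)` over `ℚ(j)` (`bd16_finrank_le`), contains
`ψ(N)` integer series with `k(J)`-independent reductions (S28: `c3_IG'`), and `a` is integral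
over `ℚ[j]` (`bd16_isIntegral`); so the S28 Gauss-valuation core `ca_kernel_generic` applies to
the field `E`: `a` is a root of a monic polynomial with coefficients in `ℤ_(ℓ)[j]`.
-/
import Fermat.Agent.Lib.S16.BdWH
import Fermat.Agent.Lib.S28.Assembly
import Fermat.Agent.Lib.S28.SmallChar
import Fermat.Agent.Lib.S28.ChainLift
import Fermat.Agent.Lib.S28.PhiField
import Fermat.Agent.Lib.S28.CAMain
import Fermat.Agent.Lib.S20.ProjLineCoset

set_option autoImplicit false

namespace Fermat.Agent.S16Lib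

open UpperHalfPlane ModularForm CongruenceSubgroup MatrixGroups
open IntermediateField Polynomial
open Fermat.Agent.LibS23 Fermat.Agent.S20Lib Fermat.Agent.S24Lib Fermat.Agent.S28Lib ModularCurve

noncomputable section

/-- the field `k` of characteristic `ℓ` and the `ψ(N)` integer series with independent
reductions, from the S28 chunks -/
theorem bd16_exists_indep (N : ℕ) [NeZero N] (ℓ : ℕ) [Fact ℓ.Prime] (hℓN : ¬ ℓ ∣ N) :
    ∃ (k : Type) (_ : Field k) (_ : CharP k ℓ) (m : Fin (dedekindPsi N) → LaurentSeries ℤ),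
      (∀ i, coeffMap (Int.castRingHom ℚ) (m i) ∈ modularFunctionFieldFull N) ∧
      LinearIndependent ↥(IntermediateField.adjoin k {jqModC k})
        (fun i => coeffMap (Int.castRingHom k) (m i)) := by
  obtain ⟨k, _, _, _, hΦ⟩ := exists_field_phiData ℓ
  have hne : ∀ p : ℕ, p.Prime → p ∣ N → p ≠ ℓ := by
    rintro p _ hpN rfl
    exact hℓN hpN
  have hΦN : ∀ p : ℕ, p.Prime → p ∣ N → Nonempty (PhiData k p) :=
    fun p hp hpN => hΦ p hp (hne p hp hpN)
  have hP1 : ∀ p : ℕ, p.Prime → p ∣ N → ∀ D : PhiData k p, Vq k p (jqModC k) ∉ K0 k :=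
    fun p hp hpN D => asm_P1 k ℓ (fun h6 => sm_not_poly k ℓ h6) hp (hne p hp hpN) D
  have hdvd : ∀ p M : ℕ, M * p ∣ N → p ∣ N := fun p M h => (Dvd.intro_left M rfl).trans h
  obtain ⟨m, -, hmF, hli⟩ := c3_IG' k N hΦN
    (fun p M hp _ hMN => by
      obtain ⟨D⟩ := hΦN p hp (hdvd p M hMN)
      exact c1_step_of_P1 hp D (hP1 p hp (hdvd p M hMN) D) M)
    (fun p M hp hpM hMN => by
      obtain ⟨D⟩ := hΦN p hp (hdvd p M hMN)
      have hM0 : M ≠ 0 := by
        rintro rfl
        rw [zero_mul] at hMN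
        exact NeZero.ne N (Nat.eq_zero_of_zero_dvd hMN)
      exact c2_step_coprime hp D (hP1 p hp (hdvd p M hMN) D) M hM0 hpM
        (fun r hr hrM => hΦN r hr ((hrM.trans (Dvd.intro p rfl)).trans hMN)))
  exact ⟨k, inferInstance, inferInstance, m, hmF, hli⟩

section Generic

variable (ℓ : ℕ) [Fact ℓ.Prime] (F : IntermediateField ℚ (LaurentSeries ℚ)) (hF : F ≤ ca_QZ)
  (k : Type*) [Field k] [CharP k ℓ] (t : ca_V ℓ F hF)

/-- the reduction of an `ℓ`-integral rational constant is a constant -/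
theorem bd16_red_ratCast (q : ℚ) (hq : q ∈ GaloisRep.ratLocalizedAt ℓ) :
    ∃ c : k, ca_redV ℓ F hF k ⟨(q : F), ca_ratCast_mem_V ℓ F hF q hq⟩
      = algebraMap k (LaurentSeries k) c := by
  set x : ca_V ℓ F hF := ⟨(q : F), ca_ratCast_mem_V ℓ F hF q hq⟩ with hx
  have h1 : (q.den : ca_V ℓ F hF) * x = (q.num : ca_V ℓ F hF) := by
    apply Subtype.ext
    push_cast
    show (q.den : F) * (q : F) = (q.num : F)
    exact_mod_cast Rat.den_mul_eq_num q
  have h2 := congrArg (ca_redV ℓ F hF k) h1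
  rw [map_mul, map_natCast, map_intCast] at h2
  have hden : (q.den : k) ≠ 0 := by
    intro h0
    have h3 := (CharP.cast_eq_zero_iff k ℓ q.den).mp h0
    have hcop : q.den.Coprime ℓ := hq
    have h4 : ℓ ∣ Nat.gcd q.den ℓ := Nat.dvd_gcd h3 dvd_rfl
    rw [hcop] at h4
    exact (Fact.out : ℓ.Prime).one_lt.ne' (Nat.dvd_one.mp h4)
  refine ⟨(q.num : k) / (q.den : k), ?_⟩
  have h5 : ((q.den : ℕ) : LaurentSeries k) = algebraMap k (LaurentSeries k) (q.den : k) :=
    (map_natCast _ _).symm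
  have h6 : ((q.num : ℤ) : LaurentSeries k) = algebraMap k (LaurentSeries k) (q.num : k) :=
    (map_intCast _ _).symm
  have h7 : algebraMap k (LaurentSeries k) (q.den : k) ≠ 0 := by
    rw [Ne, map_eq_zero_iff _ (algebraMap k (LaurentSeries k)).injective]
    exact hden
  rw [h5, h6] at h2
  rw [map_div₀, eq_div_iff h7, mul_comm]
  exact h2

/-- elements `q · P(t)` (`q ∈ ℤ_(ℓ)`, `P ∈ ℤ[X]`) lie in the Gauss valuation ring and reduce
into `k[t̄]` -/
theorem bd16_red_coeff (q : ℚ) (hq : q ∈ GaloisRep.ratLocalizedAt ℓ) (P₁ : ℤ[X]) :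
    ∃ v : ca_V ℓ F hF, (v : F) = (q : F) * Polynomial.aeval (t : F) P₁ ∧
      ca_redV ℓ F hF k v ∈ Algebra.adjoin k {ca_redV ℓ F hF k t} := by
  refine ⟨⟨(q : F), ca_ratCast_mem_V ℓ F hF q hq⟩ * ca_evV ℓ F hF t P₁, ?_, ?_⟩
  · rw [MulMemClass.coe_mul, ca_evV_coe]
  · obtain ⟨c, hc⟩ := bd16_red_ratCast ℓ F hF k q hq
    rw [map_mul, hc, ca_redV_evV]
    exact Subalgebra.mul_mem _ (Subalgebra.algebraMap_mem _ _)
      (Polynomial.aeval_mem_adjoin_singleton k _)

end Generic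

/-- **integrality of reductions.** -/
theorem bd16_red_isIntegral (N : ℕ) [NeZero N] (ℓ : ℕ) [Fact ℓ.Prime]
    (k : Type) [Field k] [CharP k ℓ] (m : Fin (dedekindPsi N) → LaurentSeries ℤ)
    (hmF : ∀ i, coeffMap (Int.castRingHom ℚ) (m i) ∈ modularFunctionFieldFull N)
    (hli : LinearIndependent ↥(IntermediateField.adjoin k {jqModC k})
      (fun i => coeffMap (Int.castRingHom k) (m i)))
    (a : LaurentSeries ℤ) (ha : ca_emb a ∈ bd16_WH N) :
    IsIntegral (Algebra.adjoin k {jqModC k}) (ca_red k a) := by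
  set S : Set (LaurentSeries ℚ) := divisorExpansions N ∪ {ca_emb a} with hS
  set E : IntermediateField ℚ (LaurentSeries ℚ) := IntermediateField.adjoin ℚ S with hE
  have hSW : S ⊆ bd16_WH N := by
    rintro x (⟨d, hd0, hdN, rfl⟩ | rfl)
    · haveI := hd0
      exact bd16_jqd_mem hdN
    · exact ha
  have hFE : modularFunctionFieldFull N ≤ E :=
    IntermediateField.adjoin.mono ℚ _ _ Set.subset_union_left
  have hj : jq ∈ E := by
    have h := hFE (jqd_mem_full N (one_dvd N))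
    rwa [qExpand_one_apply] at h
  have haE : ca_emb a ∈ E := IntermediateField.subset_adjoin ℚ _ (Set.mem_union_right _ rfl)
  have hEQZ : E ≤ ca_QZ := by
    rw [hE, IntermediateField.adjoin_le_iff]
    rintro x (hx | rfl)
    · exact ca_full_le_QZ N (IntermediateField.subset_adjoin ℚ _ hx)
    · exact ca_emb_mem_QZ a
  obtain ⟨hfin, hn⟩ := bd16_finrank_le N E hj (bd16_adjoin_div N S hSW)
  rw [card_Q] at hn
  -- the parameter `t = j`
  set t : ca_V ℓ E hEQZ := ⟨⟨jq, hj⟩, ca_mem_V_of_emb ℓ E hEQZ (jqModC ℤ)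
    (by rw [ca_emb_jqModC])⟩ with ht
  have hredt : ca_redV ℓ E hEQZ k t = jqModC k := by
    rw [ca_redV_of_emb ℓ E hEQZ k t (jqModC ℤ) (by rw [ca_emb_jqModC]), ca_red, coeffMap_jqModC]
  have htr : Transcendental k (ca_redV ℓ E hEQZ k t) := by
    rw [hredt]
    exact ca_transcendental_jqModC k
  -- the independent family
  set θ : Fin (dedekindPsi N) → ca_V ℓ E hEQZ := fun i =>
    ⟨⟨coeffMap (Int.castRingHom ℚ) (m i), hFE (hmF i)⟩,
      ca_mem_V_of_emb ℓ E hEQZ (m i) rfl⟩ with hθ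
  have hredθ : ∀ i, ca_redV ℓ E hEQZ k (θ i) = coeffMap (Int.castRingHom k) (m i) :=
    fun i => ca_redV_of_emb ℓ E hEQZ k (θ i) (m i) rfl
  have hli' : LinearIndependent ↥(IntermediateField.adjoin k {ca_redV ℓ E hEQZ k t})
      (fun i => ca_redV ℓ E hEQZ k (θ i)) := by
    rw [hredt]
    simp only [hredθ]
    exact hli
  -- the element
  set c : ca_V ℓ E hEQZ := ⟨⟨ca_emb a, haE⟩, ca_mem_V_of_emb ℓ E hEQZ a rfl⟩ with hc
  have hredc : ca_redV ℓ E hEQZ k c = ca_red k a := ca_redV_of_emb ℓ E hEQZ k c a rfl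
  have hint : IsIntegral (Algebra.adjoin ℚ {((t : ca_V ℓ E hEQZ) : E)}) ((c : ca_V ℓ E hEQZ) : E) :=
    bd16_isIntegral N E hj ⟨ca_emb a, haE⟩ ha
  obtain ⟨p, hmonic, hroot, hcoeff⟩ :=
    ca_kernel_generic ℓ E hEQZ k t htr θ hli' hfin hn c hint
  -- lift the coefficients to the valuation ring
  have hv : ∀ i : ℕ, ∃ v : ca_V ℓ E hEQZ, (v : E) = p.coeff i ∧
      ca_redV ℓ E hEQZ k v ∈ Algebra.adjoin k {ca_redV ℓ E hEQZ k t} := by
    intro i
    obtain ⟨q, P₁, hq, h⟩ := hcoeff i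
    obtain ⟨v, hv1, hv2⟩ := bd16_red_coeff ℓ E hEQZ k t q hq P₁
    exact ⟨v, hv1.trans h.symm, hv2⟩
  choose v hv1 hv2 using hv
  set d := p.natDegree with hd
  have h1 : ((c : ca_V ℓ E hEQZ) : E) ^ d
      + ∑ i ∈ Finset.range d, p.coeff i * ((c : ca_V ℓ E hEQZ) : E) ^ i = 0 := by
    have h := congrArg (Polynomial.eval ((c : ca_V ℓ E hEQZ) : E)) hmonic.as_sum
    rw [hroot] at h
    simp only [Polynomial.eval_add, Polynomial.eval_pow, Polynomial.eval_X,
      Polynomial.eval_finsetSum, Polynomial.eval_mul, Polynomial.eval_C] at h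
    exact h.symm
  have h2 : c ^ d + ∑ i : Fin d, v (i : ℕ) * c ^ (i : ℕ) = 0 := by
    apply Subtype.ext
    rw [Fin.sum_univ_eq_sum_range (fun i => v i * c ^ i) d]
    push_cast
    simp only [hv1]
    exact h1
  have h3 := congrArg (ca_redV ℓ E hEQZ k) h2
  rw [map_add, map_pow, map_sum, map_zero] at h3
  simp only [map_mul, map_pow] at h3
  rw [hredc] at h3
  have hv2' : ∀ i : ℕ, ca_redV ℓ E hEQZ k (v i) ∈ Algebra.adjoin k {jqModC k} := by
    intro i
    have := hv2 i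
    rwa [hredt] at this
  exact bd16_isIntegral_of_rel (ca_red k a) d (fun j => ⟨_, hv2' (j : ℕ)⟩) h3

end

end Fermat.Agent.S16Lib
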