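/-
S16, chunk B-disc (helper4), part 3: the endgame.  Given an odd prime `p`, an odd integer `D`
and integer power series `εs, μs` such that `εs³, μs²` are the `q`-expansions of forms of
weight `12` on `Γ₀(p)` and
  `27 D⁶ Δ = 3 A² εs² + A³ μs - 64 εs³ - 16 μs² - 24 A εs μs`,   `A = D + 8 Y`,
we derive a contradiction (`bd16_endgame`): modulo `2`, with `a = ε̄`, `b = μ̄`, `J = 1/Δ̄`,
the identity reads `1 = a² J + b J`, while `a³ J` and `b² J` are integral over `k[J]`
(`bd16_red_isIntegral`); so `u₁ = a² J`, `u₂ = b J` satisfy `u₁³ = J (a³J)²`, `u₂² = J (b²J)`,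
`u₁ + u₂ = 1`, hence `1 = (u₁ + u₂)⁴ = J · (integral)`, i.e. `1/J` is integral over `k[J]`.
-/
import Fermat.Agent.Lib.S16.BdCA

set_option autoImplicit false

namespace Fermat.Agent.S16Lib

open UpperHalfPlane ModularForm CongruenceSubgroup MatrixGroups
open IntermediateField
open Fermat.Agent.LibS23 Fermat.Agent.S20Lib Fermat.Agent.S24Lib Fermat.Agent.S28Lib ModularCurve

noncomputable section

/-! ### pure algebra -/

/-- `1/J` is not integral over `k[J]` for transcendental `J` -/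
theorem bd16_inv_not_integral {k L : Type*} [Field k] [Field L] [Algebra k L] {J w : L}
    (hJ : Transcendental k J) (hw : IsIntegral (Algebra.adjoin k {J}) w) (h : J * w = 1) :
    False := by
  have hJ0 : J ≠ 0 := by
    rintro rfl
    rw [zero_mul] at h
    exact zero_ne_one h
  have hwJ : w = J⁻¹ := eq_inv_of_mul_eq_one_right h
  have hmem : w ∈ k⟮J⟯ := by
    rw [hwJ]
    exact inv_mem (mem_adjoin_simple_self k J)
  have h1 := ca_minpoly_coeff_mem_adjoin hJ hw 0
  have h2 : minpoly k⟮J⟯ w = Polynomial.X - Polynomial.C (⟨w, hmem⟩ : k⟮J⟯) :=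
    minpoly.eq_X_sub_C L (⟨w, hmem⟩ : k⟮J⟯)
  rw [h2] at h1
  simp only [Polynomial.coeff_sub, Polynomial.coeff_X_zero, Polynomial.coeff_C_zero, zero_sub,
    map_neg] at h1
  have h3 : w ∈ Algebra.adjoin k {J} := by
    have := Subalgebra.neg_mem _ h1
    simpa using this
  rw [Algebra.adjoin_singleton_eq_range_aeval] at h3
  obtain ⟨P, hP⟩ := h3
  have h4 : Polynomial.aeval J (Polynomial.X * P - 1) = 0 := by
    rw [map_sub, map_mul, Polynomial.aeval_X, map_one]
    have : (Polynomial.aeval J) P = w := hP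
    rw [this, h, sub_self]
  have h5 := (transcendental_iff.mp hJ) _ h4
  have h6 := congrArg (Polynomial.eval 0) h5
  simp at h6

/-- the characteristic `2` contradiction -/
theorem bd16_char2_contra {k L : Type*} [Field k] [Field L] [Algebra k L] (h2 : (2 : L) = 0)
    {J e m u1 u2 : L} (hJ : Transcendental k J)
    (he : IsIntegral (Algebra.adjoin k {J}) e) (hm : IsIntegral (Algebra.adjoin k {J}) m)
    (h1 : u1 ^ 3 = J * e ^ 2) (h2' : u2 ^ 2 = J * m) (h3 : u1 + u2 = 1) : False := by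
  have hJint : IsIntegral (Algebra.adjoin k {J}) J :=
    isIntegral_algebraMap (R := Algebra.adjoin k {J}) (A := L)
      (x := ⟨J, Algebra.self_mem_adjoin_singleton k J⟩)
  have hu1 : IsIntegral (Algebra.adjoin k {J}) u1 := by
    refine IsIntegral.of_pow (n := 3) (by norm_num) ?_
    rw [h1]
    exact hJint.mul (he.pow 2)
  have hw : IsIntegral (Algebra.adjoin k {J}) (u1 * e ^ 2 + J * m ^ 2) :=
    (hu1.mul (he.pow 2)).add (hJint.mul (hm.pow 2))
  refine bd16_inv_not_integral hJ hw ?_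
  linear_combination (-u1) * h1 + (-(J * m + u2 ^ 2)) * h2'
    + ((u1 + u2) ^ 3 + (u1 + u2) ^ 2 + (u1 + u2) + 1) * h3
    + (-(2 * u1 ^ 3 * u2 + 3 * u1 ^ 2 * u2 ^ 2 + 2 * u1 * u2 ^ 3)) * h2

/-! ### `1/Δ` as an integer Laurent series -/

/-- `1/Δ` as an integer Laurent series -/
def bd16_DeltaInv : LaurentSeries ℤ :=
  HahnSeries.single (-1 : ℤ) (1 : ℤ) * HahnSeries.ofPowerSeries ℤ ℤ dedekindEtaUnitInv

theorem bd16_Delta_mul_inv :
    HahnSeries.ofPowerSeries ℤ ℤ (PowerSeries.X * dedekindEtaUnit) * bd16_DeltaInv = 1 := by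
  have h1 : HahnSeries.single (1 : ℤ) (1 : ℤ) * HahnSeries.single (-1 : ℤ) (1 : ℤ) = 1 := by
    rw [HahnSeries.single_mul_single]
    simp
  have h2 : HahnSeries.ofPowerSeries ℤ ℤ dedekindEtaUnit
      * HahnSeries.ofPowerSeries ℤ ℤ dedekindEtaUnitInv = 1 := by
    rw [← map_mul, dedekindEtaUnit_mul_inv, map_one]
  rw [bd16_DeltaInv, map_mul, HahnSeries.ofPowerSeries_X]
  generalize HahnSeries.ofPowerSeries ℤ ℤ dedekindEtaUnitInv = u' at *
  generalize HahnSeries.ofPowerSeries ℤ ℤ dedekindEtaUnit = u at *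
  generalize HahnSeries.single (-1 : ℤ) (1 : ℤ) = a at *
  generalize HahnSeries.single (1 : ℤ) (1 : ℤ) = b at *
  linear_combination (u * u') * h1 + h2

theorem bd16_iota_emb (x : LaurentSeries ℤ) :
    bd16_iota (ca_emb x) = coeffMap (Int.castRingHom ℂ) x := by
  rw [bd16_iota, ca_emb, coeffMap_coeffMap]
  congr 1

/-- the key membership: `G/Δ` for `G ∈ M₁₂(Γ₀(N))` with integer `q`-expansion -/
theorem bd16_form_mem (N : ℕ) [NeZero N] (G : ModularForm (Gamma0 N) 12) (P : PowerSeries ℤ)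
    (hG : qx ⇑G = P.map (Int.castRingHom ℂ)) :
    ca_emb (HahnSeries.ofPowerSeries ℤ ℤ P * bd16_DeltaInv) ∈ bd16_WH N := by
  obtain ⟨G', hG', -⟩ := exists_cast (N := N) (show (12 : ℤ) = 12 * ((1 : ℕ) : ℤ) by norm_num) G
  refine ⟨fun z => G z / ModularForm.discriminant z, 1, G', fun z => ?_, ?_⟩
  · rw [hG', pow_one, div_mul_cancel₀ _ (ModularForm.discriminant_ne_zero z)]
  · have h1 := congrArg (coeffMap (Int.castRingHom ℂ)) bd16_Delta_mul_inv
    rw [map_mul, map_one, coeffMap_ofPowerSeries, map_mul, PowerSeries.map_X] at h1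
    rw [hG', hG, bd16_iota_emb, map_mul, coeffMap_ofPowerSeries, pow_one, qx_discriminant_eq]
    generalize HahnSeries.ofPowerSeries ℤ ℂ (PowerSeries.map (Int.castRingHom ℂ) P) = g at *
    generalize coeffMap (Int.castRingHom ℂ) bd16_DeltaInv = d at *
    generalize HahnSeries.ofPowerSeries ℤ ℂ
      (PowerSeries.X * (PowerSeries.map (Int.castRingHom ℂ)) dedekindEtaUnit) = D at *
    linear_combination (-g) * h1

/-! ### reduction modulo `2` -/

section Red

variable (k : Type) [Field k] [CharP k 2]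

theorem bd16_two_eq_zero : (2 : LaurentSeries k) = 0 := by
  have h := ca_natCast_laurent_eq_zero 2 k
  exact_mod_cast h

theorem bd16_red_intCast_odd {n : ℤ} (hn : Odd n) :
    ca_red k (HahnSeries.ofPowerSeries ℤ ℤ (PowerSeries.C n)) = 1 := by
  obtain ⟨m, rfl⟩ := hn
  have h2 := bd16_two_eq_zero k
  have h : HahnSeries.ofPowerSeries ℤ ℤ (PowerSeries.C (2 * m + 1))
      = ((2 * m + 1 : ℤ) : LaurentSeries ℤ) := by
    rw [← map_intCast (HahnSeries.ofPowerSeries ℤ ℤ), ← map_intCast (PowerSeries.C (R := ℤ))]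
    rfl
  rw [h, map_intCast]
  push_cast
  rw [h2, zero_mul, zero_add]

theorem bd16_red_eisenstein4 :
    eisenstein4.map (Int.castRingHom k) = 1 := by
  ext n
  rw [PowerSeries.coeff_map, PowerSeries.coeff_one]
  simp only [eisenstein4, PowerSeries.coeff_mk]
  have h2 : (2 : k) = 0 := by exact_mod_cast CharP.cast_eq_zero k 2
  split_ifs with hn
  · simp
  · have : ((240 * ∑ d ∈ n.divisors, (d : ℤ) ^ 3 : ℤ) : k)
        = (2 : k) * (120 * ∑ d ∈ n.divisors, (d : k) ^ 3) := by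
      push_cast
      ring
    rw [eq_intCast, this, h2, zero_mul]

theorem bd16_red_DeltaInv : ca_red k bd16_DeltaInv = jqModC k := by
  rw [bd16_DeltaInv, ca_red, map_mul, coeffMap_single, map_one, coeffMap_ofPowerSeries, jqModC,
    jNum, map_mul, map_pow, bd16_red_eisenstein4, one_pow, one_mul]

end Red

/-- **the endgame of B-disc.** -/
theorem bd16_endgame (p : ℕ) [Fact p.Prime] (hp2 : p ≠ 2) (D : ℤ) (hD : Odd D)
    (Y εs μs : PowerSeries ℤ) (Ge Gm : ModularForm (Gamma0 p) 12)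
    (hGe : qx ⇑Ge = (εs ^ 3).map (Int.castRingHom ℂ))
    (hGm : qx ⇑Gm = (μs ^ 2).map (Int.castRingHom ℂ))
    (hid : 27 * PowerSeries.C (D ^ 6) * (PowerSeries.X * dedekindEtaUnit)
      = 3 * (PowerSeries.C D + 8 * Y) ^ 2 * εs ^ 2 + (PowerSeries.C D + 8 * Y) ^ 3 * μs
        - 64 * εs ^ 3 - 16 * μs ^ 2 - 24 * (PowerSeries.C D + 8 * Y) * εs * μs) : False := by
  haveI : Fact (Nat.Prime 2) := ⟨Nat.prime_two⟩
  have hp : p.Prime := Fact.out
  have h2p : ¬ 2 ∣ p := fun h => hp2 ((Nat.prime_dvd_prime_iff_eq Nat.prime_two hp).mp h).symm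
  obtain ⟨k, _, _, m, hmF, hli⟩ := bd16_exists_indep p 2 h2p
  have he := bd16_red_isIntegral p 2 k m hmF hli _ (bd16_form_mem p Ge (εs ^ 3) hGe)
  have hm := bd16_red_isIntegral p 2 k m hmF hli _ (bd16_form_mem p Gm (μs ^ 2) hGm)
  have h2 := bd16_two_eq_zero k
  have hδ := bd16_red_DeltaInv k
  -- the identity, divided by `Δ` and reduced
  have h27 : (27 : PowerSeries ℤ) * PowerSeries.C (D ^ 6) = PowerSeries.C (27 * D ^ 6) := by
    rw [map_mul, map_ofNat]
  rw [h27] at hid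
  have h1 := congrArg (fun x => ca_red k (HahnSeries.ofPowerSeries ℤ ℤ x * bd16_DeltaInv)) hid
  beta_reduce at h1
  rw [map_mul (HahnSeries.ofPowerSeries ℤ ℤ), mul_assoc, bd16_Delta_mul_inv, mul_one,
    bd16_red_intCast_odd k (by
      have : Odd (D ^ 6) := hD.pow
      exact (by decide : Odd (27 : ℤ)).mul this)] at h1
  have hA : ca_red k (HahnSeries.ofPowerSeries ℤ ℤ (PowerSeries.C D + 8 * Y)) = 1 := by
    rw [map_add, map_add, bd16_red_intCast_odd k hD, map_mul, map_mul, map_ofNat, map_ofNat]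
    linear_combination (4 * ca_red k (HahnSeries.ofPowerSeries ℤ ℤ Y)) * h2
  generalize PowerSeries.C D + 8 * Y = As at hid h1 hA
  set a := ca_red k (HahnSeries.ofPowerSeries ℤ ℤ εs) with ha
  set b := ca_red k (HahnSeries.ofPowerSeries ℤ ℤ μs) with hb
  set J := jqModC k with hJ
  have h1' : 1 = (3 * a ^ 2 + b - 64 * a ^ 3 - 16 * b ^ 2 - 24 * a * b) * J := by
    rw [h1]
    simp only [map_sub, map_add, map_mul, map_pow, map_ofNat, hA, hδ]
    rw [← ha, ← hb]
    ring
  have he' : IsIntegral (Algebra.adjoin k {J}) (a ^ 3 * J) := by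
    have : ca_red k (HahnSeries.ofPowerSeries ℤ ℤ (εs ^ 3) * bd16_DeltaInv) = a ^ 3 * J := by
      rw [map_mul, map_pow, map_pow, hδ]
    rw [← this]
    exact he
  have hm' : IsIntegral (Algebra.adjoin k {J}) (b ^ 2 * J) := by
    have : ca_red k (HahnSeries.ofPowerSeries ℤ ℤ (μs ^ 2) * bd16_DeltaInv) = b ^ 2 * J := by
      rw [map_mul, map_pow, map_pow, hδ]
    rw [← this]
    exact hm
  refine bd16_char2_contra (k := k) h2 (J := J) (e := a ^ 3 * J) (m := b ^ 2 * J)
    (u1 := a ^ 2 * J) (u2 := b * J) (ca_transcendental_jqModC k) he' hm' (by ring) (by ring) ?_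
  linear_combination (-1 : LaurentSeries k) * h1'
    + (-(a ^ 2 * J - 32 * a ^ 3 * J - 8 * b ^ 2 * J - 12 * a * b * J)) * h2

end

end Fermat.Agent.S16Lib
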