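/-
S16, chunk B-disc (helper4), part 4: the forms `ε³`, `μ²` and the discriminant identity.

For `X ∈ M₂(Γ₀(N))` with integer `q`-expansion `A = D + 8 Y` put
  `ε = (X² - D² E₄)/16`,  `μ = (3 D² E₄ X - X³ - 2 D³ E₆)/64`.
Their `q`-expansions are the INTEGER series
  `εs = D Y + 4 Y² - 15 D² S₃`,  `μs = 27 D³ S₃ + 63 D³ R + 90 D² S₃ Y - 3 D Y² - 8 Y³`
(`E₄ = 1 + 240 S₃`, `E₆ = 1 - 504 S₅`, `S₅ = S₃ + 4 R`), and `1728 Δ = E₄³ - E₆²` gives
  `27 D⁶ Δ = 3 A² εs² + A³ μs - 64 εs³ - 16 μs² - 24 A εs μs`.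
-/
import Fermat.Agent.Lib.S16.BdMain

set_option autoImplicit false

namespace Fermat.Agent.S16Lib

open UpperHalfPlane ModularForm CongruenceSubgroup MatrixGroups EisensteinSeries
open Fermat.Agent.LibS23 Fermat.Agent.S20Lib Fermat.Agent.S24Lib Fermat.Agent.S28Lib ModularCurve

noncomputable section

/-! ### the formal series -/

/-- `∑ σ₃(n) qⁿ` -/
def bdf16_S3 : PowerSeries ℤ :=
  PowerSeries.mk fun n => if n = 0 then 0 else ∑ d ∈ n.divisors, (d : ℤ) ^ 3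

/-- `∑ σ₅(n) qⁿ` -/
def bdf16_S5 : PowerSeries ℤ :=
  PowerSeries.mk fun n => if n = 0 then 0 else ∑ d ∈ n.divisors, (d : ℤ) ^ 5

/-- `∑ (σ₅(n) - σ₃(n))/4 qⁿ` -/
def bdf16_R : PowerSeries ℤ :=
  PowerSeries.mk fun n => if n = 0 then 0 else ∑ d ∈ n.divisors, ((d : ℤ) ^ 5 - (d : ℤ) ^ 3) / 4

/-- the `q`-expansion of `E₆` -/
def bdf16_E6s : PowerSeries ℤ :=
  PowerSeries.mk fun n => if n = 0 then 1 else -504 * ∑ d ∈ n.divisors, (d : ℤ) ^ 5

theorem bdf16_four_dvd (d : ℤ) : (4 : ℤ) ∣ d ^ 5 - d ^ 3 := by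
  have h : ∀ x : ZMod 4, x ^ 5 - x ^ 3 = 0 := by decide
  have h1 := h (d : ZMod 4)
  have h2 : ((d ^ 5 - d ^ 3 : ℤ) : ZMod 4) = 0 := by
    push_cast
    exact h1
  exact (ZMod.intCast_zmod_eq_zero_iff_dvd _ 4).mp h2

theorem bdf16_E4_eq : eisenstein4 = 1 + 240 * bdf16_S3 := by
  ext n
  simp only [eisenstein4, bdf16_S3, PowerSeries.coeff_mk, map_add, PowerSeries.coeff_one]
  rw [show (240 : PowerSeries ℤ) = PowerSeries.C (240 : ℤ) by rw [map_ofNat],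
    PowerSeries.coeff_C_mul, PowerSeries.coeff_mk]
  split_ifs <;> simp

theorem bdf16_E6_eq : bdf16_E6s = 1 - 504 * bdf16_S5 := by
  ext n
  simp only [bdf16_E6s, bdf16_S5, PowerSeries.coeff_mk, map_sub, PowerSeries.coeff_one]
  rw [show (504 : PowerSeries ℤ) = PowerSeries.C (504 : ℤ) by rw [map_ofNat],
    PowerSeries.coeff_C_mul, PowerSeries.coeff_mk]
  split_ifs <;> simp

theorem bdf16_S5_eq : bdf16_S5 = bdf16_S3 + 4 * bdf16_R := by
  ext n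
  simp only [bdf16_S5, bdf16_S3, bdf16_R, PowerSeries.coeff_mk, map_add]
  rw [show (4 : PowerSeries ℤ) = PowerSeries.C (4 : ℤ) by rw [map_ofNat],
    PowerSeries.coeff_C_mul, PowerSeries.coeff_mk]
  split_ifs with hn
  · simp
  · rw [Finset.mul_sum, ← Finset.sum_add_distrib]
    refine Finset.sum_congr rfl fun d _ => ?_
    rw [Int.mul_ediv_cancel' (bdf16_four_dvd d)]
    ring

/-! ### analytic `q`-expansions -/

theorem bdf16_qx_E6 : qx (⇑E₆) = bdf16_E6s.map (Int.castRingHom ℂ) := by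
  ext m
  have h := EisensteinSeries.E_qExpansion_coeff (k := 6) (by norm_num) (by decide) m
  rw [PowerSeries.coeff_map]
  show (qExpansion 1 (⇑E₆)).coeff m = _
  rw [h]
  simp only [bdf16_E6s, PowerSeries.coeff_mk]
  split_ifs with hm
  · simp
  · have hb : bernoulli 6 = 1 / 42 := by decide +kernel
    rw [hb]
    simp only [ArithmeticFunction.sigma_apply, eq_intCast]
    push_cast
    ring

theorem bdf16_map_injective :
    Function.Injective (PowerSeries.map (Int.castRingHom ℂ)) := by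
  intro a b h
  ext n
  have := congrArg (PowerSeries.coeff n) h
  simpa using this

/-- `1728 Δ = E₄³ - E₆²` for the integer `q`-expansions -/
theorem bdf16_disc_eq :
    1728 * (PowerSeries.X * dedekindEtaUnit) = eisenstein4 ^ 3 - bdf16_E6s ^ 2 := by
  apply bdf16_map_injective
  have hE4 : QExp (⇑E₄ : ℍ → ℂ) := simple_isLO_E4.qexp
  have hE6 : QExp (⇑E₆ : ℍ → ℂ) := simple_isLO_E6.qexp
  have hfun : (1728 : ℂ) • (ModularForm.discriminant : ℍ → ℂ)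
      = (⇑E₄ : ℍ → ℂ) ^ 3 - (⇑E₆ : ℍ → ℂ) ^ 2 := by
    funext z
    simp only [Pi.smul_apply, Pi.sub_apply, Pi.pow_apply, smul_eq_mul]
    rw [ModularForm.discriminant_eq_E₄_cube_sub_E₆_sq z]
    ring
  have hq := congrArg qx hfun
  rw [qx_smul _ QExp.discriminant, qx_sub (hE4.pow 3) (hE6.pow 2), qx_pow hE4, qx_pow hE6,
    qx_discriminant_eq, qx_E4_eq, bdf16_qx_E6] at hq
  rw [map_mul, map_sub, map_pow, map_pow, map_mul, PowerSeries.map_X, map_ofNat, ← hq]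
  rw [show (1728 : PowerSeries ℂ) = PowerSeries.C (1728 : ℂ) by rw [map_ofNat],
    ← PowerSeries.smul_eq_C_mul]

/-! ### functions of modular forms on `Γ₀(N)` -/

/-- `F` is the function of a modular form of weight `k` on `Γ₀(N)` -/
def bdf16_IsForm (N : ℕ) (k : ℤ) (F : ℍ → ℂ) : Prop :=
  ∃ G : ModularForm (Gamma0 N) k, (⇑G : ℍ → ℂ) = F

namespace bdf16_IsForm

variable {N : ℕ} {k l : ℤ} {F G : ℍ → ℂ}

theorem qexp (h : bdf16_IsForm N k F) : QExp F := by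
  obtain ⟨G, rfl⟩ := h
  exact QExp.of_gamma0 G

theorem add (hF : bdf16_IsForm N k F) (hG : bdf16_IsForm N k G) : bdf16_IsForm N k (F + G) := by
  obtain ⟨f, rfl⟩ := hF
  obtain ⟨g, rfl⟩ := hG
  exact ⟨f + g, rfl⟩

theorem sub (hF : bdf16_IsForm N k F) (hG : bdf16_IsForm N k G) : bdf16_IsForm N k (F - G) := by
  obtain ⟨f, rfl⟩ := hF
  obtain ⟨g, rfl⟩ := hG
  exact ⟨f - g, rfl⟩

theorem smul (c : ℂ) (hF : bdf16_IsForm N k F) : bdf16_IsForm N k (c • F) := by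
  obtain ⟨f, rfl⟩ := hF
  exact ⟨c • f, rfl⟩

theorem of_eq_weight (h : k = l) (hF : bdf16_IsForm N k F) : bdf16_IsForm N l F := h ▸ hF

theorem mul [NeZero N] (hF : bdf16_IsForm N k F) (hG : bdf16_IsForm N l G) :
    bdf16_IsForm N (k + l) (F * G) := by
  obtain ⟨f, rfl⟩ := hF
  obtain ⟨g, rfl⟩ := hG
  obtain ⟨h, hh, -⟩ := exists_mul f g
  exact ⟨h, hh⟩

theorem of_isLO (hF : IsLO k F) : bdf16_IsForm N k F := by
  obtain ⟨F0, rfl⟩ := hF
  exact ⟨basicRestrict F0, rfl⟩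

end bdf16_IsForm

/-! ### the forms `ε³`, `μ²` -/

/-- **BdForms.** -/
theorem bdf16_forms (p : ℕ) [NeZero p] (X : ModularForm (Gamma0 p) 2) (D : ℤ) (Y : PowerSeries ℤ)
    (hX : qx ⇑X = (PowerSeries.C D + 8 * Y).map (Int.castRingHom ℂ)) :
    ∃ (εs μs : PowerSeries ℤ) (Ge Gm : ModularForm (Gamma0 p) 12),
      qx ⇑Ge = (εs ^ 3).map (Int.castRingHom ℂ) ∧ qx ⇑Gm = (μs ^ 2).map (Int.castRingHom ℂ) ∧
      27 * PowerSeries.C (D ^ 6) * (PowerSeries.X * dedekindEtaUnit)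
        = 3 * (PowerSeries.C D + 8 * Y) ^ 2 * εs ^ 2 + (PowerSeries.C D + 8 * Y) ^ 3 * μs
          - 64 * εs ^ 3 - 16 * μs ^ 2 - 24 * (PowerSeries.C D + 8 * Y) * εs * μs := by
  set c : PowerSeries ℤ := PowerSeries.C D with hc
  set εs : PowerSeries ℤ := c * Y + 4 * Y ^ 2 - 15 * c ^ 2 * bdf16_S3 with hεs
  set μs : PowerSeries ℤ := 27 * c ^ 3 * bdf16_S3 + 63 * c ^ 3 * bdf16_R
    + 90 * c ^ 2 * bdf16_S3 * Y - 3 * c * Y ^ 2 - 8 * Y ^ 3 with hμs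
  have i1 : c ^ 2 * eisenstein4 = (c + 8 * Y) ^ 2 - 16 * εs := by
    rw [bdf16_E4_eq, hεs]
    ring
  have i2 : c ^ 3 * bdf16_E6s = (c + 8 * Y) ^ 3 - 24 * εs * (c + 8 * Y) - 32 * μs := by
    rw [bdf16_E6_eq, bdf16_S5_eq, hεs, hμs]
    ring
  -- the forms
  have hXf : bdf16_IsForm p 2 (⇑X) := ⟨X, rfl⟩
  have hE4f : bdf16_IsForm p 4 (⇑E₄) := bdf16_IsForm.of_isLO simple_isLO_E4
  have hE6f : bdf16_IsForm p 6 (⇑E₆) := bdf16_IsForm.of_isLO simple_isLO_E6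
  have hXX : bdf16_IsForm p 4 ((⇑X : ℍ → ℂ) * ⇑X) := (hXf.mul hXf).of_eq_weight (by norm_num)
  have hXXX : bdf16_IsForm p 6 ((⇑X : ℍ → ℂ) * ⇑X * ⇑X) :=
    (hXX.mul hXf).of_eq_weight (by norm_num)
  have hE4X : bdf16_IsForm p 6 ((⇑E₄ : ℍ → ℂ) * ⇑X) := (hE4f.mul hXf).of_eq_weight (by norm_num)
  set εf : ℍ → ℂ := (16⁻¹ : ℂ) • ((⇑X : ℍ → ℂ) * ⇑X - ((D : ℂ) ^ 2) • (⇑E₄ : ℍ → ℂ)) with hεf
  set μf : ℍ → ℂ := (64⁻¹ : ℂ) • (((3 * (D : ℂ) ^ 2) • ((⇑E₄ : ℍ → ℂ) * ⇑X)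
    - (⇑X : ℍ → ℂ) * ⇑X * ⇑X) - (2 * (D : ℂ) ^ 3) • (⇑E₆ : ℍ → ℂ)) with hμf
  have hεform : bdf16_IsForm p 4 εf := (hXX.sub (hE4f.smul _)).smul _
  have hμform : bdf16_IsForm p 6 μf := (((hE4X.smul _).sub hXXX).sub (hE6f.smul _)).smul _
  obtain ⟨Ge, hGe⟩ : bdf16_IsForm p 12 (εf * εf * εf) :=
    ((hεform.mul hεform).mul hεform).of_eq_weight (by norm_num)
  obtain ⟨Gm, hGm⟩ : bdf16_IsForm p 12 (μf * μf) :=
    (hεform.mul hεform |> fun _ => hμform.mul hμform).of_eq_weight (by norm_num)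
  -- their `q`-expansions
  have hcmap : PowerSeries.map (Int.castRingHom ℂ) c = PowerSeries.C (D : ℂ) := by
    rw [hc, PowerSeries.map_C, eq_intCast]
  have hC16 : PowerSeries.C (16⁻¹ : ℂ) * 16 = 1 := by
    rw [show (16 : PowerSeries ℂ) = PowerSeries.C 16 from (map_ofNat _ 16).symm, ← map_mul,
      inv_mul_cancel₀ (by norm_num), map_one]
  have hC64 : PowerSeries.C (64⁻¹ : ℂ) * 64 = 1 := by
    rw [show (64 : PowerSeries ℂ) = PowerSeries.C 64 from (map_ofNat _ 64).symm, ← map_mul,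
      inv_mul_cancel₀ (by norm_num), map_one]
  have h1m := congrArg (PowerSeries.map (Int.castRingHom ℂ)) i1
  simp only [map_mul, map_sub, map_pow, map_ofNat, hcmap] at h1m
  have h2m := congrArg (PowerSeries.map (Int.castRingHom ℂ)) i2
  simp only [map_mul, map_sub, map_pow, map_ofNat, hcmap] at h2m
  have hqε : qx εf = εs.map (Int.castRingHom ℂ) := by
    rw [hεf, qx_smul _ (hXX.sub (hE4f.smul _)).qexp, qx_sub hXX.qexp (hE4f.smul _).qexp,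
      qx_mul hXf.qexp hXf.qexp, qx_smul _ hE4f.qexp, hX, qx_E4_eq]
    simp only [PowerSeries.smul_eq_C_mul, map_pow]
    linear_combination (-PowerSeries.C (16⁻¹ : ℂ)) * h1m
      + (PowerSeries.map (Int.castRingHom ℂ)) εs * hC16
  have hqμ : qx μf = μs.map (Int.castRingHom ℂ) := by
    rw [hμf, qx_smul _ (((hE4X.smul _).sub hXXX).sub (hE6f.smul _)).qexp,
      qx_sub ((hE4X.smul _).sub hXXX).qexp (hE6f.smul _).qexp,
      qx_sub (hE4X.smul _).qexp hXXX.qexp, qx_smul _ hE4X.qexp, qx_smul _ hE6f.qexp,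
      qx_mul hE4f.qexp hXf.qexp, qx_mul hXX.qexp hXf.qexp, qx_mul hXf.qexp hXf.qexp,
      hX, qx_E4_eq, bdf16_qx_E6]
    simp only [PowerSeries.smul_eq_C_mul, map_pow, map_mul, map_ofNat]
    linear_combination (PowerSeries.C (64⁻¹ : ℂ) * 3
        * (PowerSeries.map (Int.castRingHom ℂ)) (c + 8 * Y)) * h1m
      + (-2 * PowerSeries.C (64⁻¹ : ℂ)) * h2m
      + (PowerSeries.map (Int.castRingHom ℂ)) μs * hC64
  refine ⟨εs, μs, Ge, Gm, ?_, ?_, ?_⟩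
  · rw [hGe, qx_mul (hεform.mul hεform).qexp hεform.qexp, qx_mul hεform.qexp hεform.qexp, hqε,
      map_pow]
    ring
  · rw [hGm, qx_mul hμform.qexp hμform.qexp, hqμ, map_pow]
    ring
  · have hΔ := bdf16_disc_eq
    rw [bdf16_E4_eq, bdf16_E6_eq, bdf16_S5_eq] at hΔ
    have h64 : (64 : PowerSeries ℤ) ≠ 0 := by
      intro h
      have h0 := congrArg (PowerSeries.constantCoeff (R := ℤ)) h
      rw [map_ofNat, map_zero] at h0
      norm_num at h0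
    apply mul_left_cancel₀ h64
    rw [map_pow, ← hc, hεs, hμs]
    linear_combination c ^ 6 * hΔ

/-- **B-disc.**  For an odd prime `p` there is no modular form of weight `2` on `Γ₀(p)` whose
`q`-expansion is an integer series `D + 8 Y` with `D` odd.  (This is the hypothesis `hBD` of
`up16_core`.) -/
theorem bd16_main (p : ℕ) [Fact p.Prime] (hp2 : p ≠ 2) (X : ModularForm (Gamma0 p) 2) (D : ℤ)
    (hD : Odd D) (Y : PowerSeries ℤ)
    (hX : qx ⇑X = (PowerSeries.C D + 8 * Y).map (Int.castRingHom ℂ)) : False := by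
  haveI : NeZero p := ⟨(Fact.out : p.Prime).ne_zero⟩
  obtain ⟨εs, μs, Ge, Gm, hGe, hGm, hid⟩ := bdf16_forms p X D Y hX
  exact bd16_endgame p hp2 D hD Y εs μs Ge Gm hGe hGm hid

end

end Fermat.Agent.S16Lib
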