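/-
S16 (lower bound), chunk `χ` (helper2): an integer-valued homomorphism `χ : Γ₀(N) → ℤ` with
`χ(T) = 1` (for `N ≠ 1`).

Source: the S21 library.  `dim Hom(Γ₀(N), ℂ)` is *exactly* `ψ/6 - ν₂/2 - 2ν₃/3 + 1`
(`≤` is `Lib/S21/HomBoundGamma0`, `≥` follows from S20 + S21 + the Eisenstein periods), so in the
Shapiro picture of `Lib/S21/HomBound` every pair `(a, b) ∈ ker (S + 1) × ker (U² + U + 1)` of
functions on `X = P¹(ℤ/N)` is, up to a coboundary, the pair of values at `S`, `U` of the cocycle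
of a homomorphism `φ`.  If `a`, `b` are integer valued, the corrected cocycle is integer valued on
the whole group (it is generated by `S` and `U`), hence `φ` is integer valued.  The choice
`a = -δ_{x₀} + δ_{S x₀}`, `b = 0` gives `φ(T) = φ(S⁻¹ U) = b(x₀) - a(x₀) = 1`.
-/
import Mathlib
import Fermat.Agent.S21

set_option autoImplicit false

namespace Fermat.Agent.S16Lib

open Module Fermat.Agent.S21Lib

/-! ## Abstract part 1: surjectivity onto cocycle pairs in the equality case -/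

section surj

variable {G : Type} [Group G] {X : Type} [Fintype X] [DecidableEq X] [MulAction G X]
  [MulAction.IsPretransitive G X]

theorem chi16_surj (S U ε : G) (hgen : Subgroup.closure {S, U} = ⊤)
    (hS : S * S = ε) (hU : U * U * U = ε) (hε : ε * ε = 1) (hεc : ∀ g : G, ε * g = g * ε)
    (hεX : ∀ x : X, ε • x = x) (x₀ : X) (s : X → G) (hs : ∀ x, s x • x₀ = x)
    [Module.Finite ℂ (Additive (MulAction.stabilizer G x₀) →+ ℂ)]
    (hdim : Fintype.card X + 6 ≤ 6 * finrank ℂ (Additive (MulAction.stabilizer G x₀) →+ ℂ)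
        + 3 * Nat.card (MulAction.fixedBy X S) + 4 * Nat.card (MulAction.fixedBy X U))
    (a b : X → ℂ) (ha : ∀ x, a (S • x) + a x = 0)
    (hb : ∀ x, b (U • U • x) + b (U • x) + b x = 0) :
    ∃ (φ : Additive (MulAction.stabilizer G x₀) →+ ℂ) (v : X → ℂ),
      (∀ x, hbCoc x₀ s hs φ S x + (v (S • x) - v x) = a x) ∧
      (∀ x, hbCoc x₀ s hs φ U x + (v (U • x) - v x) = b x) := by
  classical
  set A : (X → ℂ) →ₗ[ℂ] (X → ℂ) := hbPre (fun x : X => S • x) with hAdef
  set B : (X → ℂ) →ₗ[ℂ] (X → ℂ) := hbPre (fun x : X => U • x) with hBdef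
  have hSS : ∀ x : X, S • S • x = x := by
    intro x; rw [← mul_smul, hS, hεX]
  have hUUU : ∀ x : X, U • U • U • x = x := by
    intro x; rw [← mul_smul, ← mul_smul, hU, hεX]
  have hA : ∀ v, A (A v) = v := by
    intro v; ext x
    show v (S • S • x) = v x
    rw [hSS]
  have hB : ∀ v, B (B (B v)) = v := by
    intro v; ext x
    show v (U • U • U • x) = v x
    rw [hUUU]
  set K₁ := LinearMap.ker (A + LinearMap.id) with hK₁
  set K₂ := LinearMap.ker (B ∘ₗ B + B + LinearMap.id) with hK₂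
  have hεx₀ : ε ∈ MulAction.stabilizer G x₀ := hεX x₀
  have hcε : ∀ (φ : Additive (MulAction.stabilizer G x₀) →+ ℂ) (x : X),
      hbCoc x₀ s hs φ ε x = 0 := by
    intro φ x
    have helt : hbElt x₀ s hs ε x = ⟨ε, hεx₀⟩ := by
      apply Subtype.ext
      show (s (ε • x))⁻¹ * ε * s x = ε
      rw [hεX, mul_assoc, hεc, ← mul_assoc, inv_mul_cancel, one_mul]
    have hsq : (⟨ε, hεx₀⟩ : MulAction.stabilizer G x₀) * ⟨ε, hεx₀⟩ = 1 := Subtype.ext hε
    have h2 : φ (Additive.ofMul (⟨ε, hεx₀⟩ : MulAction.stabilizer G x₀))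
        + φ (Additive.ofMul (⟨ε, hεx₀⟩ : MulAction.stabilizer G x₀)) = 0 := by
      rw [← map_add, ← ofMul_mul, hsq, ofMul_one, map_zero]
    unfold hbCoc
    rw [helt]
    linear_combination (1 / 2 : ℂ) * h2
  have hc1 : ∀ φ, hbCocL x₀ s hs S φ ∈ K₁ := by
    intro φ
    rw [hK₁, LinearMap.mem_ker]
    ext x
    show hbCoc x₀ s hs φ S (S • x) + hbCoc x₀ s hs φ S x = 0
    rw [← hbCoc_mul, hS, hcε]
  have hc2 : ∀ φ, hbCocL x₀ s hs U φ ∈ K₂ := by
    intro φ
    rw [hK₂, LinearMap.mem_ker]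
    ext x
    show hbCoc x₀ s hs φ U (U • U • x) + hbCoc x₀ s hs φ U (U • x) + hbCoc x₀ s hs φ U x = 0
    have h3 := hbCoc_mul x₀ s hs φ (U * U) U x
    have h4 := hbCoc_mul x₀ s hs φ U U (U • x)
    rw [hU, hcε] at h3
    linear_combination -h3 - h4
  set dA : (X → ℂ) →ₗ[ℂ] (X → ℂ) := A - LinearMap.id with hdA
  set dB : (X → ℂ) →ₗ[ℂ] (X → ℂ) := B - LinearMap.id with hdB
  have hdAv : ∀ v, dA v = A v - v := fun v => rfl
  have hdBv : ∀ v, dB v = B v - v := fun v => rfl
  have hδ1 : ∀ v, dA v ∈ K₁ := by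
    intro v
    rw [hK₁, LinearMap.mem_ker, hdAv]
    simp only [LinearMap.add_apply, LinearMap.id_apply, map_sub, hA]
    abel
  have hδ2 : ∀ v, dB v ∈ K₂ := by
    intro v
    rw [hK₂, LinearMap.mem_ker, hdBv]
    simp only [LinearMap.add_apply, LinearMap.id_apply, map_sub, hB,
      LinearMap.comp_apply]
    abel
  set Ψ : (Additive (MulAction.stabilizer G x₀) →+ ℂ) →ₗ[ℂ] (K₁ × K₂) :=
    ((hbCocL x₀ s hs S).codRestrict K₁ hc1).prod ((hbCocL x₀ s hs U).codRestrict K₂ hc2) with hΨ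
  set δ : (X → ℂ) →ₗ[ℂ] (K₁ × K₂) :=
    (dA.codRestrict K₁ hδ1).prod (dB.codRestrict K₂ hδ2) with hδ
  have hkey : ∀ φ v, Ψ φ = δ v → φ = 0 := by
    intro φ v h
    have e1 : hbCocL x₀ s hs S φ = dA v := congrArg (fun p => (p.1 : X → ℂ)) h
    have e2 : hbCocL x₀ s hs U φ = dB v := congrArg (fun p => (p.2 : X → ℂ)) h
    refine hb_eq_zero_of_coboundary x₀ s hs S U hgen φ v (fun x => ?_) (fun x => ?_)
    · exact congrFun e1 x
    · exact congrFun e2 x
  have hinj : Function.Injective Ψ := by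
    rw [← LinearMap.ker_eq_bot, LinearMap.ker_eq_bot']
    intro φ h
    exact hkey φ 0 (by rw [h, map_zero])
  have hdisj : Disjoint (LinearMap.range Ψ) (LinearMap.range δ) := by
    rw [Submodule.disjoint_def]
    rintro _ ⟨φ, rfl⟩ ⟨v, hv⟩
    rw [hkey φ v hv.symm, map_zero]
  have h1 : finrank ℂ (LinearMap.range Ψ) = finrank ℂ (Additive (MulAction.stabilizer G x₀) →+ ℂ) :=
    LinearMap.finrank_range_of_inj hinj
  have h3 := LinearMap.finrank_range_add_finrank_ker δ
  rw [Module.finrank_pi_fintype] at h3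
  have hker : finrank ℂ (LinearMap.ker δ) ≤ 1 := by
    have hle : LinearMap.ker δ ≤ Submodule.span ℂ {(fun _ : X => (1 : ℂ))} := by
      intro v hv
      rw [LinearMap.mem_ker] at hv
      have e1 : dA v = 0 := congrArg (fun p => (p.1 : X → ℂ)) hv
      have e2 : dB v = 0 := congrArg (fun p => (p.2 : X → ℂ)) hv
      have f1 : ∀ x, v (S • x) = v x := fun x => by
        have h := congrFun e1 x
        rw [hdAv] at h
        exact sub_eq_zero.mp h
      have f2 : ∀ x, v (U • x) = v x := fun x => by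
        have h := congrFun e2 x
        rw [hdBv] at h
        exact sub_eq_zero.mp h
      let H : Subgroup G :=
        { carrier := {g | ∀ x, v (g • x) = v x}
          one_mem' := fun x => by rw [one_smul]
          mul_mem' := by
            intro g h hg hh x
            rw [mul_smul, hg, hh]
          inv_mem' := by
            intro g hg x
            have := hg (g⁻¹ • x)
            rw [smul_inv_smul] at this
            exact this.symm }
      have hH : H = ⊤ := by
        rw [eq_top_iff, ← hgen, Subgroup.closure_le]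
        rintro g (rfl | rfl)
        · exact f1
        · exact f2
      have hconst : ∀ x, v x = v x₀ := by
        intro x
        obtain ⟨g, rfl⟩ := MulAction.exists_smul_eq G x₀ x
        have : g ∈ H := by rw [hH]; trivial
        exact this x₀
      rw [Submodule.mem_span_singleton]
      refine ⟨v x₀, ?_⟩
      ext x
      simp [hconst x]
    calc finrank ℂ (LinearMap.ker δ)
        ≤ finrank ℂ (Submodule.span ℂ {(fun _ : X => (1 : ℂ))}) := Submodule.finrank_mono hle
      _ ≤ 1 := by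
          have h := finrank_span_le_card (R := ℂ) ({(fun _ : X => (1 : ℂ))} : Set (X → ℂ))
          simpa using h
  simp only [Module.finrank_self, Finset.sum_const, Finset.card_univ, smul_eq_mul, mul_one] at h3
  have e1 := hb_finrank_ker_invol A hA
  have e2 := hb_finrank_ker_cube B hB
  have hBB : B ∘ₗ B = hbPre (fun x : X => U • U • x) := by
    ext v x; rfl
  have hfixUU : Nat.card {x : X // U • U • x = x} = Nat.card {x : X // U • x = x} := by
    apply Nat.card_congr
    refine Equiv.subtypeEquivRight fun x => ⟨fun h => ?_, fun h => by rw [h, h]⟩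
    have := hUUU x
    rw [h] at this
    exact this
  rw [Module.finrank_pi_fintype] at e1 e2
  simp only [Module.finrank_self, Finset.sum_const, Finset.card_univ, smul_eq_mul, mul_one] at e1 e2
  rw [hAdef, hbPre_trace] at e1
  rw [hBB, hbPre_trace, hBdef, hbPre_trace, hfixUU] at e2
  rw [← hAdef, ← hK₁] at e1
  have e1' : 2 * finrank ℂ K₁ + Nat.card {x : X // S • x = x} = Fintype.card X := by
    exact_mod_cast e1
  have e2' : 3 * finrank ℂ K₂ + Nat.card {x : X // U • x = x} + Nat.card {x : X // U • x = x}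
      = 2 * Fintype.card X := by
    rw [← hBdef] at e2
    exact_mod_cast e2
  have hf1 : Nat.card (MulAction.fixedBy X S) = Nat.card {x : X // S • x = x} := rfl
  have hf2 : Nat.card (MulAction.fixedBy X U) = Nat.card {x : X // U • x = x} := rfl
  rw [hf1, hf2] at hdim
  -- the sum of the two ranges is everything
  have hsup := Submodule.finrank_sup_add_finrank_inf_eq (LinearMap.range Ψ) (LinearMap.range δ)
  rw [hdisj.eq_bot, finrank_bot, add_zero, h1] at hsup
  have hprod : finrank ℂ (K₁ × K₂) = finrank ℂ K₁ + finrank ℂ K₂ := Module.finrank_prod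
  have htop : LinearMap.range Ψ ⊔ LinearMap.range δ = ⊤ := by
    apply Submodule.eq_top_of_finrank_eq
    have hle := Submodule.finrank_le (LinearMap.range Ψ ⊔ LinearMap.range δ)
    omega
  have hmem : ((⟨a, by
      rw [hK₁, LinearMap.mem_ker]; ext x; exact ha x⟩ : K₁), (⟨b, by
      rw [hK₂, LinearMap.mem_ker]; ext x; exact hb x⟩ : K₂)) ∈
      LinearMap.range Ψ ⊔ LinearMap.range δ := by
    rw [htop]; trivial
  obtain ⟨_, ⟨φ, rfl⟩, _, ⟨v, rfl⟩, hsum⟩ := Submodule.mem_sup.mp hmem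
  refine ⟨φ, v, fun x => ?_, fun x => ?_⟩
  · have := congrArg (fun p : K₁ × K₂ => (p.1 : X → ℂ) x) hsum
    exact this
  · have := congrArg (fun p : K₁ × K₂ => (p.2 : X → ℂ) x) hsum
    exact this

end surj

/-! ## Abstract part 2: integrality of the corrected cocycle -/

section integral

variable {G : Type} [Group G] {X : Type} [MulAction G X] (x₀ : X)
variable (s : X → G) (hs : ∀ x, s x • x₀ = x)

/-- the corrected cocycle `c_φ + ∂v` -/
noncomputable def chi16Coc (φ : Additive (MulAction.stabilizer G x₀) →+ ℂ) (v : X → ℂ)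
    (g : G) (x : X) : ℂ :=
  hbCoc x₀ s hs φ g x + (v (g • x) - v x)

theorem chi16Coc_mul (φ : Additive (MulAction.stabilizer G x₀) →+ ℂ) (v : X → ℂ) (g h : G)
    (x : X) :
    chi16Coc x₀ s hs φ v (g * h) x = chi16Coc x₀ s hs φ v g (h • x) + chi16Coc x₀ s hs φ v h x := by
  unfold chi16Coc
  rw [hbCoc_mul, mul_smul]
  ring

theorem chi16Coc_one (φ : Additive (MulAction.stabilizer G x₀) →+ ℂ) (v : X → ℂ) (x : X) :
    chi16Coc x₀ s hs φ v 1 x = 0 := by
  have := chi16Coc_mul x₀ s hs φ v 1 1 x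
  rw [mul_one, one_smul] at this
  linear_combination -this

theorem chi16Coc_inv (φ : Additive (MulAction.stabilizer G x₀) →+ ℂ) (v : X → ℂ) (g : G)
    (x : X) :
    chi16Coc x₀ s hs φ v g⁻¹ x = -chi16Coc x₀ s hs φ v g (g⁻¹ • x) := by
  have h := chi16Coc_mul x₀ s hs φ v g g⁻¹ x
  rw [mul_inv_cancel, chi16Coc_one] at h
  linear_combination -h

/-- on the stabilizer, the corrected cocycle at the base point is `φ` -/
theorem chi16Coc_stab (φ : Additive (MulAction.stabilizer G x₀) →+ ℂ) (v : X → ℂ)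
    (γ : MulAction.stabilizer G x₀) :
    chi16Coc x₀ s hs φ v (γ : G) x₀ = φ (Additive.ofMul γ) := by
  have hγ : (γ : G) • x₀ = x₀ := γ.2
  set σ : MulAction.stabilizer G x₀ := ⟨s x₀, hs x₀⟩ with hσ
  have helt : hbElt x₀ s hs (γ : G) x₀ = σ⁻¹ * γ * σ := by
    apply Subtype.ext
    show (s ((γ : G) • x₀))⁻¹ * (γ : G) * s x₀ = (s x₀)⁻¹ * (γ : G) * s x₀
    rw [hγ]
  unfold chi16Coc hbCoc
  rw [hγ, sub_self, add_zero, helt, ofMul_mul, ofMul_mul, map_add, map_add, ofMul_inv, map_neg]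
  ring

/-- if the corrected cocycle is integer valued at two generators, it is integer valued -/
theorem chi16Coc_int (S U : G) (hgen : Subgroup.closure {S, U} = ⊤)
    (φ : Additive (MulAction.stabilizer G x₀) →+ ℂ) (v : X → ℂ)
    (hSi : ∀ x, ∃ m : ℤ, chi16Coc x₀ s hs φ v S x = m)
    (hUi : ∀ x, ∃ m : ℤ, chi16Coc x₀ s hs φ v U x = m) (g : G) (x : X) :
    ∃ m : ℤ, chi16Coc x₀ s hs φ v g x = m := by
  let H : Subgroup G :=
    { carrier := {g | ∀ x, ∃ m : ℤ, chi16Coc x₀ s hs φ v g x = m}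
      one_mem' := fun x => ⟨0, by rw [chi16Coc_one]; simp⟩
      mul_mem' := by
        intro g h hg hh x
        obtain ⟨m₁, h₁⟩ := hg (h • x)
        obtain ⟨m₂, h₂⟩ := hh x
        exact ⟨m₁ + m₂, by rw [chi16Coc_mul, h₁, h₂]; push_cast; ring⟩
      inv_mem' := by
        intro g hg x
        obtain ⟨m, hm⟩ := hg (g⁻¹ • x)
        exact ⟨-m, by rw [chi16Coc_inv, hm]; push_cast; ring⟩ }
  have hH : H = ⊤ := by
    rw [eq_top_iff, ← hgen, Subgroup.closure_le]
    rintro g (rfl | rfl)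
    · exact hSi
    · exact hUi
  have : g ∈ H := by rw [hH]; trivial
  exact this x

/-- the homomorphism is integer valued -/
theorem chi16_hom_int (S U : G) (hgen : Subgroup.closure {S, U} = ⊤)
    (φ : Additive (MulAction.stabilizer G x₀) →+ ℂ) (v : X → ℂ)
    (hSi : ∀ x, ∃ m : ℤ, chi16Coc x₀ s hs φ v S x = m)
    (hUi : ∀ x, ∃ m : ℤ, chi16Coc x₀ s hs φ v U x = m) (γ : MulAction.stabilizer G x₀) :
    ∃ m : ℤ, φ (Additive.ofMul γ) = m := by
  rw [← chi16Coc_stab x₀ s hs φ v γ]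
  exact chi16Coc_int x₀ s hs S U hgen φ v hSi hUi (γ : G) x₀

/-- the value at `S⁻¹ U` -/
theorem chi16_hom_val (S U : G) (φ : Additive (MulAction.stabilizer G x₀) →+ ℂ) (v : X → ℂ)
    (hT : S⁻¹ * U ∈ MulAction.stabilizer G x₀) :
    φ (Additive.ofMul (⟨S⁻¹ * U, hT⟩ : MulAction.stabilizer G x₀)) =
      chi16Coc x₀ s hs φ v U x₀ - chi16Coc x₀ s hs φ v S x₀ := by
  rw [← chi16Coc_stab x₀ s hs φ v ⟨S⁻¹ * U, hT⟩]
  show chi16Coc x₀ s hs φ v (S⁻¹ * U) x₀ = _
  rw [chi16Coc_mul, chi16Coc_inv]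
  have h : S⁻¹ • U • x₀ = x₀ := by
    rw [← mul_smul]; exact hT
  rw [h]
  ring

end integral

/-! ## Specialisation to `Γ₀(N)` -/

section gamma0

open CongruenceSubgroup Fermat.Agent.S20Lib
open scoped MatrixGroups

variable (N : ℕ) [NeZero N]

/-- `dim Hom(Γ₀(N), ℂ) ≥ ψ/6 - ν₂/2 - 2ν₃/3 + 1` (so equality holds, by `hbG_main`). -/
theorem chi16_finrank_ge :
    ModularCurve.dedekindPsi N + 6 ≤ 6 * finrank ℂ (Additive (Gamma0 N) →+ ℂ)
      + 3 * ModularCurve.nuTwo N + 4 * ModularCurve.nuThree N := by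
  have : Module.Finite ℂ (Additive (Gamma0 N) →+ ℂ) := finite_hom_gamma0 N
  have h21 := Fermat.Agent.S21.result N
  have h20 := Fermat.Agent.S20.result N
  have : Module.Finite ℂ (CuspForm (Gamma0 N) 2 × CuspForm (Gamma0 N) 2) :=
    Module.Finite.of_injective (ModularCurve.periodHomPair N) h21.1
  have : Module.Finite ℂ (CuspForm (Gamma0 N) 2) :=
    Module.Finite.of_injective (LinearMap.inl ℂ (CuspForm (Gamma0 N) 2) (CuspForm (Gamma0 N) 2))
      LinearMap.inl_injective
  have hpar : finrank ℂ (ModularCurve.Period.parabolicHoms ℂ (Gamma0 N) ℂ)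
      = finrank ℂ (CuspForm (Gamma0 N) 2) + finrank ℂ (CuspForm (Gamma0 N) 2) := by
    rw [← h21.2, LinearMap.finrank_range_of_inj h21.1, Module.finrank_prod]
  have h4 := eis_finrank_add_le N
  have h5 := parBound_mdim_two N
  unfold ModularCurve.genusFormula at h20
  have h4' : (finrank ℂ (ModularCurve.Period.parabolicHoms ℂ (Gamma0 N) ℂ) : ℚ)
      + (finrank ℂ (ModularForm (Gamma0 N) 2) : ℚ)
      ≤ (finrank ℂ (Additive (Gamma0 N) →+ ℂ) : ℚ) + (finrank ℂ (CuspForm (Gamma0 N) 2) : ℚ) := by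
    exact_mod_cast h4
  have h5' : (finrank ℂ (ModularForm (Gamma0 N) 2) : ℚ) + 1
      = (finrank ℂ (CuspForm (Gamma0 N) 2) : ℚ) + (ModularCurve.cuspCount N : ℚ) := by
    exact_mod_cast h5
  have hpar' : (finrank ℂ (ModularCurve.Period.parabolicHoms ℂ (Gamma0 N) ℂ) : ℚ)
      = (finrank ℂ (CuspForm (Gamma0 N) 2) : ℚ) + (finrank ℂ (CuspForm (Gamma0 N) 2) : ℚ) := by
    exact_mod_cast hpar
  have key : ((ModularCurve.dedekindPsi N + 6 : ℕ) : ℚ) ≤
      ((6 * finrank ℂ (Additive (Gamma0 N) →+ ℂ)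
        + 3 * ModularCurve.nuTwo N + 4 * ModularCurve.nuThree N : ℕ) : ℚ) := by
    push_cast
    linarith
  exact_mod_cast key

theorem chi16_S_smul_base_ne (hN : N ≠ 1) : ModularGroup.S • P1.base N ≠ P1.base N := by
  rw [Ne, P1.smul_base_eq_iff, Gamma0_mem]
  have h : ((ModularGroup.S : SL(2, ℤ)) : Matrix (Fin 2) (Fin 2) ℤ) 1 0 = 1 := by
    simp [ModularGroup.S]
  rw [h, Int.cast_one]
  intro h1
  have : Fact (1 < N) := ⟨lt_of_le_of_ne (Nat.one_le_iff_ne_zero.mpr (NeZero.ne N)) (Ne.symm hN)⟩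
  exact one_ne_zero h1

/-- **χ.**  An integer-valued homomorphism on `Γ₀(N)` taking the value `1` at `T`. -/
theorem chi16_exists (hN : N ≠ 1) :
    ∃ χ : Additive (Gamma0 N) →+ ℂ, (∀ γ, ∃ m : ℤ, χ γ = m) ∧
      ∀ hT : ModularGroup.T ∈ Gamma0 N, χ (Additive.ofMul ⟨ModularGroup.T, hT⟩) = 1 := by
  classical
  let : Fintype (P1 (ZMod N)) := Fintype.ofFinite _
  have : MulAction.IsPretransitive SL(2, ℤ) (P1 (ZMod N)) := ⟨fun x y => by
    obtain ⟨g, rfl⟩ := P1.exists_smul_base N x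
    obtain ⟨h, rfl⟩ := P1.exists_smul_base N y
    exact ⟨h * g⁻¹, by rw [mul_smul, inv_smul_smul]⟩⟩
  have key : ∀ H : Subgroup SL(2, ℤ), H = Gamma0 N →
      (∃ χ : Additive H →+ ℂ, (∀ γ, ∃ m : ℤ, χ γ = m) ∧
        ∀ hT : ModularGroup.T ∈ H, χ (Additive.ofMul ⟨ModularGroup.T, hT⟩) = 1) →
      (∃ χ : Additive (Gamma0 N) →+ ℂ, (∀ γ, ∃ m : ℤ, χ γ = m) ∧
        ∀ hT : ModularGroup.T ∈ Gamma0 N, χ (Additive.ofMul ⟨ModularGroup.T, hT⟩) = 1) := by
    rintro H rfl h
    exact h
  refine key _ (hbG_stabilizer N) ?_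
  have hfr : ∀ H : Subgroup SL(2, ℤ), H = Gamma0 N →
      Module.Finite ℂ (Additive H →+ ℂ) ∧
      finrank ℂ (Additive H →+ ℂ) = finrank ℂ (Additive (Gamma0 N) →+ ℂ) := by
    rintro H rfl
    exact ⟨finite_hom_gamma0 N, rfl⟩
  obtain ⟨hfin, hrank⟩ := hfr _ (hbG_stabilizer N)
  choose s hs using fun x : P1 (ZMod N) => MulAction.exists_smul_eq SL(2, ℤ) (P1.base N) x
  have hdim : Fintype.card (P1 (ZMod N)) + 6 ≤
      6 * finrank ℂ (Additive (MulAction.stabilizer SL(2, ℤ) (P1.base N)) →+ ℂ)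
        + 3 * Nat.card (MulAction.fixedBy (P1 (ZMod N)) ModularGroup.S)
        + 4 * Nat.card (MulAction.fixedBy (P1 (ZMod N)) (ModularGroup.S * ModularGroup.T)) := by
    rw [P1.card_fixedBy_S_zmod, P1.card_fixedBy_ST_zmod, ← Nat.card_eq_fintype_card,
      P1.card_zmod, hrank]
    exact chi16_finrank_ge N
  have hSx := chi16_S_smul_base_ne N hN
  have hSS : ∀ x : P1 (ZMod N), ModularGroup.S • ModularGroup.S • x = x := by
    intro x
    rw [← mul_smul, hbG_S_sq, hbG_neg_one_smul]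
  set a : P1 (ZMod N) → ℂ := fun x =>
    if x = P1.base N then -1 else if x = ModularGroup.S • P1.base N then 1 else 0 with hadef
  have ha : ∀ x, a (ModularGroup.S • x) + a x = 0 := by
    intro x
    simp only [hadef]
    by_cases h1 : x = P1.base N
    · subst h1
      rw [if_neg hSx, if_pos rfl, if_pos rfl]
      ring
    · by_cases h2 : x = ModularGroup.S • P1.base N
      · subst h2
        rw [hSS, if_pos rfl, if_neg hSx, if_pos rfl]
        ring
      · have h3 : ModularGroup.S • x ≠ P1.base N := by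
          intro h
          apply h2
          rw [← h, hSS]
        have h4 : ModularGroup.S • x ≠ ModularGroup.S • P1.base N := by
          intro h
          exact h1 (MulAction.injective _ h)
        rw [if_neg h3, if_neg h4, if_neg h1, if_neg h2]
        ring
  obtain ⟨φ, v, h1, h2⟩ := chi16_surj ModularGroup.S (ModularGroup.S * ModularGroup.T) (-1)
    hbG_closure hbG_S_sq hbG_U_cube hbG_neg_one_sq hbG_neg_one_comm hbG_neg_one_smul
    (P1.base N) s hs hdim a 0 ha (by intro x; simp)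
  refine ⟨φ, fun γ => ?_, fun hT => ?_⟩
  · refine chi16_hom_int (P1.base N) s hs ModularGroup.S (ModularGroup.S * ModularGroup.T)
      hbG_closure φ v (fun x => ?_) (fun x => ⟨0, ?_⟩) (Additive.toMul γ)
    · have hx : chi16Coc (P1.base N) s hs φ v ModularGroup.S x = a x := h1 x
      rw [hx]
      simp only [hadef]
      split_ifs
      · exact ⟨-1, by simp⟩
      · exact ⟨1, by simp⟩
      · exact ⟨0, by simp⟩
    · have hx : chi16Coc (P1.base N) s hs φ v (ModularGroup.S * ModularGroup.T) x = 0 := h2 x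
      rw [hx]; simp
  · have e : ModularGroup.T = ModularGroup.S⁻¹ * (ModularGroup.S * ModularGroup.T) := by
      rw [inv_mul_cancel_left]
    have hT' : ModularGroup.S⁻¹ * (ModularGroup.S * ModularGroup.T) ∈
        MulAction.stabilizer SL(2, ℤ) (P1.base N) := by rw [← e]; exact hT
    have hsub : (⟨ModularGroup.T, hT⟩ : MulAction.stabilizer SL(2, ℤ) (P1.base N)) =
        ⟨ModularGroup.S⁻¹ * (ModularGroup.S * ModularGroup.T), hT'⟩ := Subtype.ext e
    rw [hsub, chi16_hom_val (P1.base N) s hs ModularGroup.S (ModularGroup.S * ModularGroup.T) φ v hT']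
    have hx1 : chi16Coc (P1.base N) s hs φ v ModularGroup.S (P1.base N) = a (P1.base N) :=
      h1 (P1.base N)
    have hx2 : chi16Coc (P1.base N) s hs φ v (ModularGroup.S * ModularGroup.T) (P1.base N) = 0 :=
      h2 (P1.base N)
    rw [hx1, hx2]
    simp only [hadef, if_pos]
    ring

omit [NeZero N] in
/-- `T ∈ Γ₀(N)` -/
theorem chi16_T_mem : ModularGroup.T ∈ Gamma0 N := by
  rw [Gamma0_mem]
  simp [ModularGroup.T]

/-- **χ, integral form.**  A homomorphism `χ : Γ₀(N) → ℤ` with `χ(T) = 1`. -/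
theorem chi16_exists_int (hN : N ≠ 1) :
    ∃ χ : Additive (Gamma0 N) →+ ℤ,
      χ (Additive.ofMul ⟨ModularGroup.T, chi16_T_mem N⟩) = 1 := by
  obtain ⟨χ, hint, hT⟩ := chi16_exists N hN
  choose m hm using hint
  refine ⟨AddMonoidHom.mk' m (fun γ γ' => ?_), ?_⟩
  · have h : ((m (γ + γ') : ℤ) : ℂ) = ((m γ + m γ' : ℤ) : ℂ) := by
      rw [← hm, map_add, hm γ, hm γ']; push_cast; ring
    exact_mod_cast h
  · have h : ((m (Additive.ofMul ⟨ModularGroup.T, chi16_T_mem N⟩) : ℤ) : ℂ) = ((1 : ℤ) : ℂ) := by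
      rw [← hm, hT]; simp
    show m (Additive.ofMul ⟨ModularGroup.T, chi16_T_mem N⟩) = 1
    exact_mod_cast h

end gamma0

end Fermat.Agent.S16Lib
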