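import Fermat.Agent.Lib.S16.EisP

/-!
# S16 library: the Fricke involution on the Eisenstein series `ep16_E p`

`E(-1/(p z)) = -p z² E(z)`, i.e. `E ∣[2] W_p = -E` for `W_p = S · diag(p,1) = [[0,-1],[p,0]]`.
-/

set_option autoImplicit false

namespace Fermat.Agent.S16Lib

open UpperHalfPlane ModularForm CongruenceSubgroup MatrixGroups Filter Matrix.SpecialLinearGroup
  EisensteinSeries
open scoped Manifold Topology

/-- The Fricke matrix `W_p = S · diag(p, 1) = [[0, -1], [p, 0]]`. -/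
noncomputable def ep16_W (p : ℕ) : GL (Fin 2) ℝ := mapGL ℝ ModularGroup.S * heckeDiagMatrix p

/-- The constant `κ = 2πi / (2 ζ(2)) = 6 i / π` in the transformation law of `E₂`. -/
noncomputable def ep16_kappa : ℂ := (1 / (2 * riemannZeta 2)) * (2 * Real.pi * Complex.I)

/-- `E₂(-1/w) = w² E₂(w) - κ w`. -/
theorem ep16_E2_S (w : ℍ) :
    E2 (ModularGroup.S • w) = (w : ℂ) ^ 2 * E2 w - ep16_kappa * (w : ℂ) := by
  have hE2 := congrFun (E2_slash_action ModularGroup.S) w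
  simp only [SL_slash_apply, Pi.sub_apply, Pi.smul_apply, D2_S, smul_eq_mul,
    ModularGroup.denom_S] at hE2
  have hw : (w : ℂ) ≠ 0 := w.ne_zero
  have h2 : E2 (ModularGroup.S • w) = (E2 (ModularGroup.S • w) * (w : ℂ) ^ (-2 : ℤ)) * (w : ℂ) ^ 2 := by
    rw [mul_assoc, zpow_neg, zpow_ofNat, inv_mul_cancel₀ (pow_ne_zero 2 hw), mul_one]
  rw [h2, hE2, ep16_kappa]
  field_simp

theorem ep16_smul_S_diag {p : ℕ} (hp : p ≠ 0) (z : ℍ) :
    heckeDiagMatrix p • (ModularGroup.S • (heckeDiagMatrix p • z)) = ModularGroup.S • z := by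
  apply UpperHalfPlane.ext
  rw [coe_heckeDiagMatrix_smul hp, modular_S_smul, modular_S_smul, UpperHalfPlane.coe_mk,
    UpperHalfPlane.coe_mk, coe_heckeDiagMatrix_smul hp]
  have hpc : (p : ℂ) ≠ 0 := by exact_mod_cast hp
  have hz : (z : ℂ) ≠ 0 := z.ne_zero
  field_simp

theorem ep16_coe_S_diag {p : ℕ} (hp : p ≠ 0) (z : ℍ) :
    ((ModularGroup.S • (heckeDiagMatrix p • z) : ℍ) : ℂ) = -1 / ((p : ℂ) * (z : ℂ)) := by
  rw [modular_S_smul, UpperHalfPlane.coe_mk, coe_heckeDiagMatrix_smul hp]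
  have hpc : (p : ℂ) ≠ 0 := by exact_mod_cast hp
  have hz : (z : ℂ) ≠ 0 := z.ne_zero
  field_simp

/-- **Fricke, pointwise**: `E(-1/(p z)) = -p z² E(z)`, with `-1/(p z)` written as
`S • (diag(p,1) • z)`. -/
theorem ep16_fricke_apply (p : ℕ) [NeZero p] (z : ℍ) :
    ep16_E p (ModularGroup.S • (heckeDiagMatrix p • z)) = -(p : ℂ) * (z : ℂ) ^ 2 * ep16_E p z := by
  have hp : p ≠ 0 := NeZero.ne p
  rw [ep16_E_apply, ep16_E_apply, ep16_smul_S_diag hp, ep16_E2_S, ep16_E2_S,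
    coe_heckeDiagMatrix_smul hp]
  ring

/-- **Fricke, pointwise**, for any point `w` of the upper half plane with `w = -1/(p z)`. -/
theorem ep16_fricke_apply' (p : ℕ) [NeZero p] (z w : ℍ)
    (hw : (w : ℂ) = -1 / ((p : ℂ) * (z : ℂ))) :
    ep16_E p w = -(p : ℂ) * (z : ℂ) ^ 2 * ep16_E p z := by
  have hp : p ≠ 0 := NeZero.ne p
  have : w = ModularGroup.S • (heckeDiagMatrix p • z) := by
    apply UpperHalfPlane.ext
    rw [hw, ep16_coe_S_diag hp]
  rw [this, ep16_fricke_apply]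

/-- **Fricke, slash form**: `E ∣[2] W_p = -E`. -/
theorem ep16_fricke_slash (p : ℕ) [NeZero p] :
    (⇑(ep16_E p) : ℍ → ℂ) ∣[(2 : ℤ)] ep16_W p = -(⇑(ep16_E p) : ℍ → ℂ) := by
  have hp : p ≠ 0 := NeZero.ne p
  have hpc : (p : ℂ) ≠ 0 := by exact_mod_cast hp
  ext z
  have hz : (z : ℂ) ≠ 0 := z.ne_zero
  rw [ep16_W, SlashAction.slash_mul, slash_heckeDiagMatrix_apply 2 hp]
  have hS : ((⇑(ep16_E p) : ℍ → ℂ) ∣[(2 : ℤ)] (mapGL ℝ ModularGroup.S)) (heckeDiagMatrix p • z)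
      = ep16_E p (ModularGroup.S • (heckeDiagMatrix p • z)) *
          denom ModularGroup.S ((heckeDiagMatrix p • z : ℍ) : ℂ) ^ (-(2 : ℤ)) :=
    SL_slash_apply (ep16_E p) ModularGroup.S (heckeDiagMatrix p • z)
  rw [hS, ep16_fricke_apply, ModularGroup.denom_S, coe_heckeDiagMatrix_smul hp, Pi.neg_apply]
  rw [zpow_neg, zpow_ofNat]
  norm_num
  field_simp

theorem ep16_W_val {p : ℕ} (hp : p ≠ 0) :
    ((ep16_W p : GL (Fin 2) ℝ) : Matrix (Fin 2) (Fin 2) ℝ) = !![0, -1; (p : ℝ), 0] := by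
  rw [ep16_W, Units.val_mul, val_heckeDiagMatrix hp]
  ext i j
  fin_cases i <;> fin_cases j <;>
    simp [mapGL_coe_matrix, Matrix.mul_apply, Fin.sum_univ_two, ModularGroup.S]

end Fermat.Agent.S16Lib
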