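import Mathlib
import Fermat.Prelude.Def_ModularForm_HeckeOperator
import Fermat.Prelude.Def_FLTPrelim_Modularity
import Fermat.Agent.Lib.S23.DeltaN

/-!
# S16 library: the weight-2 Eisenstein series on `Γ₀(p)`

`ep16_E p = (p · E₂(p z) - E₂(z)) / 24`, as a `ModularForm (Gamma0 p) 2`, with
`q`-expansion `(p - 1)/24 + ∑_{n ≥ 1} σ'(n) qⁿ`, `σ'(n) = ∑_{d ∣ n, p ∤ d} d`.
-/

set_option autoImplicit false

namespace Fermat.Agent.S16Lib

open UpperHalfPlane ModularForm CongruenceSubgroup MatrixGroups Filter Matrix.SpecialLinearGroup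
  EisensteinSeries
open scoped Manifold Topology

/-- `z ↦ p · E₂(p z)`, as the weight-2 slash of `E₂` by `diag(p, 1)`. -/
noncomputable def ep16_V (p : ℕ) : ℍ → ℂ := E2 ∣[(2 : ℤ)] heckeDiagMatrix p

/-- The function `z ↦ (p · E₂(p z) - E₂(z)) / 24`. -/
noncomputable def ep16_fun (p : ℕ) : ℍ → ℂ := (1 / 24 : ℂ) • (ep16_V p - E2)

theorem ep16_V_apply {p : ℕ} (hp : p ≠ 0) (z : ℍ) :
    ep16_V p z = (p : ℂ) * E2 (heckeDiagMatrix p • z) := by
  rw [ep16_V, slash_heckeDiagMatrix_apply 2 hp]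
  norm_num

theorem ep16_fun_apply {p : ℕ} (hp : p ≠ 0) (z : ℍ) :
    ep16_fun p z = ((p : ℂ) * E2 (heckeDiagMatrix p • z) - E2 z) / 24 := by
  simp only [ep16_fun, Pi.smul_apply, Pi.sub_apply, smul_eq_mul, ep16_V_apply hp]
  ring

/-- Entry relations for the `diag(p,1)`-conjugate of an element of `Γ₀(p)`. -/
theorem ep16_entries {p : ℕ} (hp : p ≠ 0) (γ γ' : SL(2, ℤ))
    (h : heckeDiagMatrix p * (mapGL ℝ γ) = (mapGL ℝ γ') * heckeDiagMatrix p) :
    ((γ 1 0 : ℤ) : ℂ) = (γ' 1 0 : ℤ) * (p : ℂ) ∧ ((γ 1 1 : ℤ) : ℂ) = (γ' 1 1 : ℤ) := by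
  have h10 := congrArg (fun M : GL (Fin 2) ℝ => (M : Matrix (Fin 2) (Fin 2) ℝ) 1 0) h
  have h11 := congrArg (fun M : GL (Fin 2) ℝ => (M : Matrix (Fin 2) (Fin 2) ℝ) 1 1) h
  simp only [Units.val_mul, val_heckeDiagMatrix hp, mapGL_coe_matrix, Matrix.mul_apply,
    Fin.sum_univ_two] at h10 h11
  simp at h10 h11
  constructor
  · exact_mod_cast h10
  · exact_mod_cast h11

/-- `(D₂ γ') ∣ diag(p,1) = D₂ γ` when `diag(p,1) γ = γ' diag(p,1)`. -/
theorem ep16_D2_slash {p : ℕ} (hp : p ≠ 0) (γ γ' : SL(2, ℤ))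
    (h : heckeDiagMatrix p * (mapGL ℝ γ) = (mapGL ℝ γ') * heckeDiagMatrix p) :
    (D2 γ') ∣[(2 : ℤ)] heckeDiagMatrix p = D2 γ := by
  obtain ⟨h10, h11⟩ := ep16_entries hp γ γ' h
  ext z
  rw [slash_heckeDiagMatrix_apply 2 hp]
  simp only [D2]
  rw [ModularGroup.denom_apply, ModularGroup.denom_apply, coe_heckeDiagMatrix_smul hp, h10, h11]
  norm_num
  have hpc : (p : ℂ) ≠ 0 := by exact_mod_cast hp
  have hd : ((γ' 1 0 : ℤ) : ℂ) * ((p : ℂ) * (z : ℂ)) + ((γ' 1 1 : ℤ) : ℂ) ≠ 0 := by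
    have := UpperHalfPlane.denom_ne_zero γ' (heckeDiagMatrix p • z)
    rwa [ModularGroup.denom_apply, coe_heckeDiagMatrix_smul hp] at this
  have hd' : ((γ' 1 0 : ℤ) : ℂ) * (p : ℂ) * (z : ℂ) + ((γ' 1 1 : ℤ) : ℂ) ≠ 0 := by
    rwa [mul_assoc]
  field_simp

theorem ep16_V_slash_gamma0 (p : ℕ) [NeZero p] (γ : SL(2, ℤ)) (hγ : γ ∈ Gamma0 p) :
    ep16_V p ∣[(2 : ℤ)] (mapGL ℝ γ) = ep16_V p - (1 / (2 * riemannZeta 2)) • D2 γ := by
  have hp : p ≠ 0 := NeZero.ne p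
  obtain ⟨γ', hγ'⟩ := Fermat.Agent.LibS23.diag_mul_gamma0 p γ hγ
  have hE : E2 ∣[(2 : ℤ)] (mapGL ℝ γ') = E2 - (1 / (2 * riemannZeta 2)) • D2 γ' :=
    E2_slash_action γ'
  rw [ep16_V, ← SlashAction.slash_mul, hγ', SlashAction.slash_mul, hE, sub_eq_add_neg,
    SlashAction.add_slash, SlashAction.neg_slash, ModularForm.smul_slash, σ_heckeDiagMatrix,
    ep16_D2_slash hp γ γ' hγ', ← sub_eq_add_neg]
  rfl

theorem ep16_fun_slash_gamma0 (p : ℕ) [NeZero p] (γ : SL(2, ℤ)) (hγ : γ ∈ Gamma0 p) :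
    ep16_fun p ∣[(2 : ℤ)] (mapGL ℝ γ) = ep16_fun p := by
  have hE : E2 ∣[(2 : ℤ)] (mapGL ℝ γ) = E2 - (1 / (2 * riemannZeta 2)) • D2 γ :=
    E2_slash_action γ
  have hσ : σ (mapGL ℝ γ) = .refl ℝ ℂ := by
    simp [UpperHalfPlane.σ]
  rw [ep16_fun, ModularForm.smul_slash, sub_eq_add_neg, SlashAction.add_slash,
    SlashAction.neg_slash, ep16_V_slash_gamma0 p γ hγ, hE, hσ]
  simp only [ContinuousAlgEquiv.refl_apply]
  congr 1
  abel

/-! ### Holomorphy and boundedness at the cusps -/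

theorem ep16_V_mdiff (p : ℕ) : MDiff (ep16_V p) := E2_mdifferentiable.slash 2 _

theorem ep16_fun_mdiff (p : ℕ) : MDiff (ep16_fun p) :=
  ((ep16_V_mdiff p).sub E2_mdifferentiable).const_smul (1 / 24 : ℂ)

theorem ep16_D2_bdd (γ : SL(2, ℤ)) : IsBoundedAtImInfty (D2 γ) := by
  rw [isBoundedAtImInfty_iff]
  by_cases hc : γ 1 0 = 0
  · refine ⟨0, 0, fun z _ => ?_⟩
    simp [D2, hc]
  · refine ⟨2 * Real.pi, 1, fun z hz => ?_⟩
    have hcz : (1 : ℝ) ≤ |((γ 1 0 : ℤ) : ℝ)| := by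
      have : (1 : ℤ) ≤ |γ 1 0| := Int.one_le_abs hc
      exact_mod_cast this
    have hden : ‖((γ 1 0 : ℤ) : ℂ)‖ ≤ ‖denom γ z‖ := by
      rw [ModularGroup.denom_apply]
      have him : ((γ 1 0 : ℤ) : ℂ) * (z : ℂ) + ((γ 1 1 : ℤ) : ℂ) =
          ⟨(γ 1 0 : ℤ) * z.re + (γ 1 1 : ℤ), (γ 1 0 : ℤ) * z.im⟩ := by
        apply Complex.ext <;> simp
      rw [him]
      calc ‖((γ 1 0 : ℤ) : ℂ)‖ = |((γ 1 0 : ℤ) : ℝ)| := by
              rw [← Complex.ofReal_intCast, Complex.norm_real, Real.norm_eq_abs]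
        _ ≤ |((γ 1 0 : ℤ) : ℝ)| * z.im := le_mul_of_one_le_right (abs_nonneg _) hz
        _ = |((γ 1 0 : ℤ) : ℝ) * z.im| := by
              rw [abs_mul, abs_of_pos z.im_pos]
        _ ≤ _ := Complex.abs_im_le_norm
              (⟨(γ 1 0 : ℤ) * z.re + (γ 1 1 : ℤ), (γ 1 0 : ℤ) * z.im⟩ : ℂ)
    have hpos : 0 < ‖denom γ z‖ := norm_pos_iff.mpr (UpperHalfPlane.denom_ne_zero γ z)
    simp only [D2, norm_div, norm_mul, Complex.norm_ofNat, Complex.norm_real, Complex.norm_I,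
      mul_one, Real.norm_eq_abs, abs_of_pos Real.pi_pos]
    rw [div_le_iff₀ hpos]
    have h2pi : (0 : ℝ) ≤ 2 * Real.pi := by positivity
    calc 2 * Real.pi * ‖((γ 1 0 : ℤ) : ℂ)‖ ≤ 2 * Real.pi * ‖denom γ z‖ :=
          mul_le_mul_of_nonneg_left hden h2pi
      _ = _ := rfl

theorem ep16_E2_slash_bdd (γ : SL(2, ℤ)) : IsBoundedAtImInfty (E2 ∣[(2 : ℤ)] γ) := by
  rw [E2_slash_action, sub_eq_add_neg]
  exact isBoundedAtImInfty_E2.add (((ep16_D2_bdd γ).smul (1 / (2 * riemannZeta 2))).neg)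

theorem ep16_E2_isBoundedAt {c : OnePoint ℝ} (hc : IsCusp c 𝒮ℒ) : c.IsBoundedAt E2 2 :=
  (OnePoint.isBoundedAt_iff_forall_SL2Z hc).mpr fun γ _ => ep16_E2_slash_bdd γ

theorem ep16_V_isBoundedAt (p : ℕ) [NeZero p] {c : OnePoint ℝ}
    (hc : IsCusp c (Gamma0 p : Subgroup (GL (Fin 2) ℝ))) : c.IsBoundedAt (ep16_V p) 2 := by
  rw [ep16_V, ← OnePoint.IsBoundedAt.smul_iff]
  apply ep16_E2_isBoundedAt
  simpa using (hc.mono (Fermat.Agent.LibS23.gamma0_le_conj p)).smul (heckeDiagMatrix p)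

theorem ep16_isBoundedAt_smul {c : OnePoint ℝ} {f : ℍ → ℂ} {k : ℤ} (a : ℂ)
    (h : c.IsBoundedAt f k) : c.IsBoundedAt (a • f) k := fun g hg => by
  rw [ModularForm.smul_slash]
  exact (h g hg).smul _

theorem ep16_isBoundedAt_neg {c : OnePoint ℝ} {f : ℍ → ℂ} {k : ℤ}
    (h : c.IsBoundedAt f k) : c.IsBoundedAt (-f) k := fun g hg => by
  rw [SlashAction.neg_slash]
  exact (h g hg).neg

theorem ep16_gamma0_le_SL (p : ℕ) :
    (Gamma0 p : Subgroup (GL (Fin 2) ℝ)) ≤ 𝒮ℒ := by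
  rintro x ⟨γ, -, rfl⟩
  exact ⟨γ, rfl⟩

theorem ep16_fun_isBoundedAt (p : ℕ) [NeZero p] {c : OnePoint ℝ}
    (hc : IsCusp c (Gamma0 p : Subgroup (GL (Fin 2) ℝ))) : c.IsBoundedAt (ep16_fun p) 2 := by
  rw [ep16_fun, sub_eq_add_neg]
  exact ep16_isBoundedAt_smul _ ((ep16_V_isBoundedAt p hc).add
    (ep16_isBoundedAt_neg (ep16_E2_isBoundedAt (hc.mono (ep16_gamma0_le_SL p)))))

/-- The Eisenstein series `E = (p E₂(pz) - E₂(z))/24` of weight 2 on `Γ₀(p)`. -/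
noncomputable def ep16_E (p : ℕ) [NeZero p] : ModularForm (Gamma0 p) 2 where
  toFun := ep16_fun p
  slash_action_eq' := by
    rintro x ⟨γ, hγ, rfl⟩
    exact ep16_fun_slash_gamma0 p γ hγ
  holo' := ep16_fun_mdiff p
  bdd_at_cusps' := fun {c} hc => ep16_fun_isBoundedAt p hc

@[simp] theorem ep16_coe_E (p : ℕ) [NeZero p] : (⇑(ep16_E p) : ℍ → ℂ) = ep16_fun p := rfl

theorem ep16_E_apply (p : ℕ) [NeZero p] (z : ℍ) :
    ep16_E p z = ((p : ℂ) * E2 (heckeDiagMatrix p • z) - E2 z) / 24 :=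
  ep16_fun_apply (NeZero.ne p) z

/-! ### The `q`-expansion -/

/-- `σ'(n)`: the sum of the divisors of `n` that are prime to `p` (not divisible by `p`). -/
def ep16_sigma (p n : ℕ) : ℕ := ∑ d ∈ n.divisors with ¬ p ∣ d, d

theorem ep16_sum_divisors_dvd (p n : ℕ) (hp : p ≠ 0) :
    ∑ d ∈ n.divisors with p ∣ d, d = if p ∣ n then p * ∑ d ∈ (n / p).divisors, d else 0 := by
  split_ifs with h
  · obtain ⟨m, rfl⟩ := h
    rw [Nat.mul_div_cancel_left m (Nat.pos_of_ne_zero hp), Finset.mul_sum]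
    symm
    refine Finset.sum_nbij' (fun d => p * d) (fun d => d / p) ?_ ?_ ?_ ?_ ?_
    · intro d hd
      rw [Nat.mem_divisors] at hd
      simp only [Finset.mem_filter, Nat.mem_divisors]
      refine ⟨⟨Nat.mul_dvd_mul_left p hd.1, ?_⟩, dvd_mul_right p d⟩
      exact Nat.mul_ne_zero hp hd.2
    · intro d hd
      simp only [Finset.mem_filter, Nat.mem_divisors] at hd
      obtain ⟨⟨hd1, hd2⟩, e, rfl⟩ := hd
      rw [Nat.mul_div_cancel_left e (Nat.pos_of_ne_zero hp), Nat.mem_divisors]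
      refine ⟨(Nat.mul_dvd_mul_iff_left (Nat.pos_of_ne_zero hp)).mp hd1, ?_⟩
      rintro rfl
      simp at hd2
    · intro d _
      exact Nat.mul_div_cancel_left d (Nat.pos_of_ne_zero hp)
    · intro d hd
      simp only [Finset.mem_filter, Nat.mem_divisors] at hd
      exact Nat.mul_div_cancel' hd.2
    · intro d _
      rfl
  · apply Finset.sum_eq_zero
    intro d hd
    simp only [Finset.mem_filter, Nat.mem_divisors] at hd
    exact absurd (hd.2.trans hd.1.1) h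

theorem ep16_sigma_add (p n : ℕ) (hp : p ≠ 0) :
    ArithmeticFunction.sigma 1 n =
      ep16_sigma p n + (if p ∣ n then p * ArithmeticFunction.sigma 1 (n / p) else 0) := by
  rw [ArithmeticFunction.sigma_one_apply, ArithmeticFunction.sigma_one_apply, ep16_sigma,
    ← ep16_sum_divisors_dvd p n hp, add_comm]
  exact (Finset.sum_filter_add_sum_filter_not _ _ _).symm

/-- The `q`-expansion coefficients of `ep16_E p`. -/
noncomputable def ep16_coeff (p n : ℕ) : ℂ :=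
  if n = 0 then ((p : ℂ) - 1) / 24 else (ep16_sigma p n : ℂ)

theorem ep16_hasSum (p : ℕ) [NeZero p] (τ : ℍ) :
    HasSum (fun m : ℕ => ep16_coeff p m • Function.Periodic.qParam 1 (τ : ℂ) ^ m)
      (ep16_E p τ) := by
  have hp : p ≠ 0 := NeZero.ne p
  have hppos : 0 < p := Nat.pos_of_ne_zero hp
  set a : ℕ → ℂ := fun m => if m = 0 then 1 else -24 * (ArithmeticFunction.sigma 1 m : ℂ) with ha
  have hexp : ∀ w : ℂ, Complex.exp (2 * Real.pi * Complex.I * w) =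
      Function.Periodic.qParam 1 w := by
    intro w
    simp only [Function.Periodic.qParam, Complex.ofReal_one, div_one]
  set q : ℂ := Function.Periodic.qParam 1 (τ : ℂ) with hq
  have h1 : HasSum (fun m : ℕ => a m • q ^ m) (E2 τ) := by
    have h := hasSum_qExpansion_E2 (z := τ)
    rw [hexp] at h
    exact h
  have h2 : HasSum (fun m : ℕ => a m • (q ^ p) ^ m) (E2 (heckeDiagMatrix p • τ)) := by
    have h := hasSum_qExpansion_E2 (z := heckeDiagMatrix p • τ)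
    have hqp : Complex.exp (2 * Real.pi * Complex.I * ((heckeDiagMatrix p • τ : ℍ) : ℂ)) = q ^ p := by
      rw [coe_heckeDiagMatrix_smul hp, hq, ← hexp, ← Complex.exp_nat_mul]
      congr 1
      ring
    rw [hqp] at h
    exact h
  set b : ℕ → ℂ := fun n => if p ∣ n then a (n / p) else 0 with hb
  have h2' : HasSum (fun n : ℕ => b n • q ^ n) (E2 (heckeDiagMatrix p • τ)) := by
    have hinj : Function.Injective (fun m : ℕ => m * p) := fun x y hxy =>
      Nat.eq_of_mul_eq_mul_right hppos hxy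
    have hzero : ∀ x ∉ Set.range (fun m : ℕ => m * p), (fun n : ℕ => b n • q ^ n) x = 0 := by
      intro x hx
      have : ¬ p ∣ x := by
        rintro ⟨m, rfl⟩
        exact hx ⟨m, by simp [mul_comm]⟩
      simp only [hb, this, if_false, zero_smul]
    rw [← hinj.hasSum_iff hzero]
    have hfun : ((fun n : ℕ => b n • q ^ n) ∘ fun m : ℕ => m * p)
        = fun m : ℕ => a m • (q ^ p) ^ m := by
      funext m
      have h1 : p ∣ m * p := dvd_mul_left p m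
      have h2 : m * p / p = m := Nat.mul_div_cancel m hppos
      simp only [Function.comp_apply, hb, h1, if_true, h2]
      rw [← pow_mul, mul_comm p m]
    rw [hfun]
    exact h2
  have h3 : HasSum (fun n : ℕ => (1 / 24 : ℂ) * ((p : ℂ) * (b n • q ^ n) - a n • q ^ n))
      ((1 / 24 : ℂ) * ((p : ℂ) * E2 (heckeDiagMatrix p • τ) - E2 τ)) :=
    ((h2'.mul_left (p : ℂ)).sub h1).mul_left _
  have hval : ep16_E p τ = (1 / 24 : ℂ) * ((p : ℂ) * E2 (heckeDiagMatrix p • τ) - E2 τ) := by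
    rw [ep16_E_apply]
    ring
  rw [hval]
  convert h3 using 2 with n
  simp only [smul_eq_mul]
  have hc : ep16_coeff p n = (1 / 24 : ℂ) * ((p : ℂ) * b n - a n) := by
    by_cases hn : n = 0
    · subst hn
      have ha0 : a 0 = 1 := by simp [ha]
      have hb0 : b 0 = 1 := by simp [hb, ha]
      rw [ep16_coeff, if_pos rfl, hb0, ha0]
      ring
    · have hs := ep16_sigma_add p n hp
      by_cases hpn : p ∣ n
      · have hnp : n / p ≠ 0 := by
          obtain ⟨m, rfl⟩ := hpn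
          rw [Nat.mul_div_cancel_left m hppos]
          rintro rfl
          simp at hn
        rw [if_pos hpn] at hs
        have hs' : (ArithmeticFunction.sigma 1 n : ℂ) =
            (ep16_sigma p n : ℂ) + (p : ℂ) * (ArithmeticFunction.sigma 1 (n / p) : ℂ) := by
          exact_mod_cast congrArg (Nat.cast : ℕ → ℂ) hs
        simp only [ep16_coeff, hn, if_false, hb, ha, hpn, if_true, hnp, hs']
        ring
      · rw [if_neg hpn, add_zero] at hs
        simp only [ep16_coeff, hn, if_false, hb, ha, hpn, hs]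
        ring
  rw [hc]
  ring

theorem ep16_qExpansion_coeff (p : ℕ) [NeZero p] (n : ℕ) :
    (qExpansion 1 (ep16_E p)).coeff n = ep16_coeff p n :=
  (ModularFormClass.qExpansion_coeff_unique one_pos
    (CongruenceSubgroup.one_mem_strictPeriods_Gamma0 p) (f := ep16_E p) (ep16_hasSum p) n).symm

theorem ep16_qCoeff (p : ℕ) [NeZero p] (n : ℕ) :
    ModularFormClass.qCoeff (ep16_E p) n = ep16_coeff p n :=
  ep16_qExpansion_coeff p n

theorem ep16_qCoeff_zero (p : ℕ) [NeZero p] :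
    ModularFormClass.qCoeff (ep16_E p) 0 = ((p : ℂ) - 1) / 24 := by
  rw [ep16_qCoeff, ep16_coeff, if_pos rfl]

theorem ep16_qCoeff_pos (p : ℕ) [NeZero p] {n : ℕ} (hn : 1 ≤ n) :
    ModularFormClass.qCoeff (ep16_E p) n = ((∑ d ∈ n.divisors with ¬ p ∣ d, d : ℕ) : ℂ) := by
  rw [ep16_qCoeff, ep16_coeff, if_neg (by omega)]
  rfl

end Fermat.Agent.S16Lib
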