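import Fermat.Statements.S16
import Fermat.Agent.Lib.S49.Forms

/-!
# The Eisenstein ideal index: algebraic frame (S16)

`fr16_main` reduces the frozen statement S16,
`#(𝕋 ⧸ I) = num((p - 1) / 12)` for the Hecke algebra `𝕋` of the integral lattice of weight-two
cusp forms on `Γ₀(p)` and its Eisenstein ideal `I`, to two inputs:

* `fr16_UpperCore p`: an integral cusp form congruent to the Eisenstein series `∑ σ'(k) qᵏ`
  modulo `l ^ a` (in positive degrees) forces `l ^ a ∣ num((p - 1) / 12)`;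
* `fr16_LowerCore p`: a Hecke polynomial killing the lattice has Eisenstein value divisible by
  `num((p - 1) / 12)`.

The frame itself is algebra: surjectivity of the polynomial ring onto `𝕋`, the Hecke
polynomials `P_k` with `a₁(P_k f) = a_k(f)` and Eisenstein value `σ'(k)`, and the (rational)
perfectness of the `a₁`-pairing between the lattice and `𝕋`.
-/

set_option autoImplicit false
open ModularCurve CuspForm

namespace Fermat.Agent.S16Lib

open CongruenceSubgroup ModularFormClass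

/-- The `p`-deprived divisor sum `σ'(k) = ∑_{d ∣ k, p ∤ d} d`. -/
def fr16_sigma (p k : ℕ) : ℤ := ∑ d ∈ k.divisors.filter (fun d => ¬ p ∣ d), (d : ℤ)

theorem fr16_sigma_one (p : ℕ) (hp : p.Prime) : fr16_sigma p 1 = 1 := by
  unfold fr16_sigma
  have : (Nat.divisors 1).filter (fun d => ¬ p ∣ d) = {1} := by
    ext d
    simp only [Nat.divisors_one, Finset.mem_filter, Finset.mem_singleton]
    constructor
    · rintro ⟨h, -⟩; exact h
    · rintro rfl
      exact ⟨rfl, fun h => hp.one_lt.ne' (Nat.dvd_one.mp h)⟩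
  rw [this]; simp

theorem fr16_sigma_mul_self (p : ℕ) (hp : p.Prime) (k : ℕ) (hk : k ≠ 0) :
    fr16_sigma p (k * p) = fr16_sigma p k := by
  unfold fr16_sigma
  congr 1
  ext d
  simp only [Finset.mem_filter, Nat.mem_divisors]
  constructor
  · rintro ⟨⟨h1, -⟩, h2⟩
    refine ⟨⟨?_, hk⟩, h2⟩
    have hcop : Nat.Coprime d p := (Nat.Coprime.symm ((Nat.Prime.coprime_iff_not_dvd hp).2 h2))
    exact hcop.dvd_of_dvd_mul_right h1
  · rintro ⟨⟨h1, -⟩, h2⟩
    exact ⟨⟨Dvd.dvd.mul_right h1 p, Nat.mul_ne_zero hk hp.ne_zero⟩, h2⟩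

theorem fr16_sigma_mul_prime (p : ℕ) (hp : p.Prime) (l : ℕ) (hl : l.Prime) (hlp : l ≠ p)
    (k : ℕ) (hk : k ≠ 0) :
    fr16_sigma p (k * l) =
      (1 + (l : ℤ)) * fr16_sigma p k - if l ∣ k then (l : ℤ) * fr16_sigma p (k / l) else 0 := by
  unfold fr16_sigma
  set A := k.divisors.filter (fun d => ¬ p ∣ d) with hA
  set B := A.image (fun d => l * d) with hB
  have hpl : ¬ p ∣ l := fun h => hlp ((Nat.prime_dvd_prime_iff_eq hp hl).1 h).symm
  have hunion : (k * l).divisors.filter (fun d => ¬ p ∣ d) = A ∪ B := by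
    ext d
    simp only [hA, hB, Finset.mem_filter, Nat.mem_divisors, Finset.mem_union, Finset.mem_image]
    constructor
    · rintro ⟨⟨h1, -⟩, h2⟩
      by_cases hld : l ∣ d
      · right
        obtain ⟨e, rfl⟩ := hld
        refine ⟨e, ⟨⟨?_, hk⟩, fun h => h2 (Dvd.dvd.mul_left h l)⟩, rfl⟩
        rw [mul_comm k l] at h1
        exact Nat.dvd_of_mul_dvd_mul_left hl.pos h1
      · left
        have hcop : Nat.Coprime d l := (Nat.Coprime.symm ((Nat.Prime.coprime_iff_not_dvd hl).2 hld))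
        exact ⟨⟨hcop.dvd_of_dvd_mul_right h1, hk⟩, h2⟩
    · rintro (⟨⟨h1, -⟩, h2⟩ | ⟨e, ⟨⟨h1, -⟩, h2⟩, rfl⟩)
      · exact ⟨⟨Dvd.dvd.mul_right h1 l, Nat.mul_ne_zero hk hl.ne_zero⟩, h2⟩
      · refine ⟨⟨?_, Nat.mul_ne_zero hk hl.ne_zero⟩, ?_⟩
        · rw [mul_comm k l]; exact Nat.mul_dvd_mul_left l h1
        · intro h
          rcases (Nat.Prime.dvd_mul hp).1 h with h | h
          · exact hpl h
          · exact h2 h
  have hinter : A ∩ B = if l ∣ k then ((k / l).divisors.filter (fun d => ¬ p ∣ d)).image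
      (fun d => l * d) else ∅ := by
    split_ifs with hlk
    · ext d
      simp only [hA, hB, Finset.mem_filter, Nat.mem_divisors, Finset.mem_inter, Finset.mem_image]
      constructor
      · rintro ⟨⟨⟨h1, -⟩, h2⟩, ⟨e, ⟨⟨h3, -⟩, h4⟩, rfl⟩⟩
        refine ⟨e, ⟨⟨?_, ?_⟩, h4⟩, rfl⟩
        · exact (Nat.dvd_div_iff_mul_dvd hlk).2 h1
        · intro h0
          have := Nat.div_mul_cancel hlk
          rw [h0, zero_mul] at this
          exact hk this.symm
      · rintro ⟨e, ⟨⟨h3, h5⟩, h4⟩, rfl⟩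
        have hle : l * e ∣ k := (Nat.dvd_div_iff_mul_dvd hlk).1 h3
        refine ⟨⟨⟨hle, hk⟩, ?_⟩, ⟨e, ⟨⟨?_, hk⟩, h4⟩, rfl⟩⟩
        · intro h
          rcases (Nat.Prime.dvd_mul hp).1 h with h | h
          · exact hpl h
          · exact h4 h
        · exact Dvd.dvd.trans (Dvd.intro_left l rfl) hle
    · ext d
      simp only [hA, hB, Finset.mem_filter, Nat.mem_divisors, Finset.mem_inter, Finset.mem_image,
        Finset.notMem_empty, iff_false]
      rintro ⟨⟨⟨h1, -⟩, h2⟩, ⟨e, -, rfl⟩⟩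
      exact hlk (Dvd.dvd.trans (Dvd.intro e rfl) h1)
  have hinj : ∀ (s : Finset ℕ), ∑ d ∈ s.image (fun d => l * d), (d : ℤ) = (l : ℤ) * ∑ d ∈ s, (d : ℤ) := by
    intro s
    rw [Finset.sum_image (fun x _ y _ h => Nat.eq_of_mul_eq_mul_left hl.pos h), Finset.mul_sum]
    refine Finset.sum_congr rfl fun d _ => ?_
    push_cast; ring
  have h1 := Finset.sum_union_inter (s₁ := A) (s₂ := B) (f := fun d => (d : ℤ))
  rw [hunion]
  rw [hinter, hB, hinj] at h1
  split_ifs at h1 ⊢ with hlk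
  · rw [hinj] at h1
    linarith
  · rw [Finset.sum_empty] at h1
    linarith

/-! ### The Hecke polynomial ring acting on forms -/

/-- The map from the abstract Hecke algebra to the Hecke algebra of the integral lattice. -/
noncomputable def fr16_rho (p : ℕ) [Fact p.Prime] : HeckeAlg →+* ↥(heckeLatticeAlgebra p ∅) :=
  (latticeRestrictHom p ∅).toRingHom.comp (heckeEvalForms p 2)

/-- The operator on cusp forms attached to a Hecke polynomial. -/
noncomputable def fr16_op (p : ℕ) [Fact p.Prime] (P : HeckeAlg) :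
    Module.End ℂ (CuspForm (Gamma0 p) 2) :=
  ((heckeEvalForms p 2 P : heckeAlgebra p 2 ∅) : Module.End ℂ (CuspForm (Gamma0 p) 2))

theorem fr16_heckeEvalForms_surjective (N : ℕ) [NeZero N] (k : ℤ) :
    Function.Surjective (heckeEvalForms N k) := by
  rintro ⟨x, hx⟩
  have : ∃ P : HeckeAlg, ((heckeEvalForms N k P : heckeAlgebra N k ∅) :
      Module.End ℂ (CuspForm (Gamma0 N) k)) = x := by
    induction hx using Algebra.adjoin_induction with
    | mem x hx =>
      rcases hx with ⟨ℓ, hℓ, hℓN, -, rfl⟩ | ⟨q, hqN, hq, -, rfl⟩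
      · refine ⟨heckeGen ⟨ℓ, hℓ⟩, ?_⟩
        rw [heckeEvalForms_heckeGen_of_not_dvd (ℓ := ⟨ℓ, hℓ⟩) hℓN]
        rfl
      · refine ⟨heckeGen ⟨q, hq⟩, ?_⟩
        rw [heckeEvalForms_heckeGen_of_dvd (q := ⟨q, hq⟩) hqN]
        rfl
    | algebraMap r => exact ⟨MvPolynomial.C r, by rw [heckeEvalForms_C]; rfl⟩
    | add x y _ _ hx hy =>
      obtain ⟨P, rfl⟩ := hx
      obtain ⟨Q, rfl⟩ := hy
      exact ⟨P + Q, by rw [map_add]; rfl⟩
    | mul x y _ _ hx hy =>
      obtain ⟨P, rfl⟩ := hx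
      obtain ⟨Q, rfl⟩ := hy
      exact ⟨P * Q, by rw [map_mul]; rfl⟩
  obtain ⟨P, hP⟩ := this
  exact ⟨P, Subtype.ext hP⟩

theorem fr16_rho_surjective (p : ℕ) [Fact p.Prime] : Function.Surjective (fr16_rho p) := by
  intro t
  obtain ⟨s, rfl⟩ := latticeRestrictHom_surjective p ∅ t
  obtain ⟨P, rfl⟩ := fr16_heckeEvalForms_surjective p 2 s
  exact ⟨P, rfl⟩

theorem fr16_rho_apply_coe (p : ℕ) [Fact p.Prime] (P : HeckeAlg) (f : ↥(intLattice p 2)) :
    (((fr16_rho p P : ↥(heckeLatticeAlgebra p ∅)) : Module.End ℤ ↥(intLattice p 2)) f :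
      CuspForm (Gamma0 p) 2) = fr16_op p P (f : CuspForm (Gamma0 p) 2) := rfl

theorem fr16_op_mul (p : ℕ) [Fact p.Prime] (P Q : HeckeAlg) (f : CuspForm (Gamma0 p) 2) :
    fr16_op p (P * Q) f = fr16_op p P (fr16_op p Q f) := by
  unfold fr16_op
  rw [map_mul]
  rfl

theorem fr16_op_sub (p : ℕ) [Fact p.Prime] (P Q : HeckeAlg) (f : CuspForm (Gamma0 p) 2) :
    fr16_op p (P - Q) f = fr16_op p P f - fr16_op p Q f := by
  unfold fr16_op
  rw [map_sub]
  rfl

theorem fr16_op_one (p : ℕ) [Fact p.Prime] (f : CuspForm (Gamma0 p) 2) :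
    fr16_op p 1 f = f := by
  unfold fr16_op
  rw [map_one]
  rfl

theorem fr16_op_C (p : ℕ) [Fact p.Prime] (c : ℤ) (f : CuspForm (Gamma0 p) 2) :
    fr16_op p (MvPolynomial.C c) f = c • f := by
  unfold fr16_op
  rw [heckeEvalForms_C]
  rfl

theorem fr16_op_heckeGen_of_not_dvd (p : ℕ) [Fact p.Prime] (ℓ : Nat.Primes) (h : ¬ (ℓ : ℕ) ∣ p)
    (f : CuspForm (Gamma0 p) 2) :
    fr16_op p (heckeGen ℓ) f = heckeTLin 2 ℓ.2 h f := by
  unfold fr16_op
  rw [heckeEvalForms_heckeGen_of_not_dvd h]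
  rfl

theorem fr16_op_heckeGen_of_dvd (p : ℕ) [Fact p.Prime] (ℓ : Nat.Primes) (h : (ℓ : ℕ) ∣ p)
    (f : CuspForm (Gamma0 p) 2) :
    fr16_op p (heckeGen ℓ) f = heckeULin 2 h f := by
  unfold fr16_op
  rw [heckeEvalForms_heckeGen_of_dvd h]
  rfl

open Fermat.Agent.LibS49 in
theorem fr16_exists_heckePoly (p : ℕ) [Fact p.Prime] (k : ℕ) (hk : 1 ≤ k) :
    ∃ P : HeckeAlg, MvPolynomial.aeval (eisensteinSystem p) P = fr16_sigma p k ∧
      ∀ f : CuspForm (Gamma0 p) 2, qCoeff (⇑(fr16_op p P f)) 1 = qCoeff f k := by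
  have hp : p.Prime := Fact.out
  induction k using Nat.strong_induction_on with
  | _ k ih =>
    rcases Nat.eq_or_lt_of_le hk with h1 | h1
    · subst h1
      refine ⟨1, ?_, fun f => ?_⟩
      · rw [map_one, fr16_sigma_one p hp]
      · rw [fr16_op_one]
    · have hl : k.minFac.Prime := Nat.minFac_prime (by omega)
      set l := k.minFac with hl_def
      obtain ⟨k', hk'⟩ : l ∣ k := Nat.minFac_dvd k
      have hk'pos : 1 ≤ k' := by
        rcases Nat.eq_zero_or_pos k' with h | h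
        · rw [h, mul_zero] at hk'; omega
        · exact h
      have hk'lt : k' < k := by
        rw [hk']
        have := hl.two_le
        nlinarith
      have hkk : k = k' * l := by rw [hk', mul_comm]
      obtain ⟨P', hP'1, hP'2⟩ := ih k' hk'lt hk'pos
      by_cases hlp : l = p
      · have hdvd : ((⟨l, hl⟩ : Nat.Primes) : ℕ) ∣ p := by
          show l ∣ p
          rw [hlp]
        refine ⟨P' * heckeGen ⟨l, hl⟩, ?_, fun f => ?_⟩
        · rw [map_mul, hP'1, aeval_heckeGen, eisensteinSystem_of_dvd hdvd, mul_one, hkk, hlp,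
            fr16_sigma_mul_self p hp k' (by omega)]
        · rw [fr16_op_mul, hP'2, fr16_op_heckeGen_of_dvd p _ hdvd, qCoeff_heckeULin hl hdvd, hkk]
      · have hndvd : ¬ ((⟨l, hl⟩ : Nat.Primes) : ℕ) ∣ p := fun h =>
          hlp ((Nat.prime_dvd_prime_iff_eq hl hp).1 h)
        by_cases hlk : l ∣ k'
        · have hk''pos : 1 ≤ k' / l := Nat.div_pos (Nat.le_of_dvd hk'pos hlk) hl.pos
          have hk''lt : k' / l < k := lt_of_le_of_lt (Nat.div_le_self _ _) hk'lt
          obtain ⟨P'', hP''1, hP''2⟩ := ih (k' / l) hk''lt hk''pos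
          refine ⟨P' * heckeGen ⟨l, hl⟩ - MvPolynomial.C (l : ℤ) * P'', ?_, fun f => ?_⟩
          · rw [map_sub, map_mul, map_mul, hP'1, hP''1, aeval_heckeGen,
              eisensteinSystem_of_not_dvd hndvd, MvPolynomial.aeval_C, hkk,
              fr16_sigma_mul_prime p hp l hl hlp k' (by omega), if_pos hlk]
            simp
            ring
          · rw [fr16_op_sub, qCoeff_sub', fr16_op_mul, fr16_op_mul, hP'2, fr16_op_C,
              qCoeff_zsmul', hP''2, fr16_op_heckeGen_of_not_dvd p _ hndvd,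
              qCoeff_heckeTLin hl hndvd, if_pos hlk, hkk]
            simp
        · refine ⟨P' * heckeGen ⟨l, hl⟩, ?_, fun f => ?_⟩
          · rw [map_mul, hP'1, aeval_heckeGen,
              eisensteinSystem_of_not_dvd hndvd, hkk,
              fr16_sigma_mul_prime p hp l hl hlp k' (by omega), if_neg hlk]
            simp
            ring
          · rw [fr16_op_mul, hP'2, fr16_op_heckeGen_of_not_dvd p _ hndvd,
              qCoeff_heckeTLin hl hndvd, if_neg hlk, hkk]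
            simp

/-! ### Integer `q`-coefficients on the lattice and the `a₁`-pairing -/

/-- The integer-valued `j`-th `q`-coefficient on the integral lattice. -/
noncomputable def fr16_coeffZ (p : ℕ) (j : ℕ) (f : ↥(intLattice p 2)) : ℤ :=
  Classical.choose ((Fermat.Agent.LibS49.mem_intLattice_iff (f : CuspForm (Gamma0 p) 2)).1 f.2 j)

theorem fr16_coeffZ_spec (p : ℕ) (j : ℕ) (f : ↥(intLattice p 2)) :
    qCoeff (⇑(f : CuspForm (Gamma0 p) 2)) j = (fr16_coeffZ p j f : ℂ) :=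
  Classical.choose_spec
    ((Fermat.Agent.LibS49.mem_intLattice_iff (f : CuspForm (Gamma0 p) 2)).1 f.2 j)

/-- The first `q`-coefficient as a linear functional on the lattice. -/
noncomputable def fr16_a1 (p : ℕ) : ↥(intLattice p 2) →ₗ[ℤ] ℤ where
  toFun f := fr16_coeffZ p 1 f
  map_add' f g := by
    apply Int.cast_injective (α := ℂ)
    rw [← fr16_coeffZ_spec, Int.cast_add, ← fr16_coeffZ_spec, ← fr16_coeffZ_spec,
      Submodule.coe_add, Fermat.Agent.LibS49.qCoeff_add']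
  map_smul' c f := by
    apply Int.cast_injective (α := ℂ)
    rw [← fr16_coeffZ_spec, RingHom.id_apply, smul_eq_mul, Int.cast_mul, ← fr16_coeffZ_spec,
      Submodule.coe_smul, Fermat.Agent.LibS49.qCoeff_zsmul']

theorem fr16_a1_spec (p : ℕ) (f : ↥(intLattice p 2)) :
    qCoeff (⇑(f : CuspForm (Gamma0 p) 2)) 1 = (fr16_a1 p f : ℂ) :=
  fr16_coeffZ_spec p 1 f

/-- The `a₁`-pairing between the lattice and its Hecke algebra. -/
noncomputable def fr16_pair (p : ℕ) [Fact p.Prime] :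
    ↥(intLattice p 2) →ₗ[ℤ] ↥(heckeLatticeAlgebra p ∅) →ₗ[ℤ] ℤ :=
  LinearMap.mk₂ ℤ (fun f t => fr16_a1 p ((t : Module.End ℤ ↥(intLattice p 2)) f))
    (fun f g t => by simp only [map_add])
    (fun c f t => by simp only [map_smul])
    (fun f s t => by
      simp only [Subalgebra.coe_add, LinearMap.add_apply, map_add])
    (fun c f t => by
      simp only [Subalgebra.coe_smul, LinearMap.smul_apply, map_smul])

theorem fr16_pair_apply (p : ℕ) [Fact p.Prime] (f : ↥(intLattice p 2))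
    (t : ↥(heckeLatticeAlgebra p ∅)) :
    fr16_pair p f t = fr16_a1 p ((t : Module.End ℤ ↥(intLattice p 2)) f) := rfl

theorem fr16_coeff_eq_pair (p : ℕ) [Fact p.Prime] (f : ↥(intLattice p 2)) (P : HeckeAlg)
    (k : ℕ) (hP : ∀ g : CuspForm (Gamma0 p) 2, qCoeff (⇑(fr16_op p P g)) 1 = qCoeff g k) :
    qCoeff (⇑(f : CuspForm (Gamma0 p) 2)) k = (fr16_pair p f (fr16_rho p P) : ℂ) := by
  rw [fr16_pair_apply, ← fr16_a1_spec, fr16_rho_apply_coe, hP]

theorem fr16_pair_injective (p : ℕ) [Fact p.Prime] : Function.Injective (fr16_pair p) := by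
  rw [← LinearMap.ker_eq_bot, LinearMap.ker_eq_bot']
  intro f hf
  apply Subtype.ext
  rw [Submodule.coe_zero]
  apply Fermat.Agent.LibS49.eq_zero_of_forall_qCoeff_eq_zero
  intro k
  rcases Nat.eq_zero_or_pos k with hk | hk
  · rw [hk]; exact Fermat.Agent.LibS49.qCoeff_zero_index _
  · obtain ⟨P, -, hP⟩ := fr16_exists_heckePoly p k hk
    rw [fr16_coeff_eq_pair p f P k hP, hf]
    simp

theorem fr16_pair_flip_injective (p : ℕ) [Fact p.Prime] :
    Function.Injective (fr16_pair p).flip := by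
  rw [← LinearMap.ker_eq_bot, LinearMap.ker_eq_bot']
  intro t ht
  apply Subtype.ext
  rw [ZeroMemClass.coe_zero]
  refine LinearMap.ext fun f => ?_
  rw [LinearMap.zero_apply]
  apply fr16_pair_injective p
  rw [map_zero]
  refine LinearMap.ext fun s => ?_
  rw [LinearMap.zero_apply, fr16_pair_apply]
  have h1 : (s : Module.End ℤ ↥(intLattice p 2)) ((t : Module.End ℤ ↥(intLattice p 2)) f) =
      (t : Module.End ℤ ↥(intLattice p 2)) ((s : Module.End ℤ ↥(intLattice p 2)) f) := by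
    have h2 : s * t = t * s := mul_comm s t
    have h3 := congrArg (fun u : ↥(heckeLatticeAlgebra p ∅) =>
      (u : Module.End ℤ ↥(intLattice p 2)) f) h2
    exact h3
  rw [h1]
  have h4 := congrArg (fun φ : ↥(intLattice p 2) →ₗ[ℤ] ℤ => φ ((s : Module.End ℤ ↥(intLattice p 2)) f)) ht
  exact h4

/-- An injective map between finite modules over a domain whose target has no larger rank has
torsion cokernel. -/
theorem fr16_exists_smul_mem_range {R M N : Type*} [CommRing R] [IsDomain R]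
    [AddCommGroup M] [Module R M]
    [AddCommGroup N] [Module R N] [Module.Finite R M] [Module.Finite R N]
    (Ψ : M →ₗ[R] N) (hΨ : Function.Injective Ψ)
    (hrank : Module.finrank R N ≤ Module.finrank R M) (y : N) :
    ∃ c : R, c ≠ 0 ∧ c • y ∈ LinearMap.range Ψ := by
  have h1 := Submodule.finrank_quotient_add_finrank (LinearMap.range Ψ)
  have h2 := LinearMap.finrank_range_of_inj hΨ
  have key : ∀ q r n m : ℕ, q + r = n → r = m → n ≤ m → q = 0 := by omega
  have h3 := key _ _ _ _ h1 h2 hrank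
  have h4 := Module.finrank_eq_zero_iff_isTorsion.1 h3
  obtain ⟨a, ha⟩ := @h4 (Submodule.Quotient.mk y)
  refine ⟨(a : R), nonZeroDivisors.coe_ne_zero a, ?_⟩
  rw [← Submodule.Quotient.mk_eq_zero, Submodule.Quotient.mk_smul]
  exact ha

theorem fr16_exists_dual (p : ℕ) [Fact p.Prime] (φ : ↥(heckeLatticeAlgebra p ∅) →ₗ[ℤ] ℤ) :
    ∃ c : ℤ, c ≠ 0 ∧ ∃ f : ↥(intLattice p 2), fr16_pair p f = c • φ := by
  have := intLattice.moduleFinite p
  have := intLattice.moduleFree p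
  have hr1 : Module.finrank ℤ ↥(heckeLatticeAlgebra p ∅) ≤ Module.finrank ℤ ↥(intLattice p 2) := by
    have := LinearMap.finrank_le_finrank_of_injective (fr16_pair_flip_injective p)
    rwa [Module.finrank_linearMap_self] at this
  have hr2 : Module.finrank ℤ (↥(heckeLatticeAlgebra p ∅) →ₗ[ℤ] ℤ) ≤
      Module.finrank ℤ ↥(intLattice p 2) := by
    rwa [Module.finrank_linearMap_self]
  obtain ⟨c, hc, f, hf⟩ := fr16_exists_smul_mem_range (fr16_pair p) (fr16_pair_injective p) hr2 φ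
  exact ⟨c, hc, f, hf⟩

/-! ### The two analytic inputs and the main theorem -/

/-- **Upper core**: a weight-two cusp form on `Γ₀(p)` with integral `q`-expansion congruent to
the Eisenstein series `∑ σ'(k) qᵏ` modulo `l ^ a` away from the constant term forces
`l ^ a ∣ num((p - 1) / 12)`. -/
def fr16_UpperCore (p : ℕ) : Prop :=
  ∀ (l : ℕ), l.Prime → ∀ (a : ℕ) (f : CuspForm (Gamma0 p) 2),
    (∀ k : ℕ, ∃ m : ℤ, qCoeff (⇑f) k = (m : ℂ)) →
    (∀ k : ℕ, 1 ≤ k → ∃ c : ℤ, qCoeff (⇑f) k = ((fr16_sigma p k + (l : ℤ) ^ a * c : ℤ) : ℂ)) →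
    l ^ a ∣ eisensteinNumerator p

/-- **Lower core**: a Hecke polynomial killing the integral cusp forms takes a value divisible
by `num((p - 1) / 12)` on the Eisenstein system. -/
def fr16_LowerCore (p : ℕ) [Fact p.Prime] : Prop :=
  ∀ P : HeckeAlg, fr16_rho p P = 0 →
    ((eisensteinNumerator p : ℕ) : ℤ) ∣ MvPolynomial.aeval (eisensteinSystem p) P

theorem fr16_key (p : ℕ) [Fact p.Prime] (hU : fr16_UpperCore p) (l : ℕ) (hl : l.Prime) (a : ℕ)
    (h : ∀ Q : HeckeAlg, fr16_rho p Q = 0 →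
      ((l ^ a : ℕ) : ℤ) ∣ MvPolynomial.aeval (eisensteinSystem p) Q) :
    l ^ a ∣ eisensteinNumerator p := by
  -- the Eisenstein character modulo `l ^ a`
  let g : HeckeAlg →+* ZMod (l ^ a) :=
    (Int.castRingHom (ZMod (l ^ a))).comp
      ((MvPolynomial.aeval (eisensteinSystem p) : HeckeAlg →ₐ[ℤ] ℤ) : HeckeAlg →+* ℤ)
  have hg : ∀ Q : HeckeAlg, g Q = ((MvPolynomial.aeval (eisensteinSystem p) Q : ℤ) : ZMod (l ^ a)) :=
    fun Q => rfl
  have hker : RingHom.ker (fr16_rho p) ≤ RingHom.ker g := by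
    intro Q hQ
    rw [RingHom.mem_ker] at hQ ⊢
    rw [hg, ZMod.intCast_zmod_eq_zero_iff_dvd]
    exact h Q hQ
  let lam : ↥(heckeLatticeAlgebra p ∅) →+* ZMod (l ^ a) :=
    (fr16_rho p).liftOfSurjective (fr16_rho_surjective p) ⟨g, hker⟩
  have hlam : ∀ Q : HeckeAlg, lam (fr16_rho p Q) = g Q := fun Q =>
    RingHom.liftOfSurjective_comp_apply (fr16_rho p) (fr16_rho_surjective p) ⟨g, hker⟩ Q
  let lamL : ↥(heckeLatticeAlgebra p ∅) →ₗ[ℤ] ZMod (l ^ a) := lam.toAddMonoidHom.toIntLinearMap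
  let π : ℤ →ₗ[ℤ] ZMod (l ^ a) := (Int.castAddHom (ZMod (l ^ a))).toIntLinearMap
  have hπ : Function.Surjective π := ZMod.intCast_surjective
  obtain ⟨φ, hφ⟩ := Module.projective_lifting_property π lamL hπ
  have hφ' : ∀ t : ↥(heckeLatticeAlgebra p ∅), ((φ t : ℤ) : ZMod (l ^ a)) = lam t := fun t =>
    congrArg (fun ψ : ↥(heckeLatticeAlgebra p ∅) →ₗ[ℤ] ZMod (l ^ a) => ψ t) hφ
  obtain ⟨c, hc, f₀, hf₀⟩ := fr16_exists_dual p φ
  have hcC : (c : ℂ) ≠ 0 := Int.cast_ne_zero.mpr hc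
  -- the form
  have hcoeff : ∀ (k : ℕ) (P : HeckeAlg),
      (∀ g : CuspForm (Gamma0 p) 2, qCoeff (⇑(fr16_op p P g)) 1 = qCoeff g k) →
      qCoeff (⇑((c : ℂ)⁻¹ • (f₀ : CuspForm (Gamma0 p) 2))) k = ((φ (fr16_rho p P) : ℤ) : ℂ) := by
    intro k P hP
    rw [Fermat.Agent.LibS49.qCoeff_smul', fr16_coeff_eq_pair p f₀ P k hP, hf₀,
      LinearMap.smul_apply, smul_eq_mul, Int.cast_mul]
    field_simp
  apply hU l hl a ((c : ℂ)⁻¹ • (f₀ : CuspForm (Gamma0 p) 2))
  · intro k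
    rcases Nat.eq_zero_or_pos k with hk | hk
    · exact ⟨0, by rw [hk, Fermat.Agent.LibS49.qCoeff_zero_index]; simp⟩
    · obtain ⟨P, -, hP⟩ := fr16_exists_heckePoly p k hk
      exact ⟨φ (fr16_rho p P), hcoeff k P hP⟩
  · intro k hk
    obtain ⟨P, hP1, hP⟩ := fr16_exists_heckePoly p k hk
    have h1 : ((φ (fr16_rho p P) : ℤ) : ZMod (l ^ a)) = ((fr16_sigma p k : ℤ) : ZMod (l ^ a)) := by
      rw [hφ', hlam, hg, hP1]
    rw [eq_comm, ZMod.intCast_eq_intCast_iff_dvd_sub] at h1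
    obtain ⟨cc, hcc⟩ := h1
    refine ⟨cc, ?_⟩
    rw [hcoeff k P hP]
    congr 1
    push_cast at hcc
    linarith

theorem fr16_main (p : ℕ) [Fact p.Prime] (hU : fr16_UpperCore p) (hL : fr16_LowerCore p) :
    Nat.card (↥(heckeLatticeAlgebra p ∅) ⧸
        Ideal.map ((latticeRestrictHom p ∅).toRingHom.comp (heckeEvalForms p 2))
          (eisensteinIdeal p)) =
      eisensteinNumerator p := by
  change Nat.card (↥(heckeLatticeAlgebra p ∅) ⧸ Ideal.map (fr16_rho p) (eisensteinIdeal p)) = _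
  set J := Ideal.map (fr16_rho p) (eisensteinIdeal p) with hJ
  set n := eisensteinNumerator p with hn
  let ev : HeckeAlg →+* ℤ :=
    ((MvPolynomial.aeval (eisensteinSystem p) : HeckeAlg →ₐ[ℤ] ℤ) : HeckeAlg →+* ℤ)
  have hev : ∀ Q : HeckeAlg, ev Q = MvPolynomial.aeval (eisensteinSystem p) Q := fun Q => rfl
  have hevC : ∀ c : ℤ, ev (MvPolynomial.C c) = c := fun c => by
    rw [hev, MvPolynomial.aeval_C]; rfl
  have hevsurj : Function.Surjective ev := fun c => ⟨MvPolynomial.C c, hevC c⟩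
  have hrhoC : ∀ c : ℤ, fr16_rho p (MvPolynomial.C c) = (c : ↥(heckeLatticeAlgebra p ∅)) :=
    fun c => by
      have : (MvPolynomial.C c : HeckeAlg) = ((c : ℤ) : HeckeAlg) := by simp
      rw [this, map_intCast]
  have hmemJ : ∀ t : ↥(heckeLatticeAlgebra p ∅), t ∈ J ↔ ∃ P : HeckeAlg, ev P = 0 ∧ fr16_rho p P = t := by
    intro t
    rw [hJ, Ideal.mem_map_iff_of_surjective _ (fr16_rho_surjective p)]
    constructor
    · rintro ⟨P, hP, rfl⟩
      exact ⟨P, (mem_eigenIdeal_iff _ P).1 hP, rfl⟩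
    · rintro ⟨P, hP, rfl⟩
      exact ⟨P, (mem_eigenIdeal_iff _ P).2 hP, rfl⟩
  -- the ideal of Eisenstein values of relations
  set 𝔞 : Ideal ℤ := Ideal.map ev (RingHom.ker (fr16_rho p)) with h𝔞
  have hmem𝔞 : ∀ c : ℤ, c ∈ 𝔞 ↔ ∃ Q : HeckeAlg, fr16_rho p Q = 0 ∧ ev Q = c := by
    intro c
    rw [h𝔞, Ideal.mem_map_iff_of_surjective _ hevsurj]
    constructor
    · rintro ⟨Q, hQ, rfl⟩
      exact ⟨Q, (RingHom.mem_ker).1 hQ, rfl⟩
    · rintro ⟨Q, hQ, rfl⟩
      exact ⟨Q, (RingHom.mem_ker).2 hQ, rfl⟩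
  obtain ⟨g, hg⟩ : ∃ g : ℤ, 𝔞 = Ideal.span {g} :=
    (IsPrincipalIdealRing.principal 𝔞).principal
  have hdvd𝔞 : ∀ c : ℤ, c ∈ 𝔞 ↔ g ∣ c := fun c => by rw [hg, Ideal.mem_span_singleton]
  have hg𝔞 : g ∈ 𝔞 := (hdvd𝔞 g).2 dvd_rfl
  -- `g` and `n` divide each other
  have h1 : (n : ℤ) ∣ g := by
    obtain ⟨Q, hQ0, hQ⟩ := (hmem𝔞 g).1 hg𝔞
    rw [← hQ]
    exact hL Q hQ0
  have h2 : g.natAbs ∣ n := by
    rw [Nat.dvd_iff_prime_pow_dvd_dvd]
    intro l a hl hla
    apply fr16_key p hU l hl a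
    intro Q hQ
    have h3 : g ∣ ev Q := (hdvd𝔞 _).1 ((hmem𝔞 _).2 ⟨Q, hQ, rfl⟩)
    have h4 : ((l ^ a : ℕ) : ℤ) ∣ g := by
      rw [← Int.natAbs_dvd_natAbs, Int.natAbs_natCast]
      exact hla
    exact dvd_trans h4 h3
  have hgn : 𝔞 = Ideal.span {(n : ℤ)} := by
    rw [hg]
    apply Ideal.span_singleton_eq_span_singleton.2
    apply Int.associated_iff_natAbs.2
    rw [Int.natAbs_natCast]
    exact Nat.dvd_antisymm h2 (by rw [← Int.natAbs_natCast n]; exact Int.natAbs_dvd_natAbs.2 h1)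
  -- the canonical map `ℤ → T ⧸ J`
  let φ : ℤ →+* (↥(heckeLatticeAlgebra p ∅) ⧸ J) := Int.castRingHom _
  have hφsurj : Function.Surjective φ := by
    intro x
    obtain ⟨t, rfl⟩ := Ideal.Quotient.mk_surjective x
    obtain ⟨P, rfl⟩ := fr16_rho_surjective p t
    refine ⟨ev P, ?_⟩
    have : φ (ev P) = Ideal.Quotient.mk J ((ev P : ℤ) : ↥(heckeLatticeAlgebra p ∅)) := by
      rw [map_intCast]; rfl
    rw [this, eq_comm, Ideal.Quotient.eq, hmemJ]
    refine ⟨P - MvPolynomial.C (ev P), ?_, ?_⟩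
    · rw [map_sub, hevC, sub_self]
    · rw [map_sub, hrhoC]
  have hφker : RingHom.ker φ = Ideal.span {(n : ℤ)} := by
    rw [← hgn]
    ext c
    rw [RingHom.mem_ker, hmem𝔞]
    have : φ c = Ideal.Quotient.mk J ((c : ℤ) : ↥(heckeLatticeAlgebra p ∅)) := by
      rw [map_intCast]; rfl
    rw [this, Ideal.Quotient.eq_zero_iff_mem, hmemJ]
    constructor
    · rintro ⟨P, hP1, hP2⟩
      refine ⟨MvPolynomial.C c - P, ?_, ?_⟩
      · rw [map_sub, hrhoC, hP2, sub_self]
      · rw [map_sub, hevC, hP1, sub_zero]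
    · rintro ⟨Q, hQ1, hQ2⟩
      refine ⟨MvPolynomial.C c - Q, ?_, ?_⟩
      · rw [map_sub, hevC, hQ2, sub_self]
      · rw [map_sub, hrhoC, hQ1, sub_zero]
  have e1 : (ℤ ⧸ RingHom.ker φ) ≃+* (↥(heckeLatticeAlgebra p ∅) ⧸ J) :=
    RingHom.quotientKerEquivOfSurjective hφsurj
  have e2 : (ℤ ⧸ RingHom.ker φ) ≃+* ZMod n :=
    (Ideal.quotEquivOfEq hφker).trans (Int.quotientSpanNatEquivZMod n)
  rw [← Nat.card_congr e1.toEquiv, Nat.card_congr e2.toEquiv, Nat.card_zmod]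

/-! ### Interface variants with inline hypotheses -/

theorem fr16_sigma_eq_natCast (p k : ℕ) :
    fr16_sigma p k = ((∑ d ∈ k.divisors with ¬ p ∣ d, d : ℕ) : ℤ) := by
  unfold fr16_sigma
  push_cast
  rfl

/-- The upper core in the shape with a natural-number divisor sum and a congruence stated in
`ℂ` (no integrality hypothesis needed from the provider). -/
theorem fr16_upperCore_of (p : ℕ)
    (h : ∀ (l : ℕ), l.Prime → ∀ (a : ℕ) (f : CuspForm (Gamma0 p) 2),
      (∀ k : ℕ, 1 ≤ k → ∃ c : ℤ, qCoeff (⇑f) k =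
        ((∑ d ∈ k.divisors with ¬ p ∣ d, d : ℕ) : ℂ) + (l : ℂ) ^ a * (c : ℂ)) →
      l ^ a ∣ eisensteinNumerator p) :
    fr16_UpperCore p := by
  intro l hl a f _ hf
  apply h l hl a f
  intro k hk
  obtain ⟨c, hc⟩ := hf k hk
  refine ⟨c, ?_⟩
  rw [hc, fr16_sigma_eq_natCast]
  push_cast
  rfl

/-- The frame with both inputs inline: `hU` is the conclusion shape of the upper assembly,
`hL` the conclusion shape of the lower assembly. -/
theorem fr16_main' (p : ℕ) [Fact p.Prime]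
    (hU : ∀ (l : ℕ), l.Prime → ∀ (a : ℕ) (f : CuspForm (Gamma0 p) 2),
      (∀ k : ℕ, 1 ≤ k → ∃ c : ℤ, qCoeff (⇑f) k =
        ((∑ d ∈ k.divisors with ¬ p ∣ d, d : ℕ) : ℂ) + (l : ℂ) ^ a * (c : ℂ)) →
      l ^ a ∣ eisensteinNumerator p)
    (hL : ∀ P : HeckeAlg,
      ((latticeRestrictHom p ∅).toRingHom.comp (heckeEvalForms p 2)) P = 0 →
        ((eisensteinNumerator p : ℕ) : ℤ) ∣ MvPolynomial.aeval (eisensteinSystem p) P) :
    Nat.card (↥(heckeLatticeAlgebra p ∅) ⧸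
        Ideal.map ((latticeRestrictHom p ∅).toRingHom.comp (heckeEvalForms p 2))
          (eisensteinIdeal p)) =
      eisensteinNumerator p :=
  fr16_main p (fr16_upperCore_of p hU) hL

end Fermat.Agent.S16Lib
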