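/-
S16 (Eisenstein ideal index), chunk "FrickeForm" (helper2): the Fricke transform
`H ∣[k] W_p` of a modular form on `Γ₀(p)` is again a modular form on `Γ₀(p)`
(`W_p = ep16_W p = [[0,-1],[p,0]]` normalises `Γ₀(p)`).
-/
import Fermat.Agent.Lib.S16.EisFricke

set_option autoImplicit false

namespace Fermat.Agent.S16Lib

open UpperHalfPlane ModularForm CongruenceSubgroup MatrixGroups Matrix.SpecialLinearGroup
open scoped Manifold Topology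

/-- `W_p` normalises `Γ₀(p)`: `W_p γ = γ' W_p` with `γ' = [[d, -c/p], [-p b, a]] ∈ Γ₀(p)`. -/
theorem ff16_W_mul_gamma0 (p : ℕ) [NeZero p] (γ : SL(2, ℤ)) (hγ : γ ∈ Gamma0 p) :
    ∃ γ' : SL(2, ℤ), γ' ∈ Gamma0 p ∧ ep16_W p * (mapGL ℝ γ) = (mapGL ℝ γ') * ep16_W p := by
  have hp : p ≠ 0 := NeZero.ne p
  rw [Gamma0_mem] at hγ
  obtain ⟨c', hc'⟩ : (p : ℤ) ∣ γ 1 0 := (ZMod.intCast_zmod_eq_zero_iff_dvd _ _).mp hγ
  have hdet : γ 0 0 * γ 1 1 - γ 0 1 * γ 1 0 = 1 := by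
    have := γ.det_coe
    rw [Matrix.det_fin_two] at this
    exact this
  have hdet' : (!![γ 1 1, -c'; -((p : ℤ) * γ 0 1), γ 0 0] : Matrix (Fin 2) (Fin 2) ℤ).det = 1 := by
    rw [Matrix.det_fin_two_of]
    rw [hc'] at hdet
    linarith
  let γ' : SL(2, ℤ) := ⟨!![γ 1 1, -c'; -((p : ℤ) * γ 0 1), γ 0 0], hdet'⟩
  have e00 : γ' 0 0 = γ 1 1 := rfl
  have e01 : γ' 0 1 = -c' := rfl
  have e10 : γ' 1 0 = -((p : ℤ) * γ 0 1) := rfl
  have e11 : γ' 1 1 = γ 0 0 := rfl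
  refine ⟨γ', ?_, ?_⟩
  · rw [Gamma0_mem, e10]
    simp
  · apply Units.ext
    rw [Units.val_mul, Units.val_mul, ep16_W_val hp]
    ext i j
    fin_cases i <;> fin_cases j <;>
      simp [mapGL_coe_matrix, Matrix.mul_apply, Fin.sum_univ_two, hc', e00, e01, e10, e11] <;>
      ring

open scoped Pointwise in
theorem ff16_gamma0_le_conj (p : ℕ) [NeZero p] :
    ((Gamma0 p : Subgroup SL(2, ℤ)) : Subgroup (GL (Fin 2) ℝ))
      ≤ ConjAct.toConjAct (ep16_W p)⁻¹ • ((Gamma0 p : Subgroup SL(2, ℤ)) : Subgroup (GL (Fin 2) ℝ)) := by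
  rintro x ⟨γ, hγ, rfl⟩
  rw [Subgroup.mem_pointwise_smul_iff_inv_smul_mem]
  obtain ⟨γ', hγ'mem, hγ'⟩ := ff16_W_mul_gamma0 p γ hγ
  refine ⟨γ', hγ'mem, ?_⟩
  rw [← map_inv, inv_inv, ConjAct.toConjAct_smul]
  rw [eq_mul_inv_iff_mul_eq]
  exact hγ'.symm

/-- The Fricke transform `H ∣[k] W_p` as a modular form on `Γ₀(p)`. -/
noncomputable def tw16_fricke (p : ℕ) [Fact p.Prime] (k : ℤ) (H : ModularForm (Gamma0 p) k) :
    ModularForm (Gamma0 p) k where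
  toFun := (⇑H : ℍ → ℂ) ∣[k] ep16_W p
  slash_action_eq' := by
    have : NeZero p := ⟨(Fact.out : p.Prime).ne_zero⟩
    rintro x ⟨γ, hγ, rfl⟩
    obtain ⟨γ', hγ'mem, hγ'⟩ := ff16_W_mul_gamma0 p γ hγ
    rw [← SlashAction.slash_mul, hγ', SlashAction.slash_mul,
      SlashInvariantFormClass.slash_action_eq H _ (Subgroup.mem_map_of_mem _ hγ'mem)]
  holo' := (ModularFormClass.holo H).slash k _
  bdd_at_cusps' := fun {c} hc =>
    haveI : NeZero p := ⟨(Fact.out : p.Prime).ne_zero⟩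
    (ModularForm.translate H (ep16_W p)).bdd_at_cusps' (hc.mono (ff16_gamma0_le_conj p))

theorem tw16_fricke_coe (p : ℕ) [Fact p.Prime] (k : ℤ) (H : ModularForm (Gamma0 p) k) :
    (⇑(tw16_fricke p k H) : ℍ → ℂ) = (⇑H : ℍ → ℂ) ∣[k] ep16_W p := rfl

end Fermat.Agent.S16Lib
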