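import Fermat.Agent.Lib.S21.Injective
import Fermat.Prelude.Def_CuspForm_HeckeEvalForms

/-!
# Hecke operators on `Hom(Γ₀(N), A)` and equivariance of the period map

For a finite system of coset representatives `α x` (upper half plane automorphisms of positive
determinant) with `α x * γ = tw γ x * α (pm γ x)` for `γ ∈ Γ₀(N)`, the operator
`φ ↦ (γ ↦ ∑ x, φ (tw γ x))` on `Hom(Γ₀(N), A)` is defined; it is compatible with coset sums
of equivariant functions on the upper half plane, hence with the Hecke operators on weight two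
forms via primitives.
-/

set_option autoImplicit false
set_option linter.unusedSectionVars false

open Complex Filter Function
open UpperHalfPlane hiding I
open scoped Manifold Topology Real MatrixGroups ModularForm
open Matrix.SpecialLinearGroup CongruenceSubgroup

namespace Fermat.Agent.S16Lib

open Fermat.Agent.H4 Fermat.Agent.S21Lib ModularCurve ModularCurve.Period

section Abstract

variable {N : ℕ} {ι : Type} [Fintype ι] (α : ι → GL (Fin 2) ℝ)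
  (pm : Gamma0 N → Equiv.Perm ι) (tw : Gamma0 N → ι → Gamma0 N)

/-- The coset relation `α x * γ = tw γ x * α (pm γ x)`. -/
def hh16_Rel : Prop :=
  ∀ (γ : Gamma0 N) (x : ι), α x * (mapGL ℝ (γ : SL(2, ℤ)) : GL (Fin 2) ℝ)
    = (mapGL ℝ (tw γ x : SL(2, ℤ)) : GL (Fin 2) ℝ) * α (pm γ x)

/-- The permutations form a right action. -/
def hh16_PermMul : Prop := ∀ (γ δ : Gamma0 N) (x : ι), pm (γ * δ) x = pm δ (pm γ x)

variable {α pm tw}

theorem hh16_tw_mul (hrel : hh16_Rel α pm tw) (hpm : hh16_PermMul pm) (γ δ : Gamma0 N) (x : ι) :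
    tw (γ * δ) x = tw γ x * tw δ (pm γ x) := by
  have h1 := hrel (γ * δ) x
  have h2 := hrel γ x
  have h3 := hrel δ (pm γ x)
  rw [hpm γ δ x] at h1
  have h4 : α x * (mapGL ℝ ((γ * δ : Gamma0 N) : SL(2, ℤ)) : GL (Fin 2) ℝ)
      = (mapGL ℝ ((tw γ x * tw δ (pm γ x) : Gamma0 N) : SL(2, ℤ)) : GL (Fin 2) ℝ)
        * α (pm δ (pm γ x)) := by
    rw [Subgroup.coe_mul, map_mul, ← mul_assoc, h2, mul_assoc, h3, ← mul_assoc, Subgroup.coe_mul,
      map_mul]
  rw [h1] at h4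
  have h5 := mul_right_cancel h4
  exact Subtype.ext (mapGL_injective h5)

variable (tw) in
/-- The Hecke operator on homomorphisms attached to a coset system. -/
noncomputable def hh16_op (hrel : hh16_Rel α pm tw) (hpm : hh16_PermMul pm)
    (A : Type*) [AddCommGroup A] :
    (Additive (Gamma0 N) →+ A) →+ (Additive (Gamma0 N) →+ A) where
  toFun φ := AddMonoidHom.mk' (fun γ => ∑ x, φ (Additive.ofMul (tw (Additive.toMul γ) x)))
    (fun γ δ => by
      have h : ∀ x, φ (Additive.ofMul (tw (Additive.toMul (γ + δ)) x))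
          = φ (Additive.ofMul (tw (Additive.toMul γ) x))
            + φ (Additive.ofMul (tw (Additive.toMul δ) (pm (Additive.toMul γ) x))) := by
        intro x
        rw [toMul_add, hh16_tw_mul hrel hpm, ofMul_mul, map_add]
      simp_rw [h]
      rw [Finset.sum_add_distrib]
      congr 1
      exact Equiv.sum_comp (pm (Additive.toMul γ))
        (fun x => φ (Additive.ofMul (tw (Additive.toMul δ) x))))
  map_zero' := by
    ext γ
    simp
  map_add' φ ψ := by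
    ext γ
    simp [Finset.sum_add_distrib]

theorem hh16_op_apply (hrel : hh16_Rel α pm tw) (hpm : hh16_PermMul pm)
    {A : Type*} [AddCommGroup A] (φ : Additive (Gamma0 N) →+ A) (γ : Gamma0 N) :
    hh16_op tw hrel hpm A φ (Additive.ofMul γ) = ∑ x, φ (Additive.ofMul (tw γ x)) := rfl

theorem hh16_op_comp (hrel : hh16_Rel α pm tw) (hpm : hh16_PermMul pm)
    {A B : Type*} [AddCommGroup A] [AddCommGroup B] (f : A →+ B)
    (φ : Additive (Gamma0 N) →+ A) :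
    hh16_op tw hrel hpm B (f.comp φ) = f.comp (hh16_op tw hrel hpm A φ) := by
  ext γ
  show ∑ x, f (φ _) = f (∑ x, φ _)
  rw [map_sum]

/-- The basic algebraic equivariance: coset sums of an equivariant function. -/
theorem hh16_sum_sub (hrel : hh16_Rel α pm tw) (hpm : hh16_PermMul pm) {F : ℍ → ℂ}
    {φ : Additive (Gamma0 N) →+ ℂ}
    (hF : ∀ (γ : Gamma0 N) (z : ℍ), F ((γ : SL(2, ℤ)) • z) - F z = φ (Additive.ofMul γ))
    (γ : Gamma0 N) (z : ℍ) :
    ∑ x, F (α x • ((γ : SL(2, ℤ)) • z)) - ∑ x, F (α x • z)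
      = hh16_op tw hrel hpm ℂ φ (Additive.ofMul γ) := by
  rw [hh16_op_apply]
  have h : ∀ x, F (α x • ((γ : SL(2, ℤ)) • z))
      = φ (Additive.ofMul (tw γ x)) + F (α (pm γ x) • z) := by
    intro x
    have h1 := hF (tw γ x) (α (pm γ x) • z)
    have h2 : α x • ((γ : SL(2, ℤ)) • z) = ((tw γ x : Gamma0 N) : SL(2, ℤ)) • (α (pm γ x) • z) := by
      rw [ModularGroup.sl_moeb, ModularGroup.sl_moeb, ← mul_smul, ← mul_smul]
      congr 1
      exact hrel γ x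
    rw [h2, ← h1]
    ring
  simp_rw [h]
  rw [Finset.sum_add_distrib, Equiv.sum_comp (pm γ) (fun x => F (α x • z))]
  ring

end Abstract

section Forms

variable {N : ℕ} {ι : Type} [Fintype ι] {α : ι → GL (Fin 2) ℝ}
  {pm : Gamma0 N → Equiv.Perm ι} {tw : Gamma0 N → ι → Gamma0 N}

/-- A coset sum of a primitive is a primitive of the coset sum of the weight two slashes. -/
theorem hh16_isPrim_sum (hdet : ∀ x, 0 < (α x).det.val) {F f : ℍ → ℂ} (hF : IsPrim F f) :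
    IsPrim (fun z => ∑ x, F (α x • z)) (∑ x, f ∣[(2 : ℤ)] α x) := by
  intro z
  have h := HasDerivAt.fun_sum (u := Finset.univ)
    (fun x _ => hasDerivAt_comp_smul hF (α x) (hdet x) z)
  have e : (∑ x, f ∣[(2 : ℤ)] α x) z = ∑ x, (f ∣[(2 : ℤ)] α x) z := by
    rw [Finset.sum_apply]
  rw [e]
  exact h

/-- If `f' = ∑ f ∣ α x`, the period homomorphisms of primitives of `f` and `f'` correspond
under the Hecke operator on homomorphisms. -/
theorem hh16_period_of_isPrim (hrel : hh16_Rel α pm tw) (hpm : hh16_PermMul pm)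
    (hdet : ∀ x, 0 < (α x).det.val) {F f F' f' : ℍ → ℂ} (hF : IsPrim F f) (hF' : IsPrim F' f')
    (hf' : f' = ∑ x, f ∣[(2 : ℤ)] α x) {φ φ' : Additive (Gamma0 N) →+ ℂ}
    (hφ : ∀ (γ : Gamma0 N) (z : ℍ), F ((γ : SL(2, ℤ)) • z) - F z = φ (Additive.ofMul γ))
    (hφ' : ∀ (γ : Gamma0 N) (z : ℍ), F' ((γ : SL(2, ℤ)) • z) - F' z = φ' (Additive.ofMul γ)) :
    φ' = hh16_op tw hrel hpm ℂ φ := by
  have hG := hh16_isPrim_sum hdet hF
  rw [← hf'] at hG
  have hD : ∀ t : ℍ, HasDerivAt (fun u : ℂ => (F' ∘ ofComplex) u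
      - ((fun z => ∑ x, F (α x • z)) ∘ ofComplex) u) 0 (t : ℂ) := by
    intro t
    have h := (hF' t).sub (hG t)
    rw [sub_self] at h
    exact h
  have hconst : ∀ z w : ℍ, F' z - ∑ x, F (α x • z) = F' w - ∑ x, F (α x • w) := by
    intro z w
    have := eq_of_hasDerivAt_zero hD z w
    simpa only [comp_apply, ofComplex_apply] using this
  refine AddMonoidHom.ext fun γ' => ?_
  obtain ⟨γ, rfl⟩ : ∃ γ : Gamma0 N, Additive.ofMul γ = γ' := ⟨Additive.toMul γ', rfl⟩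
  rw [← hφ' γ UpperHalfPlane.I, ← hh16_sum_sub hrel hpm hφ γ UpperHalfPlane.I]
  linear_combination hconst ((γ : SL(2, ℤ)) • UpperHalfPlane.I) UpperHalfPlane.I

variable [NeZero N]

/-- Equivariance of the period map of cusp forms. -/
theorem hh16_periodMap (hrel : hh16_Rel α pm tw) (hpm : hh16_PermMul pm)
    (hdet : ∀ x, 0 < (α x).det.val) (f g : CuspForm (Gamma0 N) 2)
    (hg : ⇑g = ∑ x, ⇑f ∣[(2 : ℤ)] α x) :
    periodMap N g = hh16_op tw hrel hpm ℂ (periodMap N f) :=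
  hh16_period_of_isPrim hrel hpm hdet (cusp_hasPrim N f).isPrim (cusp_hasPrim N g).isPrim hg
    (fun γ z => (periodMap_apply_prim N f γ z).symm)
    (fun γ z => (periodMap_apply_prim N g γ z).symm)

theorem hh16_T_zpow_mem (m : ℤ) : ModularGroup.T ^ m ∈ Gamma0 N := by
  rw [Gamma0_mem, ModularGroup.coe_T_zpow]
  simp

/-- The decaying primitive of a cusp form is invariant under integer translations. -/
theorem hh16_prim_vadd (f : CuspForm (Gamma0 N) 2) (m : ℤ) (w : ℍ) :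
    prim f ((m : ℝ) +ᵥ w) = prim f w := by
  have h1 := periodMap_apply_prim N f ⟨ModularGroup.T ^ m, hh16_T_zpow_mem m⟩ w
  have h2 : periodMap N f (Additive.ofMul ⟨ModularGroup.T ^ m, hh16_T_zpow_mem m⟩) = 0 := by
    refine periodMap_mem_parabolicHoms N f ⟨ModularGroup.T ^ m, hh16_T_zpow_mem m⟩ ?_
    show ((ModularGroup.T ^ m : SL(2, ℤ)) : Matrix (Fin 2) (Fin 2) ℤ).trace ^ 2 = 4
    rw [ModularGroup.coe_T_zpow, Matrix.trace_fin_two_of]
    norm_num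
  rw [h2] at h1
  have h3 : ((⟨ModularGroup.T ^ m, hh16_T_zpow_mem m⟩ : Gamma0 N) : SL(2, ℤ)) • w
      = (m : ℝ) +ᵥ w := modular_T_zpow_smul w m
  rw [h3] at h1
  exact (sub_eq_zero.mp h1.symm)

/-- Equivariance of the conjugated period map of cusp forms. -/
theorem hh16_charInvolution_periodMap (hrel : hh16_Rel α pm tw) (hpm : hh16_PermMul pm)
    (hdet : ∀ x, 0 < (α x).det.val)
    (hJ : ∃ (e : Equiv.Perm ι) (m : ι → ℤ), ∀ (x : ι) (z : ℍ),
      J • (α x • z) = ((m x : ℤ) : ℝ) +ᵥ (α (e x) • (J • z)))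
    (f g : CuspForm (Gamma0 N) 2) (hg : ⇑g = ∑ x, ⇑f ∣[(2 : ℤ)] α x) :
    charInvolution N ℂ ℂ (periodMap N g)
      = hh16_op tw hrel hpm ℂ (charInvolution N ℂ ℂ (periodMap N f)) := by
  obtain ⟨e, m, hJ⟩ := hJ
  have hFf := hasEquivariantPrimitive_prim N f
  have hFg := hasEquivariantPrimitive_prim N g
  have hG := hh16_isPrim_sum hdet (cusp_hasPrim N f).isPrim
  rw [← hg] at hG
  have hD : ∀ t : ℍ, HasDerivAt (fun u : ℂ => (prim g ∘ ofComplex) u
      - ((fun z => ∑ x, prim f (α x • z)) ∘ ofComplex) u) 0 (t : ℂ) := by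
    intro t
    have h := ((cusp_hasPrim N g).isPrim t).sub (hG t)
    rw [sub_self] at h
    exact h
  have hconst : ∀ z w : ℍ, prim g z - ∑ x, prim f (α x • z) = prim g w - ∑ x, prim f (α x • w) := by
    intro z w
    have := eq_of_hasDerivAt_zero hD z w
    simpa only [comp_apply, ofComplex_apply] using this
  have hswap : ∀ w : ℍ, ∑ x, prim f (α x • (J • w)) = ∑ x, prim f (J • (α x • w)) := by
    intro w
    rw [← Equiv.sum_comp e (fun x => prim f (α x • (J • w)))]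
    refine Finset.sum_congr rfl fun x _ => ?_
    rw [hJ x w, hh16_prim_vadd]
  refine AddMonoidHom.ext fun γ' => ?_
  obtain ⟨γ, rfl⟩ : ∃ γ : Gamma0 N, Additive.ofMul γ = γ' := ⟨Additive.toMul γ', rfl⟩
  rw [charInvolution_periodMap_apply N g hFg γ UpperHalfPlane.I]
  have key := hh16_sum_sub hrel hpm (F := fun z => prim f (J • z))
    (φ := charInvolution N ℂ ℂ (periodMap N f))
    (fun γ z => (charInvolution_periodMap_apply N f hFf γ z).symm) γ UpperHalfPlane.I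
  rw [← key]
  show _ = ∑ x, prim f (J • (α x • ((γ : SL(2, ℤ)) • UpperHalfPlane.I)))
    - ∑ x, prim f (J • (α x • UpperHalfPlane.I))
  rw [← hswap, ← hswap]
  linear_combination hconst (J • ((γ : SL(2, ℤ)) • UpperHalfPlane.I)) (J • UpperHalfPlane.I)

end Forms

open ModularForm
open P2MW.S_ModularForm_heckeT_slash_eq_self_of_mem_Gamma0.ModularForm.HeckeSlashInvariance

section Conj

theorem hh16_J_heckeMatrix (p : ℕ) [NeZero p] (j : ZMod p) (z : ℍ) :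
    J • (heckeMatrix p j.val • z)
      = (((if j = 0 then 0 else -1 : ℤ) : ℤ) : ℝ) +ᵥ (heckeMatrix p (-j).val • (J • z)) := by
  have hp : p ≠ 0 := NeZero.ne p
  have hp' : (p : ℂ) ≠ 0 := by exact_mod_cast hp
  apply UpperHalfPlane.ext
  rw [coe_J_smul, coe_heckeMatrix_smul hp, coe_vadd, coe_heckeMatrix_smul hp, coe_J_smul,
    ZMod.neg_val]
  split_ifs with h
  · subst h
    simp [map_div₀, neg_div]
  · have e : ((p - j.val : ℕ) : ℂ) = (p : ℂ) - j.val := by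
      rw [Nat.cast_sub (ZMod.val_lt j).le]
    rw [e]
    simp only [map_div₀, map_add, map_natCast, Int.cast_neg, Int.cast_one, Complex.ofReal_neg,
      Complex.ofReal_one]
    field_simp
    ring

theorem hh16_J_heckeDiag (p : ℕ) [NeZero p] (z : ℍ) :
    J • (heckeDiagMatrix p • z) = heckeDiagMatrix p • (J • z) := by
  have hp : p ≠ 0 := NeZero.ne p
  apply UpperHalfPlane.ext
  rw [coe_J_smul, coe_heckeDiagMatrix_smul hp, coe_heckeDiagMatrix_smul hp, coe_J_smul]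
  simp

end Conj

theorem hh16_dvd_of_mem {N : ℕ} (γ : Gamma0 N) : (N : ℤ) ∣ (γ : SL(2, ℤ)) 1 0 :=
  (ZMod.intCast_zmod_eq_zero_iff_dvd _ _).mp (Gamma0_mem.mp γ.2)

section TSystem

variable (N : ℕ) (ℓ : ℕ) [Fact ℓ.Prime] (hℓN : ¬ ℓ ∣ N)

/-- The twisted elements for `T_ℓ`. -/
noncomputable def hh16_twT (γ : Gamma0 N) (x : OnePoint (ZMod ℓ)) : Gamma0 N :=
  ⟨(heckeRep_mul hℓN (γ : SL(2, ℤ)) (hh16_dvd_of_mem γ) x).choose,
    Gamma0_mem.mpr ((ZMod.intCast_zmod_eq_zero_iff_dvd _ _).mpr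
      (heckeRep_mul hℓN (γ : SL(2, ℤ)) (hh16_dvd_of_mem γ) x).choose_spec.1)⟩

/-- The permutation of `ℙ¹(𝔽_ℓ)` for `T_ℓ`. -/
noncomputable def hh16_pmT (γ : Gamma0 N) : Equiv.Perm (OnePoint (ZMod ℓ)) :=
  MulAction.toPerm (redMatrix ℓ (γ : SL(2, ℤ)))

theorem hh16_relT : hh16_Rel (heckeRep ℓ) (hh16_pmT N ℓ) (hh16_twT N ℓ hℓN) := fun γ x =>
  (heckeRep_mul hℓN (γ : SL(2, ℤ)) (hh16_dvd_of_mem γ) x).choose_spec.2

theorem hh16_redMatrix_mul (g h : SL(2, ℤ)) :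
    redMatrix ℓ (g * h) = redMatrix ℓ h * redMatrix ℓ g := by
  apply Matrix.GeneralLinearGroup.ext
  intro i j
  fin_cases i <;> fin_cases j <;>
    simp [redMatrix, Matrix.mul_apply, Fin.sum_univ_two] <;> ring

theorem hh16_permMulT : hh16_PermMul (hh16_pmT N ℓ) := fun γ δ x => by
  show redMatrix ℓ ((γ * δ : Gamma0 N) : SL(2, ℤ)) • x
    = redMatrix ℓ (δ : SL(2, ℤ)) • redMatrix ℓ (γ : SL(2, ℤ)) • x
  rw [Subgroup.coe_mul, hh16_redMatrix_mul, mul_smul]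

theorem hh16_detT (x : OnePoint (ZMod ℓ)) : 0 < (heckeRep ℓ x).det.val := by
  induction x using OnePoint.rec with
  | infty => exact det_heckeDiagMatrix_pos ℓ
  | coe j => exact det_heckeMatrix_pos ℓ j.val

theorem hh16_JT : ∃ (e : Equiv.Perm (OnePoint (ZMod ℓ))) (m : OnePoint (ZMod ℓ) → ℤ),
    ∀ (x : OnePoint (ZMod ℓ)) (z : ℍ),
      J • (heckeRep ℓ x • z) = ((m x : ℤ) : ℝ) +ᵥ (heckeRep ℓ (e x) • (J • z)) := by
  have : NeZero ℓ := ⟨(Fact.out : ℓ.Prime).ne_zero⟩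
  refine ⟨(Equiv.neg (ZMod ℓ)).optionCongr,
    fun x => x.elim 0 (fun j => if j = 0 then 0 else -1), fun x z => ?_⟩
  induction x using OnePoint.rec with
  | infty =>
    show J • (heckeDiagMatrix ℓ • z) = ((0 : ℤ) : ℝ) +ᵥ (heckeDiagMatrix ℓ • (J • z))
    rw [hh16_J_heckeDiag, Int.cast_zero, zero_vadd]
  | coe j => exact hh16_J_heckeMatrix ℓ j z

/-- The Hecke operator `T_ℓ` on `Hom(Γ₀(N), A)`. -/
noncomputable def hh16_T (A : Type*) [AddCommGroup A] :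
    (Additive (Gamma0 N) →+ A) →+ (Additive (Gamma0 N) →+ A) :=
  hh16_op (hh16_twT N ℓ hℓN) (hh16_relT N ℓ hℓN) (hh16_permMulT N ℓ) A

theorem hh16_T_comp {A B : Type*} [AddCommGroup A] [AddCommGroup B] (f : A →+ B)
    (φ : Additive (Gamma0 N) →+ A) :
    hh16_T N ℓ hℓN B (f.comp φ) = f.comp (hh16_T N ℓ hℓN A φ) :=
  hh16_op_comp _ _ f φ

theorem hh16_T_of_isPrim {F E F' E' : ℍ → ℂ} (hF : IsPrim F E) (hF' : IsPrim F' E')
    (hE' : E' = heckeT 2 ℓ E) {φ φ' : Additive (Gamma0 N) →+ ℂ}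
    (hφ : ∀ (γ : Gamma0 N) (z : ℍ), F ((γ : SL(2, ℤ)) • z) - F z = φ (Additive.ofMul γ))
    (hφ' : ∀ (γ : Gamma0 N) (z : ℍ), F' ((γ : SL(2, ℤ)) • z) - F' z = φ' (Additive.ofMul γ)) :
    φ' = hh16_T N ℓ hℓN ℂ φ := by
  have : NeZero ℓ := ⟨(Fact.out : ℓ.Prime).ne_zero⟩
  refine hh16_period_of_isPrim (hh16_relT N ℓ hℓN) (hh16_permMulT N ℓ) (hh16_detT ℓ) hF hF' ?_
    hφ hφ'
  rw [hE', heckeT_eq_sum_onePoint]

/-- An eigenfunction of `T_ℓ` (weight two) has an eigen-period. -/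
theorem hh16_T_eigen {F E : ℍ → ℂ} (hF : IsPrim F E) (c : ℂ) (hE : heckeT 2 ℓ E = c • E)
    {φ : Additive (Gamma0 N) →+ ℂ}
    (hφ : ∀ (γ : Gamma0 N) (z : ℍ), F ((γ : SL(2, ℤ)) • z) - F z = φ (Additive.ofMul γ)) :
    hh16_T N ℓ hℓN ℂ φ = c • φ := by
  refine (hh16_T_of_isPrim N ℓ hℓN hF (isPrim_smul c hF) hE.symm hφ (φ' := c • φ) ?_).symm
  intro γ z
  show c • F _ - c • F z = c • φ _
  rw [← hφ γ z, smul_sub]

variable [NeZero N]

theorem hh16_T_periodMap (hℓ : ℓ.Prime) (f : CuspForm (Gamma0 N) 2) :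
    hh16_T N ℓ hℓN ℂ (periodMap N f) = periodMap N (CuspForm.heckeTLin 2 hℓ hℓN f) := by
  have : NeZero ℓ := ⟨hℓ.ne_zero⟩
  refine (hh16_periodMap (hh16_relT N ℓ hℓN) (hh16_permMulT N ℓ) (hh16_detT ℓ) f _ ?_).symm
  rw [CuspForm.coe_heckeTLin_apply, heckeT_eq_sum_onePoint]

theorem hh16_T_charInvolution_periodMap (hℓ : ℓ.Prime) (f : CuspForm (Gamma0 N) 2) :
    hh16_T N ℓ hℓN ℂ (charInvolution N ℂ ℂ (periodMap N f))
      = charInvolution N ℂ ℂ (periodMap N (CuspForm.heckeTLin 2 hℓ hℓN f)) := by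
  have : NeZero ℓ := ⟨hℓ.ne_zero⟩
  refine (hh16_charInvolution_periodMap (hh16_relT N ℓ hℓN) (hh16_permMulT N ℓ) (hh16_detT ℓ)
    (hh16_JT ℓ) f _ ?_).symm
  rw [CuspForm.coe_heckeTLin_apply, heckeT_eq_sum_onePoint]

end TSystem

theorem hh16_dvdU (N q : ℕ) (hqN : q ∣ N) (γ : Gamma0 N) : (q : ℤ) ∣ (γ : SL(2, ℤ)) 1 0 :=
  (Int.natCast_dvd_natCast.mpr hqN).trans (hh16_dvd_of_mem γ)

section USystem

variable (N : ℕ) (q : ℕ) [NeZero q] (hqN : q ∣ N)

/-- The twisted elements for `U_q`. -/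
noncomputable def hh16_twU (γ : Gamma0 N) (x : ZMod q) : Gamma0 N :=
  ⟨(heckeMatrix_mul_of_dvd (γ : SL(2, ℤ)) (hh16_dvdU N q hqN γ) x).choose, by
    have h := (heckeMatrix_mul_of_dvd (γ : SL(2, ℤ)) (hh16_dvdU N q hqN γ) x).choose_spec.1
    rw [Gamma0_mem, h]
    push_cast
    rw [Gamma0_mem.mp γ.2, mul_zero]⟩

/-- The permutation of `ℤ/q` for `U_q`. -/
noncomputable def hh16_pmU (γ : Gamma0 N) : Equiv.Perm (ZMod q) :=
  affinePerm (γ : SL(2, ℤ)) ((ZMod.intCast_zmod_eq_zero_iff_dvd _ _).mpr (hh16_dvdU N q hqN γ))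

theorem hh16_relU : hh16_Rel (fun x : ZMod q => heckeMatrix q x.val) (hh16_pmU N q hqN)
    (hh16_twU N q hqN) := fun γ x =>
  (heckeMatrix_mul_of_dvd (γ : SL(2, ℤ)) (hh16_dvdU N q hqN γ) x).choose_spec.2

theorem hh16_permMulU : hh16_PermMul (hh16_pmU N q hqN) := fun γ δ x => by
  have hc : ((((γ : SL(2, ℤ)) 1 0 : ℤ)) : ZMod q) = 0 :=
    (ZMod.intCast_zmod_eq_zero_iff_dvd _ _).mpr (hh16_dvdU N q hqN γ)
  have hu := unit_of_apply_one_zero_eq_zero (γ : SL(2, ℤ)) hc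
  show affinePerm _ _ x = affinePerm _ _ (affinePerm _ _ x)
  rw [affinePerm_apply, affinePerm_apply, affinePerm_apply]
  simp only [Subgroup.coe_mul, Matrix.SpecialLinearGroup.coe_mul, Matrix.mul_apply,
    Fin.sum_univ_two]
  push_cast
  set a : ZMod q := (((γ : SL(2, ℤ)) 0 0 : ℤ) : ZMod q)
  set b : ZMod q := (((γ : SL(2, ℤ)) 0 1 : ℤ) : ZMod q)
  set c : ZMod q := (((γ : SL(2, ℤ)) 1 0 : ℤ) : ZMod q)
  set d : ZMod q := (((γ : SL(2, ℤ)) 1 1 : ℤ) : ZMod q)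
  set a' : ZMod q := (((δ : SL(2, ℤ)) 0 0 : ℤ) : ZMod q)
  set b' : ZMod q := (((δ : SL(2, ℤ)) 0 1 : ℤ) : ZMod q)
  set c' : ZMod q := (((δ : SL(2, ℤ)) 1 0 : ℤ) : ZMod q)
  set d' : ZMod q := (((δ : SL(2, ℤ)) 1 1 : ℤ) : ZMod q)
  linear_combination (b' * (a * b' + b * d' + c * b' * x + d * d' * x) + d * d' * b' * x) * hc
    + d' * b' * hu

theorem hh16_detU (x : ZMod q) : 0 < (heckeMatrix q x.val).det.val := det_heckeMatrix_pos q x.val

theorem hh16_JU : ∃ (e : Equiv.Perm (ZMod q)) (m : ZMod q → ℤ),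
    ∀ (x : ZMod q) (z : ℍ),
      J • (heckeMatrix q x.val • z) = ((m x : ℤ) : ℝ) +ᵥ (heckeMatrix q (e x).val • (J • z)) :=
  ⟨Equiv.neg (ZMod q), fun j => if j = 0 then 0 else -1, fun x z => hh16_J_heckeMatrix q x z⟩

/-- The Hecke operator `U_q` on `Hom(Γ₀(N), A)`. -/
noncomputable def hh16_U (A : Type*) [AddCommGroup A] :
    (Additive (Gamma0 N) →+ A) →+ (Additive (Gamma0 N) →+ A) :=
  hh16_op (hh16_twU N q hqN) (hh16_relU N q hqN) (hh16_permMulU N q hqN) A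

theorem hh16_U_comp {A B : Type*} [AddCommGroup A] [AddCommGroup B] (f : A →+ B)
    (φ : Additive (Gamma0 N) →+ A) :
    hh16_U N q hqN B (f.comp φ) = f.comp (hh16_U N q hqN A φ) :=
  hh16_op_comp _ _ f φ

theorem hh16_U_of_isPrim {F E F' E' : ℍ → ℂ} (hF : IsPrim F E) (hF' : IsPrim F' E')
    (hE' : E' = heckeU 2 q E) {φ φ' : Additive (Gamma0 N) →+ ℂ}
    (hφ : ∀ (γ : Gamma0 N) (z : ℍ), F ((γ : SL(2, ℤ)) • z) - F z = φ (Additive.ofMul γ))
    (hφ' : ∀ (γ : Gamma0 N) (z : ℍ), F' ((γ : SL(2, ℤ)) • z) - F' z = φ' (Additive.ofMul γ)) :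
    φ' = hh16_U N q hqN ℂ φ := by
  refine hh16_period_of_isPrim (hh16_relU N q hqN) (hh16_permMulU N q hqN) (hh16_detU q) hF hF' ?_
    hφ hφ'
  rw [hE', heckeU_eq_sum_zmod]

/-- An eigenfunction of `U_q` (weight two) has an eigen-period. -/
theorem hh16_U_eigen {F E : ℍ → ℂ} (hF : IsPrim F E) (c : ℂ) (hE : heckeU 2 q E = c • E)
    {φ : Additive (Gamma0 N) →+ ℂ}
    (hφ : ∀ (γ : Gamma0 N) (z : ℍ), F ((γ : SL(2, ℤ)) • z) - F z = φ (Additive.ofMul γ)) :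
    hh16_U N q hqN ℂ φ = c • φ := by
  refine (hh16_U_of_isPrim N q hqN hF (isPrim_smul c hF) hE.symm hφ (φ' := c • φ) ?_).symm
  intro γ z
  show c • F _ - c • F z = c • φ _
  rw [← hφ γ z, smul_sub]

variable [NeZero N]

theorem hh16_U_periodMap (f : CuspForm (Gamma0 N) 2) :
    hh16_U N q hqN ℂ (periodMap N f) = periodMap N (CuspForm.heckeULin 2 hqN f) := by
  refine (hh16_periodMap (hh16_relU N q hqN) (hh16_permMulU N q hqN) (hh16_detU q) f _ ?_).symm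
  rw [CuspForm.coe_heckeULin_apply, heckeU_eq_sum_zmod]

theorem hh16_U_charInvolution_periodMap (f : CuspForm (Gamma0 N) 2) :
    hh16_U N q hqN ℂ (charInvolution N ℂ ℂ (periodMap N f))
      = charInvolution N ℂ ℂ (periodMap N (CuspForm.heckeULin 2 hqN f)) := by
  refine (hh16_charInvolution_periodMap (hh16_relU N q hqN) (hh16_permMulU N q hqN) (hh16_detU q)
    (hh16_JU q) f _ ?_).symm
  rw [CuspForm.coe_heckeULin_apply, heckeU_eq_sum_zmod]

end USystem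

section Gen

variable (N : ℕ) [NeZero N]

/-- The operator on `Hom(Γ₀(N), A)` attached to the Hecke generator at `ℓ`
(`U_ℓ` if `ℓ ∣ N`, `T_ℓ` otherwise). -/
noncomputable def hh16_gen (ℓ : Nat.Primes) (A : Type*) [AddCommGroup A] :
    (Additive (Gamma0 N) →+ A) →+ (Additive (Gamma0 N) →+ A) :=
  if h : (ℓ : ℕ) ∣ N then
    haveI : NeZero (ℓ : ℕ) := ⟨ℓ.2.ne_zero⟩
    hh16_U N ℓ h A
  else
    haveI : Fact (ℓ : ℕ).Prime := ⟨ℓ.2⟩
    hh16_T N ℓ h A

theorem hh16_gen_of_dvd {ℓ : Nat.Primes} (h : (ℓ : ℕ) ∣ N) (A : Type*) [AddCommGroup A] :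
    hh16_gen N ℓ A = (haveI : NeZero (ℓ : ℕ) := ⟨ℓ.2.ne_zero⟩; hh16_U N ℓ h A) := by
  unfold hh16_gen
  rw [dif_pos h]

theorem hh16_gen_of_not_dvd {ℓ : Nat.Primes} (h : ¬ (ℓ : ℕ) ∣ N) (A : Type*) [AddCommGroup A] :
    hh16_gen N ℓ A = (haveI : Fact (ℓ : ℕ).Prime := ⟨ℓ.2⟩; hh16_T N ℓ h A) := by
  unfold hh16_gen
  rw [dif_neg h]

theorem hh16_gen_comp (ℓ : Nat.Primes) {A B : Type*} [AddCommGroup A] [AddCommGroup B]
    (f : A →+ B) (φ : Additive (Gamma0 N) →+ A) :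
    hh16_gen N ℓ B (f.comp φ) = f.comp (hh16_gen N ℓ A φ) := by
  by_cases h : (ℓ : ℕ) ∣ N
  · rw [hh16_gen_of_dvd N h, hh16_gen_of_dvd N h]
    have : NeZero (ℓ : ℕ) := ⟨ℓ.2.ne_zero⟩
    exact hh16_U_comp _ _ _ f φ
  · rw [hh16_gen_of_not_dvd N h, hh16_gen_of_not_dvd N h]
    have : Fact (ℓ : ℕ).Prime := ⟨ℓ.2⟩
    exact hh16_T_comp _ _ _ f φ

theorem hh16_gen_periodMap (ℓ : Nat.Primes) (f : CuspForm (Gamma0 N) 2) :
    hh16_gen N ℓ ℂ (periodMap N f)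
      = periodMap N ((CuspForm.heckeFormsGen N 2 ℓ :
          Module.End ℂ (CuspForm (Gamma0 N) 2)) f) := by
  by_cases h : (ℓ : ℕ) ∣ N
  · rw [hh16_gen_of_dvd N h, CuspForm.heckeFormsGen_of_dvd h, CuspForm.heckeAlgebra.coe_U]
    have : NeZero (ℓ : ℕ) := ⟨ℓ.2.ne_zero⟩
    exact hh16_U_periodMap _ _ _ f
  · rw [hh16_gen_of_not_dvd N h, CuspForm.heckeFormsGen_of_not_dvd h, CuspForm.heckeAlgebra.coe_T]
    have : Fact (ℓ : ℕ).Prime := ⟨ℓ.2⟩
    exact hh16_T_periodMap _ _ _ ℓ.2 f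

theorem hh16_gen_charInvolution_periodMap (ℓ : Nat.Primes) (f : CuspForm (Gamma0 N) 2) :
    hh16_gen N ℓ ℂ (charInvolution N ℂ ℂ (periodMap N f))
      = charInvolution N ℂ ℂ (periodMap N ((CuspForm.heckeFormsGen N 2 ℓ :
          Module.End ℂ (CuspForm (Gamma0 N) 2)) f)) := by
  by_cases h : (ℓ : ℕ) ∣ N
  · rw [hh16_gen_of_dvd N h, CuspForm.heckeFormsGen_of_dvd h, CuspForm.heckeAlgebra.coe_U]
    have : NeZero (ℓ : ℕ) := ⟨ℓ.2.ne_zero⟩
    exact hh16_U_charInvolution_periodMap _ _ _ f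
  · rw [hh16_gen_of_not_dvd N h, CuspForm.heckeFormsGen_of_not_dvd h, CuspForm.heckeAlgebra.coe_T]
    have : Fact (ℓ : ℕ).Prime := ⟨ℓ.2⟩
    exact hh16_T_charInvolution_periodMap _ _ _ ℓ.2 f

/-- A weight two form which is an eigenform for all Hecke generators with the Eisenstein
eigenvalues has an Eisenstein eigen-period. -/
theorem hh16_gen_eigen (E : ModularForm (Gamma0 N) 2) {F : ℍ → ℂ} (hF : IsPrim F E)
    {φ : Additive (Gamma0 N) →+ ℂ}
    (hφ : ∀ (γ : Gamma0 N) (z : ℍ), F ((γ : SL(2, ℤ)) • z) - F z = φ (Additive.ofMul γ))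
    (hT : ∀ (ℓ : ℕ) (hℓ : ℓ.Prime) (hℓN : ¬ ℓ ∣ N),
      ModularForm.heckeTLin 2 hℓ hℓN E = ((1 + ℓ : ℕ) : ℂ) • E)
    (hU : ∀ (q : ℕ) (_ : q.Prime) (hqN : q ∣ N), ModularForm.heckeULin 2 hqN E = E)
    (ℓ : Nat.Primes) :
    hh16_gen N ℓ ℂ φ = eisensteinSystem N ℓ • φ := by
  by_cases h : (ℓ : ℕ) ∣ N
  · rw [hh16_gen_of_dvd N h, eisensteinSystem_of_dvd h, one_smul]
    have : NeZero (ℓ : ℕ) := ⟨ℓ.2.ne_zero⟩
    have hE : heckeU 2 (ℓ : ℕ) ⇑E = (1 : ℂ) • ⇑E := by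
      rw [one_smul]
      exact congrArg (fun G : ModularForm (Gamma0 N) 2 => (⇑G : ℍ → ℂ)) (hU ℓ ℓ.2 h)
    rw [hh16_U_eigen N ℓ h hF 1 hE hφ, one_smul]
  · rw [hh16_gen_of_not_dvd N h, eisensteinSystem_of_not_dvd h]
    have : Fact (ℓ : ℕ).Prime := ⟨ℓ.2⟩
    have hE : heckeT 2 (ℓ : ℕ) ⇑E = (((1 + (ℓ : ℕ) : ℕ)) : ℂ) • ⇑E :=
      congrArg (fun G : ModularForm (Gamma0 N) 2 => (⇑G : ℍ → ℂ)) (hT ℓ ℓ.2 h)
    rw [hh16_T_eigen N ℓ h hF _ hE hφ]
    ext γ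
    simp

end Gen

section Transfer

variable (N : ℕ) [NeZero N]

theorem hh16_periodMap_zsmul (a : ℤ) (f : CuspForm (Gamma0 N) 2) :
    periodMap N (a • f) = a • periodMap N f :=
  map_zsmul (pml N) a f

/-- Transfer of Hecke polynomials from cusp forms to homomorphisms: for every Hecke polynomial
`P` there is an additive operator on `Hom(Γ₀(N), ℂ)` compatible with `P` on periods of cusp
forms and their conjugates, preserving integer valued homomorphisms, and acting by the Eisenstein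
value of `P` on Eisenstein eigen-homomorphisms. -/
theorem hh16_transfer (P : HeckeAlg) :
    ∃ τ : (Additive (Gamma0 N) →+ ℂ) →+ (Additive (Gamma0 N) →+ ℂ),
      (∀ f : CuspForm (Gamma0 N) 2, τ (periodMap N f)
        = periodMap N ((CuspForm.heckeEvalForms N 2 P :
            Module.End ℂ (CuspForm (Gamma0 N) 2)) f)) ∧
      (∀ f : CuspForm (Gamma0 N) 2, τ (charInvolution N ℂ ℂ (periodMap N f))
        = charInvolution N ℂ ℂ (periodMap N ((CuspForm.heckeEvalForms N 2 P :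
            Module.End ℂ (CuspForm (Gamma0 N) 2)) f))) ∧
      (∀ φ : Additive (Gamma0 N) →+ ℤ, ∃ φ' : Additive (Gamma0 N) →+ ℤ,
        τ ((Int.castAddHom ℂ).comp φ) = (Int.castAddHom ℂ).comp φ') ∧
      (∀ ψ : Additive (Gamma0 N) →+ ℂ,
        (∀ ℓ : Nat.Primes, hh16_gen N ℓ ℂ ψ = eisensteinSystem N ℓ • ψ) →
        τ ψ = (MvPolynomial.aeval (eisensteinSystem N) P : ℤ) • ψ) := by
  induction P using MvPolynomial.induction_on with
  | C a =>
    refine ⟨a • AddMonoidHom.id _, fun f => ?_, fun f => ?_, fun φ => ⟨a • φ, ?_⟩, fun ψ _ => ?_⟩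
    · rw [CuspForm.heckeEvalForms_C, Subalgebra.coe_algebraMap, Module.algebraMap_end_apply,
        hh16_periodMap_zsmul]
      rfl
    · rw [CuspForm.heckeEvalForms_C, Subalgebra.coe_algebraMap, Module.algebraMap_end_apply,
        hh16_periodMap_zsmul, map_zsmul]
      rfl
    · ext γ
      simp
    · rw [MvPolynomial.aeval_C]
      rfl
  | add P Q hP hQ =>
    obtain ⟨τP, hP1, hP2, hP3, hP4⟩ := hP
    obtain ⟨τQ, hQ1, hQ2, hQ3, hQ4⟩ := hQ
    refine ⟨τP + τQ, fun f => ?_, fun f => ?_, fun φ => ?_, fun ψ hψ => ?_⟩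
    · rw [AddMonoidHom.add_apply, hP1, hQ1, map_add, Subalgebra.coe_add, LinearMap.add_apply,
        periodMap_add]
    · rw [AddMonoidHom.add_apply, hP2, hQ2, map_add, Subalgebra.coe_add, LinearMap.add_apply,
        periodMap_add, map_add]
    · obtain ⟨φP, hφP⟩ := hP3 φ
      obtain ⟨φQ, hφQ⟩ := hQ3 φ
      refine ⟨φP + φQ, ?_⟩
      rw [AddMonoidHom.add_apply, hφP, hφQ]
      ext γ
      simp
    · rw [AddMonoidHom.add_apply, hP4 ψ hψ, hQ4 ψ hψ, map_add, add_smul]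
  | mul_X P ℓ hP =>
    obtain ⟨τP, hP1, hP2, hP3, hP4⟩ := hP
    have hX : CuspForm.heckeEvalForms N 2 (MvPolynomial.X ℓ) = CuspForm.heckeFormsGen N 2 ℓ :=
      CuspForm.heckeEvalForms_heckeGen N 2 ℓ
    refine ⟨τP.comp (hh16_gen N ℓ ℂ), fun f => ?_, fun f => ?_, fun φ => ?_, fun ψ hψ => ?_⟩
    · rw [AddMonoidHom.comp_apply, hh16_gen_periodMap, hP1, map_mul, hX, Subalgebra.coe_mul,
        Module.End.mul_apply]
    · rw [AddMonoidHom.comp_apply, hh16_gen_charInvolution_periodMap, hP2, map_mul, hX,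
        Subalgebra.coe_mul, Module.End.mul_apply]
    · rw [AddMonoidHom.comp_apply, hh16_gen_comp]
      exact hP3 _
    · rw [AddMonoidHom.comp_apply, hψ ℓ, map_zsmul, hP4 ψ hψ, map_mul, MvPolynomial.aeval_X,
        smul_smul, mul_comm]

end Transfer

end Fermat.Agent.S16Lib
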