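import Fermat.Agent.Lib.S16.HeckeHom
import Fermat.Agent.S21
import Fermat.Agent.S23
import Fermat.Prelude.Def_CuspForm_HeckeLocal

/-!
# The lower bound core for the Eisenstein ideal index

A Hecke polynomial killing the integral cusp forms kills the parabolic homomorphisms; applied to
`ψ₀ - c χ` (parabolic, `ψ₀` an Eisenstein eigen-homomorphism, both integer valued) it shows that
`c` divides the Eisenstein value of the polynomial times every value of `ψ₀`.
-/

set_option autoImplicit false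

open scoped MatrixGroups
open CongruenceSubgroup

namespace Fermat.Agent.S16Lib

open Fermat.Agent.S21Lib ModularCurve ModularCurve.Period

variable (N : ℕ) [NeZero N]

/-- A Hecke polynomial which is zero on the integral lattice is zero on all cusp forms. -/
theorem hh16_eval_eq_zero (P : HeckeAlg)
    (hP : ((CuspForm.latticeRestrictHom N ∅).toRingHom.comp (CuspForm.heckeEvalForms N 2)) P = 0) :
    CuspForm.heckeEvalForms N 2 P = 0 := by
  have hint := Fermat.Agent.S23.result N
  apply CuspForm.latticeRestrict_injective N ∅ hint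
  exact congrArg Subtype.val hP

/-- The transferred operator of a Hecke polynomial killing the integral lattice kills the
parabolic homomorphisms. -/
theorem hh16_kills_parabolic (P : HeckeAlg)
    (hP : ((CuspForm.latticeRestrictHom N ∅).toRingHom.comp (CuspForm.heckeEvalForms N 2)) P = 0)
    (τ : (Additive (Gamma0 N) →+ ℂ) →+ (Additive (Gamma0 N) →+ ℂ))
    (h1 : ∀ f : CuspForm (Gamma0 N) 2, τ (periodMap N f)
        = periodMap N ((CuspForm.heckeEvalForms N 2 P :
            Module.End ℂ (CuspForm (Gamma0 N) 2)) f))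
    (h2 : ∀ f : CuspForm (Gamma0 N) 2, τ (charInvolution N ℂ ℂ (periodMap N f))
        = charInvolution N ℂ ℂ (periodMap N ((CuspForm.heckeEvalForms N 2 P :
            Module.End ℂ (CuspForm (Gamma0 N) 2)) f)))
    (x : Additive (Gamma0 N) →+ ℂ) (hx : x ∈ parabolicHoms ℂ (Gamma0 N) ℂ) : τ x = 0 := by
  have h0 := hh16_eval_eq_zero N P hP
  have hz : ∀ f : CuspForm (Gamma0 N) 2, periodMap N ((CuspForm.heckeEvalForms N 2 P :
      Module.End ℂ (CuspForm (Gamma0 N) 2)) f) = 0 := by
    intro f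
    rw [h0]
    exact map_zero (pml N)
  rw [← (Fermat.Agent.S21.result N).2] at hx
  obtain ⟨⟨f, g⟩, rfl⟩ := hx
  obtain ⟨pml', hpml, hdef⟩ := periodHomPair_def N (existsPeriodMapLinear N)
  rw [hdef]
  simp only [LinearMap.coprod_apply, LinearMap.comp_apply, hpml, LinearMap.add_apply,
    LinearMap.sub_apply, LinearMap.id_apply, map_add, map_sub, h1, h2, hz, map_zero, add_zero,
    sub_zero]

/-- **Lower bound core.** -/
theorem hh16_lowerCore (ψ₀ χ : Additive (Gamma0 N) →+ ℤ) (c : ℤ)
    (heig : ∀ ℓ : Nat.Primes, hh16_gen N ℓ ℂ ((Int.castAddHom ℂ).comp ψ₀)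
      = eisensteinSystem N ℓ • ((Int.castAddHom ℂ).comp ψ₀))
    (hpar : (Int.castAddHom ℂ).comp (ψ₀ - c • χ) ∈ parabolicHoms ℂ (Gamma0 N) ℂ)
    (P : HeckeAlg)
    (hP : ((CuspForm.latticeRestrictHom N ∅).toRingHom.comp (CuspForm.heckeEvalForms N 2)) P = 0)
    (γ : Additive (Gamma0 N)) :
    c ∣ MvPolynomial.aeval (eisensteinSystem N) P * ψ₀ γ := by
  obtain ⟨τ, h1, h2, h3, h4⟩ := hh16_transfer N P
  have hk := hh16_kills_parabolic N P hP τ h1 h2 _ hpar
  obtain ⟨χ', hχ'⟩ := h3 χ
  have h5 := h4 _ heig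
  have e : (Int.castAddHom ℂ).comp (ψ₀ - c • χ)
      = (Int.castAddHom ℂ).comp ψ₀ - c • (Int.castAddHom ℂ).comp χ := by
    ext δ
    simp
  rw [e, map_sub, map_zsmul, h5, hχ'] at hk
  have h6 := congrArg (fun φ : Additive (Gamma0 N) →+ ℂ => φ γ) hk
  simp only [AddMonoidHom.sub_apply, AddMonoidHom.smul_apply, AddMonoidHom.comp_apply,
    Int.coe_castAddHom, AddMonoidHom.zero_apply, zsmul_eq_mul] at h6
  refine ⟨χ' γ, ?_⟩
  have h7 : ((MvPolynomial.aeval (eisensteinSystem N) P * ψ₀ γ : ℤ) : ℂ) = ((c * χ' γ : ℤ) : ℂ) := by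
    push_cast
    linear_combination h6
  exact_mod_cast h7

end Fermat.Agent.S16Lib
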