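/-
S16, chunk L1 part 2 (helper1): level-one facts.

* `l1_qc_E4`, `l1_qc_E6`: `q`-coefficients of `E₄`, `E₆`;
* `l1_tau : ℕ → ℤ` (Ramanujan's function), `l1_qc_disc : qCoeff Δ n = l1_tau n`,
  `l1_tau_prime_sq : τ(p²) = τ(p)² - p¹¹`;
* `l1_S12`, `l1_S18`: cusp forms of weight `12`, `18` of level one;
* `l1_sturm`: the Sturm bound modulo `ℓ^s` in level one.
-/
import Fermat.Agent.Lib.S16.Zl
import Fermat.Agent.Lib.S20.LevelOne
import Fermat.Agent.Lib.S24.QBridge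
import Fermat.Prelude.Def_ModularForm_HeckeOperatorForms
import Fermat.Prelude.Thm_UpperHalfPlane_qCoeff_heckeT
import Fermat.Prelude.Thm_ModularFormClass_qCoeff_heckeT
import Fermat.Prelude.Thm_ModularForm_isBoundedAtImInfty_heckeT

set_option autoImplicit false

namespace Fermat.Agent.S16Lib

open UpperHalfPlane ModularForm CongruenceSubgroup MatrixGroups EisensteinSeries ModularFormClass
open scoped ArithmeticFunction.sigma Manifold
open Fermat.Agent.LibS23 Fermat.Agent.S20Lib Fermat.Agent.S24Lib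

/-! ### Eisenstein series -/

theorem l1_qc_E4_zero : qCoeff (⇑E₄) 0 = 1 :=
  E_qExpansion_coeff_zero (by norm_num) ⟨2, rfl⟩

theorem l1_qc_E6_zero : qCoeff (⇑E₆) 0 = 1 :=
  E_qExpansion_coeff_zero (by norm_num) ⟨3, rfl⟩

theorem l1_qc_E4 {n : ℕ} (hn : 1 ≤ n) : qCoeff (⇑E₄) n = 240 * (σ 3 n : ℂ) := by
  have h := E_qExpansion_coeff (k := 4) (by norm_num) ⟨2, rfl⟩ n
  have hb : bernoulli 4 = -1 / 30 := by
    rw [bernoulli_eq_bernoulli'_of_ne_one (by norm_num), bernoulli'_four]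
  rw [if_neg (by omega), hb] at h
  show (qExpansion 1 (⇑E₄)).coeff n = _
  rw [h]
  push_cast
  ring

theorem l1_qc_E6 {n : ℕ} (hn : 1 ≤ n) : qCoeff (⇑E₆) n = -504 * (σ 5 n : ℂ) := by
  have h := E_qExpansion_coeff (k := 6) (by norm_num) ⟨3, rfl⟩ n
  have hb : bernoulli 6 = 1 / 42 := by decide +kernel
  rw [if_neg (by omega), hb] at h
  show (qExpansion 1 (⇑E₆)).coeff n = _
  rw [h]
  push_cast
  ring

/-- `σ₃` as an integer power series (`σ 3 0 = 0`). -/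
noncomputable def l1_S3 : PowerSeries ℤ := PowerSeries.mk fun n => (σ 3 n : ℤ)

/-- `σ₅` as an integer power series (`σ 5 0 = 0`). -/
noncomputable def l1_S5 : PowerSeries ℤ := PowerSeries.mk fun n => (σ 5 n : ℤ)

theorem l1_coeff_ofNat_mul (m : ℕ) [m.AtLeastTwo] (A : PowerSeries ℤ) (n : ℕ) :
    PowerSeries.coeff n ((OfNat.ofNat m : PowerSeries ℤ) * A) = (OfNat.ofNat m : ℤ) * PowerSeries.coeff n A := by
  rw [show (OfNat.ofNat m : PowerSeries ℤ) = PowerSeries.C (OfNat.ofNat m : ℤ) from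
    (map_ofNat _ m).symm, PowerSeries.coeff_C_mul]

theorem l1_qx_E4 : qx (⇑E₄) = (1 + 240 * l1_S3).map (Int.castRingHom ℂ) := by
  ext n
  rw [PowerSeries.coeff_map, map_add, l1_coeff_ofNat_mul]
  rcases Nat.eq_zero_or_pos n with rfl | hn
  · have := l1_qc_E4_zero
    rw [qCoeff] at this
    rw [this]
    simp [l1_S3]
  · have := l1_qc_E4 hn
    rw [qCoeff] at this
    rw [this]
    have hn' : n ≠ 0 := by omega
    simp [l1_S3, PowerSeries.coeff_one, hn']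

theorem l1_qx_E6 : qx (⇑E₆) = (1 - 504 * l1_S5).map (Int.castRingHom ℂ) := by
  ext n
  rw [PowerSeries.coeff_map, map_sub, l1_coeff_ofNat_mul]
  rcases Nat.eq_zero_or_pos n with rfl | hn
  · have := l1_qc_E6_zero
    rw [qCoeff] at this
    rw [this]
    simp [l1_S5]
  · have := l1_qc_E6 hn
    rw [qCoeff] at this
    rw [this]
    have hn' : n ≠ 0 := by omega
    simp [l1_S5, PowerSeries.coeff_one, hn']

/-! ### The discriminant -/

/-- Ramanujan's `τ`-function (with `τ(0) = 0`). -/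
noncomputable def l1_tau (n : ℕ) : ℤ :=
  PowerSeries.coeff n (PowerSeries.X * ModularCurve.dedekindEtaUnit)

theorem l1_qx_disc :
    qx ModularForm.discriminant
      = PowerSeries.X * (ModularCurve.dedekindEtaUnit).map (Int.castRingHom ℂ) :=
  qx_discriminant_eq

theorem l1_qx_disc' :
    qx ModularForm.discriminant
      = (PowerSeries.X * ModularCurve.dedekindEtaUnit).map (Int.castRingHom ℂ) := by
  rw [l1_qx_disc, map_mul, PowerSeries.map_X]

theorem l1_qc_disc (n : ℕ) : qCoeff ModularForm.discriminant n = (l1_tau n : ℂ) := by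
  show (qx ModularForm.discriminant).coeff n = _
  rw [l1_qx_disc', PowerSeries.coeff_map]
  rfl

theorem l1_tau_zero : l1_tau 0 = 0 := by
  simp [l1_tau]

theorem l1_tau_one : l1_tau 1 = 1 := by
  have h := l1_qc_disc 1
  rw [qCoeff, discriminant_qExpansion_coeff_one] at h
  exact_mod_cast h.symm

/-! ### Cusp forms of level one -/

/-- A level-one form with vanishing constant term is `Δ` times a form of weight `k - 12`. -/
theorem l1_cusp_factor {k : ℤ} (T : ModularForm 𝒮ℒ k) (h0 : qCoeff (⇑T) 0 = 0) :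
    ∃ h : ModularForm 𝒮ℒ (k - 12),
      qx (⇑T) = qx ModularForm.discriminant * qx (⇑h) ∧
      ∀ z, T z = ModularForm.discriminant z * h z := by
  refine ⟨CuspForm.discriminantEquiv (toCuspForm T h0),
    qExpansion_eq_qExpansion_discriminant_mul T h0, fun z => ?_⟩
  rw [discriminant_mul_discriminantEquiv_apply]
  rfl

/-- Cusp forms of weight `12` and level one are multiples of `Δ`. -/
theorem l1_S12 (T : ModularForm 𝒮ℒ 12) (h0 : qCoeff (⇑T) 0 = 0) :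
    ∃ c : ℂ, (∀ z, T z = c * ModularForm.discriminant z) ∧
      ∀ n, qCoeff (⇑T) n = c * (l1_tau n : ℂ) := by
  obtain ⟨c, hc⟩ := CuspForm.exists_smul_discriminant_of_weight_eq_twelve (toCuspForm T h0)
  have hfun : (⇑T : ℍ → ℂ) = c • ModularForm.discriminant := by
    funext z
    have := congrArg (fun f : CuspForm 𝒮ℒ 12 => f z) hc
    exact this.symm
  refine ⟨c, fun z => by rw [hfun]; rfl, fun n => ?_⟩
  show (qx (⇑T)).coeff n = _
  rw [hfun, qx_smul c QExp.discriminant, PowerSeries.coeff_smul, smul_eq_mul]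
  congr 1
  exact l1_qc_disc n

/-- Cusp forms of weight `18` and level one are multiples of `Δ E₆`. -/
theorem l1_S18 (T : ModularForm 𝒮ℒ 18) (h0 : qCoeff (⇑T) 0 = 0) :
    ∃ β : ℂ, (∀ z, T z = β * (ModularForm.discriminant z * E₆ z)) ∧
      qx (⇑T) = PowerSeries.C β * (qx ModularForm.discriminant * qx (⇑E₆)) := by
  obtain ⟨h, hq, hz⟩ := l1_cusp_factor T h0
  let h' : ModularForm 𝒮ℒ 6 := ModularForm.mcast (by norm_num) h
  obtain ⟨β, hβ⟩ : ∃ β : ℂ, β • E₆ = h' :=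
    (finrank_eq_one_iff_of_nonzero' E₆ (E_ne_zero _ ⟨3, rfl⟩)).mp
      (Module.rank_eq_one_iff_finrank_eq_one.mp levelOne_weight_six_rank_one) _
  have hfun : (⇑h : ℍ → ℂ) = β • (⇑E₆ : ℍ → ℂ) := by
    funext z
    have := congrArg (fun f : ModularForm 𝒮ℒ 6 => f z) hβ
    exact this.symm
  refine ⟨β, fun z => ?_, ?_⟩
  · rw [hz z, hfun]
    simp only [Pi.smul_apply, smul_eq_mul]
    ring
  · rw [hq, hfun, qx_smul β (QExp.of_levelOne E₆), PowerSeries.smul_eq_C_mul]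
    ring

/-! ### `τ(p²) = τ(p)² - p¹¹` -/

theorem l1_mem_Gamma0_one (γ : SL(2, ℤ)) : γ ∈ Gamma0 1 := by
  rw [Gamma0_mem]
  exact Subsingleton.elim _ _

theorem l1_heckeT_disc_isLO {p : ℕ} (hp : p.Prime) :
    IsLO 12 (ModularForm.heckeT 12 p ModularForm.discriminant) := by
  have hp1 : ¬ p ∣ 1 := fun h => hp.one_lt.ne' (Nat.dvd_one.mp h)
  refine IsLO.mk' (fun γ => ?_) ?_ ?_
  · refine ModularForm.heckeT_slash_eq_self_of_mem_Gamma0 (N := 1) 12 hp hp1 ?_ _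
      ⟨γ, l1_mem_Gamma0_one γ, rfl⟩
    rintro _ ⟨γ', -, rfl⟩
    exact discriminant_slash_SL γ'
  · exact ModularForm.mdifferentiable_heckeT (CuspFormClass.holo CuspForm.discriminant) 12 p
  · exact ModularForm.isBoundedAtImInfty_heckeT
      (ModularFormClass.bdd_at_infty CuspForm.discriminant) 12 p

theorem l1_qc_heckeT_disc {p : ℕ} (hp : p.Prime) (n : ℕ) :
    qCoeff (ModularForm.heckeT 12 p ModularForm.discriminant) n
      = (l1_tau (n * p) : ℂ) + if p ∣ n then (p : ℂ) ^ 11 * (l1_tau (n / p) : ℂ) else 0 := by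
  have h := ModularFormClass.qCoeff_heckeT CuspForm.discriminant one_mem_strictPeriods_SL
    hp.ne_zero n (k := 12)
  rw [ModularForm.coeffHeckeT_apply] at h
  have e : (⇑CuspForm.discriminant : ℍ → ℂ) = ModularForm.discriminant := rfl
  rw [e] at h
  rw [h, l1_qc_disc, l1_qc_disc]
  norm_num

/-- Ramanujan's relation `τ(p²) = τ(p)² - p¹¹`. -/
theorem l1_tau_prime_sq {p : ℕ} (hp : p.Prime) :
    l1_tau (p ^ 2) = l1_tau p ^ 2 - (p : ℤ) ^ 11 := by
  obtain ⟨G, hG⟩ := l1_heckeT_disc_isLO hp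
  have hq : ∀ n, qCoeff (⇑G) n
      = (l1_tau (n * p) : ℂ) + if p ∣ n then (p : ℂ) ^ 11 * (l1_tau (n / p) : ℂ) else 0 := by
    intro n
    rw [hG]
    exact l1_qc_heckeT_disc hp n
  have h0 : qCoeff (⇑G) 0 = 0 := by
    rw [hq 0]
    simp [l1_tau_zero]
  obtain ⟨c, -, hc⟩ := l1_S12 G h0
  have hp1 : ¬ p ∣ 1 := fun h => hp.one_lt.ne' (Nat.dvd_one.mp h)
  have h1 := hc 1
  rw [hq 1, if_neg hp1, one_mul, l1_tau_one, add_zero] at h1
  have h2 := hc p
  rw [hq p, if_pos (dvd_refl p), Nat.div_self hp.pos, l1_tau_one, ← pow_two] at h2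
  have h3 : ((l1_tau (p ^ 2) : ℤ) : ℂ) = (l1_tau p : ℂ) ^ 2 - (p : ℂ) ^ 11 := by
    have hc' : c = (l1_tau p : ℂ) := by
      rw [h1]
      simp
    rw [hc'] at h2
    linear_combination h2
  exact_mod_cast h3

/-! ### The Sturm bound modulo `ℓ^s` in level one -/

/-- For even `k ≠ 2` there is a level-one form of weight `k` with integral `q`-expansion and
constant term `1` (namely `E₄^a E₆^b` with `4a + 6b = k`). -/
theorem l1_exists_unit_form (k : ℕ) (hk : Even k) (hk2 : k ≠ 2) :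
    ∃ G : ModularForm 𝒮ℒ (k : ℤ), ∃ A : PowerSeries ℤ,
      qx (⇑G) = A.map (Int.castRingHom ℂ) ∧ PowerSeries.constantCoeff A = 1 := by
  obtain ⟨a, b, hab⟩ : ∃ a b : ℕ, 4 * a + 6 * b = k := by
    have h2 := Nat.even_iff.mp hk
    by_cases h4 : k % 4 = 0
    · exact ⟨k / 4, 0, by omega⟩
    · exact ⟨(k - 6) / 4, 1, by omega⟩
  have hLO : IsLO (k : ℤ) ((⇑E₄ : ℍ → ℂ) ^ a * (⇑E₆ : ℍ → ℂ) ^ b) :=
    ((isLO_pow simple_isLO_E4 a).mul (isLO_pow simple_isLO_E6 b)).of_eq_weight (by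
      rw [← hab]; push_cast; ring)
  obtain ⟨G, hG⟩ := hLO
  refine ⟨G, (1 + 240 * l1_S3) ^ a * (1 - 504 * l1_S5) ^ b, ?_, ?_⟩
  · rw [hG, qx_mul ((QExp.of_levelOne E₄).pow a) ((QExp.of_levelOne E₆).pow b),
      qx_pow (QExp.of_levelOne E₄), qx_pow (QExp.of_levelOne E₆), l1_qx_E4, l1_qx_E6,
      map_mul, map_pow, map_pow]
  · have h3 : PowerSeries.constantCoeff l1_S3 = 0 := by
      simp [l1_S3, ← PowerSeries.coeff_zero_eq_constantCoeff_apply]
    have h5 : PowerSeries.constantCoeff l1_S5 = 0 := by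
      simp [l1_S5, ← PowerSeries.coeff_zero_eq_constantCoeff_apply]
    simp [h3, h5]

variable {ℓ : ℕ} [Fact ℓ.Prime]

theorem l1_qc_zero_form {k : ℤ} (n : ℕ) : qCoeff (⇑(0 : ModularForm 𝒮ℒ k)) n = 0 := by
  show (qExpansion 1 (⇑(0 : ModularForm 𝒮ℒ k))).coeff n = 0
  rw [show (⇑(0 : ModularForm 𝒮ℒ k) : ℍ → ℂ) = 0 from rfl, qExpansion_zero]
  simp

/-- **Sturm bound modulo `ℓ^s`, level one.** If `f` has `ℓ`-integral `q`-expansion and its
coefficients `a_n`, `n ≤ k / 12`, are divisible by `ℓ^s`, then all coefficients are. -/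
theorem l1_sturm (k : ℕ) : ∀ (f : ModularForm 𝒮ℒ (k : ℤ)) (s : ℕ),
    (∀ n, qCoeff (⇑f) n ∈ l1_Zl ℓ) → (∀ n ≤ k / 12, l1_Dvd ℓ s (qCoeff (⇑f) n)) →
    ∀ n, l1_Dvd ℓ s (qCoeff (⇑f) n) := by
  induction k using Nat.strong_induction_on with | _ k ih =>
  intro f s hint hlow
  rcases Nat.even_or_odd k with hk | hk
  swap
  · have hf : f = 0 := levelOne_odd_weight_eq_zero (by exact_mod_cast hk) f
    subst hf
    intro n
    rw [l1_qc_zero_form]
    exact l1_Dvd.zero'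
  by_cases hk2 : k = 2
  · subst hk2
    have hf : f = 0 := rank_zero_iff_forall_zero.mp levelOne_weight_two_rank_zero f
    subst hf
    intro n
    rw [l1_qc_zero_form]
    exact l1_Dvd.zero'
  obtain ⟨G, A, hGA, hA1⟩ := l1_exists_unit_form k hk hk2
  have ha₀ : l1_Dvd ℓ s (qCoeff (⇑f) 0) := hlow 0 (Nat.zero_le _)
  have hGint : l1_PDvd ℓ 0 (qx (⇑G)) := hGA ▸ l1_PDvd_map_int A
  have hG0 : (qx (⇑G)).coeff 0 = 1 := by
    rw [hGA, PowerSeries.coeff_map, PowerSeries.coeff_zero_eq_constantCoeff_apply, hA1]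
    simp
  have hfint : l1_PDvd ℓ 0 (qx (⇑f)) := fun n => l1_Dvd_of_mem (hint n)
  have hg : qx (⇑(f - qCoeff (⇑f) 0 • G)) = qx (⇑f) - qCoeff (⇑f) 0 • qx (⇑G) := by
    show qx ((⇑f : ℍ → ℂ) - qCoeff (⇑f) 0 • (⇑G : ℍ → ℂ)) = _
    rw [qx_sub (QExp.of_levelOne f) ((QExp.of_levelOne G).smul _),
      qx_smul _ (QExp.of_levelOne G)]
  have hg0 : qCoeff (⇑(f - qCoeff (⇑f) 0 • G)) 0 = 0 := by
    show (qx (⇑(f - qCoeff (⇑f) 0 • G))).coeff 0 = 0
    rw [hg, map_sub, PowerSeries.coeff_smul, hG0, smul_eq_mul, mul_one]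
    exact sub_self _
  obtain ⟨h, hq, -⟩ := l1_cusp_factor _ hg0
  have hgint : l1_PDvd ℓ 0 (qx (⇑(f - qCoeff (⇑f) 0 • G))) := by
    rw [hg]
    exact hfint.sub (hGint.smul ha₀.mem)
  have hglow : ∀ n ≤ k / 12, l1_Dvd ℓ s ((qx (⇑(f - qCoeff (⇑f) 0 • G))).coeff n) := by
    intro n hn
    rw [hg, map_sub, PowerSeries.coeff_smul, smul_eq_mul]
    exact (hlow n hn).sub (ha₀.mul_right (hGint n).mem)
  have hq' : qx (⇑(f - qCoeff (⇑f) 0 • G)) = PowerSeries.X *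
      ((ModularCurve.dedekindEtaUnit).map (Int.castRingHom ℂ) * qx (⇑h)) := by
    rw [hq, l1_qx_disc, mul_assoc]
  have hU := ModularCurve.constantCoeff_dedekindEtaUnit
  have hfg : qx (⇑f) = qx (⇑(f - qCoeff (⇑f) 0 • G)) + qCoeff (⇑f) 0 • qx (⇑G) := by
    rw [hg]
    ring
  rcases lt_or_ge k 12 with hk12 | hk12
  · have hh : h = 0 :=
      rank_zero_iff_forall_zero.mp (levelOne_neg_weight_rank_zero (by omega)) h
    have hgz : qx (⇑(f - qCoeff (⇑f) 0 • G)) = 0 := by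
      rw [hq, hh, show (⇑(0 : ModularForm 𝒮ℒ ((k : ℤ) - 12)) : ℍ → ℂ) = 0 from rfl, qx_zero,
        mul_zero]
    intro n
    show l1_Dvd ℓ s ((qx (⇑f)).coeff n)
    rw [hfg, hgz, zero_add, PowerSeries.coeff_smul, smul_eq_mul]
    exact ha₀.mul_right (hGint n).mem
  · have hhint : l1_PDvd ℓ 0 (qx (⇑h)) := by
      refine l1_PDvd_of_unit_mul ModularCurve.dedekindEtaUnit hU _ (fun n => ?_)
      rw [← l1_coeff_X_mul_succ, ← hq']
      exact hgint (n + 1)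
    have hcast : (k : ℤ) - 12 = ((k - 12 : ℕ) : ℤ) := by omega
    have key : ∀ n, l1_Dvd ℓ s ((qx (⇑h)).coeff n) := by
      refine ih (k - 12) (by omega) (ModularForm.mcast hcast h) s (fun n => (hhint n).mem)
        (fun n hn => ?_)
      refine l1_range_of_unit_mul ModularCurve.dedekindEtaUnit hU (qx (⇑h)) ((k - 12) / 12)
        (fun m hm => ?_) n hn
      rw [← l1_coeff_X_mul_succ, ← hq']
      exact hglow (m + 1) (by omega)
    have hgall : l1_PDvd ℓ s (qx (⇑(f - qCoeff (⇑f) 0 • G))) := by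
      rw [hq']
      exact l1_PDvd.mul_left l1_PDvd_X
        (l1_PDvd.mul_left (l1_PDvd_map_int ModularCurve.dedekindEtaUnit) key)
    intro n
    show l1_Dvd ℓ s ((qx (⇑f)).coeff n)
    rw [hfg, map_add, PowerSeries.coeff_smul, smul_eq_mul]
    exact (hgall n).add (ha₀.mul_right (hGint n).mem)

/-- Integer-weight version of `l1_sturm`. -/
theorem l1_sturm_int {k : ℤ} (f : ModularForm 𝒮ℒ k) (s : ℕ)
    (hint : ∀ n, qCoeff (⇑f) n ∈ l1_Zl ℓ)
    (hlow : ∀ n ≤ k.toNat / 12, l1_Dvd ℓ s (qCoeff (⇑f) n)) :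
    ∀ n, l1_Dvd ℓ s (qCoeff (⇑f) n) := by
  rcases lt_or_ge k 0 with hk | hk
  · have hf : f = 0 := rank_zero_iff_forall_zero.mp (levelOne_neg_weight_rank_zero hk) f
    subst hf
    intro n
    rw [l1_qc_zero_form]
    exact l1_Dvd.zero'
  · have hcast : k = ((k.toNat : ℕ) : ℤ) := (Int.toNat_of_nonneg hk).symm
    exact l1_sturm k.toNat (ModularForm.mcast hcast f) s hint hlow

/-! ### Integrality and congruences for `E₄`, `E₆`, `Δ` -/

theorem l1_E4_int : l1_PDvd ℓ 0 (qx (⇑E₄)) := l1_qx_E4 ▸ l1_PDvd_map_int _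

theorem l1_E6_int : l1_PDvd ℓ 0 (qx (⇑E₆)) := l1_qx_E6 ▸ l1_PDvd_map_int _

theorem l1_disc_int : l1_PDvd ℓ 0 (qx ModularForm.discriminant) :=
  l1_qx_disc' ▸ l1_PDvd_map_int _

/-- `E₄ ≡ 1 mod ℓ^s` when `ℓ^s ∣ 240`. -/
theorem l1_E4_congr {s : ℕ} (h : (ℓ : ℤ) ^ s ∣ 240) : l1_PDvd ℓ s (qx (⇑E₄) - 1) := by
  have e : qx (⇑E₄) - 1 = (240 * l1_S3).map (Int.castRingHom ℂ) := by
    rw [l1_qx_E4, map_add, map_one, add_sub_cancel_left]
  rw [e]
  intro n
  rw [PowerSeries.coeff_map, l1_coeff_ofNat_mul]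
  exact l1_Dvd_of_int_dvd (Dvd.dvd.mul_right h _)

/-- `E₆ ≡ 1 mod ℓ^s` when `ℓ^s ∣ 504`. -/
theorem l1_E6_congr {s : ℕ} (h : (ℓ : ℤ) ^ s ∣ 504) : l1_PDvd ℓ s (qx (⇑E₆) - 1) := by
  have e : qx (⇑E₆) - 1 = (-(504 * l1_S5)).map (Int.castRingHom ℂ) := by
    rw [l1_qx_E6, map_sub, map_one, map_neg]
    ring
  rw [e]
  intro n
  rw [PowerSeries.coeff_map, map_neg, l1_coeff_ofNat_mul]
  exact l1_Dvd_of_int_dvd (Dvd.dvd.mul_right h _).neg_right

end Fermat.Agent.S16Lib
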