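/-
S16 (Eisenstein ideal index), chunks "Decomp" and "LEnd" (helper2): the lower bound
`fr16_LowerCore` from the Hecke operators on `Hom(Γ₀(p), ℂ)` (HK), the Eisenstein period
homomorphism `ψ₀` (PerE) and its primitivity (Root), all taken as hypotheses.
-/
import Fermat.Agent.Lib.S16.Defs
import Fermat.Agent.Lib.S16.Chi
import Fermat.Agent.S21
import Fermat.Agent.S23

set_option autoImplicit false

open CongruenceSubgroup ModularCurve ModularCurve.Period CuspForm
open scoped MatrixGroups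

namespace Fermat.Agent.S16Lib

/-! ### Decomp: homomorphisms vanishing on `T` are parabolic -/

theorem le16_cuspCount {p : ℕ} (hp : p.Prime) : ModularCurve.cuspCount p = 2 := by
  unfold ModularCurve.cuspCount
  rw [hp.divisors, Finset.sum_pair hp.one_lt.ne]
  simp [Nat.div_self hp.pos]

section decomp

variable (p : ℕ) [Fact p.Prime]

theorem le16_finite_cusp : Module.Finite ℂ (CuspForm (Gamma0 p) 2) := by
  have hinj := (Fermat.Agent.S21.result p).1
  have : Module.Finite ℂ (Additive (Gamma0 p) →+ ℂ) := Fermat.Agent.S21Lib.finite_hom_gamma0 p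
  have : Module.Finite ℂ (CuspForm (Gamma0 p) 2 × CuspForm (Gamma0 p) 2) :=
    Module.Finite.of_injective (ModularCurve.periodHomPair p) hinj
  exact Module.Finite.of_injective
    (LinearMap.inl ℂ (CuspForm (Gamma0 p) 2) (CuspForm (Gamma0 p) 2)) LinearMap.inl_injective

theorem le16_finrank_hom_le :
    Module.finrank ℂ (Additive (Gamma0 p) →+ ℂ)
      ≤ 2 * Module.finrank ℂ (CuspForm (Gamma0 p) 2) + 1 := by
  have h1 := Fermat.Agent.S21Lib.finrank_hom_gamma0_le p
  have h2 := Fermat.Agent.S20.result p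
  have h3 := le16_cuspCount (Fact.out : p.Prime)
  unfold ModularCurve.genusFormula at h2
  rw [h3] at h2
  have : (Module.finrank ℂ (Additive (Gamma0 p) →+ ℂ) : ℚ)
      ≤ ((2 * Module.finrank ℂ (CuspForm (Gamma0 p) 2) + 1 : ℕ) : ℚ) := by
    push_cast
    linarith
  exact_mod_cast this

theorem le16_finrank_par :
    Module.finrank ℂ (parabolicHoms ℂ (Gamma0 p) ℂ)
      = 2 * Module.finrank ℂ (CuspForm (Gamma0 p) 2) := by
  obtain ⟨hinj, hrange⟩ := Fermat.Agent.S21.result p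
  have := le16_finite_cusp p
  rw [← hrange, LinearMap.finrank_range_of_inj hinj, Module.finrank_prod]
  ring

/-- Evaluation at `T`. -/
def le16_evT : (Additive (Gamma0 p) →+ ℂ) →ₗ[ℂ] ℂ where
  toFun φ := φ (Additive.ofMul (gT p))
  map_add' _ _ := rfl
  map_smul' _ _ := rfl

omit [Fact p.Prime] in
theorem le16_evT_apply (φ : Additive (Gamma0 p) →+ ℂ) :
    le16_evT p φ = φ (Additive.ofMul (gT p)) := rfl

/-- There is an integer valued homomorphism with value `1` on `T`. -/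
theorem le16_exists_chi :
    ∃ χ : Additive (Gamma0 p) →+ ℂ, IsInt p χ ∧ χ (Additive.ofMul (gT p)) = 1 := by
  obtain ⟨χ, hint, hT⟩ := chi16_exists p (Fact.out : p.Prime).ne_one
  exact ⟨χ, hint, hT _⟩

omit [Fact p.Prime] in
theorem le16_par_le_ker : parabolicHoms ℂ (Gamma0 p) ℂ ≤ LinearMap.ker (le16_evT p) := by
  intro φ hφ
  rw [LinearMap.mem_ker, le16_evT_apply]
  refine hφ (gT p) ?_
  show ((ModularGroup.T : SL(2, ℤ)) : Matrix (Fin 2) (Fin 2) ℤ).trace ^ 2 = 4
  rw [ModularGroup.coe_T, Matrix.trace_fin_two_of]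
  norm_num

/-- **Decomp.** A homomorphism `Γ₀(p) → ℂ` vanishing on `T` is parabolic. -/
theorem le16_parabolic_of_T (x : Additive (Gamma0 p) →+ ℂ)
    (hx : x (Additive.ofMul (gT p)) = 0) : x ∈ parabolicHoms ℂ (Gamma0 p) ℂ := by
  have hfin : Module.Finite ℂ (Additive (Gamma0 p) →+ ℂ) :=
    Fermat.Agent.S21Lib.finite_hom_gamma0 p
  have hsurj : Function.Surjective (le16_evT p) := by
    obtain ⟨χ, -, hχ⟩ := le16_exists_chi p
    intro c
    refine ⟨c • χ, ?_⟩
    rw [map_smul, le16_evT_apply, hχ, smul_eq_mul, mul_one]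
  have h1 := LinearMap.finrank_range_add_finrank_ker (le16_evT p)
  rw [LinearMap.range_eq_top.mpr hsurj, finrank_top, Module.finrank_self] at h1
  have h2 := le16_finrank_hom_le p
  have h3 := le16_finrank_par p
  have heq : parabolicHoms ℂ (Gamma0 p) ℂ = LinearMap.ker (le16_evT p) :=
    Submodule.eq_of_le_of_finrank_le (le16_par_le_ker p) (by omega)
  rw [heq, LinearMap.mem_ker, le16_evT_apply]
  exact hx

end decomp

/-! ### Integer valued homomorphisms -/

section isInt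

variable {p : ℕ}

theorem le16_isInt_zero : IsInt p 0 := fun _ => ⟨0, by simp⟩

theorem le16_isInt_add {φ ψ : Additive (Gamma0 p) →+ ℂ} (hφ : IsInt p φ) (hψ : IsInt p ψ) :
    IsInt p (φ + ψ) := by
  intro γ
  obtain ⟨a, ha⟩ := hφ γ
  obtain ⟨b, hb⟩ := hψ γ
  exact ⟨a + b, by rw [AddMonoidHom.add_apply, ha, hb]; push_cast; ring⟩

theorem le16_isInt_neg {φ : Additive (Gamma0 p) →+ ℂ} (hφ : IsInt p φ) : IsInt p (-φ) := by
  intro γ
  obtain ⟨a, ha⟩ := hφ γ
  exact ⟨-a, by rw [AddMonoidHom.neg_apply, ha]; push_cast; ring⟩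

theorem le16_isInt_sub {φ ψ : Additive (Gamma0 p) →+ ℂ} (hφ : IsInt p φ) (hψ : IsInt p ψ) :
    IsInt p (φ - ψ) := by
  rw [sub_eq_add_neg]
  exact le16_isInt_add hφ (le16_isInt_neg hψ)

theorem le16_zsmul_apply (n : ℤ) (φ : Additive (Gamma0 p) →+ ℂ) (γ : Additive (Gamma0 p)) :
    (n • φ) γ = (n : ℂ) * φ γ := by
  rw [AddMonoidHom.smul_apply, zsmul_eq_mul]

theorem le16_isInt_zsmul (n : ℤ) {φ : Additive (Gamma0 p) →+ ℂ} (hφ : IsInt p φ) :
    IsInt p (n • φ) := by
  intro γ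
  obtain ⟨a, ha⟩ := hφ γ
  exact ⟨n * a, by rw [le16_zsmul_apply, ha]; push_cast; ring⟩

end isInt

/-! ### LEnd -/

section lend

variable (p : ℕ) [Fact p.Prime]
  (τ : Nat.Primes → (Additive (Gamma0 p) →+ ℂ) →+ (Additive (Gamma0 p) →+ ℂ))
  (ψ₀ : Additive (Gamma0 p) →+ ℂ)

/-- The action of a Hecke polynomial on cusp forms. -/
noncomputable def le16_act (P : HeckeAlg) : Module.End ℂ (CuspForm (Gamma0 p) 2) :=
  ((heckeEvalForms p 2 P : heckeAlgebra p 2 ∅) : Module.End ℂ (CuspForm (Gamma0 p) 2))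

theorem le16_act_C (a : ℤ) (f : CuspForm (Gamma0 p) 2) :
    le16_act p (MvPolynomial.C a) f = a • f := by
  unfold le16_act
  rw [heckeEvalForms_C, Subalgebra.coe_algebraMap, Module.algebraMap_end_apply]

theorem le16_act_add (P Q : HeckeAlg) (f : CuspForm (Gamma0 p) 2) :
    le16_act p (P + Q) f = le16_act p P f + le16_act p Q f := by
  unfold le16_act
  rw [map_add, Subalgebra.coe_add, LinearMap.add_apply]

theorem le16_act_mul_X (P : HeckeAlg) (j : Nat.Primes) (f : CuspForm (Gamma0 p) 2) :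
    le16_act p (P * MvPolynomial.X j) f
      = ((heckeFormsGen p 2 j : heckeAlgebra p 2 ∅) : Module.End ℂ (CuspForm (Gamma0 p) 2))
          (le16_act p P f) := by
  unfold le16_act
  rw [mul_comm, map_mul, Subalgebra.coe_mul, Module.End.mul_apply]
  congr 2
  exact heckeEvalForms_heckeGen p 2 j

variable {p τ ψ₀}

/-- **Claim C(P).** -/
theorem le16_claim
    (hτ_int : ∀ j φ, IsInt p φ → IsInt p (τ j φ))
    (hτ_pair : ∀ j (f g : CuspForm (Gamma0 p) 2), τ j (periodHomPair p (f, g)) =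
      periodHomPair p
        (((heckeFormsGen p 2 j : heckeAlgebra p 2 ∅) : Module.End ℂ (CuspForm (Gamma0 p) 2)) f,
         ((heckeFormsGen p 2 j : heckeAlgebra p 2 ∅) : Module.End ℂ (CuspForm (Gamma0 p) 2)) g))
    (hψ_eig : ∀ j, τ j ψ₀ = (eisensteinSystem p j) • ψ₀)
    {χ : Additive (Gamma0 p) →+ ℂ} (hχ : IsInt p χ)
    {f g : CuspForm (Gamma0 p) 2}
    (hx : periodHomPair p (f, g) = ψ₀ - ((p : ℤ) - 1) • χ)
    (P : HeckeAlg) :
    ∃ lam : Additive (Gamma0 p) →+ ℂ, IsInt p lam ∧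
      periodHomPair p (le16_act p P f, le16_act p P g)
        = (MvPolynomial.aeval (eisensteinSystem p) P : ℤ) • (ψ₀ - ((p : ℤ) - 1) • χ)
          + ((p : ℤ) - 1) • lam := by
  induction P using MvPolynomial.induction_on with
  | C a =>
    refine ⟨0, le16_isInt_zero, ?_⟩
    rw [le16_act_C, le16_act_C, ← Prod.smul_mk, map_zsmul, hx, MvPolynomial.aeval_C, smul_zero,
      add_zero]
    rfl
  | add P Q hP hQ =>
    obtain ⟨lP, hlP, hP⟩ := hP
    obtain ⟨lQ, hlQ, hQ⟩ := hQ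
    refine ⟨lP + lQ, le16_isInt_add hlP hlQ, ?_⟩
    rw [le16_act_add, le16_act_add, ← Prod.mk_add_mk, map_add, hP, hQ, map_add, add_smul,
      smul_add]
    abel
  | mul_X P j hP =>
    obtain ⟨lP, hlP, hP⟩ := hP
    refine ⟨(MvPolynomial.aeval (eisensteinSystem p) P : ℤ) •
        ((eisensteinSystem p j) • χ - τ j χ) + τ j lP,
      le16_isInt_add (le16_isInt_zsmul _ (le16_isInt_sub (le16_isInt_zsmul _ hχ)
        (hτ_int j χ hχ))) (hτ_int j lP hlP), ?_⟩
    rw [le16_act_mul_X, le16_act_mul_X, ← hτ_pair, hP, map_add, map_zsmul, map_zsmul, map_sub,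
      map_zsmul, hψ_eig, map_mul, MvPolynomial.aeval_X]
    refine AddMonoidHom.ext fun γ => ?_
    simp only [AddMonoidHom.add_apply, AddMonoidHom.sub_apply, le16_zsmul_apply]
    push_cast
    ring

/-- If `ρ P = 0` then `P` acts as zero on cusp forms (S23). -/
theorem le16_act_eq_zero {P : HeckeAlg}
    (hP : ((latticeRestrictHom p ∅).toRingHom.comp (heckeEvalForms p 2)) P = 0) :
    le16_act p P = 0 := by
  have hinj := (latticeRestrictHom_bijective p ∅ (Fermat.Agent.S23.result p)).1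
  have h0 : heckeEvalForms p 2 P = 0 := by
    apply hinj
    rw [map_zero]
    exact hP
  unfold le16_act
  rw [h0]
  rfl

omit [Fact p.Prime] in
/-- The arithmetic endgame: `e ψ₀ ∈ (p-1) Λ` and primitivity give `n ∣ e`. -/
theorem le16_arith {m : ℕ} (hm : 1 ≤ m) (e : ℤ) (a b : Additive (Gamma0 p) → ℤ)
    (hab : ∀ γ, e * a γ = (m : ℤ) * b γ)
    (hroot : ∀ r : ℕ, 1 ≤ r → (∀ γ, (r : ℤ) ∣ a γ) → r ∣ 12) :
    ((m / Nat.gcd m 12 : ℕ) : ℤ) ∣ e := by
  by_cases he : e = 0
  · rw [he]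
    exact dvd_zero _
  set d : ℕ := Int.gcd e m with hd
  have hd_pos : 0 < d := Int.gcd_pos_of_ne_zero_left _ he
  have hde : (d : ℤ) ∣ e := Int.gcd_dvd_left e m
  have hdm : (d : ℤ) ∣ (m : ℤ) := Int.gcd_dvd_right e m
  have hdm' : d ∣ m := Int.natCast_dvd_natCast.mp hdm
  obtain ⟨r, hr⟩ := hdm'
  obtain ⟨e', he'⟩ := hde
  have hr_pos : 1 ≤ r := by
    rcases Nat.eq_zero_or_pos r with h | h
    · rw [h, mul_zero] at hr
      omega
    · exact h
  have hcop : IsCoprime e' (r : ℤ) := by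
    have h1 : Int.gcd e' (r : ℤ) = 1 := by
      have h2 : Int.gcd e (m : ℤ) = d * Int.gcd e' (r : ℤ) := by
        rw [he', hr]
        push_cast
        rw [Int.gcd_mul_left]
        simp
      rw [← hd] at h2
      have h3 : d * 1 = d * Int.gcd e' (r : ℤ) := by rw [mul_one]; exact h2
      exact (Nat.eq_of_mul_eq_mul_left hd_pos h3).symm
    exact Int.isCoprime_iff_gcd_eq_one.mpr h1
  have hdiv : ∀ γ, (r : ℤ) ∣ a γ := by
    intro γ
    have h1 := hab γ
    rw [he', hr] at h1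
    push_cast at h1
    have hd0 : (d : ℤ) ≠ 0 := by exact_mod_cast hd_pos.ne'
    have h2 : e' * a γ = (r : ℤ) * b γ := by
      apply mul_left_cancel₀ hd0
      linear_combination h1
    exact hcop.symm.dvd_of_dvd_mul_left ⟨b γ, h2⟩
  have h12 := hroot r hr_pos hdiv
  have hrm : r ∣ m := ⟨d, by rw [hr, mul_comm]⟩
  have hrg : r ∣ Nat.gcd m 12 := Nat.dvd_gcd hrm h12
  obtain ⟨t, ht⟩ := hrg
  have hg_pos : 0 < Nat.gcd m 12 := Nat.gcd_pos_of_pos_right _ (by norm_num)
  have hn : m / Nat.gcd m 12 * Nat.gcd m 12 = m := Nat.div_mul_cancel (Nat.gcd_dvd_left m 12)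
  have hnd : m / Nat.gcd m 12 ∣ d := by
    refine ⟨t, ?_⟩
    have h4 : d * r = m / Nat.gcd m 12 * t * r := by
      calc d * r = m := hr.symm
        _ = m / Nat.gcd m 12 * Nat.gcd m 12 := hn.symm
        _ = m / Nat.gcd m 12 * t * r := by rw [ht]; ring
    exact Nat.eq_of_mul_eq_mul_right hr_pos h4
  exact (Int.natCast_dvd_natCast.mpr hnd).trans ⟨e', he'⟩

/-- **LEnd = `fr16_LowerCore`** from the chunks HK (`τ`), PerE (`ψ₀`) and Root (`hroot`):
a Hecke polynomial acting as zero on the integral lattice of `S₂(Γ₀(p))` has Eisenstein value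
divisible by the Eisenstein numerator. -/
theorem le16_lowerCore
    (hτ_int : ∀ j φ, IsInt p φ → IsInt p (τ j φ))
    (hτ_pair : ∀ j (f g : CuspForm (Gamma0 p) 2), τ j (periodHomPair p (f, g)) =
      periodHomPair p
        (((heckeFormsGen p 2 j : heckeAlgebra p 2 ∅) : Module.End ℂ (CuspForm (Gamma0 p) 2)) f,
         ((heckeFormsGen p 2 j : heckeAlgebra p 2 ∅) : Module.End ℂ (CuspForm (Gamma0 p) 2)) g))
    (hψ_int : IsInt p ψ₀) (hψ_T : ψ₀ (Additive.ofMul (gT p)) = (p : ℂ) - 1)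
    (hψ_eig : ∀ j, τ j ψ₀ = (eisensteinSystem p j) • ψ₀)
    (hroot : ∀ r : ℕ, 1 ≤ r → (∀ γ, ∃ m : ℤ, ψ₀ γ = (r : ℂ) * m) → r ∣ 12) :
    ∀ P : HeckeAlg, ((latticeRestrictHom p ∅).toRingHom.comp (heckeEvalForms p 2)) P = 0 →
      ((eisensteinNumerator p : ℕ) : ℤ) ∣ MvPolynomial.aeval (eisensteinSystem p) P := by
  intro P hP
  have hp2 : 2 ≤ p := (Fact.out : p.Prime).two_le
  obtain ⟨χ, hχ, hχT⟩ := le16_exists_chi p
  have hxT : (ψ₀ - ((p : ℤ) - 1) • χ) (Additive.ofMul (gT p)) = 0 := by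
    rw [AddMonoidHom.sub_apply, le16_zsmul_apply, hψ_T, hχT]
    push_cast
    ring
  have hpar := le16_parabolic_of_T p _ hxT
  rw [← (Fermat.Agent.S21.result p).2] at hpar
  obtain ⟨⟨f, g⟩, hfg⟩ := hpar
  obtain ⟨lam, hlam, hC⟩ := le16_claim hτ_int hτ_pair hψ_eig hχ hfg P
  rw [le16_act_eq_zero hP] at hC
  simp only [LinearMap.zero_apply] at hC
  have h00 : periodHomPair p ((0 : CuspForm (Gamma0 p) 2), (0 : CuspForm (Gamma0 p) 2)) = 0 :=
    map_zero _
  rw [h00] at hC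
  choose a ha using hψ_int
  choose c hc using hχ
  choose l hl using hlam
  have key : ∀ γ, MvPolynomial.aeval (eisensteinSystem p) P * a γ
      = ((p - 1 : ℕ) : ℤ) * (MvPolynomial.aeval (eisensteinSystem p) P * c γ - l γ) := by
    intro γ
    have h1 := congrArg (fun φ : Additive (Gamma0 p) →+ ℂ => φ γ) hC
    simp only [AddMonoidHom.zero_apply, AddMonoidHom.add_apply, AddMonoidHom.sub_apply,
      le16_zsmul_apply, ha, hc, hl] at h1
    have h2 : ((MvPolynomial.aeval (eisensteinSystem p) P * a γ : ℤ) : ℂ)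
        = ((((p - 1 : ℕ) : ℤ) * (MvPolynomial.aeval (eisensteinSystem p) P * c γ - l γ) : ℤ) : ℂ) := by
      push_cast [Nat.cast_sub (by omega : 1 ≤ p)]
      push_cast at h1
      linear_combination -h1
    exact_mod_cast h2
  refine le16_arith (p := p) (m := p - 1) (by omega) _ a _ key ?_
  intro r hr hdiv
  refine hroot r hr fun γ => ?_
  obtain ⟨m, hm⟩ := hdiv γ
  exact ⟨m, by rw [ha, hm]; push_cast; ring⟩

end lend

end Fermat.Agent.S16Lib
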