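/-
S16 (Eisenstein ideal index), LOWER integration (helper2): `fr16_LowerCore` (the `hL` hypothesis
of `fr16_main'`) from an integer valued Eisenstein eigen-homomorphism `ψ₀` with `ψ₀(T) = p - 1`
(PerE) which is primitive up to `12` (Root).  Uses helper9's `hh16_lowerCore` (HK + transfer),
`le16_parabolic_of_T` (Decomp), `chi16_exists_int` (Chi) and `le16_arith`.
-/
import Fermat.Agent.Lib.S16.LEnd
import Fermat.Agent.Lib.S16.HeckeHomCore

set_option autoImplicit false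

open CongruenceSubgroup ModularCurve ModularCurve.Period CuspForm
open scoped MatrixGroups

namespace Fermat.Agent.S16Lib

/-- **LOWER.** -/
theorem le16_lowerFinal (p : ℕ) [Fact p.Prime]
    (ψ₀ : Additive (Gamma0 p) →+ ℤ)
    (hT : ψ₀ (Additive.ofMul (gT p)) = (p : ℤ) - 1)
    (heig : ∀ ℓ : Nat.Primes, hh16_gen p ℓ ℂ ((Int.castAddHom ℂ).comp ψ₀)
      = eisensteinSystem p ℓ • ((Int.castAddHom ℂ).comp ψ₀))
    (hroot : ∀ r : ℕ, 1 ≤ r → (∀ γ, (r : ℤ) ∣ ψ₀ γ) → r ∣ 12) :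
    ∀ P : HeckeAlg, ((latticeRestrictHom p ∅).toRingHom.comp (heckeEvalForms p 2)) P = 0 →
      ((eisensteinNumerator p : ℕ) : ℤ) ∣ MvPolynomial.aeval (eisensteinSystem p) P := by
  intro P hP
  have hp2 : 2 ≤ p := (Fact.out : p.Prime).two_le
  obtain ⟨χ, hχ⟩ := chi16_exists_int p (Fact.out : p.Prime).ne_one
  have hχT : χ (Additive.ofMul (gT p)) = 1 := hχ
  have hpar : (Int.castAddHom ℂ).comp (ψ₀ - ((p : ℤ) - 1) • χ)
      ∈ parabolicHoms ℂ (Gamma0 p) ℂ := by
    apply le16_parabolic_of_T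
    rw [AddMonoidHom.comp_apply, AddMonoidHom.sub_apply, AddMonoidHom.smul_apply, hT, hχT]
    simp
  have hdiv := hh16_lowerCore p ψ₀ χ ((p : ℤ) - 1) heig hpar P hP
  choose b hb using hdiv
  have key : ∀ γ, MvPolynomial.aeval (eisensteinSystem p) P * ψ₀ γ
      = ((p - 1 : ℕ) : ℤ) * b γ := by
    intro γ
    rw [hb γ]
    push_cast [Nat.cast_sub (by omega : 1 ≤ p)]
    ring
  exact le16_arith (p := p) (m := p - 1) (by omega) _ (fun γ => ψ₀ γ) b key hroot

end Fermat.Agent.S16Lib
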