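import Fermat.Agent.Lib.S16.EisFricke
import Fermat.Agent.Lib.S21.EisPeriod
import Fermat.Agent.Lib.S23.DeltaN
import Fermat.Agent.Lib.S16.Defs

/-!
# S16 library: soft facts about primitives of the Eisenstein series `ep16_E p`

For an arbitrary holomorphic primitive `F` of `E = ep16_E p` on the upper half plane:

* `ps16_exp_eta`: `exp(2πi F(z)) · η(z) = c · η(p z)` for a nonzero constant `c`;
* `ps16_exp_disc`: `exp(2πi · 24 F(z)) · Δ(z) = c · Δ(p z)` for a nonzero constant `c`;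
* `ps16_int`: the periods `24 (F(γ z) - F(z))`, `γ ∈ Γ₀(p)`, are integers;
* `ps16_fricke`: `F(W z) + F(z)` is constant, `W = ep16_W p` the Fricke involution.
-/

set_option autoImplicit false

namespace Fermat.Agent.S16Lib

open Complex ModularForm CongruenceSubgroup MatrixGroups Filter
  Matrix.SpecialLinearGroup EisensteinSeries
open UpperHalfPlane hiding I
open scoped Manifold Topology Real

open Fermat.Agent.H4 Fermat.Agent.S21Lib

/-- The derivative of `η` on the upper half plane. -/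
theorem ps16_hasDerivAt_eta (w : ℍ) :
    HasDerivAt ModularForm.eta ((π * I / 12) * E2 w * ModularForm.eta (w : ℂ)) (w : ℂ) := by
  have hd : DifferentiableAt ℂ ModularForm.eta (w : ℂ) :=
    differentiableAt_eta_of_mem_upperHalfPlaneSet w.2
  have hne : ModularForm.eta (w : ℂ) ≠ 0 := eta_ne_zero w.2
  have hl := logDeriv_eta_eq_E2 w
  rw [logDeriv_apply, div_eq_iff hne] at hl
  have := hd.hasDerivAt
  rw [hl] at this
  exact this

/-- The derivative of `u ↦ η(p u)` on the upper half plane. -/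
theorem ps16_hasDerivAt_eta_mul {p : ℕ} (hp : p ≠ 0) (z : ℍ) :
    HasDerivAt (fun u : ℂ => ModularForm.eta ((p : ℂ) * u))
      ((p : ℂ) * ((π * I / 12) * E2 (heckeDiagMatrix p • z))
        * ModularForm.eta ((p : ℂ) * (z : ℂ))) (z : ℂ) := by
  have h1 := ps16_hasDerivAt_eta (heckeDiagMatrix p • z)
  rw [coe_heckeDiagMatrix_smul hp] at h1
  have h2 : HasDerivAt (fun u : ℂ => (p : ℂ) * u) (p : ℂ) (z : ℂ) := by
    simpa using (hasDerivAt_id (z : ℂ)).const_mul (p : ℂ)
  have h3 := h1.comp (z : ℂ) h2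
  refine h3.congr_deriv ?_
  ring

theorem ps16_eta_mul_ne_zero {p : ℕ} (hp : p ≠ 0) (z : ℍ) :
    ModularForm.eta ((p : ℂ) * (z : ℂ)) ≠ 0 := by
  rw [← coe_heckeDiagMatrix_smul hp]
  exact eta_ne_zero (heckeDiagMatrix p • z).2

/-- **The exponential of a primitive of `E` is an eta quotient**, eta level. -/
theorem ps16_exp_eta (p : ℕ) [NeZero p] {F : ℍ → ℂ} (hF : IsPrim F (ep16_E p)) :
    ∃ c : ℂ, c ≠ 0 ∧ ∀ z : ℍ,
      cexp (2 * π * I * F z) * ModularForm.eta (z : ℂ) = c * ModularForm.eta ((p : ℂ) * (z : ℂ)) := by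
  have hp : p ≠ 0 := NeZero.ne p
  set G : ℂ → ℂ := fun u =>
    cexp (2 * π * I * (F ∘ ofComplex) u) * ModularForm.eta u / ModularForm.eta ((p : ℂ) * u)
    with hG
  have hD : ∀ z : ℍ, HasDerivAt G 0 (z : ℂ) := by
    intro z
    have hA := ((hF z).const_mul (2 * π * I)).cexp
    have hB := ps16_hasDerivAt_eta z
    have hC := ps16_hasDerivAt_eta_mul hp z
    have hne := ps16_eta_mul_ne_zero hp z
    have h := (hA.mul hB).div hC hne
    refine h.congr_deriv ?_
    simp only [Pi.mul_apply]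
    rw [ep16_E_apply]
    field_simp
    ring
  refine ⟨G (UpperHalfPlane.I : ℍ), ?_, fun z => ?_⟩
  · simp only [hG, Function.comp_apply, ofComplex_apply]
    exact div_ne_zero (mul_ne_zero (Complex.exp_ne_zero _) (eta_ne_zero UpperHalfPlane.I.2))
      (ps16_eta_mul_ne_zero hp _)
  · have h := eq_of_hasDerivAt_zero hD z UpperHalfPlane.I
    rw [← h]
    simp only [hG, Function.comp_apply, ofComplex_apply]
    rw [div_mul_cancel₀ _ (ps16_eta_mul_ne_zero hp z)]

/-- **The exponential of a primitive of `E` is an eta quotient**, discriminant level: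
`exp(2πi · 24 F(z)) · Δ(z) = c · Δ(p z)`. -/
theorem ps16_exp_disc (p : ℕ) [NeZero p] {F : ℍ → ℂ} (hF : IsPrim F (ep16_E p)) :
    ∃ c : ℂ, c ≠ 0 ∧ ∀ z : ℍ,
      cexp (2 * π * I * (24 * F z)) * ModularForm.discriminant z
        = c * ModularForm.discriminant (heckeDiagMatrix p • z) := by
  have hp : p ≠ 0 := NeZero.ne p
  obtain ⟨c, hc, h⟩ := ps16_exp_eta p hF
  refine ⟨c ^ 24, pow_ne_zero 24 hc, fun z => ?_⟩
  have h1 := congrArg (fun x : ℂ => x ^ 24) (h z)
  simp only [mul_pow] at h1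
  rw [ModularForm.discriminant, ModularForm.discriminant, coe_heckeDiagMatrix_smul hp, ← h1,
    ← Complex.exp_nat_mul]
  congr 2
  push_cast
  ring

/-- Division form of `ps16_exp_disc`: `exp(2πi · 24 F(z)) = c · Δ(p z) / Δ(z)`. -/
theorem ps16_exp_disc' (p : ℕ) [NeZero p] {F : ℍ → ℂ} (hF : IsPrim F (ep16_E p)) :
    ∃ c : ℂ, c ≠ 0 ∧ ∀ z : ℍ,
      cexp (2 * π * I * (24 * F z))
        = c * ModularForm.discriminant (heckeDiagMatrix p • z) / ModularForm.discriminant z := by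
  obtain ⟨c, hc, h⟩ := ps16_exp_disc p hF
  refine ⟨c, hc, fun z => ?_⟩
  rw [eq_div_iff (discriminant_ne_zero z)]
  exact h z

/-- `Δ(p z) / Δ(z)` is `Γ₀(p)`-invariant (cross-multiplied form). -/
theorem ps16_disc_quot_inv (p : ℕ) [NeZero p] (γ : SL(2, ℤ)) (hγ : γ ∈ Gamma0 p) (z : ℍ) :
    ModularForm.discriminant (heckeDiagMatrix p • (γ • z)) * ModularForm.discriminant z
      = ModularForm.discriminant (heckeDiagMatrix p • z) * ModularForm.discriminant (γ • z) := by
  have hp : p ≠ 0 := NeZero.ne p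
  have hpc : (p : ℂ) ≠ 0 := by exact_mod_cast hp
  have h1 := congrFun (Fermat.Agent.LibS23.tFun_slash_gamma0 p γ hγ) z
  have h2 := congrFun (Fermat.Agent.LibS23.discriminant_slash_SL γ) z
  have e1 := ModularForm.SL_slash_apply (k := 12) (Fermat.Agent.LibS23.tFun p) γ z
  have e2 := ModularForm.SL_slash_apply (k := 12) ModularForm.discriminant γ z
  rw [ModularForm.SL_slash] at e1 e2
  replace h1 := e1.symm.trans h1
  replace h2 := e2.symm.trans h2
  rw [Fermat.Agent.LibS23.tFun_apply, Fermat.Agent.LibS23.tFun_apply] at h1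
  have hd : denom γ z ≠ 0 := denom_ne_zero γ z
  have hd' : denom γ z ^ (-(12 : ℤ)) ≠ 0 := zpow_ne_zero _ hd
  have hp11 : (p : ℂ) ^ (11 : ℕ) ≠ 0 := pow_ne_zero 11 hpc
  apply mul_left_cancel₀ (mul_ne_zero hp11 hd')
  linear_combination ModularForm.discriminant z * h1
    - (p : ℂ) ^ (11 : ℕ) * ModularForm.discriminant (heckeDiagMatrix p • z) * h2

/-- **Integrality of the periods**: `24 (F(γ z) - F(z)) ∈ ℤ` for `γ ∈ Γ₀(p)`. -/
theorem ps16_int (p : ℕ) [NeZero p] {F : ℍ → ℂ} (hF : IsPrim F (ep16_E p)) (γ : Gamma0 p)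
    (z : ℍ) : ∃ m : ℤ, 24 * (F ((γ : SL(2, ℤ)) • z) - F z) = m := by
  obtain ⟨c, hc, h⟩ := ps16_exp_disc p hF
  have h1 := h ((γ : SL(2, ℤ)) • z)
  have h2 := h z
  have h3 := ps16_disc_quot_inv p (γ : SL(2, ℤ)) γ.2 z
  have hΔ1 : ModularForm.discriminant ((γ : SL(2, ℤ)) • z) ≠ 0 := discriminant_ne_zero _
  have hΔ2 : ModularForm.discriminant z ≠ 0 := discriminant_ne_zero _
  have hexp : cexp (2 * π * I * (24 * F ((γ : SL(2, ℤ)) • z)))
      = cexp (2 * π * I * (24 * F z)) := by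
    apply mul_right_cancel₀ (mul_ne_zero hΔ1 hΔ2)
    linear_combination ModularForm.discriminant z * h1
      - ModularForm.discriminant ((γ : SL(2, ℤ)) • z) * h2 + c * h3
  rw [Complex.exp_eq_exp_iff_exists_int] at hexp
  obtain ⟨m, hm⟩ := hexp
  refine ⟨m, ?_⟩
  have hpi : (2 * π * I : ℂ) ≠ 0 := two_pi_I_ne_zero
  apply mul_left_cancel₀ hpi
  linear_combination hm

/-- `E = ep16_E p` is `1`-periodic, holomorphic and bounded at `i∞`. -/
theorem ps16_eisPer (p : ℕ) [NeZero p] : EisPer 1 (⇑(ep16_E p) : ℍ → ℂ) where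
  per := SlashInvariantFormClass.periodic_comp_ofComplex (ep16_E p)
    (CongruenceSubgroup.one_mem_strictPeriods_Gamma0 p)
  hol := ModularFormClass.holo (ep16_E p)
  bdd := ModularFormClass.bdd_at_infty (ep16_E p)

/-- The value of `E` at `i∞` is `(p - 1) / 24`. -/
theorem ps16_valueAtInfty (p : ℕ) [NeZero p] :
    valueAtInfty (⇑(ep16_E p) : ℍ → ℂ) = ((p : ℂ) - 1) / 24 := by
  have hE := ps16_eisPer p
  have han := analyticAt_cuspFunction_zero one_pos hE.per hE.hol hE.bdd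
  rw [← qExpansion_coeff_zero one_pos han hE.per]
  have := ep16_qExpansion_coeff p 0
  rw [this, ep16_coeff, if_pos rfl]

/-- **The period along `T`**: `F(z + 1) - F(z) = (p - 1) / 24`. -/
theorem ps16_vadd (p : ℕ) [NeZero p] {F : ℍ → ℂ} (hF : IsPrim F (ep16_E p)) (z : ℍ) :
    F ((1 : ℝ) +ᵥ z) - F z = ((p : ℂ) - 1) / 24 := by
  have h := (ps16_eisPer p).prim_vadd_sub one_pos hF z
  rw [h, ps16_valueAtInfty]
  simp

/-- **The period along `T`**, matrix form: `F(T z) - F(z) = (p - 1) / 24`. -/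
theorem ps16_T (p : ℕ) [NeZero p] {F : ℍ → ℂ} (hF : IsPrim F (ep16_E p)) (z : ℍ) :
    F (ModularGroup.T • z) - F z = ((p : ℂ) - 1) / 24 := by
  rw [modular_T_smul]
  exact ps16_vadd p hF z

/-- **The period along `T`**, for the element `gT p` of `Γ₀(p)`. -/
theorem ps16_gT (p : ℕ) [NeZero p] {F : ℍ → ℂ} (hF : IsPrim F (ep16_E p)) (z : ℍ) :
    F (((gT p : Gamma0 p) : SL(2, ℤ)) • z) - F z = ((p : ℂ) - 1) / 24 :=
  ps16_T p hF z

/-- **Fricke**: `F(W z) + F(z)` is constant for a primitive `F` of `E`. -/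
theorem ps16_fricke (p : ℕ) [NeZero p] {F : ℍ → ℂ} (hF : IsPrim F (ep16_E p)) (z z' : ℍ) :
    F (ep16_W p • z) + F z = F (ep16_W p • z') + F z' := by
  have hp : p ≠ 0 := NeZero.ne p
  have hΦ : IsPrim (fun w => -F w) (-(⇑(ep16_E p) : ℍ → ℂ)) := by
    intro w
    have := (hF w).neg
    exact this
  have hdet : 0 < (ep16_W p).det.val := by
    rw [ep16_W, map_mul, Units.val_mul]
    have h1 : ((mapGL ℝ ModularGroup.S : GL (Fin 2) ℝ).det).val = 1 := by
      simp
    rw [h1, one_mul]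
    exact det_heckeDiagMatrix_pos p
  have h := comp_smul_sub_const hF hΦ (ep16_W p) hdet (ep16_fricke_slash p) z z'
  linear_combination h

end Fermat.Agent.S16Lib
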