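import Fermat.Agent.Lib.S16.PerPack
import Fermat.Agent.Lib.S16.PerSoft

/-!
# S16 library: the lower bound reduced to the root statement

`lg16_lower`: the lower-bound half of the frame (`hL` of `fr16_main'`) follows from a pure
statement about holomorphic `Γ₀(p)`-invariant `r`-th roots `v` of `c · Δ(p z) / Δ(z)`:
every such `r` divides `12`.  All the period-theoretic inputs (`PerPack`, `PerSoft`) are
discharged here, for an arbitrary primitive of the Eisenstein series `ep16_E p`.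
-/

set_option autoImplicit false
set_option linter.unusedSectionVars false

open Complex Filter Function
open UpperHalfPlane hiding I
open scoped Manifold Topology Real MatrixGroups ModularForm
open Matrix.SpecialLinearGroup CongruenceSubgroup ModularForm

namespace Fermat.Agent.S16Lib

open Fermat.Agent.H4 Fermat.Agent.S21Lib ModularCurve ModularCurve.Period CuspForm

variable {p : ℕ} [Fact p.Prime]

/-- **Root data.** If `r` divides all the periods `24 (F(γ z) - F(z))`, then `r ∣ p - 1` and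
`v = exp(2πi · 24 F / r)` is a holomorphic, `Γ₀(p)`-invariant function with
`v ^ r = c · Δ(p z) / Δ(z)` and `v(W z) · v(z)` constant. -/
theorem lg16_root_data {F : ℍ → ℂ} (hF : IsPrim F (ep16_E p)) (r : ℕ) (hr : 1 ≤ r)
    (hdiv : ∀ (γ : Gamma0 p) (z : ℍ), ∃ m : ℤ,
      24 * (F ((γ : SL(2, ℤ)) • z) - F z) = (r : ℂ) * m) :
    r ∣ p - 1 ∧ ∃ v : ℍ → ℂ, MDiff v ∧ (∀ γ ∈ Gamma0 p, ∀ z : ℍ, v (γ • z) = v z) ∧
      (∃ c : ℂ, c ≠ 0 ∧ ∀ z : ℍ, v z ^ r
        = c * ModularForm.discriminant (heckeDiagMatrix p • z) / ModularForm.discriminant z) ∧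
      (∃ κ : ℂ, κ ≠ 0 ∧ ∀ z : ℍ, v (ep16_W p • z) * v z = κ) := by
  have hp1 : 1 ≤ p := (Fact.out : p.Prime).one_lt.le
  have hr0 : (r : ℂ) ≠ 0 := by exact_mod_cast (show r ≠ 0 by omega)
  refine ⟨?_, fun z => Complex.exp (2 * π * I * (24 * F z) / r), ?_, ?_, ?_, ?_⟩
  · obtain ⟨m, hm⟩ := hdiv (gT p) UpperHalfPlane.I
    rw [ps16_gT p hF] at hm
    have h1 : ((p : ℤ) - 1 : ℂ) = (((r : ℤ) * m : ℤ) : ℂ) := by
      push_cast
      rw [← hm]
      ring
    have h2 : (p : ℤ) - 1 = (r : ℤ) * m := by exact_mod_cast h1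
    have h3 : (r : ℤ) ∣ ((p - 1 : ℕ) : ℤ) := by
      rw [Nat.cast_sub hp1]
      exact ⟨m, by simpa using h2⟩
    exact_mod_cast h3
  · rw [UpperHalfPlane.mdifferentiable_iff]
    intro u hu
    have h1 : DifferentiableAt ℂ (F ∘ ofComplex) u := by
      have := (hF ⟨u, hu⟩).differentiableAt
      exact this
    have h2 : DifferentiableAt ℂ
        (fun w : ℂ => Complex.exp (2 * π * I * (24 * (F ∘ ofComplex) w) / r)) u :=
      (((h1.const_mul (24 : ℂ)).const_mul (2 * π * I)).div_const (r : ℂ)).cexp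
    exact h2.differentiableWithinAt
  · intro γ hγ z
    obtain ⟨m, hm⟩ := hdiv ⟨γ, hγ⟩ z
    have e : 2 * π * I * (24 * F (γ • z)) / r = 2 * π * I * (24 * F z) / r + m * (2 * π * I) := by
      have : 24 * F (γ • z) = 24 * F z + (r : ℂ) * m := by linear_combination hm
      rw [this]
      field_simp
    show Complex.exp _ = Complex.exp _
    rw [e, Complex.exp_add, Complex.exp_int_mul_two_pi_mul_I, mul_one]
  · obtain ⟨c, hc, h⟩ := ps16_exp_disc' p hF
    refine ⟨c, hc, fun z => ?_⟩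
    rw [← h z]
    show Complex.exp _ ^ r = _
    rw [← Complex.exp_nat_mul]
    congr 1
    field_simp
  · refine ⟨Complex.exp (2 * π * I * (24 * (F (ep16_W p • UpperHalfPlane.I)
      + F UpperHalfPlane.I)) / r), Complex.exp_ne_zero _, fun z => ?_⟩
    show Complex.exp _ * Complex.exp _ = _
    rw [← Complex.exp_add, ← ps16_fricke p hF z UpperHalfPlane.I]
    congr 1
    ring

/-- **The lower bound from the root statement** (rich form: the root statement may use
`r ∣ p - 1` and the Fricke constant). -/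
theorem lg16_lower (p : ℕ) [Fact p.Prime]
    (hroot : ∀ r : ℕ, 1 ≤ r → r ∣ p - 1 → ∀ v : ℍ → ℂ, MDiff v →
      (∀ γ ∈ Gamma0 p, ∀ z : ℍ, v (γ • z) = v z) →
      ∀ c : ℂ, c ≠ 0 →
      (∀ z : ℍ, v z ^ r
        = c * ModularForm.discriminant (heckeDiagMatrix p • z) / ModularForm.discriminant z) →
      ∀ κ : ℂ, κ ≠ 0 → (∀ z : ℍ, v (ep16_W p • z) * v z = κ) → r ∣ 12) :
    ∀ P : HeckeAlg, ((latticeRestrictHom p ∅).toRingHom.comp (heckeEvalForms p 2)) P = 0 →
      ((eisensteinNumerator p : ℕ) : ℤ) ∣ MvPolynomial.aeval (eisensteinSystem p) P := by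
  have : NeZero p := ⟨(Fact.out : p.Prime).ne_zero⟩
  obtain ⟨F, hF⟩ := eis_exists_prim (ep16_E p)
  refine pp16_lower hF (ps16_int p hF) (fun z => ?_) (fun r hr hdiv => ?_)
  · rw [ps16_vadd p hF z]
    ring
  · obtain ⟨hrp, v, hv, hinv, ⟨c, hc, hpow⟩, ⟨κ, hκ, hW⟩⟩ := lg16_root_data hF r hr hdiv
    exact hroot r hr hrp v hv hinv c hc hpow κ hκ hW

/-- **The lower bound from the root statement** (lean form). -/
theorem lg16_lower' (p : ℕ) [Fact p.Prime]
    (hroot : ∀ r : ℕ, 1 ≤ r → ∀ v : ℍ → ℂ, MDiff v →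
      (∀ γ ∈ Gamma0 p, ∀ z : ℍ, v (γ • z) = v z) →
      ∀ c : ℂ, c ≠ 0 →
      (∀ z : ℍ, v z ^ r
        = c * ModularForm.discriminant (heckeDiagMatrix p • z) / ModularForm.discriminant z) →
      r ∣ 12) :
    ∀ P : HeckeAlg, ((latticeRestrictHom p ∅).toRingHom.comp (heckeEvalForms p 2)) P = 0 →
      ((eisensteinNumerator p : ℕ) : ℤ) ∣ MvPolynomial.aeval (eisensteinSystem p) P :=
  lg16_lower p fun r hr _ v hv hinv c hc hpow _ _ _ => hroot r hr v hv hinv c hc hpow

end Fermat.Agent.S16Lib
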