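import Fermat.Agent.Lib.S16.TraceTR
import Fermat.Agent.Lib.S16.L1
import Fermat.Agent.Lib.S16.Defs

/-!
# S16 library: the no-go statements NG3 and NG5 (prefix `n35_`)

* `n35_NG3`: for `p ≡ 1 mod 3` there is no `X ∈ M₂(Γ₀(p))` with `X ≡ 1 mod 3`;
* `n35_NG5`: for `p ≡ 1 mod 4` there is no `X ∈ M₂(Γ₀(p))` with `X ≡ 1 mod 4`.

Both follow from the trace of `X²` to level one (`tw16_TR2`), `U_p² X = X` (`tw16_TR1`) and
`M₄(SL₂(ℤ)) = ℂ E₄`: with `X = 1 + Y`,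

`240 (p + 1) σ₃(n) = 2 (p + 1) a_n(X) + p a_n(Y²) + a_{pn}((U_p Y)²)`.
-/

set_option autoImplicit false

namespace Fermat.Agent.S16Lib

open UpperHalfPlane ModularForm CongruenceSubgroup MatrixGroups EisensteinSeries ModularFormClass
open scoped ArithmeticFunction.sigma Manifold
open Fermat.Agent.LibS23

variable (p : ℕ)

/-- the non-constant part of the `q`-expansion of `X` -/
noncomputable def n35_Y (X : ModularForm (Gamma0 p) 2) : PowerSeries ℂ := qExpansion 1 X - 1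

/-- `U_p` of the non-constant part -/
noncomputable def n35_UY (X : ModularForm (Gamma0 p) 2) : PowerSeries ℂ :=
  PowerSeries.mk fun k => PowerSeries.coeff (p * k) (n35_Y p X)

theorem n35_Y_coeff (X : ModularForm (Gamma0 p) 2) {n : ℕ} (hn : 1 ≤ n) :
    PowerSeries.coeff n (n35_Y p X) = qCoeff X n := by
  rw [n35_Y, map_sub, PowerSeries.coeff_one, if_neg (by omega), sub_zero]
  rfl

theorem n35_Y_coeff_zero (X : ModularForm (Gamma0 p) 2) (h0 : qCoeff X 0 = 1) :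
    PowerSeries.coeff 0 (n35_Y p X) = 0 := by
  rw [n35_Y, map_sub, PowerSeries.coeff_one, if_pos rfl]
  show qCoeff X 0 - 1 = 0
  rw [h0, sub_self]

theorem n35_UY_coeff (X : ModularForm (Gamma0 p) 2) (k : ℕ) :
    PowerSeries.coeff k (n35_UY p X) = PowerSeries.coeff (p * k) (n35_Y p X) :=
  PowerSeries.coeff_mk _ _

/-- level one, weight four: every form is a multiple of `E₄` -/
theorem n35_wt4 (T : ModularForm 𝒮ℒ 4) {n : ℕ} (hn : 1 ≤ n) :
    qCoeff T n = qCoeff T 0 * (240 * (σ 3 n : ℂ)) := by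
  obtain ⟨c, hc⟩ : ∃ c : ℂ, c • E₄ = T :=
    (finrank_eq_one_iff_of_nonzero' E₄ (E_ne_zero _ ⟨2, rfl⟩)).mp
      (Module.rank_eq_one_iff_finrank_eq_one.mp levelOne_weight_four_rank_one) _
  have hq : ∀ m, qCoeff (⇑T) m = c * qCoeff (⇑E₄) m := by
    intro m
    rw [← hc]
    have hcoe : (⇑(c • E₄) : ℍ → ℂ) = c • (⇑E₄ : ℍ → ℂ) := rfl
    show (qx (⇑(c • E₄) : ℍ → ℂ)).coeff m = c * (qx (⇑E₄ : ℍ → ℂ)).coeff m
    rw [hcoe, qx_smul c (QExp.of_levelOne E₄)]
    simp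
  rw [hq n, hq 0, l1_qc_E4 hn, l1_qc_E4_zero]
  ring

/-- **The master identity.** -/
theorem n35_master [Fact p.Prime] (X : ModularForm (Gamma0 p) 2) (h0 : qCoeff X 0 = 1)
    {n : ℕ} (hn : 1 ≤ n) :
    ((p : ℂ) + 1) * (240 * (σ 3 n : ℂ)) = 2 * ((p : ℂ) + 1) * qCoeff X n
      + (p : ℂ) * PowerSeries.coeff n (n35_Y p X ^ 2)
      + PowerSeries.coeff (p * n) (n35_UY p X ^ 2) := by
  have hp : p.Prime := Fact.out
  have hpc : (p : ℂ) ≠ 0 := by exact_mod_cast hp.ne_zero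
  have hpn : 1 ≤ p * n := Nat.mul_pos hp.pos hn
  obtain ⟨T, hT⟩ := tw16_TR2 p X
  have hhY : qExpansion 1 X = 1 + n35_Y p X := by rw [n35_Y]; ring
  have hg : (PowerSeries.mk fun k => PowerSeries.coeff (p * k) (qExpansion 1 X))
      = 1 + n35_UY p X := by
    ext k
    rw [PowerSeries.coeff_mk, map_add, n35_UY_coeff, n35_Y, map_sub, PowerSeries.coeff_one,
      PowerSeries.coeff_one]
    have hk : (p * k = 0) ↔ (k = 0) := by simp [hp.ne_zero]
    simp only [hk]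
    ring
  have hT0 := hT 0
  have hTn := hT n
  rw [hg, hhY] at hT0 hTn
  have hY0 : PowerSeries.constantCoeff (n35_Y p X) = 0 := by
    rw [← PowerSeries.coeff_zero_eq_constantCoeff_apply]
    exact n35_Y_coeff_zero p X h0
  have hUY0 : PowerSeries.constantCoeff (n35_UY p X) = 0 := by
    rw [← PowerSeries.coeff_zero_eq_constantCoeff_apply, n35_UY_coeff, mul_zero]
    exact n35_Y_coeff_zero p X h0
  have e0 : PowerSeries.coeff 0 ((1 + n35_Y p X) ^ 2) = 1 := by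
    rw [PowerSeries.coeff_zero_eq_constantCoeff_apply, map_pow, map_add, hY0]
    simp
  have e0' : PowerSeries.coeff (p * 0) ((1 + n35_UY p X) ^ 2) = 1 := by
    rw [mul_zero, PowerSeries.coeff_zero_eq_constantCoeff_apply, map_pow, map_add, hUY0]
    simp
  have en : PowerSeries.coeff n ((1 + n35_Y p X) ^ 2)
      = 2 * qCoeff X n + PowerSeries.coeff n (n35_Y p X ^ 2) := by
    have : (1 + n35_Y p X) ^ 2 = 1 + (2 : ℂ) • n35_Y p X + n35_Y p X ^ 2 := by
      rw [two_smul]; ring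
    rw [this, map_add, map_add, PowerSeries.coeff_one, if_neg (by omega), PowerSeries.coeff_smul,
      n35_Y_coeff p X hn, smul_eq_mul]
    ring
  have en' : PowerSeries.coeff (p * n) ((1 + n35_UY p X) ^ 2)
      = 2 * qCoeff X n + PowerSeries.coeff (p * n) (n35_UY p X ^ 2) := by
    have : (1 + n35_UY p X) ^ 2 = 1 + (2 : ℂ) • n35_UY p X + n35_UY p X ^ 2 := by
      rw [two_smul]; ring
    rw [this, map_add, map_add, PowerSeries.coeff_one, if_neg (by omega), PowerSeries.coeff_smul,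
      n35_UY_coeff, n35_Y_coeff p X (Nat.mul_pos hp.pos hpn), tw16_TR1 p X n, smul_eq_mul]
    ring
  rw [e0, e0'] at hT0
  rw [en, en', n35_wt4 T hn, hT0] at hTn
  field_simp at hTn
  linear_combination hTn

section dvd

variable (ℓ s : ℕ) [Fact ℓ.Prime]

theorem n35_Y_dvd (X : ModularForm (Gamma0 p) 2) (hC : Cong p ℓ s X) :
    l1_PDvd ℓ s (n35_Y p X) := fun n => by
  rcases Nat.eq_zero_or_pos n with rfl | hn
  · rw [n35_Y_coeff_zero p X hC.1]
    exact l1_Dvd.zero'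
  · rw [n35_Y_coeff p X hn]
    exact l1_Dvd_iff.mpr (hC.2 n hn)

theorem n35_UY_dvd (X : ModularForm (Gamma0 p) 2) (hY : l1_PDvd ℓ s (n35_Y p X)) :
    l1_PDvd ℓ s (n35_UY p X) := fun n => by
  rw [n35_UY_coeff]
  exact hY _

end dvd

/-- `σ₃(p²) = 1 + p³ + p⁶`, written with `p * (p * 1)`. -/
theorem n35_sigma (hp : p.Prime) : σ 3 (p * (p * 1)) = 1 + p ^ 3 + p ^ 6 := by
  have h : p * (p * 1) = p ^ 2 := by ring
  rw [h, ArithmeticFunction.sigma_apply_prime_pow hp]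
  simp [Finset.sum_range_succ]

/-- the difference of the master identities at `n = 1` and `n = p²` -/
theorem n35_diff [Fact p.Prime] (X : ModularForm (Gamma0 p) 2) (h0 : qCoeff X 0 = 1) :
    ((((p : ℤ) + 1) * (240 * ((p : ℤ) ^ 3 + (p : ℤ) ^ 6)) : ℤ) : ℂ)
      = (p : ℂ) * (PowerSeries.coeff (p * (p * 1)) (n35_Y p X ^ 2)
          - PowerSeries.coeff 1 (n35_Y p X ^ 2))
        + (PowerSeries.coeff (p * (p * (p * 1))) (n35_UY p X ^ 2)
          - PowerSeries.coeff (p * 1) (n35_UY p X ^ 2)) := by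
  have hp : p.Prime := Fact.out
  have m1 := n35_master p X h0 (n := 1) le_rfl
  have m2 := n35_master p X h0 (n := p * (p * 1)) (Nat.mul_pos hp.pos (Nat.mul_pos hp.pos one_pos))
  rw [tw16_TR1 p X 1, n35_sigma p hp] at m2
  have hs1 : (σ 3 1 : ℂ) = 1 := by simp
  rw [hs1] at m1
  push_cast at m2 ⊢
  linear_combination m2 - m1

/-- **NG3.** -/
theorem n35_NG3 [Fact p.Prime] (h3 : p % 3 = 1) (X : ModularForm (Gamma0 p) 2) :
    ¬ Cong p 3 1 X := by
  intro hC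
  have : Fact (Nat.Prime 3) := ⟨Nat.prime_three⟩
  have hp : p.Prime := Fact.out
  have hp3 : ¬ (3 : ℕ) ∣ p := by omega
  have hY := n35_Y_dvd p 3 1 X hC
  have hUY := n35_UY_dvd p 3 1 X hY
  have hY2 : l1_PDvd 3 2 (n35_Y p X ^ 2) := by rw [pow_two]; exact hY.mul hY
  have hUY2 : l1_PDvd 3 2 (n35_UY p X ^ 2) := by rw [pow_two]; exact hUY.mul hUY
  have hd : l1_Dvd 3 2 ((((p : ℤ) + 1) * (240 * ((p : ℤ) ^ 3 + (p : ℤ) ^ 6)) : ℤ) : ℂ) := by
    rw [n35_diff p X hC.1]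
    exact (((hY2 _).sub (hY2 _)).mul_left (l1_nat_mem (ℓ := 3) p)).add ((hUY2 _).sub (hUY2 _))
  rw [l1_Dvd_int_iff] at hd
  have key : ∀ t : ZMod 9, (3 * t + 1 + 1) * (240 * ((3 * t + 1) ^ 3 + (3 * t + 1) ^ 6)) ≠ 0 := by
    decide
  have hz := (ZMod.intCast_zmod_eq_zero_iff_dvd _ 9).mpr (by simpa using hd)
  obtain ⟨t, ht⟩ : ∃ t : ℕ, p = 3 * t + 1 := ⟨p / 3, by omega⟩
  apply key (t : ZMod 9)
  rw [ht] at hz
  push_cast at hz
  exact hz

end Fermat.Agent.S16Lib
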