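/-
S16, chunk B-Vq (helper5): the `V_q`-trick.

If `G` is a modular form of weight two on `Γ₀(N)` whose `q`-expansion is rational, has
constant term one and all of whose higher coefficients are `ℓ`-adically smaller than
`q ^ 2 - 1` (for a prime `q` not dividing `N`, `q ≠ ℓ`), then we derive a contradiction.

Multiplication by `G` identifies weights `k` and `k + 2` modulo `ℓ`, but the Hecke operator
`T_q` depends on the weight; the difference produces the operator `V_q : f(τ) ↦ f(q τ)` on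
forms of level `N` modulo `ℓ`, raising the weight by two.  Applied to powers of `Δ` this
produces, in one fixed weight, more forms with pairwise distinct leading exponents modulo `ℓ`
than the Sturm bound allows.
-/
import Fermat.Agent.Lib.S20.Basic
import Fermat.Agent.Lib.S24.QBridge
import Fermat.Prelude.Def_ModularForm_HeckeOperatorForms
import Fermat.Prelude.Thm_ModularFormClass_qCoeff_heckeT
import Fermat.Prelude.Thm_ModularForm_sturm_bound_Gamma0

set_option autoImplicit false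

namespace Fermat.Agent.S16Vq

open UpperHalfPlane ModularForm CongruenceSubgroup MatrixGroups
open Fermat.Agent.LibS23

/-! ### sequences -/

/-- Cauchy product of rational sequences -/
def vq16_conv (a b : ℕ → ℚ) (n : ℕ) : ℚ := ∑ x ∈ Finset.HasAntidiagonal.antidiagonal n, a x.1 * b x.2

/-- `a` is `ℓ`-integral, and modulo `ℓ` its first nonzero coefficient is the `e`-th one -/
def vq16_IsLed (ℓ : ℕ) (a : ℕ → ℚ) (e : ℕ) : Prop :=
  (∀ n, padicNorm ℓ (a n) ≤ 1) ∧ (∀ n, n < e → padicNorm ℓ (a n) < 1) ∧ padicNorm ℓ (a e) = 1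

variable {ℓ : ℕ} [Fact ℓ.Prime]

theorem vq16_norm_mul_le_one {x y : ℚ} (hx : padicNorm ℓ x ≤ 1) (hy : padicNorm ℓ y ≤ 1) :
    padicNorm ℓ (x * y) ≤ 1 := by
  rw [padicNorm.mul]
  exact mul_le_one₀ hx (padicNorm.nonneg _) hy

theorem vq16_norm_mul_lt_left {x y : ℚ} {t : ℚ} (hx : padicNorm ℓ x < t) (hy : padicNorm ℓ y ≤ 1) :
    padicNorm ℓ (x * y) < t := by
  rw [padicNorm.mul]
  calc padicNorm ℓ x * padicNorm ℓ y ≤ padicNorm ℓ x * 1 :=
        mul_le_mul_of_nonneg_left hy (padicNorm.nonneg _)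
    _ = padicNorm ℓ x := mul_one _
    _ < t := hx

theorem vq16_norm_mul_lt_right {x y : ℚ} {t : ℚ} (hx : padicNorm ℓ x ≤ 1) (hy : padicNorm ℓ y < t) :
    padicNorm ℓ (x * y) < t := by
  rw [mul_comm]
  exact vq16_norm_mul_lt_left hy hx

/-- a dominant term determines the norm -/
theorem vq16_norm_add_of_lt {x y : ℚ} (h : padicNorm ℓ y < padicNorm ℓ x) :
    padicNorm ℓ (x + y) = padicNorm ℓ x := by
  rw [padicNorm.add_eq_max_of_ne (ne_of_gt h)]
  exact max_eq_left h.le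

theorem vq16_conv_led {a b : ℕ → ℚ} {e e' : ℕ} (ha : vq16_IsLed ℓ a e) (hb : vq16_IsLed ℓ b e') :
    vq16_IsLed ℓ (vq16_conv a b) (e + e') := by
  refine ⟨fun n => ?_, fun n hn => ?_, ?_⟩
  · exact padicNorm.sum_le' (fun x _ => vq16_norm_mul_le_one (ha.1 _) (hb.1 _)) zero_le_one
  · refine padicNorm.sum_lt' (fun x hx => ?_) zero_lt_one
    rw [Finset.HasAntidiagonal.mem_antidiagonal] at hx
    by_cases h1 : x.1 < e
    · exact vq16_norm_mul_lt_left (ha.2.1 _ h1) (hb.1 _)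
    · exact vq16_norm_mul_lt_right (ha.1 _) (hb.2.1 _ (by omega))
  · have hmem : (e, e') ∈ Finset.HasAntidiagonal.antidiagonal (e + e') := by simp
    unfold vq16_conv
    rw [← Finset.add_sum_erase _ _ hmem]
    have h1 : padicNorm ℓ (a e * b e') = 1 := by rw [padicNorm.mul, ha.2.2, hb.2.2, mul_one]
    have h2 : padicNorm ℓ (∑ x ∈ (Finset.HasAntidiagonal.antidiagonal (e + e')).erase (e, e'), a x.1 * b x.2) < 1 := by
      refine padicNorm.sum_lt' (fun x hx => ?_) zero_lt_one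
      rw [Finset.mem_erase, Finset.HasAntidiagonal.mem_antidiagonal] at hx
      by_cases h1 : x.1 < e
      · exact vq16_norm_mul_lt_left (ha.2.1 _ h1) (hb.1 _)
      · have h3 : x.2 < e' := by
          rcases hx with ⟨hne, hsum⟩
          by_contra h4
          apply hne
          ext <;> simp <;> omega
        exact vq16_norm_mul_lt_right (ha.1 _) (hb.2.1 _ h3)
    rw [vq16_norm_add_of_lt (by rw [h1]; exact h2), h1]

/-- multiplying by a series `1 + (small)` changes every coefficient by something small -/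
theorem vq16_conv_close {a g : ℕ → ℚ} {t : ℚ} (ht : 0 < t) (ha : ∀ n, padicNorm ℓ (a n) ≤ 1)
    (hg0 : g 0 = 1) (hg : ∀ n, 1 ≤ n → padicNorm ℓ (g n) < t) (n : ℕ) :
    padicNorm ℓ (vq16_conv a g n - a n) < t := by
  have hmem : (n, 0) ∈ Finset.HasAntidiagonal.antidiagonal n := by simp
  unfold vq16_conv
  rw [← Finset.add_sum_erase _ _ hmem, hg0, mul_one, add_sub_cancel_left]
  refine padicNorm.sum_lt' (fun x hx => ?_) ht
  rw [Finset.mem_erase, Finset.HasAntidiagonal.mem_antidiagonal] at hx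
  have h3 : 1 ≤ x.2 := by
    rcases hx with ⟨hne, hsum⟩
    by_contra h4
    apply hne
    ext <;> simp <;> omega
  exact vq16_norm_mul_lt_right (ha _) (hg _ h3)


/-! ### the coefficient form of the trick -/

/-- the Hecke operator `T_q` in weight `m + 1` on coefficients -/
def vq16_T (m q : ℕ) (a : ℕ → ℚ) (n : ℕ) : ℚ :=
  a (n * q) + if q ∣ n then (q : ℚ) ^ m * a (n / q) else 0

/-- the coefficients of `Ψ(f) = (T_q^{(k+2)}(G f) - G T_q^{(k)} f) / (q^{k-1}(q^2-1))`, `k = m + 1` -/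
def vq16_psi (a g : ℕ → ℚ) (m q : ℕ) (n : ℕ) : ℚ :=
  ((q : ℚ) ^ m * ((q : ℚ) ^ 2 - 1))⁻¹ *
    (vq16_T (m + 2) q (vq16_conv a g) n - vq16_conv (vq16_T m q a) g n)

theorem vq16_T_le_one {m q : ℕ} {a : ℕ → ℚ} (ha : ∀ n, padicNorm ℓ (a n) ≤ 1) (n : ℕ) :
    padicNorm ℓ (vq16_T m q a n) ≤ 1 := by
  unfold vq16_T
  refine le_trans padicNorm.nonarchimedean (max_le (ha _) ?_)
  split_ifs
  · refine vq16_norm_mul_le_one ?_ (ha _)
    have : ((q : ℚ) ^ m) = ((q ^ m : ℕ) : ℚ) := by push_cast; rfl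
    rw [this]
    exact padicNorm.of_nat _
  · rw [padicNorm.zero]; exact zero_le_one

theorem vq16_psi_close {a g : ℕ → ℚ} {m q : ℕ} (hq2 : 2 ≤ q) (hqn : padicNorm ℓ (q : ℚ) = 1)
    (ha : ∀ n, padicNorm ℓ (a n) ≤ 1) (hg0 : g 0 = 1)
    (hg : ∀ n, 1 ≤ n → padicNorm ℓ (g n) < padicNorm ℓ ((q : ℚ) ^ 2 - 1)) (n : ℕ) :
    padicNorm ℓ (vq16_psi a g m q n - if q ∣ n then a (n / q) else 0) < 1 := by
  set τ := padicNorm ℓ ((q : ℚ) ^ 2 - 1) with hτ
  have hq1 : ((q : ℚ) ^ 2 - 1) ≠ 0 := by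
    have h2 : (2 : ℚ) ≤ q := by exact_mod_cast hq2
    nlinarith
  have hτpos : 0 < τ := lt_of_le_of_ne (padicNorm.nonneg _) (Ne.symm (padicNorm.nonzero hq1))
  have hq0 : (q : ℚ) ≠ 0 := by
    have h2 : (2 : ℚ) ≤ q := by exact_mod_cast hq2
    positivity
  set c : ℚ := (q : ℚ) ^ m * ((q : ℚ) ^ 2 - 1) with hc
  have hc0 : c ≠ 0 := mul_ne_zero (pow_ne_zero _ hq0) hq1
  have hqm : ∀ k : ℕ, padicNorm ℓ ((q : ℚ) ^ k) = 1 := by
    intro k
    induction k with
    | zero => simp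
    | succ k ih => rw [pow_succ, padicNorm.mul, ih, hqn, mul_one]
  have hcn : padicNorm ℓ c = τ := by rw [hc, padicNorm.mul, hqm, one_mul]
  -- the three error terms
  have d1 : ∀ k, padicNorm ℓ (vq16_conv a g k - a k) < τ := vq16_conv_close hτpos ha hg0 hg
  have d3 : padicNorm ℓ (vq16_conv (vq16_T m q a) g n - vq16_T m q a n) < τ :=
    vq16_conv_close hτpos (vq16_T_le_one ha) hg0 hg n
  -- the remainder
  set r : ℚ := (vq16_conv a g (n * q) - a (n * q))
      + (if q ∣ n then (q : ℚ) ^ (m + 2) * (vq16_conv a g (n / q) - a (n / q)) else 0)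
      - (vq16_conv (vq16_T m q a) g n - vq16_T m q a n) with hr
  have hrn : padicNorm ℓ r < τ := by
    rw [hr]
    refine lt_of_le_of_lt padicNorm.sub (max_lt ?_ d3)
    refine lt_of_le_of_lt padicNorm.nonarchimedean (max_lt (d1 _) ?_)
    split_ifs
    · rw [padicNorm.mul, hqm, one_mul]; exact d1 _
    · rw [padicNorm.zero]; exact hτpos
  have key : vq16_psi a g m q n - (if q ∣ n then a (n / q) else 0) = c⁻¹ * r := by
    unfold vq16_psi vq16_T
    rw [hr]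
    unfold vq16_T
    by_cases hdiv : q ∣ n
    · simp only [if_pos hdiv]
      rw [← hc]
      field_simp
      rw [hc]
      ring
    · simp only [if_neg hdiv]
      rw [← hc]
      field_simp
      ring
  rw [key, padicNorm.mul]
  have hinv : padicNorm ℓ c⁻¹ = τ⁻¹ := by
    have := padicNorm.div (p := ℓ) 1 c
    rw [padicNorm.one, hcn] at this
    rw [inv_eq_one_div, this, one_div]
  rw [hinv]
  rw [inv_mul_lt_iff₀ hτpos, mul_one]
  exact hrn

theorem vq16_psi_led {a g : ℕ → ℚ} {m q e : ℕ} (hq2 : 2 ≤ q) (hqn : padicNorm ℓ (q : ℚ) = 1)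
    (ha : vq16_IsLed ℓ a e) (hg0 : g 0 = 1)
    (hg : ∀ n, 1 ≤ n → padicNorm ℓ (g n) < padicNorm ℓ ((q : ℚ) ^ 2 - 1)) :
    vq16_IsLed ℓ (vq16_psi a g m q) (q * e) := by
  have hclose := fun n => vq16_psi_close (m := m) hq2 hqn ha.1 hg0 hg n
  have hq0 : 0 < q := by omega
  have hsplit : ∀ n, vq16_psi a g m q n
      = (if q ∣ n then a (n / q) else 0)
        + (vq16_psi a g m q n - if q ∣ n then a (n / q) else 0) := fun n => by ring
  refine ⟨fun n => ?_, fun n hn => ?_, ?_⟩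
  · rw [hsplit n]
    refine le_trans padicNorm.nonarchimedean (max_le ?_ (hclose n).le)
    split_ifs
    · exact ha.1 _
    · rw [padicNorm.zero]; exact zero_le_one
  · rw [hsplit n]
    refine lt_of_le_of_lt padicNorm.nonarchimedean (max_lt ?_ (hclose n))
    split_ifs with hdiv
    · refine ha.2.1 _ ?_
      exact Nat.div_lt_of_lt_mul hn
    · rw [padicNorm.zero]; exact zero_lt_one
  · have h1 := hclose (q * e)
    have hdiv : q ∣ q * e := dvd_mul_right q e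
    have hq : q * e / q = e := Nat.mul_div_cancel_left e hq0
    rw [if_pos hdiv, hq] at h1
    rw [hsplit (q * e), if_pos hdiv, hq, vq16_norm_add_of_lt (by rw [ha.2.2]; exact h1), ha.2.2]


/-! ### forms -/

variable {N : ℕ}

/-- there is a form of weight `K` on `Γ₀(N)` with rational `ℓ`-integral `q`-expansion whose
reduction modulo `ℓ` has leading exponent `e` -/
def vq16_Led (N ℓ : ℕ) (K : ℤ) (e : ℕ) : Prop :=
  ∃ (f : ModularForm (Gamma0 N) K) (a : ℕ → ℚ),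
    (∀ n, (qx ⇑f).coeff n = (a n : ℂ)) ∧ vq16_IsLed ℓ a e

omit [Fact ℓ.Prime] in
theorem vq16_led_cast {K K' : ℤ} (h : K = K') {e e' : ℕ} (he : e = e')
    (hL : vq16_Led N ℓ K e) : vq16_Led N ℓ K' e' := by
  subst h; subst he; exact hL

theorem vq16_qx_mul {K K' : ℤ} (f : ModularForm (Gamma0 N) K) (f' : ModularForm (Gamma0 N) K')
    {a a' : ℕ → ℚ} (ha : ∀ n, (qx ⇑f).coeff n = (a n : ℂ))
    (ha' : ∀ n, (qx ⇑f').coeff n = (a' n : ℂ)) (n : ℕ) :
    (qx ⇑(f.mul f')).coeff n = ((vq16_conv a a' n : ℚ) : ℂ) := by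
  have h : (⇑(f.mul f') : ℍ → ℂ) = ⇑f * ⇑f' := rfl
  rw [h, qx_mul (QExp.of_gamma0 f) (QExp.of_gamma0 f'), PowerSeries.coeff_mul]
  unfold vq16_conv
  push_cast
  exact Finset.sum_congr rfl fun x _ => by rw [ha, ha']

theorem vq16_led_mul {K K' : ℤ} {e e' : ℕ} (h : vq16_Led N ℓ K e) (h' : vq16_Led N ℓ K' e') :
    vq16_Led N ℓ (K + K') (e + e') := by
  obtain ⟨f, a, ha, hL⟩ := h
  obtain ⟨f', a', ha', hL'⟩ := h'
  exact ⟨f.mul f', vq16_conv a a', vq16_qx_mul f f' ha ha', vq16_conv_led hL hL'⟩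

theorem vq16_led_delta : vq16_Led N ℓ 12 1 := by
  refine ⟨Fermat.Agent.S20Lib.basicRestrict (CuspForm.discriminant : ModularForm 𝒮ℒ 12),
    fun n => (((PowerSeries.X * ModularCurve.dedekindEtaUnit : PowerSeries ℤ).coeff n : ℤ) : ℚ),
    fun n => ?_, fun n => padicNorm.of_int _, fun n hn => ?_, ?_⟩
  · rw [Fermat.Agent.S20Lib.coe_basicRestrict]
    have h := Fermat.Agent.S24Lib.qx_discriminant_eq
    have h2 : (qx (⇑(CuspForm.discriminant : ModularForm 𝒮ℒ 12))) = qx ModularForm.discriminant := rfl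
    rw [h2, h]
    have h3 : (PowerSeries.X * (ModularCurve.dedekindEtaUnit).map (Int.castRingHom ℂ) : PowerSeries ℂ)
        = (PowerSeries.X * ModularCurve.dedekindEtaUnit : PowerSeries ℤ).map (Int.castRingHom ℂ) := by
      rw [map_mul, PowerSeries.map_X]
    rw [h3, PowerSeries.coeff_map]
    simp
  · have hn0 : n = 0 := by omega
    subst hn0
    simp
  · have h1 : (PowerSeries.X * ModularCurve.dedekindEtaUnit : PowerSeries ℤ).coeff 1 = 1 := by
      have := PowerSeries.coeff_succ_X_mul (R := ℤ) 0 ModularCurve.dedekindEtaUnit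
      rw [zero_add] at this
      rw [this, PowerSeries.coeff_zero_eq_constantCoeff]
      exact ModularCurve.constantCoeff_dedekindEtaUnit
    show padicNorm ℓ (((PowerSeries.X * ModularCurve.dedekindEtaUnit : PowerSeries ℤ).coeff 1 : ℤ) : ℚ) = 1
    rw [h1]
    simp

theorem vq16_qx_hecke {K : ℤ} {q : ℕ} (hq : q.Prime) (hqN : ¬ q ∣ N)
    (f : ModularForm (Gamma0 N) K) (n : ℕ) :
    (qx ⇑(heckeTLin K hq hqN f)).coeff n
      = (qx ⇑f).coeff (n * q) + if q ∣ n then (q : ℂ) ^ (K - 1) * (qx ⇑f).coeff (n / q) else 0 := by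
  have := ModularFormClass.qCoeff_heckeT f (CongruenceSubgroup.one_mem_strictPeriods_Gamma0 N)
    hq.ne_zero n
  simpa [ModularFormClass.qCoeff, coeffHeckeT] using this


section trick

variable [NeZero N] {q : ℕ} (hq : q.Prime) (hqN : ¬ q ∣ N) (hqℓ : q ≠ ℓ)
  (G : ModularForm (Gamma0 N) 2) (g : ℕ → ℚ) (hG : ∀ n, (qx ⇑G).coeff n = (g n : ℂ))
  (hg0 : g 0 = 1) (hg : ∀ n, 1 ≤ n → padicNorm ℓ (g n) < padicNorm ℓ ((q : ℚ) ^ 2 - 1))

include hq hqℓ in
omit [NeZero N] in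
theorem vq16_norm_q : padicNorm ℓ (q : ℚ) = 1 := by
  rw [padicNorm.nat_eq_one_iff]
  intro h
  exact hqℓ ((Nat.prime_dvd_prime_iff_eq Fact.out hq).mp h).symm

include hG hg0 hg in
omit [NeZero N] in
theorem vq16_led_G : vq16_Led N ℓ 2 0 := by
  refine ⟨G, g, hG, fun n => ?_, fun n hn => absurd hn (Nat.not_lt_zero _), by
    rw [hg0]; exact padicNorm.one⟩
  rcases Nat.eq_zero_or_pos n with rfl | hn
  · rw [hg0, padicNorm.one]
  · refine (hg n hn).le.trans ?_
    have : ((q : ℚ) ^ 2 - 1) = (((q : ℤ) ^ 2 - 1 : ℤ) : ℚ) := by push_cast; ring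
    rw [this]
    exact padicNorm.of_int _

include hq hqN hqℓ hG hg0 hg in
omit [NeZero N] in
theorem vq16_led_psi {K : ℤ} (hK : 1 ≤ K) {e : ℕ} (h : vq16_Led N ℓ K e) :
    vq16_Led N ℓ (K + 2) (q * e) := by
  obtain ⟨m, rfl⟩ : ∃ m : ℕ, K = (m : ℤ) + 1 := ⟨(K - 1).toNat, by omega⟩
  obtain ⟨f, a, ha, hL⟩ := h
  refine ⟨((((q : ℚ) ^ m * ((q : ℚ) ^ 2 - 1) : ℚ) : ℂ))⁻¹ •
      (heckeTLin ((m : ℤ) + 1 + 2) hq hqN (f.mul G)
      - (heckeTLin ((m : ℤ) + 1) hq hqN f).mul G), vq16_psi a g m q, fun n => ?_,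
    vq16_psi_led hq.two_le (vq16_norm_q hq hqℓ) hL hg0 hg⟩
  have hQ1 : QExp ⇑(heckeTLin ((m : ℤ) + 1 + 2) hq hqN (f.mul G)) := QExp.of_gamma0 _
  have hQ2 : QExp ⇑((heckeTLin ((m : ℤ) + 1) hq hqN f).mul G) := QExp.of_gamma0 _
  have hcoe : (⇑(((((q : ℚ) ^ m * ((q : ℚ) ^ 2 - 1) : ℚ) : ℂ))⁻¹ •
      (heckeTLin ((m : ℤ) + 1 + 2) hq hqN (f.mul G)
      - (heckeTLin ((m : ℤ) + 1) hq hqN f).mul G)) : ℍ → ℂ)
      = ((((q : ℚ) ^ m * ((q : ℚ) ^ 2 - 1) : ℚ) : ℂ))⁻¹ •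
        (⇑(heckeTLin ((m : ℤ) + 1 + 2) hq hqN (f.mul G))
        - ⇑((heckeTLin ((m : ℤ) + 1) hq hqN f).mul G)) := rfl
  rw [hcoe, qx_smul _ (hQ1.sub hQ2), qx_sub hQ1 hQ2, PowerSeries.coeff_smul, map_sub]
  rw [vq16_qx_hecke hq hqN (f.mul G) n]
  have hTf : ∀ k, (qx ⇑(heckeTLin ((m : ℤ) + 1) hq hqN f)).coeff k
      = ((vq16_T m q a k : ℚ) : ℂ) := by
    intro k
    rw [vq16_qx_hecke hq hqN f k, ha, ha]
    unfold vq16_T
    have : ((m : ℤ) + 1 - 1) = (m : ℤ) := by ring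
    rw [this, zpow_natCast]
    split_ifs <;> push_cast <;> ring
  rw [vq16_qx_mul _ G hTf hG n, vq16_qx_mul f G ha hG, vq16_qx_mul f G ha hG]
  have h2 : ((m : ℤ) + 1 + 2 - 1) = ((m + 2 : ℕ) : ℤ) := by push_cast; ring
  rw [h2, zpow_natCast, smul_eq_mul]
  have h3 : ((vq16_psi a g m q n : ℚ) : ℂ)
      = ((((q : ℚ) ^ m * ((q : ℚ) ^ 2 - 1) : ℚ) : ℂ))⁻¹ *
        ((((vq16_conv a g (n * q) : ℚ) : ℂ)
          + if q ∣ n then (q : ℂ) ^ (m + 2) * ((vq16_conv a g (n / q) : ℚ) : ℂ) else 0)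
        - ((vq16_conv (vq16_T m q a) g n : ℚ) : ℂ)) := by
    unfold vq16_psi
    rw [Rat.cast_mul, Rat.cast_inv, Rat.cast_sub]
    congr 2
    unfold vq16_T
    split_ifs <;> push_cast <;> ring
  rw [h3]

omit [Fact ℓ.Prime] [NeZero N] in
theorem vq16_led_delta_pow' [Fact ℓ.Prime] (a : ℕ) (ha : 1 ≤ a) :
    vq16_Led N ℓ (12 * (a : ℤ)) a := by
  induction a, ha using Nat.le_induction with
  | base => exact vq16_led_cast (by norm_num) rfl vq16_led_delta
  | succ a ha ih => exact vq16_led_cast (by push_cast; ring) rfl (vq16_led_mul ih vq16_led_delta)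

include hq hqN hqℓ hG hg0 hg in
omit [NeZero N] in
theorem vq16_led_step1 (a : ℕ) (ha : 1 ≤ a) (i : ℕ) :
    vq16_Led N ℓ (12 * (a : ℤ) + 2 * (i : ℤ)) (a * q ^ i) := by
  induction i with
  | zero => exact vq16_led_cast (by simp) (by simp) (vq16_led_delta_pow' a ha)
  | succ i ih =>
    have hK : (1 : ℤ) ≤ 12 * (a : ℤ) + 2 * (i : ℤ) := by
      have : (1 : ℤ) ≤ (a : ℤ) := by exact_mod_cast ha
      have : (0 : ℤ) ≤ (i : ℤ) := by positivity
      omega
    exact vq16_led_cast (by push_cast; ring) (by ring)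
      (vq16_led_psi hq hqN hqℓ G g hG hg0 hg hK ih)

include hq hqN hqℓ hG hg0 hg in
omit [NeZero N] in
theorem vq16_led_step2 (a : ℕ) (ha : 1 ≤ a) (i j : ℕ) :
    vq16_Led N ℓ (12 * (a : ℤ) + 2 * (i : ℤ) + 2 * (j : ℤ)) (a * q ^ i) := by
  induction j with
  | zero => exact vq16_led_cast (by simp) rfl (vq16_led_step1 hq hqN hqℓ G g hG hg0 hg a ha i)
  | succ j ih =>
    exact vq16_led_cast (by push_cast; ring) (by simp)
      (vq16_led_mul ih (vq16_led_G G g hG hg0 hg))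

end trick

/-! ### the Sturm bound -/

/-- all `q`-expansion coefficients, as a linear map -/
noncomputable def vq16_coeffLin (N : ℕ) (K : ℤ) : ModularForm (Gamma0 N) K →ₗ[ℂ] (ℕ → ℂ) where
  toFun f := fun n => (qx ⇑f).coeff n
  map_add' f g := by
    funext n
    have h : (⇑(f + g) : ℍ → ℂ) = ⇑f + ⇑g := rfl
    rw [h, qx_add (QExp.of_gamma0 f) (QExp.of_gamma0 g)]
    simp
  map_smul' c f := by
    funext n
    have h : (⇑(c • f) : ℍ → ℂ) = c • ⇑f := rfl
    rw [h, qx_smul c (QExp.of_gamma0 f)]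
    simp

theorem vq16_sturm [NeZero N] {K : ℤ} (S : Finset ℕ) (hS : ∀ e ∈ S, vq16_Led N ℓ K e)
    (hcard : (K * (Gamma0 N).index).toNat / 12 + 1 < S.card) : False := by
  classical
  choose! f a hfa using hS
  set B := (K * (Gamma0 N).index).toNat / 12 with hB
  let φ : (S → ℚ) →ₗ[ℚ] (Fin (B + 1) → ℚ) :=
    { toFun := fun lam n => ∑ e : S, lam e * a e n
      map_add' := by
        intro x y; funext n
        simp [add_mul, Finset.sum_add_distrib]
      map_smul' := by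
        intro c x; funext n
        simp [Finset.mul_sum, mul_assoc] }
  have hker : LinearMap.ker φ ≠ ⊥ := by
    apply LinearMap.ker_ne_bot_of_finrank_lt
    rw [Module.finrank_fintype_fun_eq_card, Module.finrank_fintype_fun_eq_card, Fintype.card_fin,
      Fintype.card_coe]
    exact hcard
  obtain ⟨lam, hlam, hne⟩ := (Submodule.ne_bot_iff _).mp hker
  rw [LinearMap.mem_ker] at hlam
  -- the combination
  set F : ModularForm (Gamma0 N) K := ∑ e : S, ((lam e : ℚ) : ℂ) • f e with hF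
  have hFcoef : ∀ n, (qx ⇑F).coeff n = ((∑ e : S, lam e * a e n : ℚ) : ℂ) := by
    intro n
    have h1 : (qx ⇑F).coeff n = vq16_coeffLin N K F n := rfl
    rw [h1, hF, map_sum]
    simp only [map_smul, Finset.sum_apply, Pi.smul_apply, smul_eq_mul]
    push_cast
    refine Finset.sum_congr rfl fun e _ => ?_
    have h2 : vq16_coeffLin N K (f e) n = (qx ⇑(f e)).coeff n := rfl
    rw [h2, (hfa e e.2).1 n]
  have hF0 : F = 0 := by
    apply ModularForm.sturm_bound_Gamma0 N F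
    intro n hn
    have h1 := hFcoef n
    have h2 : (∑ e : S, lam e * a e n) = φ lam ⟨n, by omega⟩ := rfl
    rw [h2, hlam] at h1
    simpa using h1
  have hzero : ∀ n, (∑ e : S, lam e * a e n) = 0 := by
    intro n
    have h1 := hFcoef n
    rw [hF0] at h1
    have h3 : (qx (⇑(0 : ModularForm (Gamma0 N) K))).coeff n = 0 := by
      have : (⇑(0 : ModularForm (Gamma0 N) K) : ℍ → ℂ) = 0 := rfl
      rw [this, qx_zero]; simp
    rw [h3] at h1
    exact_mod_cast h1.symm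
  -- ultrametric contradiction
  obtain ⟨e₀, -, he₀⟩ := Finset.exists_max_image (Finset.univ : Finset S)
    (fun e => padicNorm ℓ (lam e)) ⟨⟨_, (Finset.card_pos.mp (by omega : 0 < S.card)).choose_spec⟩,
      Finset.mem_univ _⟩
  set M := padicNorm ℓ (lam e₀) with hM
  have hMpos : 0 < M := by
    obtain ⟨e, he⟩ : ∃ e, lam e ≠ 0 := by
      by_contra hcon
      exact hne (funext fun e => by_contra fun h => hcon ⟨e, h⟩)
    exact lt_of_lt_of_le (lt_of_le_of_ne (padicNorm.nonneg _) (Ne.symm (padicNorm.nonzero he)))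
      (he₀ e (Finset.mem_univ _))
  obtain ⟨e₁, he₁J, he₁⟩ := Finset.exists_min_image
    (Finset.univ.filter fun e : S => padicNorm ℓ (lam e) = M) (fun e => (e : ℕ))
    ⟨e₀, by simp [hM]⟩
  rw [Finset.mem_filter] at he₁J
  have hz := hzero (e₁ : ℕ)
  rw [← Finset.add_sum_erase _ _ (Finset.mem_univ e₁)] at hz
  have hfirst : padicNorm ℓ (lam e₁ * a e₁ e₁) = M := by
    rw [padicNorm.mul, he₁J.2, (hfa e₁ e₁.2).2.2.2, mul_one]
  have hrest : padicNorm ℓ (∑ e ∈ (Finset.univ : Finset S).erase e₁, lam e * a e e₁) < M := by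
    refine padicNorm.sum_lt' (fun e he => ?_) hMpos
    rw [Finset.mem_erase] at he
    by_cases hJ : padicNorm ℓ (lam e) = M
    · have hle : (e₁ : ℕ) ≤ (e : ℕ) := he₁ e (by simp [hJ])
      have hlt : (e₁ : ℕ) < (e : ℕ) := lt_of_le_of_ne hle fun h => he.1 (Subtype.ext h.symm)
      have h1 := (hfa e e.2).2.2.1 _ hlt
      rw [padicNorm.mul, hJ]
      calc M * padicNorm ℓ (a e e₁) < M * 1 := mul_lt_mul_of_pos_left h1 hMpos
        _ = M := mul_one _
    · have hlt : padicNorm ℓ (lam e) < M := lt_of_le_of_ne (he₀ e (Finset.mem_univ _)) hJ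
      exact vq16_norm_mul_lt_left hlt ((hfa e e.2).2.1 _)
  have heq : lam e₁ * a e₁ e₁ = -(∑ e ∈ (Finset.univ : Finset S).erase e₁, lam e * a e e₁) := by
    linarith
  rw [heq, padicNorm.neg] at hfirst
  exact absurd hfirst (ne_of_lt hrest)


/-! ### the main statement -/

/-- injectivity of `(a, i) ↦ a q^i` for `a` in a `q`-adic window -/
theorem vq16_inj {q A : ℕ} (hq : 2 ≤ q) {a a' i i' : ℕ} (ha : A < a) (ha2 : a ≤ q * A)
    (ha' : A < a') (ha2' : a' ≤ q * A) (h : a * q ^ i = a' * q ^ i') : a = a' ∧ i = i' := by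
  have hq0 : 0 < q := by omega
  have key : ∀ {b b' j j' : ℕ}, A < b → b ≤ q * A → A < b' → b' ≤ q * A → j ≤ j' →
      b * q ^ j = b' * q ^ j' → b = b' ∧ j = j' := by
    intro b b' j j' hb hb2 hb' hb2' hjj hh
    obtain ⟨d, rfl⟩ := Nat.exists_eq_add_of_le hjj
    rw [pow_add, ← mul_assoc, mul_comm (b' * q ^ j) (q ^ d), mul_comm b' (q ^ j),
      mul_comm b (q ^ j), ← mul_assoc, mul_comm (q ^ d) (q ^ j), mul_assoc] at hh
    have h2 : b = q ^ d * b' := Nat.eq_of_mul_eq_mul_left (pow_pos hq0 j) hh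
    rcases Nat.eq_zero_or_pos d with rfl | hd
    · simp at h2; exact ⟨h2, by simp⟩
    · exfalso
      have h3 : q ≤ q ^ d := by
        calc q = q ^ 1 := (pow_one q).symm
          _ ≤ q ^ d := Nat.pow_le_pow_right hq0 hd
      have h4 : q * (A + 1) ≤ q ^ d * b' := Nat.mul_le_mul h3 hb'
      rw [← h2] at h4
      have h5 : q * (A + 1) = q * A + q := by ring
      omega
  rcases le_total i i' with hii | hii
  · exact key ha ha2 ha' ha2' hii h
  · obtain ⟨h1, h2⟩ := key ha' ha2' ha ha2 hii h.symm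
    exact ⟨h1.symm, h2.symm⟩

/-- **The `V_q`-trick.**  There is no modular form of weight two on `Γ₀(N)` with rational
`q`-expansion `1 + ∑_{n ≥ 1} g_n q^n` in which every `g_n`, `n ≥ 1`, is `ℓ`-adically strictly
smaller than `q ^ 2 - 1`, for a prime `q ∤ N`, `q ≠ ℓ`. -/
theorem vq16_main (N ℓ q : ℕ) [NeZero N] [Fact ℓ.Prime] (hq : q.Prime) (hqN : ¬ q ∣ N)
    (hqℓ : q ≠ ℓ) (G : ModularForm (Gamma0 N) 2) (g : ℕ → ℚ)
    (hG : ∀ n, (qExpansion 1 ⇑G).coeff n = (g n : ℂ)) (hg0 : g 0 = 1)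
    (hg : ∀ n, 1 ≤ n → padicNorm ℓ (g n) < padicNorm ℓ ((q : ℚ) ^ 2 - 1)) : False := by
  classical
  have hq2 : 2 ≤ q := hq.two_le
  set ι := (Gamma0 N).index with hι
  set A := max ι 1 with hA
  have hA1 : 1 ≤ A := le_max_right _ _
  have hιA : ι ≤ A := le_max_left _ _
  set QA := q * A with hQA
  have hQA2 : 2 * A ≤ QA := Nat.mul_le_mul_right A hq2
  -- the family
  set P : Finset (ℕ × ℕ) := Finset.Ioc A QA ×ˢ Finset.range (6 * QA + 1) with hP
  set S : Finset ℕ := P.image (fun x => x.1 * q ^ x.2) with hS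
  have hinj : Set.InjOn (fun x : ℕ × ℕ => x.1 * q ^ x.2) (P : Set (ℕ × ℕ)) := by
    intro x hx y hy hxy
    rw [Finset.mem_coe, hP, Finset.mem_product, Finset.mem_Ioc] at hx hy
    obtain ⟨h1, h2⟩ := vq16_inj hq2 hx.1.1 hx.1.2 hy.1.1 hy.1.2 hxy
    exact Prod.ext h1 h2
  have hcardS : S.card = (QA - A) * (6 * QA + 1) := by
    rw [hS, Finset.card_image_of_injOn hinj, hP, Finset.card_product, Nat.card_Ioc,
      Finset.card_range]
  have hLed : ∀ e ∈ S, vq16_Led N ℓ (24 * (QA : ℤ)) e := by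
    intro e he
    rw [hS, Finset.mem_image] at he
    obtain ⟨⟨a, i⟩, hx, rfl⟩ := he
    rw [hP, Finset.mem_product, Finset.mem_Ioc, Finset.mem_range] at hx
    obtain ⟨⟨ha1, ha2⟩, hi⟩ := hx
    simp only at ha1 ha2 hi
    have hj : 6 * a + i + (12 * QA - 6 * a - i) = 12 * QA := by omega
    have hcast : 12 * (a : ℤ) + 2 * (i : ℤ) + 2 * ((12 * QA - 6 * a - i : ℕ) : ℤ) = 24 * (QA : ℤ) := by
      have h7 : ((6 * a + i + (12 * QA - 6 * a - i) : ℕ) : ℤ) = ((12 * QA : ℕ) : ℤ) := by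
        rw [hj]
      push_cast at h7
      linarith
    exact vq16_led_cast hcast rfl
      (vq16_led_step2 hq hqN hqℓ G g hG hg0 hg a (by omega) i (12 * QA - 6 * a - i))
  refine vq16_sturm S hLed ?_
  rw [hcardS]
  have hB : (24 * (QA : ℤ) * ((Gamma0 N).index : ℤ)).toNat / 12 = 2 * QA * ι := by
    have : (24 * (QA : ℤ) * ((Gamma0 N).index : ℤ)) = ((12 * (2 * QA * ι) : ℕ) : ℤ) := by
      rw [hι]; push_cast; ring
    rw [this, Int.toNat_natCast, Nat.mul_div_cancel_left _ (by norm_num : 0 < 12)]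
  rw [hB]
  -- 2 QA ι + 1 < (QA - A)(6 QA + 1)
  have h1 : A ≤ QA - A := by omega
  have h2 : 2 * QA * ι ≤ 2 * QA * A := Nat.mul_le_mul_left _ hιA
  have h3 : A * (6 * QA + 1) ≤ (QA - A) * (6 * QA + 1) := Nat.mul_le_mul_right _ h1
  have h4 : A * (6 * QA + 1) = 2 * QA * A + (4 * QA * A + A) := by ring
  have h5 : 1 ≤ QA * A := Nat.mul_pos (by omega) (by omega)
  have h6 : 4 * QA * A = 4 * (QA * A) := by ring
  have h7 : 2 * QA * ι + 1 < A * (6 * QA + 1) := by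
    rw [h4, h6]
    omega
  exact lt_of_lt_of_le h7 h3


/-! ### the three instances used for the Eisenstein ideal -/

/-- `ℓ ≥ 5`, prime level `p` (also `ℓ = p`): no form `≡ 1 mod ℓ` of weight two. -/
theorem vq16_ge5 (p ℓ : ℕ) [Fact p.Prime] [Fact ℓ.Prime] (hℓ : 5 ≤ ℓ)
    (G : ModularForm (Gamma0 p) 2) (g : ℕ → ℚ)
    (hG : ∀ n, (qExpansion 1 ⇑G).coeff n = (g n : ℂ)) (hg0 : g 0 = 1)
    (hg : ∀ n, 1 ≤ n → padicNorm ℓ (g n) < 1) : False := by
  have hp : p.Prime := Fact.out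
  have hℓp : ℓ.Prime := Fact.out
  have : NeZero p := ⟨hp.ne_zero⟩
  by_cases hp2 : p = 2
  · -- use `q = 3`
    have hq : (3 : ℕ).Prime := Nat.prime_three
    have hqN : ¬ 3 ∣ p := by subst hp2; decide
    have hn : padicNorm ℓ (((3 : ℕ) : ℚ) ^ 2 - 1) = 1 := by
      have h8 : (((3 : ℕ) : ℚ) ^ 2 - 1) = ((8 : ℕ) : ℚ) := by norm_num
      rw [h8, padicNorm.nat_eq_one_iff]
      intro h
      have h2 : ℓ ∣ 2 ^ 3 := by simpa using h
      have h3 : ℓ ∣ 2 := hℓp.dvd_of_dvd_pow h2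
      have := Nat.le_of_dvd (by norm_num) h3
      omega
    exact vq16_main p ℓ 3 hq hqN (by omega) G g hG hg0 (fun n hn' => by rw [hn]; exact hg n hn')
  · have hq : (2 : ℕ).Prime := Nat.prime_two
    have hqN : ¬ 2 ∣ p := fun h => hp2 ((Nat.prime_dvd_prime_iff_eq hq hp).mp h).symm
    have hn : padicNorm ℓ (((2 : ℕ) : ℚ) ^ 2 - 1) = 1 := by
      have h3 : (((2 : ℕ) : ℚ) ^ 2 - 1) = ((3 : ℕ) : ℚ) := by norm_num
      rw [h3, padicNorm.nat_eq_one_iff]
      intro h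
      have := Nat.le_of_dvd (by norm_num) h
      omega
    exact vq16_main p ℓ 2 hq hqN (by omega) G g hG hg0 (fun n hn' => by rw [hn]; exact hg n hn')

/-- `ℓ = 3`, prime level `p`: no form `≡ 1 mod 9` of weight two. -/
theorem vq16_three (p : ℕ) [Fact p.Prime] (G : ModularForm (Gamma0 p) 2) (g : ℕ → ℚ)
    (hG : ∀ n, (qExpansion 1 ⇑G).coeff n = (g n : ℂ)) (hg0 : g 0 = 1)
    (hg : ∀ n, 1 ≤ n → padicNorm 3 (g n) < 3⁻¹) : False := by
  have hp : p.Prime := Fact.out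
  have : NeZero p := ⟨hp.ne_zero⟩
  have h33 : padicNorm 3 ((3 : ℕ) : ℚ) = 3⁻¹ := by
    have := padicNorm.padicNorm_p_of_prime (p := 3)
    simpa using this
  by_cases hp2 : p = 2
  · -- use `q = 5`
    have hq : (5 : ℕ).Prime := by norm_num
    have hqN : ¬ 5 ∣ p := by subst hp2; decide
    have hn : padicNorm 3 (((5 : ℕ) : ℚ) ^ 2 - 1) = 3⁻¹ := by
      have h24 : (((5 : ℕ) : ℚ) ^ 2 - 1) = ((3 : ℕ) : ℚ) * ((8 : ℕ) : ℚ) := by norm_num
      have h8 : padicNorm 3 ((8 : ℕ) : ℚ) = 1 := by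
        rw [padicNorm.nat_eq_one_iff]; decide
      rw [h24, padicNorm.mul, h33, h8, mul_one]
    exact vq16_main p 3 5 hq hqN (by norm_num) G g hG hg0
      (fun n hn' => by rw [hn]; exact hg n hn')
  · have hq : (2 : ℕ).Prime := Nat.prime_two
    have hqN : ¬ 2 ∣ p := fun h => hp2 ((Nat.prime_dvd_prime_iff_eq hq hp).mp h).symm
    have hn : padicNorm 3 (((2 : ℕ) : ℚ) ^ 2 - 1) = 3⁻¹ := by
      have h3 : (((2 : ℕ) : ℚ) ^ 2 - 1) = ((3 : ℕ) : ℚ) := by norm_num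
      rw [h3, h33]
    exact vq16_main p 3 2 hq hqN (by norm_num) G g hG hg0
      (fun n hn' => by rw [hn]; exact hg n hn')

/-- `ℓ = 2`, level `2`: no form `≡ 1 mod 16` of weight two. -/
theorem vq16_two (G : ModularForm (Gamma0 2) 2) (g : ℕ → ℚ)
    (hG : ∀ n, (qExpansion 1 ⇑G).coeff n = (g n : ℂ)) (hg0 : g 0 = 1)
    (hg : ∀ n, 1 ≤ n → padicNorm 2 (g n) < 8⁻¹) : False := by
  have hq : (3 : ℕ).Prime := Nat.prime_three
  have hqN : ¬ 3 ∣ 2 := by decide
  have h22 : padicNorm 2 ((2 : ℕ) : ℚ) = 2⁻¹ := by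
    have := padicNorm.padicNorm_p_of_prime (p := 2)
    simpa using this
  have hn : padicNorm 2 (((3 : ℕ) : ℚ) ^ 2 - 1) = 8⁻¹ := by
    have h8 : (((3 : ℕ) : ℚ) ^ 2 - 1) = ((2 : ℕ) : ℚ) * ((2 : ℕ) : ℚ) * ((2 : ℕ) : ℚ) := by norm_num
    rw [h8, padicNorm.mul, padicNorm.mul, h22]
    norm_num
  exact vq16_main 2 2 3 hq hqN (by norm_num) G g hG hg0
    (fun n hn' => by rw [hn]; exact hg n hn')

end Fermat.Agent.S16Vq
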