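/-
S16, UPPER assembly (helper5).

From a cusp form `f` of weight two on `Γ₀(p)` whose `q`-expansion is congruent modulo `ℓ ^ a`
to the non-constant part of the Eisenstein series `E` we deduce `ℓ ^ a ∣ n_p`
(`n_p = (p - 1) / gcd (p - 1, 12)`), by a case distinction:

* `ℓ ≥ 5`; `ℓ = 3, 3 ∤ p - 1`; `ℓ = 2 = p`: the `V_q`-trick (`VqTrick.lean`);
* `ℓ = 2`, `p ≡ 3 mod 4`: input `hBD` (no weight-two form `≡ odd constant mod 8`);
* `ℓ = 2`, `p ≡ 1 mod 4` and `ℓ = 3`, `p ≡ 1 mod 3`: input `hBW` (the second cusp).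

The Eisenstein series enters only through its `q`-expansion (`hE0`, `hEk`).
-/
import Fermat.Agent.Lib.S16.VqTrick
import Fermat.Prelude.Def_ModularCurve_ModularUnit

set_option autoImplicit false

namespace Fermat.Agent.S16Up

open UpperHalfPlane ModularForm CongruenceSubgroup MatrixGroups
open Fermat.Agent.LibS23 Fermat.Agent.S16Vq

/-! ### arithmetic -/

theorem up16_pow_dvd_of_mul {ℓ a t n g : ℕ} (hℓ : ℓ.Prime) (hn : n ≠ 0) (hg : g ≠ 0)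
    (h : ℓ ^ (a + t) ∣ n * g) (hg' : ¬ ℓ ^ (t + 1) ∣ g) : ℓ ^ a ∣ n := by
  have : Fact ℓ.Prime := ⟨hℓ⟩
  rw [padicValNat_dvd_iff_le (mul_ne_zero hn hg), padicValNat.mul hn hg] at h
  rw [padicValNat_dvd_iff_le hg] at hg'
  rw [padicValNat_dvd_iff_le hn]
  omega

/-- if `ℓ ^ a ∤ n_p` and `p - 1 = ℓ ^ v u` then `v < a + v_ℓ(12)` -/
theorem up16_val_bound {p ℓ a v u : ℕ} (hp : 2 ≤ p) (hℓ : ℓ.Prime) (t : ℕ)
    (ht : ¬ ℓ ^ (t + 1) ∣ 12) (hdec : p - 1 = ℓ ^ v * u)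
    (hnd : ¬ ℓ ^ a ∣ ModularCurve.eisensteinNumerator p) : v + 1 ≤ a + t := by
  by_contra hcon
  apply hnd
  have hP : p - 1 ≠ 0 := by omega
  have hg0 : Nat.gcd (p - 1) 12 ≠ 0 := Nat.gcd_ne_zero_right (by norm_num)
  have hmul : ModularCurve.eisensteinNumerator p * Nat.gcd (p - 1) 12 = p - 1 :=
    Nat.div_mul_cancel (Nat.gcd_dvd_left _ _)
  have hn0 : ModularCurve.eisensteinNumerator p ≠ 0 := by
    intro h
    rw [h, zero_mul] at hmul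
    exact hP hmul.symm
  refine up16_pow_dvd_of_mul hℓ hn0 hg0 (t := t) ?_ ?_
  · rw [hmul, hdec]
    exact Dvd.dvd.mul_right (pow_dvd_pow ℓ (by omega)) u
  · intro h
    exact ht (h.trans (Nat.gcd_dvd_right _ _))

/-! ### the normalised form `X = (24 / ℓ ^ v) (E - f)` -/

theorem up16_shape (p : ℕ) [Fact p.Prime] (E : ModularForm (Gamma0 p) 2) (σ : ℕ → ℤ)
    (hE0 : (qx ⇑E).coeff 0 = ((p : ℂ) - 1) / 24)
    (hEk : ∀ k, 1 ≤ k → (qx ⇑E).coeff k = (σ k : ℂ))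
    (ℓ a : ℕ) (hℓ0 : ℓ ≠ 0) (f : CuspForm (Gamma0 p) 2)
    (hf : ∀ k, 1 ≤ k → ∃ c : ℤ, (qx ⇑f).coeff k = (σ k : ℂ) + (ℓ : ℂ) ^ a * c)
    (v u t' w s : ℕ) (hdec : p - 1 = ℓ ^ v * u) (h24 : 24 = ℓ ^ t' * w) (hs : a + t' = v + s) :
    ∃ Y : PowerSeries ℤ, PowerSeries.constantCoeff Y = 0 ∧
      qx (((24 : ℂ) / (ℓ : ℂ) ^ v) • ((⇑E : ℍ → ℂ) - ⇑f))
        = (PowerSeries.C (u : ℤ) + PowerSeries.C ((ℓ : ℤ) ^ s) * Y).map (Int.castRingHom ℂ) := by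
  have hp : p.Prime := Fact.out
  have hf' : ∀ k, ∃ c : ℤ, 1 ≤ k → (qx ⇑f).coeff k = (σ k : ℂ) + (ℓ : ℂ) ^ a * c := by
    intro k
    by_cases hk : 1 ≤ k
    · obtain ⟨c, hc⟩ := hf k hk
      exact ⟨c, fun _ => hc⟩
    · exact ⟨0, fun h => absurd h hk⟩
  choose c hc using hf'
  have hℓC : (ℓ : ℂ) ≠ 0 := by exact_mod_cast hℓ0
  have hQE : QExp ⇑E := QExp.of_gamma0 E
  have hQf : QExp ⇑f := QExp.of_gamma0_cusp f
  have hf0 : (qx ⇑f).coeff 0 = 0 :=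
    CuspFormClass.qExpansion_coeff_zero f one_pos (CongruenceSubgroup.one_mem_strictPeriods_Gamma0 p)
  have hdecC : (p : ℂ) - 1 = (ℓ : ℂ) ^ v * (u : ℂ) := by
    have h1 : ((p - 1 : ℕ) : ℂ) = (p : ℂ) - 1 := by
      rw [Nat.cast_sub hp.one_le, Nat.cast_one]
    rw [← h1, hdec]
    push_cast
    ring
  have hkey : (24 : ℂ) * (ℓ : ℂ) ^ a = (ℓ : ℂ) ^ v * ((ℓ : ℂ) ^ s * (w : ℂ)) := by
    have h1 : (24 : ℕ) * ℓ ^ a = ℓ ^ v * (ℓ ^ s * w) := by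
      rw [h24, ← mul_assoc, ← pow_add, ← hs]
      ring
    exact_mod_cast h1
  refine ⟨PowerSeries.mk fun k => if k = 0 then 0 else -(w : ℤ) * c k, by simp, ?_⟩
  ext k
  rw [qx_smul _ (hQE.sub hQf), qx_sub hQE hQf, PowerSeries.coeff_smul, map_sub, smul_eq_mul,
    PowerSeries.coeff_map, map_add, PowerSeries.coeff_C, PowerSeries.coeff_C_mul,
    PowerSeries.coeff_mk]
  rcases Nat.eq_zero_or_pos k with rfl | hk
  · rw [hE0, hf0, if_pos rfl, if_pos rfl, hdecC]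
    simp only [mul_zero, add_zero, sub_zero, eq_intCast, Int.cast_natCast]
    field_simp
  · have hk0 : k ≠ 0 := by omega
    rw [hEk k hk, hc k hk, if_neg hk0, if_neg hk0]
    simp only [zero_add, eq_intCast]
    push_cast
    rw [div_mul_eq_mul_div, div_eq_iff (pow_ne_zero _ hℓC)]
    linear_combination (-(c k : ℂ)) * hkey

/-- conversion to the hypotheses of the `V_q`-trick -/
theorem up16_vq_data (p : ℕ) (ℓ : ℕ) [Fact ℓ.Prime] (X : ModularForm (Gamma0 p) 2)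
    (u s : ℕ) (hu : ¬ ℓ ∣ u) (Y : PowerSeries ℤ) (hY0 : PowerSeries.constantCoeff Y = 0)
    (hX : qx ⇑X
      = (PowerSeries.C (u : ℤ) + PowerSeries.C ((ℓ : ℤ) ^ s) * Y).map (Int.castRingHom ℂ)) :
    ∃ (G : ModularForm (Gamma0 p) 2) (g : ℕ → ℚ),
      (∀ n, (qExpansion 1 ⇑G).coeff n = (g n : ℂ)) ∧ g 0 = 1 ∧
      ∀ n, 1 ≤ n → padicNorm ℓ (g n) ≤ ((ℓ : ℚ)⁻¹) ^ s := by
  have hℓ : ℓ.Prime := Fact.out
  have hu0 : u ≠ 0 := fun h => hu (h ▸ dvd_zero ℓ)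
  have huC : (u : ℂ) ≠ 0 := by exact_mod_cast hu0
  have huQ : (u : ℚ) ≠ 0 := by exact_mod_cast hu0
  refine ⟨((u : ℂ)⁻¹) • X,
    fun n => if n = 0 then 1 else (ℓ : ℚ) ^ s * ((Y.coeff n : ℤ) : ℚ) / (u : ℚ), fun n => ?_,
    if_pos rfl, fun n hn => ?_⟩
  · have hcoe : (⇑(((u : ℂ)⁻¹) • X) : ℍ → ℂ) = ((u : ℂ)⁻¹) • (⇑X : ℍ → ℂ) := rfl
    have h1 : qExpansion 1 (⇑(((u : ℂ)⁻¹) • X) : ℍ → ℂ) = qx (((u : ℂ)⁻¹) • (⇑X : ℍ → ℂ)) := by
      rw [hcoe]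
    rw [h1, qx_smul _ (QExp.of_gamma0 X), hX, PowerSeries.coeff_smul, smul_eq_mul,
      PowerSeries.coeff_map, map_add, PowerSeries.coeff_C, PowerSeries.coeff_C_mul]
    rcases Nat.eq_zero_or_pos n with rfl | hn
    · have hY0' : Y.coeff 0 = 0 := by
        rw [PowerSeries.coeff_zero_eq_constantCoeff_apply, hY0]
      simp [hY0', huC]
    · have hn0 : n ≠ 0 := by omega
      simp only [if_neg hn0, zero_add, eq_intCast]
      push_cast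
      field_simp
  · have hn0 : n ≠ 0 := by omega
    simp only [if_neg hn0]
    rw [padicNorm.div, padicNorm.mul]
    have h1 : padicNorm ℓ ((ℓ : ℚ) ^ s) = ((ℓ : ℚ)⁻¹) ^ s := by
      rw [IsAbsoluteValue.abv_pow (padicNorm ℓ), padicNorm.padicNorm_p_of_prime]
    have h2 : padicNorm ℓ (u : ℚ) = 1 := (padicNorm.nat_eq_one_iff u).mpr hu
    rw [h1, h2, div_one]
    calc ((ℓ : ℚ)⁻¹) ^ s * padicNorm ℓ ((Y.coeff n : ℤ) : ℚ) ≤ ((ℓ : ℚ)⁻¹) ^ s * 1 :=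
          mul_le_mul_of_nonneg_left (padicNorm.of_int _) (by positivity)
      _ = ((ℓ : ℚ)⁻¹) ^ s := mul_one _


/-- the form `(24 / ℓ ^ v) (E - f)` -/
noncomputable def up16_X (p : ℕ) (E : ModularForm (Gamma0 p) 2) (f : CuspForm (Gamma0 p) 2)
    (ℓ v : ℕ) : ModularForm (Gamma0 p) 2 :=
  ((24 : ℂ) / (ℓ : ℂ) ^ v) • (E - CuspForm.toModularFormₗ f)

theorem up16_coe_X (p : ℕ) (E : ModularForm (Gamma0 p) 2) (f : CuspForm (Gamma0 p) 2)
    (ℓ v : ℕ) :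
    (⇑(up16_X p E f ℓ v) : ℍ → ℂ) = ((24 : ℂ) / (ℓ : ℂ) ^ v) • ((⇑E : ℍ → ℂ) - ⇑f) := rfl

theorem up16_pow_inv_le {x : ℚ} (hx0 : 0 ≤ x) (hx1 : x ≤ 1) {s s₀ : ℕ} (h : s₀ ≤ s) :
    x ^ s ≤ x ^ s₀ := pow_le_pow_of_le_one hx0 hx1 h

/-- **UPPER core.**  A cusp form congruent to the non-constant part of the Eisenstein series
modulo `ℓ ^ a` forces `ℓ ^ a ∣ n_p`.  Inputs: the `q`-expansion of `E`; `hBD` (B-disc);
`hBW` (B-W, second cusp). -/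
theorem up16_core (p : ℕ) [Fact p.Prime] (E : ModularForm (Gamma0 p) 2) (σ : ℕ → ℤ)
    (hE0 : (qx ⇑E).coeff 0 = ((p : ℂ) - 1) / 24)
    (hEk : ∀ k, 1 ≤ k → (qx ⇑E).coeff k = (σ k : ℂ))
    (hBD : p ≠ 2 → ∀ (X : ModularForm (Gamma0 p) 2) (D : ℤ), Odd D → ∀ Y : PowerSeries ℤ,
      qx ⇑X = (PowerSeries.C D + 8 * Y).map (Int.castRingHom ℂ) → False)
    (hBW : ∀ ℓ s : ℕ, (ℓ = 2 ∨ ℓ = 3) → ℓ ≠ p → ∀ (κ : ℂ) (f : CuspForm (Gamma0 p) 2) (D : ℤ),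
      ¬ (ℓ : ℤ) ∣ D → ∀ Y : PowerSeries ℤ,
      qx (κ • ((⇑E : ℍ → ℂ) - ⇑f))
        = (PowerSeries.C D + PowerSeries.C ((ℓ : ℤ) ^ s) * Y).map (Int.castRingHom ℂ) →
      (ℓ : ℤ) ^ s ∣ (p : ℤ) ^ 3 + 1)
    (ℓ : ℕ) (hℓ : ℓ.Prime) (a : ℕ) (f : CuspForm (Gamma0 p) 2)
    (hf : ∀ k, 1 ≤ k → ∃ c : ℤ, (qx ⇑f).coeff k = (σ k : ℂ) + (ℓ : ℂ) ^ a * c) :
    ℓ ^ a ∣ ModularCurve.eisensteinNumerator p := by
  have hp : p.Prime := Fact.out
  have hp2 : 2 ≤ p := hp.two_le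
  by_contra hnd
  have ha1 : 1 ≤ a := by
    by_contra h
    have h0 : a = 0 := by omega
    subst h0
    exact hnd (by simp)
  obtain ⟨v, u, hu, hdec⟩ :=
    Nat.exists_eq_pow_mul_and_not_dvd (show p - 1 ≠ 0 by omega) ℓ hℓ.ne_one
  have hcases : ℓ = 2 ∨ ℓ = 3 ∨ 5 ≤ ℓ := by
    have h2 := hℓ.two_le
    by_contra hcon
    have h4 : ℓ = 4 := by omega
    subst h4
    exact absurd hℓ (by norm_num)
  rcases hcases with rfl | rfl | h5
  · -- `ℓ = 2`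
    have hF := up16_val_bound hp2 hℓ 2 (by norm_num) hdec hnd
    obtain ⟨Y, hY0, hX⟩ := up16_shape p E σ hE0 hEk 2 a (by norm_num) f hf v u 3 3 (a + 3 - v)
      hdec (by norm_num) (by omega)
    rcases (show v = 0 ∨ v = 1 ∨ 2 ≤ v by omega) with rfl | rfl | hv2
    · -- `p = 2`
      have hpu : p - 1 = u := by simpa using hdec
      have hp2' : p = 2 := by
        rcases hp.eq_two_or_odd with h | h
        · exact h
        · exfalso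
          apply hu
          rw [← hpu]
          omega
      subst hp2'
      have : Fact (Nat.Prime 2) := ⟨Nat.prime_two⟩
      obtain ⟨G, g, hG, hg0, hg⟩ := up16_vq_data 2 2 (up16_X 2 E f 2 0) u (a + 3 - 0) hu Y hY0
        (by rw [up16_coe_X]; exact hX)
      refine vq16_two G g hG hg0 (fun n hn => lt_of_le_of_lt (hg n hn) ?_)
      refine lt_of_le_of_lt (up16_pow_inv_le (by norm_num) (by norm_num) (show 4 ≤ a + 3 - 0 by omega)) ?_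
      norm_num
    · -- `p ≡ 3 mod 4`
      have hpne : p ≠ 2 := by
        rintro rfl
        simp at hdec
        omega
      have huodd : Odd (u : ℤ) := by
        have h1 : Odd u := Nat.odd_iff.mpr (by omega)
        exact_mod_cast h1
      refine hBD hpne (up16_X p E f 2 1) (u : ℤ) huodd (PowerSeries.C ((2 : ℤ) ^ (a - 1)) * Y) ?_
      rw [up16_coe_X, hX]
      congr 2
      have h8 : ((2 : ℕ) : ℤ) ^ (a + 3 - 1) = 8 * (2 : ℤ) ^ (a - 1) := by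
        have : a + 3 - 1 = (a - 1) + 3 := by omega
        rw [this, pow_add]
        push_cast
        ring
      rw [h8, map_mul, mul_assoc]
      congr 1
    · -- `p ≡ 1 mod 4`
      have h4 : 4 ∣ p - 1 := by
        rw [hdec]
        exact Dvd.dvd.mul_right (pow_dvd_pow 2 hv2 : 2 ^ 2 ∣ 2 ^ v) u
      have hpne : (2 : ℕ) ≠ p := by
        rintro rfl
        omega
      have hud : ¬ ((2 : ℕ) : ℤ) ∣ (u : ℤ) := by
        intro h
        exact hu (by exact_mod_cast h)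
      have hdvd := hBW 2 (a + 3 - v) (Or.inl rfl) hpne _ f (u : ℤ) hud Y hX
      have h4' : (4 : ℤ) ∣ (p : ℤ) ^ 3 + 1 := by
        refine dvd_trans ?_ hdvd
        have : ((2 : ℕ) : ℤ) ^ 2 ∣ ((2 : ℕ) : ℤ) ^ (a + 3 - v) := pow_dvd_pow _ (by omega)
        simpa using this
      obtain ⟨m, hm⟩ := h4
      have hpm : (p : ℤ) = 4 * m + 1 := by
        have : p = 4 * m + 1 := by omega
        exact_mod_cast this
      rw [hpm] at h4'
      have h5 : ((4 : ℤ) * m + 1) ^ 3 + 1 = 4 * (16 * (m : ℤ) ^ 3 + 12 * (m : ℤ) ^ 2 + 3 * m) + 2 := by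
        ring
      rw [h5] at h4'
      have h6 : (4 : ℤ) ∣ 2 := (Int.dvd_add_right (dvd_mul_right 4 _)).mp h4'
      omega
  · -- `ℓ = 3`
    have hF := up16_val_bound hp2 hℓ 1 (by norm_num) hdec hnd
    obtain ⟨Y, hY0, hX⟩ := up16_shape p E σ hE0 hEk 3 a (by norm_num) f hf v u 1 8 (a + 1 - v)
      hdec (by norm_num) (by omega)
    rcases Nat.eq_zero_or_pos v with rfl | hv1
    · have : Fact (Nat.Prime 3) := ⟨Nat.prime_three⟩
      obtain ⟨G, g, hG, hg0, hg⟩ := up16_vq_data p 3 (up16_X p E f 3 0) u (a + 1 - 0) hu Y hY0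
        (by rw [up16_coe_X]; exact hX)
      refine vq16_three p G g hG hg0 (fun n hn => lt_of_le_of_lt (hg n hn) ?_)
      refine lt_of_le_of_lt (up16_pow_inv_le (by norm_num) (by norm_num) (show 2 ≤ a + 1 - 0 by omega)) ?_
      norm_num
    · have h3 : 3 ∣ p - 1 := by
        rw [hdec]
        exact Dvd.dvd.mul_right (dvd_pow_self 3 (by omega)) u
      have hpne : (3 : ℕ) ≠ p := by
        rintro rfl
        omega
      have hud : ¬ ((3 : ℕ) : ℤ) ∣ (u : ℤ) := by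
        intro h
        exact hu (by exact_mod_cast h)
      have hdvd := hBW 3 (a + 1 - v) (Or.inr rfl) hpne _ f (u : ℤ) hud Y hX
      have h3' : (3 : ℤ) ∣ (p : ℤ) ^ 3 + 1 := by
        refine dvd_trans ?_ hdvd
        have : ((3 : ℕ) : ℤ) ^ 1 ∣ ((3 : ℕ) : ℤ) ^ (a + 1 - v) := pow_dvd_pow _ (by omega)
        simpa using this
      obtain ⟨m, hm⟩ := h3
      have hpm : (p : ℤ) = 3 * m + 1 := by
        have : p = 3 * m + 1 := by omega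
        exact_mod_cast this
      rw [hpm] at h3'
      have h5 : ((3 : ℤ) * m + 1) ^ 3 + 1 = 3 * (9 * (m : ℤ) ^ 3 + 9 * (m : ℤ) ^ 2 + 3 * m) + 2 := by
        ring
      rw [h5] at h3'
      have h6 : (3 : ℤ) ∣ 2 := (Int.dvd_add_right (dvd_mul_right 3 _)).mp h3'
      omega
  · -- `ℓ ≥ 5`
    have : Fact ℓ.Prime := ⟨hℓ⟩
    have h12 : ¬ ℓ ^ (0 + 1) ∣ 12 := by
      rw [zero_add, pow_one]
      intro h
      have h1 : ℓ ∣ 2 ^ 2 * 3 := by simpa using h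
      rcases (Nat.Prime.dvd_mul hℓ).mp h1 with h2 | h2
      · have := Nat.le_of_dvd (by norm_num) (hℓ.dvd_of_dvd_pow h2)
        omega
      · have := Nat.le_of_dvd (by norm_num) h2
        omega
    have hF := up16_val_bound hp2 hℓ 0 h12 hdec hnd
    obtain ⟨Y, hY0, hX⟩ := up16_shape p E σ hE0 hEk ℓ a hℓ.ne_zero f hf v u 0 24 (a - v)
      hdec (by simp) (by omega)
    obtain ⟨G, g, hG, hg0, hg⟩ := up16_vq_data p ℓ (up16_X p E f ℓ v) u (a - v) hu Y hY0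
      (by rw [up16_coe_X]; exact hX)
    refine vq16_ge5 p ℓ h5 G g hG hg0 (fun n hn => lt_of_le_of_lt (hg n hn) ?_)
    have hℓQ : (5 : ℚ) ≤ (ℓ : ℚ) := by exact_mod_cast h5
    have hinv0 : (0 : ℚ) ≤ (ℓ : ℚ)⁻¹ := by positivity
    have hinv1 : (ℓ : ℚ)⁻¹ < 1 := by
      rw [inv_lt_one₀ (by linarith)]
      linarith
    refine lt_of_le_of_lt (up16_pow_inv_le hinv0 hinv1.le (show 1 ≤ a - v by omega)) ?_
    rw [pow_one]
    exact hinv1

end Fermat.Agent.S16Up
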