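/-
S16, UPPER (helper5): the three no-go theorems obtained from the `V_q`-trick (NG1, NG2, NG4)
and the UPPER core in terms of the six no-go theorems, stated with the shared predicate `Cong`
of `Lib/S16/Defs.lean`.

`Cong p l s X` : the weight-two form `X` on `Γ₀(p)` has constant term one and all its
higher `q`-coefficients are of the form `l ^ s * a / b` with integers `a`, `b`, `l ∤ b`.

* NG1 : `l ≥ 5` prime  ⟹ no `X` with `Cong p l 1 X`
* NG2 :                 no `X` with `Cong p 3 2 X`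
* NG4 :                 no `X` with `Cong p 2 4 X`
* `ng16_upperCore` : from NG3 (`p % 3 = 1`, `l = 3`, `s = 1`), NG5 (`p % 4 = 1`, `l = 2`, `s = 2`)
  and NG6 (`p` odd, `l = 2`, `s = 3`) as hypotheses: a cusp form congruent to the non-constant
  part of the Eisenstein series modulo `l ^ a` forces `l ^ a ∣ eisensteinNumerator p`.
-/
import Fermat.Agent.Lib.S16.Upper
import Fermat.Agent.Lib.S16.EisP
import Fermat.Agent.Lib.S16.Defs

set_option autoImplicit false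

namespace Fermat.Agent.S16Lib

open UpperHalfPlane ModularForm CongruenceSubgroup MatrixGroups
open Fermat.Agent.LibS23 Fermat.Agent.S16Vq Fermat.Agent.S16Up

/-- the data needed by the `V_q`-trick -/
theorem ng16_vq_of_cong {p l s : ℕ} [Fact l.Prime] {X : ModularForm (Gamma0 p) 2}
    (h : Cong p l s X) :
    ∃ g : ℕ → ℚ, (∀ n, (qExpansion 1 ⇑X).coeff n = (g n : ℂ)) ∧ g 0 = 1 ∧
      ∀ n, 1 ≤ n → padicNorm l (g n) ≤ ((l : ℚ)⁻¹) ^ s := by
  have h' : ∀ k, ∃ a b : ℤ, 1 ≤ k → (¬ (l : ℤ) ∣ b ∧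
      ModularFormClass.qCoeff X k = (l : ℂ) ^ s * (a : ℂ) / (b : ℂ)) := by
    intro k
    by_cases hk : 1 ≤ k
    · obtain ⟨a, b, hab⟩ := h.2 k hk
      exact ⟨a, b, fun _ => hab⟩
    · exact ⟨0, 0, fun hk' => absurd hk' hk⟩
  choose a b hab using h'
  refine ⟨fun n => if n = 0 then 1 else (l : ℚ) ^ s * (a n : ℚ) / (b n : ℚ), fun n => ?_,
    if_pos rfl, fun n hn => ?_⟩
  · rcases Nat.eq_zero_or_pos n with rfl | hn
    · have := h.1
      simpa [ModularFormClass.qCoeff] using this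
    · have hn0 : n ≠ 0 := by omega
      have := (hab n hn).2
      simp only [if_neg hn0]
      rw [ModularFormClass.qCoeff] at this
      rw [this]
      push_cast
      rfl
  · have hn0 : n ≠ 0 := by omega
    simp only [if_neg hn0]
    rw [padicNorm.div, padicNorm.mul, IsAbsoluteValue.abv_pow (padicNorm l),
      padicNorm.padicNorm_p_of_prime, (padicNorm.int_eq_one_iff (b n)).mpr (hab n hn).1, div_one]
    calc ((l : ℚ)⁻¹) ^ s * padicNorm l ((a n : ℤ) : ℚ) ≤ ((l : ℚ)⁻¹) ^ s * 1 :=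
          mul_le_mul_of_nonneg_left (padicNorm.of_int _) (by positivity)
      _ = ((l : ℚ)⁻¹) ^ s := mul_one _

/-- **NG1** -/
theorem ng16_NG1 (p l : ℕ) [Fact p.Prime] (hl : l.Prime) (h5 : 5 ≤ l)
    (X : ModularForm (Gamma0 p) 2) : ¬ Cong p l 1 X := by
  intro h
  have : Fact l.Prime := ⟨hl⟩
  obtain ⟨g, hG, hg0, hg⟩ := ng16_vq_of_cong h
  refine vq16_ge5 p l h5 X g hG hg0 (fun n hn => lt_of_le_of_lt (hg n hn) ?_)
  have hlQ : (5 : ℚ) ≤ (l : ℚ) := by exact_mod_cast h5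
  rw [pow_one, inv_lt_one₀ (by linarith)]
  linarith

/-- **NG2** -/
theorem ng16_NG2 (p : ℕ) [Fact p.Prime] (X : ModularForm (Gamma0 p) 2) :
    ¬ Cong p 3 2 X := by
  intro h
  have : Fact (Nat.Prime 3) := ⟨Nat.prime_three⟩
  obtain ⟨g, hG, hg0, hg⟩ := ng16_vq_of_cong h
  refine vq16_three p X g hG hg0 (fun n hn => lt_of_le_of_lt (hg n hn) ?_)
  norm_num

/-- **NG4** (every prime level) -/
theorem ng16_NG4 (p : ℕ) [Fact p.Prime] (X : ModularForm (Gamma0 p) 2) :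
    ¬ Cong p 2 4 X := by
  intro h
  have hp : p.Prime := Fact.out
  have : NeZero p := ⟨hp.ne_zero⟩
  have : Fact (Nat.Prime 2) := ⟨Nat.prime_two⟩
  obtain ⟨g, hG, hg0, hg⟩ := ng16_vq_of_cong h
  have h22 : padicNorm 2 ((2 : ℕ) : ℚ) = 2⁻¹ := by
    have := padicNorm.padicNorm_p_of_prime (p := 2)
    simpa using this
  have hlt : ∀ n, 1 ≤ n → padicNorm 2 (g n) < 8⁻¹ := fun n hn =>
    lt_of_le_of_lt (hg n hn) (by norm_num)
  by_cases hp3 : p = 3
  · -- `q = 5`
    have hq : (5 : ℕ).Prime := by norm_num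
    have hqN : ¬ 5 ∣ p := by subst hp3; decide
    have hn : padicNorm 2 (((5 : ℕ) : ℚ) ^ 2 - 1) = 8⁻¹ := by
      have h24 : (((5 : ℕ) : ℚ) ^ 2 - 1)
          = ((2 : ℕ) : ℚ) * ((2 : ℕ) : ℚ) * ((2 : ℕ) : ℚ) * ((3 : ℕ) : ℚ) := by norm_num
      have h3 : padicNorm 2 ((3 : ℕ) : ℚ) = 1 := by
        rw [padicNorm.nat_eq_one_iff]; decide
      rw [h24, padicNorm.mul, padicNorm.mul, padicNorm.mul, h22, h3]
      norm_num
    exact vq16_main p 2 5 hq hqN (by norm_num) X g hG hg0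
      (fun n hn' => by rw [hn]; exact hlt n hn')
  · -- `q = 3`
    have hq : (3 : ℕ).Prime := Nat.prime_three
    have hqN : ¬ 3 ∣ p := fun h => hp3 ((Nat.prime_dvd_prime_iff_eq hq hp).mp h).symm
    have hn : padicNorm 2 (((3 : ℕ) : ℚ) ^ 2 - 1) = 8⁻¹ := by
      have h8 : (((3 : ℕ) : ℚ) ^ 2 - 1) = ((2 : ℕ) : ℚ) * ((2 : ℕ) : ℚ) * ((2 : ℕ) : ℚ) := by
        norm_num
      rw [h8, padicNorm.mul, padicNorm.mul, h22]
      norm_num
    exact vq16_main p 2 3 hq hqN (by norm_num) X g hG hg0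
      (fun n hn' => by rw [hn]; exact hlt n hn')

/-- from the integral shape `u + l ^ s * Y` to `Cong` -/
theorem ng16_cong_of_shape (p l : ℕ) (X : ModularForm (Gamma0 p) 2) (u s : ℕ) (hu : ¬ l ∣ u)
    (Y : PowerSeries ℤ) (hY0 : PowerSeries.constantCoeff Y = 0)
    (hX : qx ⇑X
      = (PowerSeries.C (u : ℤ) + PowerSeries.C ((l : ℤ) ^ s) * Y).map (Int.castRingHom ℂ)) :
    Cong p l s (((u : ℂ)⁻¹) • X) := by
  have hu0 : u ≠ 0 := fun h => hu (h ▸ dvd_zero l)
  have huC : (u : ℂ) ≠ 0 := by exact_mod_cast hu0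
  have hq : ∀ n, (qx (((u : ℂ)⁻¹) • (⇑X : ℍ → ℂ))).coeff n
      = (u : ℂ)⁻¹ * ((if n = 0 then (u : ℂ) else 0) + (l : ℂ) ^ s * ((Y.coeff n : ℤ) : ℂ)) := by
    intro n
    rw [qx_smul _ (QExp.of_gamma0 X), hX, PowerSeries.coeff_smul, smul_eq_mul,
      PowerSeries.coeff_map, map_add, PowerSeries.coeff_C, PowerSeries.coeff_C_mul]
    split_ifs <;> simp
  refine ⟨?_, fun k hk => ⟨Y.coeff k, (u : ℤ), fun h => hu (by exact_mod_cast h), ?_⟩⟩
  · have hY0' : Y.coeff 0 = 0 := by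
      rw [PowerSeries.coeff_zero_eq_constantCoeff_apply, hY0]
    show (qx (((u : ℂ)⁻¹) • (⇑X : ℍ → ℂ))).coeff 0 = 1
    rw [hq 0, if_pos rfl, hY0']
    simp [huC]
  · have hk0 : k ≠ 0 := by omega
    show (qx (((u : ℂ)⁻¹) • (⇑X : ℍ → ℂ))).coeff k = _
    rw [hq k, if_neg hk0, zero_add]
    push_cast
    field_simp

/-- **UPPER core**: the six no-go theorems (three of them, NG3, NG5, NG6, as hypotheses) give
the upper bound: a cusp form which is congruent modulo `l ^ a` to the non-constant part of the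
Eisenstein series forces `l ^ a ∣ eisensteinNumerator p`. -/
theorem ng16_upperCore (p : ℕ) [Fact p.Prime]
    (hNG3 : p % 3 = 1 → ∀ X : ModularForm (Gamma0 p) 2, ¬ Cong p 3 1 X)
    (hNG5 : p % 4 = 1 → ∀ X : ModularForm (Gamma0 p) 2, ¬ Cong p 2 2 X)
    (hNG6 : p % 4 = 3 → ∀ X : ModularForm (Gamma0 p) 2, ¬ Cong p 2 3 X)
    (l : ℕ) (hl : l.Prime) (a : ℕ) (f : CuspForm (Gamma0 p) 2)
    (hf : ∀ k, 1 ≤ k → ∃ c : ℤ,
      ModularFormClass.qCoeff f k = (sigp p k : ℂ) + (l : ℂ) ^ a * c) :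
    l ^ a ∣ ModularCurve.eisensteinNumerator p := by
  have hp : p.Prime := Fact.out
  have hp2 : 2 ≤ p := hp.two_le
  have : NeZero p := ⟨hp.ne_zero⟩
  have hE0 : (qx ⇑(ep16_E p)).coeff 0 = ((p : ℂ) - 1) / 24 := ep16_qCoeff_zero p
  have hEk : ∀ k, 1 ≤ k → (qx ⇑(ep16_E p)).coeff k = (((sigp p k : ℕ) : ℤ) : ℂ) := by
    intro k hk
    rw [Int.cast_natCast]
    exact ep16_qCoeff_pos p hk
  have hf' : ∀ k, 1 ≤ k → ∃ c : ℤ,
      (qx ⇑f).coeff k = (((sigp p k : ℕ) : ℤ) : ℂ) + (l : ℂ) ^ a * c := by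
    intro k hk
    obtain ⟨c, hc⟩ := hf k hk
    refine ⟨c, ?_⟩
    rw [Int.cast_natCast]
    exact hc
  by_contra hnd
  have ha1 : 1 ≤ a := by
    by_contra h
    have h0 : a = 0 := by omega
    subst h0
    exact hnd (by simp)
  obtain ⟨v, u, hu, hdec⟩ :=
    Nat.exists_eq_pow_mul_and_not_dvd (show p - 1 ≠ 0 by omega) l hl.ne_one
  have hcases : l = 2 ∨ l = 3 ∨ 5 ≤ l := by
    have h2 := hl.two_le
    by_contra hcon
    have h4 : l = 4 := by omega
    subst h4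
    exact absurd hl (by norm_num)
  -- the common last step
  have key : ∀ (t' w s : ℕ), 24 = l ^ t' * w → a + t' = v + s →
      ∃ X : ModularForm (Gamma0 p) 2, Cong p l s X := by
    intro t' w s h24 hs
    obtain ⟨Y, hY0, hX⟩ := up16_shape p (ep16_E p) (fun k => ((sigp p k : ℕ) : ℤ)) hE0 hEk l a
      hl.ne_zero f hf' v u t' w s hdec h24 hs
    exact ⟨_, ng16_cong_of_shape p l (up16_X p (ep16_E p) f l v) u s hu Y hY0
      (by rw [up16_coe_X]; exact hX)⟩
  rcases hcases with rfl | rfl | h5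
  · -- `l = 2`
    have hF := up16_val_bound hp2 hl 2 (by norm_num) hdec hnd
    obtain ⟨X, hX⟩ := key 3 3 (a + 3 - v) (by norm_num) (by omega)
    rcases (show v = 0 ∨ v = 1 ∨ 2 ≤ v by omega) with rfl | rfl | hv2
    · -- `p = 2`
      exact ng16_NG4 p X (Cong.mono hX (by omega))
    · -- `p ≡ 3 mod 4`
      have hp4 : p % 4 = 3 := by
        have hpu : p - 1 = 2 * u := by simpa using hdec
        have hu2 : u % 2 = 1 := by
          rcases Nat.mod_two_eq_zero_or_one u with h | h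
          · exact absurd (Nat.dvd_of_mod_eq_zero h) hu
          · exact h
        omega
      exact hNG6 hp4 X (Cong.mono hX (by omega))
    · -- `p ≡ 1 mod 4`
      have h4 : 4 ∣ p - 1 := by
        rw [hdec]
        exact Dvd.dvd.mul_right (pow_dvd_pow 2 hv2 : 2 ^ 2 ∣ 2 ^ v) u
      have hp4 : p % 4 = 1 := by omega
      exact hNG5 hp4 X (Cong.mono hX (by omega))
  · -- `l = 3`
    have hF := up16_val_bound hp2 hl 1 (by norm_num) hdec hnd
    obtain ⟨X, hX⟩ := key 1 8 (a + 1 - v) (by norm_num) (by omega)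
    rcases Nat.eq_zero_or_pos v with rfl | hv1
    · exact ng16_NG2 p X (Cong.mono hX (by omega))
    · have h3 : 3 ∣ p - 1 := by
        rw [hdec]
        exact Dvd.dvd.mul_right (dvd_pow_self 3 (by omega)) u
      have hp3 : p % 3 = 1 := by omega
      exact hNG3 hp3 X (Cong.mono hX (by omega))
  · -- `l ≥ 5`
    have h12 : ¬ l ^ (0 + 1) ∣ 12 := by
      rw [zero_add, pow_one]
      intro h
      have h1 : l ∣ 2 ^ 2 * 3 := by simpa using h
      rcases (Nat.Prime.dvd_mul hl).mp h1 with h2 | h2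
      · have := Nat.le_of_dvd (by norm_num) (hl.dvd_of_dvd_pow h2)
        omega
      · have := Nat.le_of_dvd (by norm_num) h2
        omega
    have hF := up16_val_bound hp2 hl 0 h12 hdec hnd
    obtain ⟨X, hX⟩ := key 0 24 (a - v) (by simp) (by omega)
    exact ng16_NG1 p l hl h5 X (Cong.mono hX (by omega))

end Fermat.Agent.S16Lib
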