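/-
S16, UPPER (helper5): variant of the UPPER core where the case `l = 2`, `p ≡ 3 mod 4` is fed by
a no-go statement in *integer shape* (`X` with integral `q`-expansion `D + 8 Y`, `D` odd), which
is what the discriminant route provides.

* `ng16_cong_of_shape_int` : integral shape `u + l ^ s * Y` (`u : ℤ`, `l ∤ u`, `1 ≤ s`, no
  condition on the constant term of `Y`)  ⟹  `Cong` for a scalar multiple.
* `ng16_BD_of_cong` : the `Cong`-shape NG6 implies the integer-shape NG6.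
* `ng16_upperCore'` : the UPPER core from NG3, NG5 (`Cong` shape) and NG6 (integer shape).
-/
import Fermat.Agent.Lib.S16.NoGo

set_option autoImplicit false

namespace Fermat.Agent.S16Lib

open UpperHalfPlane ModularForm CongruenceSubgroup MatrixGroups
open Fermat.Agent.LibS23 Fermat.Agent.S16Vq Fermat.Agent.S16Up

/-- from the integral shape `u + l ^ s * Y` (`u` an integer prime to `l`, `s ≥ 1`) to `Cong` -/
theorem ng16_cong_of_shape_int (p l : ℕ) (X : ModularForm (Gamma0 p) 2) (u : ℤ) (s : ℕ)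
    (hs : 1 ≤ s) (hu : ¬ (l : ℤ) ∣ u) (Y : PowerSeries ℤ)
    (hX : qx ⇑X
      = (PowerSeries.C u + PowerSeries.C ((l : ℤ) ^ s) * Y).map (Int.castRingHom ℂ)) :
    Cong p l s (((((u + (l : ℤ) ^ s * Y.coeff 0 : ℤ)) : ℂ)⁻¹) • X) := by
  set u' : ℤ := u + (l : ℤ) ^ s * Y.coeff 0 with hu'
  have hu'd : ¬ (l : ℤ) ∣ u' := by
    intro h
    apply hu
    have h1 : (l : ℤ) ∣ (l : ℤ) ^ s * Y.coeff 0 :=
      Dvd.dvd.mul_right (dvd_pow_self _ (by omega)) _
    exact (Int.dvd_add_left h1).mp h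
  have hu0 : u' ≠ 0 := fun h => hu'd (h ▸ dvd_zero _)
  have huC : (u' : ℂ) ≠ 0 := by exact_mod_cast hu0
  have hq : ∀ n, (qx (((u' : ℂ)⁻¹) • (⇑X : ℍ → ℂ))).coeff n
      = (u' : ℂ)⁻¹ * ((if n = 0 then (u : ℂ) else 0) + (l : ℂ) ^ s * ((Y.coeff n : ℤ) : ℂ)) := by
    intro n
    rw [qx_smul _ (QExp.of_gamma0 X), hX, PowerSeries.coeff_smul, smul_eq_mul,
      PowerSeries.coeff_map, map_add, PowerSeries.coeff_C, PowerSeries.coeff_C_mul]
    split_ifs <;> simp
  refine ⟨?_, fun k hk => ⟨Y.coeff k, u', hu'd, ?_⟩⟩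
  · show (qx (((u' : ℂ)⁻¹) • (⇑X : ℍ → ℂ))).coeff 0 = 1
    rw [hq 0, if_pos rfl]
    have h1 : (u : ℂ) + (l : ℂ) ^ s * ((Y.coeff 0 : ℤ) : ℂ) = (u' : ℂ) := by
      rw [hu']
      push_cast
      ring
    rw [h1]
    exact inv_mul_cancel₀ huC
  · have hk0 : k ≠ 0 := by omega
    show (qx (((u' : ℂ)⁻¹) • (⇑X : ℍ → ℂ))).coeff k = _
    rw [hq k, if_neg hk0, zero_add]
    field_simp

/-- the `Cong`-shape of NG6 implies its integer shape -/
theorem ng16_BD_of_cong (p : ℕ) (h : ∀ X : ModularForm (Gamma0 p) 2, ¬ Cong p 2 3 X)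
    (X : ModularForm (Gamma0 p) 2) (D : ℤ) (hD : Odd D) (Y : PowerSeries ℤ)
    (hX : qx ⇑X = (PowerSeries.C D + 8 * Y).map (Int.castRingHom ℂ)) : False := by
  have h8 : (8 : PowerSeries ℤ) = PowerSeries.C (((2 : ℕ) : ℤ) ^ 3) := by
    rw [show (((2 : ℕ) : ℤ) ^ 3) = 8 by norm_num]
    rfl
  have hD2 : ¬ ((2 : ℕ) : ℤ) ∣ D := by
    intro hdvd
    have h2 : (2 : ℤ) ∣ D := by exact_mod_cast hdvd
    exact (Int.not_even_iff_odd.mpr hD) (even_iff_two_dvd.mpr h2)
  rw [h8] at hX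
  exact h _ (ng16_cong_of_shape_int p 2 X D 3 (by norm_num) hD2 Y hX)

/-- **UPPER core**, with NG6 in integer shape. -/
theorem ng16_upperCore' (p : ℕ) [Fact p.Prime]
    (hNG3 : p % 3 = 1 → ∀ X : ModularForm (Gamma0 p) 2, ¬ Cong p 3 1 X)
    (hNG5 : p % 4 = 1 → ∀ X : ModularForm (Gamma0 p) 2, ¬ Cong p 2 2 X)
    (hBD : p % 4 = 3 → ∀ (X : ModularForm (Gamma0 p) 2) (D : ℤ), Odd D → ∀ Y : PowerSeries ℤ,
      qx ⇑X = (PowerSeries.C D + 8 * Y).map (Int.castRingHom ℂ) → False)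
    (l : ℕ) (hl : l.Prime) (a : ℕ) (f : CuspForm (Gamma0 p) 2)
    (hf : ∀ k, 1 ≤ k → ∃ c : ℤ,
      ModularFormClass.qCoeff f k = (sigp p k : ℂ) + (l : ℂ) ^ a * c) :
    l ^ a ∣ ModularCurve.eisensteinNumerator p := by
  have hp : p.Prime := Fact.out
  have hp2 : 2 ≤ p := hp.two_le
  have : NeZero p := ⟨hp.ne_zero⟩
  have hE0 : (qx ⇑(ep16_E p)).coeff 0 = ((p : ℂ) - 1) / 24 := ep16_qCoeff_zero p
  have hEk : ∀ k, 1 ≤ k → (qx ⇑(ep16_E p)).coeff k = (((sigp p k : ℕ) : ℤ) : ℂ) := by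
    intro k hk
    rw [Int.cast_natCast]
    exact ep16_qCoeff_pos p hk
  have hf' : ∀ k, 1 ≤ k → ∃ c : ℤ,
      (qx ⇑f).coeff k = (((sigp p k : ℕ) : ℤ) : ℂ) + (l : ℂ) ^ a * c := by
    intro k hk
    obtain ⟨c, hc⟩ := hf k hk
    refine ⟨c, ?_⟩
    rw [Int.cast_natCast]
    exact hc
  by_contra hnd
  have ha1 : 1 ≤ a := by
    by_contra h
    have h0 : a = 0 := by omega
    subst h0
    exact hnd (by simp)
  obtain ⟨v, u, hu, hdec⟩ :=
    Nat.exists_eq_pow_mul_and_not_dvd (show p - 1 ≠ 0 by omega) l hl.ne_one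
  have hcases : l = 2 ∨ l = 3 ∨ 5 ≤ l := by
    have h2 := hl.two_le
    by_contra hcon
    have h4 : l = 4 := by omega
    subst h4
    exact absurd hl (by norm_num)
  -- the integral shape of `X = (24 / l ^ v) (E - f)`
  have shape : ∀ (t' w s : ℕ), 24 = l ^ t' * w → a + t' = v + s →
      ∃ Y : PowerSeries ℤ, PowerSeries.constantCoeff Y = 0 ∧
        qx ⇑(up16_X p (ep16_E p) f l v)
          = (PowerSeries.C (u : ℤ) + PowerSeries.C ((l : ℤ) ^ s) * Y).map
              (Int.castRingHom ℂ) := by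
    intro t' w s h24 hs
    obtain ⟨Y, hY0, hX⟩ := up16_shape p (ep16_E p) (fun k => ((sigp p k : ℕ) : ℤ)) hE0 hEk l a
      hl.ne_zero f hf' v u t' w s hdec h24 hs
    exact ⟨Y, hY0, by rw [up16_coe_X]; exact hX⟩
  have key : ∀ (t' w s : ℕ), 24 = l ^ t' * w → a + t' = v + s →
      ∃ X : ModularForm (Gamma0 p) 2, Cong p l s X := by
    intro t' w s h24 hs
    obtain ⟨Y, hY0, hX⟩ := shape t' w s h24 hs
    exact ⟨_, ng16_cong_of_shape p l (up16_X p (ep16_E p) f l v) u s hu Y hY0 hX⟩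
  rcases hcases with rfl | rfl | h5
  · -- `l = 2`
    have hF := up16_val_bound hp2 hl 2 (by norm_num) hdec hnd
    rcases (show v = 0 ∨ v = 1 ∨ 2 ≤ v by omega) with rfl | rfl | hv2
    · -- `p = 2`
      obtain ⟨X, hX⟩ := key 3 3 (a + 3 - 0) (by norm_num) (by omega)
      exact ng16_NG4 p X (Cong.mono hX (by omega))
    · -- `p ≡ 3 mod 4`
      have hpu : p - 1 = 2 * u := by simpa using hdec
      have hu2 : u % 2 = 1 := by
        rcases Nat.mod_two_eq_zero_or_one u with h | h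
        · exact absurd (Nat.dvd_of_mod_eq_zero h) hu
        · exact h
      have hp4 : p % 4 = 3 := by omega
      have huodd : Odd (u : ℤ) := by
        have h1 : Odd u := Nat.odd_iff.mpr hu2
        exact_mod_cast h1
      obtain ⟨Y, -, hX⟩ := shape 3 3 (a + 3 - 1) (by norm_num) (by omega)
      refine hBD hp4 (up16_X p (ep16_E p) f 2 1) (u : ℤ) huodd
        (PowerSeries.C ((2 : ℤ) ^ (a - 1)) * Y) ?_
      rw [hX]
      congr 2
      have h8 : ((2 : ℕ) : ℤ) ^ (a + 3 - 1) = 8 * (2 : ℤ) ^ (a - 1) := by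
        have : a + 3 - 1 = (a - 1) + 3 := by omega
        rw [this, pow_add]
        push_cast
        ring
      rw [h8, map_mul, mul_assoc]
      congr 1
    · -- `p ≡ 1 mod 4`
      have h4 : 4 ∣ p - 1 := by
        rw [hdec]
        exact Dvd.dvd.mul_right (pow_dvd_pow 2 hv2 : 2 ^ 2 ∣ 2 ^ v) u
      have hp4 : p % 4 = 1 := by omega
      obtain ⟨X, hX⟩ := key 3 3 (a + 3 - v) (by norm_num) (by omega)
      exact hNG5 hp4 X (Cong.mono hX (by omega))
  · -- `l = 3`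
    have hF := up16_val_bound hp2 hl 1 (by norm_num) hdec hnd
    obtain ⟨X, hX⟩ := key 1 8 (a + 1 - v) (by norm_num) (by omega)
    rcases Nat.eq_zero_or_pos v with rfl | hv1
    · exact ng16_NG2 p X (Cong.mono hX (by omega))
    · have h3 : 3 ∣ p - 1 := by
        rw [hdec]
        exact Dvd.dvd.mul_right (dvd_pow_self 3 (by omega)) u
      have hp3 : p % 3 = 1 := by omega
      exact hNG3 hp3 X (Cong.mono hX (by omega))
  · -- `l ≥ 5`
    have h12 : ¬ l ^ (0 + 1) ∣ 12 := by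
      rw [zero_add, pow_one]
      intro h
      have h1 : l ∣ 2 ^ 2 * 3 := by simpa using h
      rcases (Nat.Prime.dvd_mul hl).mp h1 with h2 | h2
      · have := Nat.le_of_dvd (by norm_num) (hl.dvd_of_dvd_pow h2)
        omega
      · have := Nat.le_of_dvd (by norm_num) h2
        omega
    have hF := up16_val_bound hp2 hl 0 h12 hdec hnd
    obtain ⟨X, hX⟩ := key 0 24 (a - v) (by simp) (by omega)
    exact ng16_NG1 p l hl h5 X (Cong.mono hX (by omega))

end Fermat.Agent.S16Lib
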