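/-
S16, chunk PerE (helper8): the explicit primitive
`P(z) = (p-1)/24 · z + (2πi)⁻¹ ∑_{k ≥ 1} σ'(k) qᵏ / k` of the weight two Eisenstein series
`ep16_E p` on `Γ₀(p)`, its quasi-period `P(z+1) = P(z) + (p-1)/24`, its period homomorphism and
the Eisenstein eigen-equations of the latter.
-/
import Fermat.Agent.Lib.S16.Defs
import Fermat.Agent.Lib.S16.EisP
import Fermat.Agent.Lib.S16.EisHecke
import Fermat.Agent.Lib.S16.HeckeHom
import Fermat.Agent.Lib.S21.EisPeriod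

set_option autoImplicit false

namespace Fermat.Agent.S16Lib

open Complex Filter Function
open UpperHalfPlane hiding I
open scoped Topology Real MatrixGroups ModularForm
open CongruenceSubgroup Fermat.Agent.H4 Fermat.Agent.S21Lib ModularCurve ModularCurve.Period

/-! ### The power series `H(q) = ∑_{k ≥ 1} σ'(k) qᵏ / k` -/

theorem pe16_sigp_le (p k : ℕ) : sigp p k ≤ k ^ 2 := by
  unfold sigp
  calc ∑ d ∈ k.divisors with ¬ p ∣ d, d ≤ ∑ d ∈ k.divisors, d :=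
        Finset.sum_le_sum_of_subset (Finset.filter_subset _ _)
    _ ≤ ∑ _d ∈ k.divisors, k := Finset.sum_le_sum (fun d hd => Nat.divisor_le hd)
    _ = k.divisors.card * k := by simp
    _ ≤ k * k := Nat.mul_le_mul_right _ (Nat.card_divisors_le_self k)
    _ = k ^ 2 := (sq k).symm

/-- The `k`-th term `σ'(k+1) q^(k+1) / (k+1)` of `H`. -/
noncomputable def pe16_term (p k : ℕ) (q : ℂ) : ℂ :=
  (sigp p (k + 1) : ℂ) / ((k : ℂ) + 1) * q ^ (k + 1)

/-- `H(q) = ∑_{k ≥ 0} σ'(k+1) q^(k+1) / (k+1)`. -/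
noncomputable def pe16_H (p : ℕ) (q : ℂ) : ℂ := ∑' k : ℕ, pe16_term p k q

theorem pe16_term_norm_le (p k : ℕ) {q : ℂ} {r : ℝ} (hq : ‖q‖ ≤ r) :
    ‖pe16_term p k q‖ ≤ ((k + 1 : ℕ) : ℝ) ^ 1 * r ^ (k + 1) := by
  have hk : ((k : ℂ) + 1) = ((k + 1 : ℕ) : ℂ) := by push_cast; ring
  have hpos : (0 : ℝ) < ((k + 1 : ℕ) : ℝ) := by positivity
  have h1 : ‖(sigp p (k + 1) : ℂ) / ((k : ℂ) + 1)‖ ≤ ((k + 1 : ℕ) : ℝ) ^ 1 := by
    rw [hk, norm_div, Complex.norm_natCast, Complex.norm_natCast, div_le_iff₀ hpos, pow_one]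
    have := pe16_sigp_le p (k + 1)
    have h2 : ((sigp p (k + 1) : ℕ) : ℝ) ≤ (((k + 1) ^ 2 : ℕ) : ℝ) := by exact_mod_cast this
    calc ((sigp p (k + 1) : ℕ) : ℝ) ≤ (((k + 1) ^ 2 : ℕ) : ℝ) := h2
      _ = ((k + 1 : ℕ) : ℝ) * ((k + 1 : ℕ) : ℝ) := by push_cast; ring
  have h2 : ‖q ^ (k + 1)‖ ≤ r ^ (k + 1) := by
    rw [norm_pow]
    exact pow_le_pow_left₀ (norm_nonneg q) hq _
  unfold pe16_term
  rw [norm_mul]
  exact mul_le_mul h1 h2 (norm_nonneg _) (by positivity)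

theorem pe16_summable_bound {r : ℝ} (hr0 : 0 ≤ r) (hr : r < 1) :
    Summable (fun k : ℕ => ((k + 1 : ℕ) : ℝ) ^ 1 * r ^ (k + 1)) := by
  have h := summable_pow_mul_geometric_of_norm_lt_one 1 (r := r)
    (by rwa [Real.norm_eq_abs, abs_of_nonneg hr0])
  exact (summable_nat_add_iff 1).mpr h

theorem pe16_term_hasDerivAt (p k : ℕ) (q : ℂ) :
    HasDerivAt (pe16_term p k) ((sigp p (k + 1) : ℂ) * q ^ k) q := by
  have h := ((hasDerivAt_pow (k + 1) q).const_mul ((sigp p (k + 1) : ℂ) / ((k : ℂ) + 1)))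
  have hk : ((k : ℂ) + 1) ≠ 0 := by
    have : ((k : ℂ) + 1) = ((k + 1 : ℕ) : ℂ) := by push_cast; ring
    rw [this]
    exact_mod_cast Nat.succ_ne_zero k
  have e : (sigp p (k + 1) : ℂ) / ((k : ℂ) + 1) * (((k + 1 : ℕ) : ℂ) * q ^ (k + 1 - 1)) =
      (sigp p (k + 1) : ℂ) * q ^ k := by
    rw [Nat.add_sub_cancel]
    push_cast
    field_simp
  rw [e] at h
  exact h

theorem pe16_summable_term (p : ℕ) {q : ℂ} (hq : ‖q‖ < 1) : Summable (fun k => pe16_term p k q) :=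
  Summable.of_norm_bounded (pe16_summable_bound (norm_nonneg q) hq)
    (fun k => pe16_term_norm_le p k le_rfl)

theorem pe16_H_hasSum (p : ℕ) {q : ℂ} (hq : ‖q‖ < 1) :
    HasSum (fun k : ℕ => (sigp p (k + 1) : ℂ) / ((k : ℂ) + 1) * q ^ (k + 1)) (pe16_H p q) :=
  (pe16_summable_term p hq).hasSum

theorem pe16_H_zero (p : ℕ) : pe16_H p 0 = 0 := by
  unfold pe16_H
  have : ∀ k : ℕ, pe16_term p k 0 = 0 := fun k => by simp [pe16_term]
  simp [this]

/-- Termwise differentiation of `H` on the open unit disc. -/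
theorem pe16_H_hasDerivAt (p : ℕ) {q : ℂ} (hq : ‖q‖ < 1) :
    HasSum (fun k : ℕ => (sigp p (k + 1) : ℂ) * q ^ k) (deriv (pe16_H p) q) ∧
      HasDerivAt (pe16_H p) (deriv (pe16_H p) q) q := by
  obtain ⟨r, hqr, hr1⟩ := exists_between hq
  have hr0 : 0 ≤ r := (norm_nonneg q).trans hqr.le
  have hU : IsOpen (Metric.ball (0 : ℂ) r) := Metric.isOpen_ball
  have hmem : q ∈ Metric.ball (0 : ℂ) r := by simpa using hqr
  have hf : ∀ k : ℕ, DifferentiableOn ℂ (pe16_term p k) (Metric.ball (0 : ℂ) r) := fun k w _ =>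
    (pe16_term_hasDerivAt p k w).differentiableAt.differentiableWithinAt
  have hle : ∀ (k : ℕ) (w : ℂ), w ∈ Metric.ball (0 : ℂ) r →
      ‖pe16_term p k w‖ ≤ ((k + 1 : ℕ) : ℝ) ^ 1 * r ^ (k + 1) := fun k w hw =>
    pe16_term_norm_le p k (by simpa using (Metric.mem_ball.mp hw).le)
  have h1 := hasSum_deriv_of_summable_norm (pe16_summable_bound hr0 hr1) hf hU hle hmem
  have h2 := differentiableOn_tsum_of_summable_norm (pe16_summable_bound hr0 hr1) hf hU hle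
  refine ⟨?_, ?_⟩
  · have e : (fun k : ℕ => deriv (pe16_term p k) q) =
        fun k : ℕ => (sigp p (k + 1) : ℂ) * q ^ k := by
      funext k
      exact (pe16_term_hasDerivAt p k q).deriv
    rw [e] at h1
    exact h1
  · exact ((h2 q hmem).differentiableAt (hU.mem_nhds hmem)).hasDerivAt

theorem pe16_H_differentiableOn (p : ℕ) : DifferentiableOn ℂ (pe16_H p) (Metric.ball 0 1) :=
  fun q hq => ((pe16_H_hasDerivAt p (by simpa using hq)).2).differentiableAt.differentiableWithinAt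

/-! ### The explicit primitive -/

/-- The explicit primitive of the Eisenstein series, as a function on `ℂ`:
`P(w) = (p-1)/24 · w + (2πi)⁻¹ H(e^{2πiw})`. -/
noncomputable def pe16_Pc (p : ℕ) (w : ℂ) : ℂ :=
  ((p : ℂ) - 1) / 24 * w + (2 * π * I)⁻¹ * pe16_H p (Periodic.qParam 1 w)

/-- The explicit primitive of the Eisenstein series `ep16_E p` on the upper half plane. -/
noncomputable def pe16_P (p : ℕ) (z : ℍ) : ℂ := pe16_Pc p z

theorem pe16_P_apply (p : ℕ) (z : ℍ) :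
    pe16_P p z = ((p : ℂ) - 1) / 24 * (z : ℂ) +
      (2 * π * I)⁻¹ * pe16_H p (Periodic.qParam 1 (z : ℂ)) := rfl

theorem pe16_norm_qParam_lt_one (z : ℍ) : ‖Periodic.qParam 1 (z : ℂ)‖ < 1 :=
  Periodic.norm_qParam_lt_one one_pos z.im_pos

/-- The `q`-expansion of `E - a₀`. -/
theorem pe16_hasSum_E_sub (p : ℕ) [NeZero p] (z : ℍ) :
    HasSum (fun k : ℕ => (sigp p (k + 1) : ℂ) * Periodic.qParam 1 (z : ℂ) ^ (k + 1))
      (ep16_E p z - ((p : ℂ) - 1) / 24) := by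
  have h := (hasSum_nat_add_iff' 1).mpr (ep16_hasSum p z)
  simp only [Finset.range_one, Finset.sum_singleton, pow_zero, smul_eq_mul, mul_one] at h
  have e0 : ep16_coeff p 0 = ((p : ℂ) - 1) / 24 := by simp [ep16_coeff]
  rw [e0] at h
  have e : (fun n : ℕ => ep16_coeff p (n + 1) * Periodic.qParam 1 (z : ℂ) ^ (n + 1)) =
      fun k : ℕ => (sigp p (k + 1) : ℂ) * Periodic.qParam 1 (z : ℂ) ^ (k + 1) := by
    funext k
    have e1 : ep16_coeff p (k + 1) = (sigp p (k + 1) : ℂ) := by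
      rw [ep16_coeff, if_neg (Nat.succ_ne_zero k)]
      rfl
    rw [e1]
  rw [e] at h
  exact h

theorem pe16_Pc_hasDerivAt (p : ℕ) [NeZero p] (z : ℍ) :
    HasDerivAt (pe16_Pc p) (ep16_E p z) (z : ℂ) := by
  have hq := pe16_norm_qParam_lt_one z
  obtain ⟨hsum, hder⟩ := pe16_H_hasDerivAt p hq
  have h1 := hder.comp (z : ℂ) (hasDerivAt_qParam 1 (z : ℂ))
  have h2 := h1.const_mul ((2 * π * I)⁻¹ : ℂ)
  have h3 := ((hasDerivAt_id (z : ℂ)).const_mul (((p : ℂ) - 1) / 24)).add h2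
  have hval : deriv (pe16_H p) (Periodic.qParam 1 (z : ℂ)) * Periodic.qParam 1 (z : ℂ) =
      ep16_E p z - ((p : ℂ) - 1) / 24 := by
    have h4 := hsum.mul_right (Periodic.qParam 1 (z : ℂ))
    have h5 := pe16_hasSum_E_sub p z
    have e : (fun i : ℕ => (sigp p (i + 1) : ℂ) * Periodic.qParam 1 (z : ℂ) ^ i *
        Periodic.qParam 1 (z : ℂ)) =
        fun k : ℕ => (sigp p (k + 1) : ℂ) * Periodic.qParam 1 (z : ℂ) ^ (k + 1) := by
      funext k
      rw [pow_succ, mul_assoc]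
    rw [e] at h4
    exact h4.unique h5
  have hpi : (2 * π * I : ℂ) ≠ 0 := two_pi_I_ne_zero
  have e : ((p : ℂ) - 1) / 24 * 1 + (2 * π * I)⁻¹ *
      (deriv (pe16_H p) (Periodic.qParam 1 (z : ℂ)) *
        (Periodic.qParam 1 (z : ℂ) * (2 * π * I / (1 : ℝ)))) = ep16_E p z := by
    have : (2 * π * I)⁻¹ * (deriv (pe16_H p) (Periodic.qParam 1 (z : ℂ)) *
        (Periodic.qParam 1 (z : ℂ) * (2 * π * I / (1 : ℝ)))) =
        deriv (pe16_H p) (Periodic.qParam 1 (z : ℂ)) * Periodic.qParam 1 (z : ℂ) := by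
      rw [Complex.ofReal_one, div_one]
      field_simp
    rw [this, hval]
    ring
  rw [e] at h3
  exact h3

/-- `P` is a primitive of the Eisenstein series `E`. -/
theorem pe16_isPrim (p : ℕ) [NeZero p] : IsPrim (pe16_P p) (ep16_E p) := fun z =>
  (pe16_Pc_hasDerivAt p z).congr_of_eventuallyEq (comp_ofComplex_eventuallyEq (pe16_Pc p) z)

/-- The quasi-period of `P`: `P(z + 1) = P(z) + (p-1)/24`. -/
theorem pe16_P_vadd (p : ℕ) (z : ℍ) :
    pe16_P p ((1 : ℝ) +ᵥ z) = pe16_P p z + ((p : ℂ) - 1) / 24 := by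
  rw [pe16_P_apply, pe16_P_apply, coe_vadd]
  have hq : Periodic.qParam 1 (((1 : ℝ) : ℂ) + (z : ℂ)) = Periodic.qParam 1 (z : ℂ) := by
    rw [add_comm]
    exact qParam_add_period one_ne_zero (z : ℂ)
  rw [hq]
  push_cast
  ring

theorem pe16_P_T (p : ℕ) (z : ℍ) :
    pe16_P p (ModularGroup.T • z) - pe16_P p z = ((p : ℂ) - 1) / 24 := by
  rw [modular_T_smul, pe16_P_vadd]
  ring

/-- `z ↦ P(z) - (p-1)/24 · z` tends to `0` at `i∞`. -/
theorem pe16_P_sub_isZeroAtImInfty (p : ℕ) :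
    IsZeroAtImInfty (fun z : ℍ => pe16_P p z - ((p : ℂ) - 1) / 24 * (z : ℂ)) := by
  have hc : ContinuousAt (pe16_H p) 0 :=
    ((pe16_H_hasDerivAt p (q := 0) (by simp)).2).continuousAt
  have ht : Tendsto (fun τ : ℍ => pe16_H p (Periodic.qParam 1 (τ : ℂ))) atImInfty
      (𝓝 (pe16_H p 0)) :=
    hc.tendsto.comp (qParam_tendsto_atImInfty one_pos)
  rw [pe16_H_zero] at ht
  have := ht.const_mul ((2 * π * I)⁻¹ : ℂ)
  rw [mul_zero] at this
  refine this.congr fun z => ?_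
  rw [pe16_P_apply]
  ring

/-! ### The period homomorphism -/

theorem pe16_isEquivariantPrimitive (p : ℕ) [NeZero p] :
    IsEquivariantPrimitive (Gamma0 p) (pe16_P p) :=
  eis_isEquivariantPrimitive (ep16_E p) (pe16_isPrim p)

/-- The period homomorphism `γ ↦ P(γ z) - P(z)` of the explicit primitive. -/
noncomputable def pe16_per (p : ℕ) [NeZero p] : Additive (Gamma0 p) →+ ℂ :=
  (pe16_isEquivariantPrimitive p).periodHom

theorem pe16_per_spec (p : ℕ) [NeZero p] (γ : Gamma0 p) (z : ℍ) :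
    pe16_P p ((γ : SL(2, ℤ)) • z) - pe16_P p z = pe16_per p (Additive.ofMul γ) := by
  rw [pe16_per, IsEquivariantPrimitive.periodHom_apply,
    ← (pe16_isEquivariantPrimitive p).sub_eq_period γ z]

theorem pe16_per_T (p : ℕ) [NeZero p] :
    pe16_per p (Additive.ofMul (gT p)) = ((p : ℂ) - 1) / 24 := by
  rw [← pe16_per_spec p (gT p) UpperHalfPlane.I]
  exact pe16_P_T p UpperHalfPlane.I

/-- The Eisenstein eigen-equations of the period homomorphism. -/
theorem pe16_per_eigen (p : ℕ) [hp : Fact p.Prime] (ℓ : Nat.Primes) :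
    hh16_gen p ℓ ℂ (pe16_per p) = eisensteinSystem p ℓ • pe16_per p := by
  refine hh16_gen_eigen p (ep16_E p) (pe16_isPrim p) (pe16_per_spec p) ?_ ?_ ℓ
  · intro l hl hlp
    rw [ep16_heckeT_eq p hl hlp]
    push_cast
    rfl
  · intro q hq hqp
    have hqp' : q = p := (Nat.prime_dvd_prime_iff_eq hq hp.out).mp hqp
    subst hqp'
    exact ep16_heckeU_eq q hq

/-! ### Arbitrary primitives -/

/-- Any primitive of `E` has the quasi-period `(p-1)/24` along `T`. -/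
theorem pe16_prim_T (p : ℕ) [NeZero p] {F : ℍ → ℂ} (hF : IsPrim F (ep16_E p)) (z : ℍ) :
    F (ModularGroup.T • z) - F z = ((p : ℂ) - 1) / 24 := by
  have hD : ∀ w : ℍ, HasDerivAt (fun u => (F ∘ ofComplex) u - (pe16_P p ∘ ofComplex) u) 0
      (w : ℂ) := by
    intro w
    have := (hF w).sub (pe16_isPrim p w)
    rw [sub_self] at this
    exact this
  have hc := eq_of_hasDerivAt_zero hD (ModularGroup.T • z) z
  simp only [comp_apply, ofComplex_apply] at hc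
  rw [← pe16_P_T p z]
  linear_combination hc

/-- The period homomorphism of any primitive of `E` takes the value `(p-1)/24` at `T`. -/
theorem pe16_hom_T (p : ℕ) [NeZero p] {F : ℍ → ℂ} (hF : IsPrim F (ep16_E p))
    {φ : Additive (Gamma0 p) →+ ℂ}
    (hφ : ∀ (γ : Gamma0 p) (z : ℍ), F ((γ : SL(2, ℤ)) • z) - F z = φ (Additive.ofMul γ)) :
    φ (Additive.ofMul (gT p)) = ((p : ℂ) - 1) / 24 := by
  rw [← hφ (gT p) UpperHalfPlane.I]
  exact pe16_prim_T p hF UpperHalfPlane.I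

/-- `ψ₀(T) = p - 1` for the integral homomorphism `ψ₀ = 24 · (period homomorphism)`. -/
theorem pe16_psi0_T (p : ℕ) [NeZero p] {F : ℍ → ℂ} (hF : IsPrim F (ep16_E p))
    (ψ₀ : Additive (Gamma0 p) →+ ℤ)
    (h : ∀ (γ : Gamma0 p) (z : ℍ),
      24 * (F ((γ : SL(2, ℤ)) • z) - F z) = (ψ₀ (Additive.ofMul γ) : ℂ)) :
    ψ₀ (Additive.ofMul (gT p)) = (p : ℤ) - 1 := by
  have h1 := h (gT p) UpperHalfPlane.I
  have h2 : F (ModularGroup.T • UpperHalfPlane.I) - F UpperHalfPlane.I = ((p : ℂ) - 1) / 24 :=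
    pe16_prim_T p hF UpperHalfPlane.I
  have h3 : ((ψ₀ (Additive.ofMul (gT p)) : ℤ) : ℂ) = (((p : ℤ) - 1 : ℤ) : ℂ) := by
    rw [← h1]
    have : F (((gT p : Gamma0 p) : SL(2, ℤ)) • UpperHalfPlane.I) - F UpperHalfPlane.I =
        ((p : ℂ) - 1) / 24 := h2
    rw [this]
    push_cast
    ring
  exact_mod_cast h3

/-- The Eisenstein eigen-equations for the period homomorphism of any primitive of `E`. -/
theorem pe16_hom_eigen (p : ℕ) [hp : Fact p.Prime] {F : ℍ → ℂ} (hF : IsPrim F (ep16_E p))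
    {φ : Additive (Gamma0 p) →+ ℂ}
    (hφ : ∀ (γ : Gamma0 p) (z : ℍ), F ((γ : SL(2, ℤ)) • z) - F z = φ (Additive.ofMul γ))
    (ℓ : Nat.Primes) :
    hh16_gen p ℓ ℂ φ = eisensteinSystem p ℓ • φ := by
  refine hh16_gen_eigen p (ep16_E p) hF hφ ?_ ?_ ℓ
  · intro l hl hlp
    rw [ep16_heckeT_eq p hl hlp]
    push_cast
    rfl
  · intro q hq hqp
    have hqp' : q = p := (Nat.prime_dvd_prime_iff_eq hq hp.out).mp hqp
    subst hqp'
    exact ep16_heckeU_eq q hq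

/-- **PerE, packaged**: from any primitive `F` of `E` whose `24`-fold periods are integers, the
integral homomorphism `ψ₀ = 24 · (period homomorphism of F)` with `ψ₀(T) = p - 1` and the
Eisenstein eigen-equations. -/
theorem pe16_exists_psi0 (p : ℕ) [hp : Fact p.Prime] {F : ℍ → ℂ} (hF : IsPrim F (ep16_E p))
    (hint : ∀ γ : Gamma0 p, ∃ m : ℤ,
      24 * (F ((γ : SL(2, ℤ)) • UpperHalfPlane.I) - F UpperHalfPlane.I) = (m : ℂ)) :
    ∃ ψ₀ : Additive (Gamma0 p) →+ ℤ,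
      (∀ (γ : Gamma0 p) (z : ℍ),
        24 * (F ((γ : SL(2, ℤ)) • z) - F z) = (ψ₀ (Additive.ofMul γ) : ℂ)) ∧
      ψ₀ (Additive.ofMul (gT p)) = (p : ℤ) - 1 ∧
      ∀ ℓ : Nat.Primes, hh16_gen p ℓ ℂ ((Int.castAddHom ℂ).comp ψ₀) =
        eisensteinSystem p ℓ • ((Int.castAddHom ℂ).comp ψ₀) := by
  have hE := eis_isEquivariantPrimitive (ep16_E p) hF
  set φ : Additive (Gamma0 p) →+ ℂ := hE.periodHom with hφdef
  have hφ : ∀ (γ : Gamma0 p) (z : ℍ), F ((γ : SL(2, ℤ)) • z) - F z = φ (Additive.ofMul γ) := by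
    intro γ z
    rw [hφdef, IsEquivariantPrimitive.periodHom_apply, ← hE.sub_eq_period γ z]
  have hint' : ∀ γ : Additive (Gamma0 p), ∃ m : ℤ, 24 * φ γ = (m : ℂ) := by
    intro γ
    obtain ⟨m, hm⟩ := hint (Additive.toMul γ)
    refine ⟨m, ?_⟩
    rw [← hm, hφ (Additive.toMul γ) UpperHalfPlane.I]
    rfl
  choose m hm using hint'
  have hadd : ∀ a b : Additive (Gamma0 p), m (a + b) = m a + m b := by
    intro a b
    have : ((m (a + b) : ℤ) : ℂ) = ((m a + m b : ℤ) : ℂ) := by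
      rw [← hm, map_add]
      push_cast
      rw [← hm, ← hm]
      ring
    exact_mod_cast this
  have hzero : m 0 = 0 := by
    have : ((m 0 : ℤ) : ℂ) = ((0 : ℤ) : ℂ) := by
      rw [← hm, map_zero]
      simp
    exact_mod_cast this
  let ψ₀ : Additive (Gamma0 p) →+ ℤ := ⟨⟨m, hzero⟩, hadd⟩
  have hψ : ∀ (γ : Gamma0 p) (z : ℍ),
      24 * (F ((γ : SL(2, ℤ)) • z) - F z) = (ψ₀ (Additive.ofMul γ) : ℂ) := by
    intro γ z
    rw [hφ γ z]
    exact hm (Additive.ofMul γ)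
  refine ⟨ψ₀, hψ, pe16_psi0_T p hF ψ₀ hψ, fun ℓ => ?_⟩
  have hcomp : (Int.castAddHom ℂ).comp ψ₀ = (24 : ℕ) • φ := by
    refine AddMonoidHom.ext fun γ => ?_
    have h1 : ((Int.castAddHom ℂ).comp ψ₀) γ = ((m γ : ℤ) : ℂ) := rfl
    have h2 : ((24 : ℕ) • φ) γ = 24 * φ γ := by
      simp only [AddMonoidHom.coe_smul, Pi.smul_apply, nsmul_eq_mul]
      norm_num
    rw [h1, h2, hm γ]
  rw [hcomp, map_nsmul, pe16_hom_eigen p hF hφ ℓ, smul_comm]

end Fermat.Agent.S16Lib
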