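import Fermat.Agent.Lib.S16.HeckeHom
import Fermat.Agent.Lib.S16.LEnd
import Fermat.Agent.Lib.S16.EisHecke

/-!
# Packaging of the Eisenstein period homomorphism (S16, lower bound)

From a primitive `F` of the Eisenstein series `ep16_E p` we build `ψ₀ = 24 · (period of F)` and
feed the Hecke operators on `Hom(Γ₀(p), ℂ)` (`HeckeHom`) into `le16_lowerCore`.  The remaining
analytic inputs (integrality of `ψ₀`, the value on `T`, primitivity) are hypotheses here.
-/

set_option autoImplicit false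
set_option linter.unusedSectionVars false

open Complex Filter Function
open UpperHalfPlane hiding I
open scoped Manifold Topology Real MatrixGroups ModularForm
open Matrix.SpecialLinearGroup CongruenceSubgroup

namespace Fermat.Agent.S16Lib

open Fermat.Agent.H4 Fermat.Agent.S21Lib ModularCurve ModularCurve.Period CuspForm

section

variable (p : ℕ) [Fact p.Prime]

/-- An integer valued homomorphism is the cast of a `ℤ`-valued one. -/
theorem pp16_exists_int {φ : Additive (Gamma0 p) →+ ℂ} (hφ : IsInt p φ) :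
    ∃ φ₀ : Additive (Gamma0 p) →+ ℤ, φ = (Int.castAddHom ℂ).comp φ₀ := by
  choose m hm using hφ
  refine ⟨AddMonoidHom.mk' m (fun γ γ' => ?_), ?_⟩
  · have h : ((m (γ + γ') : ℤ) : ℂ) = ((m γ + m γ' : ℤ) : ℂ) := by
      rw [← hm, map_add, hm γ, hm γ']
      push_cast
      ring
    exact_mod_cast h
  · refine AddMonoidHom.ext fun γ => ?_
    exact hm γ

theorem pp16_isInt_cast (φ₀ : Additive (Gamma0 p) →+ ℤ) :
    IsInt p ((Int.castAddHom ℂ).comp φ₀) := fun γ => ⟨φ₀ γ, rfl⟩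

/-- The Hecke operators on `Hom(Γ₀(p), ℂ)` preserve integer valued homomorphisms. -/
theorem pp16_tau_int (j : Nat.Primes) (φ : Additive (Gamma0 p) →+ ℂ) (hφ : IsInt p φ) :
    IsInt p (hh16_gen p j ℂ φ) := by
  obtain ⟨φ₀, rfl⟩ := pp16_exists_int p hφ
  rw [hh16_gen_comp]
  exact pp16_isInt_cast p _

/-- The Hecke operators on `Hom(Γ₀(p), ℂ)` are compatible with the Eichler–Shimura pair map. -/
theorem pp16_tau_pair (j : Nat.Primes) (f g : CuspForm (Gamma0 p) 2) :
    hh16_gen p j ℂ (periodHomPair p (f, g)) =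
      periodHomPair p
        (((heckeFormsGen p 2 j : heckeAlgebra p 2 ∅) : Module.End ℂ (CuspForm (Gamma0 p) 2)) f,
         ((heckeFormsGen p 2 j : heckeAlgebra p 2 ∅) : Module.End ℂ (CuspForm (Gamma0 p) 2)) g) := by
  obtain ⟨pml', hpml, hdef⟩ := periodHomPair_def p (existsPeriodMapLinear p)
  rw [hdef]
  simp only [LinearMap.coprod_apply, LinearMap.comp_apply, hpml, LinearMap.add_apply,
    LinearMap.sub_apply, LinearMap.id_apply, map_add, map_sub, hh16_gen_periodMap,
    hh16_gen_charInvolution_periodMap]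

variable {p}

/-- `ψ₀ = 24 ·` (period homomorphism of a primitive of the Eisenstein series). -/
noncomputable def pp16_psi {F : ℍ → ℂ} (hF : IsPrim F (ep16_E p)) : Additive (Gamma0 p) →+ ℂ :=
  (24 : ℤ) • (eis_isEquivariantPrimitive (ep16_E p) hF).periodHom

theorem pp16_psi_apply {F : ℍ → ℂ} (hF : IsPrim F (ep16_E p)) (γ : Gamma0 p) (z : ℍ) :
    pp16_psi hF (Additive.ofMul γ) = 24 * (F ((γ : SL(2, ℤ)) • z) - F z) := by
  unfold pp16_psi
  rw [AddMonoidHom.smul_apply, IsEquivariantPrimitive.periodHom_apply,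
    ← IsEquivariantPrimitive.sub_eq_period _ γ z, zsmul_eq_mul]
  norm_num

/-- `ψ₀` is an Eisenstein eigenvector for all Hecke operators. -/
theorem pp16_psi_eig {F : ℍ → ℂ} (hF : IsPrim F (ep16_E p)) (j : Nat.Primes) :
    hh16_gen p j ℂ (pp16_psi hF) = eisensteinSystem p j • pp16_psi hF := by
  have hφ : ∀ (γ : Gamma0 p) (z : ℍ), F ((γ : SL(2, ℤ)) • z) - F z
      = (eis_isEquivariantPrimitive (ep16_E p) hF).periodHom (Additive.ofMul γ) := fun γ z => by
    rw [IsEquivariantPrimitive.periodHom_apply, ← IsEquivariantPrimitive.sub_eq_period _ γ z]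
  have h := hh16_gen_eigen p (ep16_E p) hF hφ
    (fun ℓ hℓ hℓN => by rw [ep16_heckeT_eq p hℓ hℓN]; push_cast; rfl)
    (fun q hq hqN => by
      obtain rfl : q = p := (Nat.prime_dvd_prime_iff_eq hq Fact.out).mp hqN
      exact ep16_heckeU_eq q hq) j
  unfold pp16_psi
  rw [map_zsmul, h, smul_comm]

/-- **LOWER from the analytic inputs on a primitive of the Eisenstein series.** -/
theorem pp16_lower {F : ℍ → ℂ} (hF : IsPrim F (ep16_E p))
    (hint : ∀ (γ : Gamma0 p) (z : ℍ), ∃ m : ℤ, 24 * (F ((γ : SL(2, ℤ)) • z) - F z) = m)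
    (hT : ∀ z : ℍ, 24 * (F ((1 : ℝ) +ᵥ z) - F z) = (p : ℂ) - 1)
    (hroot : ∀ r : ℕ, 1 ≤ r →
      (∀ (γ : Gamma0 p) (z : ℍ), ∃ m : ℤ, 24 * (F ((γ : SL(2, ℤ)) • z) - F z) = (r : ℂ) * m) →
      r ∣ 12) :
    ∀ P : HeckeAlg, ((latticeRestrictHom p ∅).toRingHom.comp (heckeEvalForms p 2)) P = 0 →
      ((eisensteinNumerator p : ℕ) : ℤ) ∣ MvPolynomial.aeval (eisensteinSystem p) P := by
  refine le16_lowerCore (τ := fun j => hh16_gen p j ℂ) (ψ₀ := pp16_psi hF) (pp16_tau_int p)
    (pp16_tau_pair p) ?_ ?_ (pp16_psi_eig hF) ?_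
  · intro γ
    obtain ⟨m, hm⟩ := hint (Additive.toMul γ) UpperHalfPlane.I
    exact ⟨m, by rw [← hm, ← pp16_psi_apply hF (Additive.toMul γ) UpperHalfPlane.I]; rfl⟩
  · rw [pp16_psi_apply hF (gT p) UpperHalfPlane.I, ← hT UpperHalfPlane.I]
    congr 3
    exact UpperHalfPlane.modular_T_smul UpperHalfPlane.I
  · intro r hr h
    refine hroot r hr fun γ z => ?_
    obtain ⟨m, hm⟩ := h (Additive.ofMul γ)
    exact ⟨m, by rw [← hm, pp16_psi_apply hF γ z]⟩

/-- **Root bridge.** If `r` divides all values of `ψ₀`, then `exp(2πi·24·F)` has a holomorphic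
`Γ₀(p)`-invariant `r`-th root. -/
theorem pp16_exists_root {F : ℍ → ℂ} (hF : IsPrim F (ep16_E p)) (r : ℕ) (hr : 1 ≤ r)
    (hdiv : ∀ (γ : Gamma0 p) (z : ℍ), ∃ m : ℤ,
      24 * (F ((γ : SL(2, ℤ)) • z) - F z) = (r : ℂ) * m) :
    ∃ v : ℍ → ℂ, MDiff v ∧ (∀ γ ∈ Gamma0 p, ∀ z : ℍ, v (γ • z) = v z) ∧
      ∀ z : ℍ, v z ^ r = Complex.exp (2 * π * I * (24 * F z)) := by
  have hr0 : (r : ℂ) ≠ 0 := by exact_mod_cast (show r ≠ 0 by omega)
  refine ⟨fun z => Complex.exp (2 * π * I * (24 * F z) / r), ?_, ?_, ?_⟩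
  · rw [UpperHalfPlane.mdifferentiable_iff]
    intro u hu
    have h1 : DifferentiableAt ℂ (F ∘ ofComplex) u := by
      have := (hF ⟨u, hu⟩).differentiableAt
      exact this
    have h2 : DifferentiableAt ℂ (fun w : ℂ => Complex.exp (2 * π * I * (24 * (F ∘ ofComplex) w) / r))
        u := (((h1.const_mul (24 : ℂ)).const_mul (2 * π * I)).div_const (r : ℂ)).cexp
    exact h2.differentiableWithinAt
  · intro γ hγ z
    obtain ⟨m, hm⟩ := hdiv ⟨γ, hγ⟩ z
    have e : 2 * π * I * (24 * F (γ • z)) / r = 2 * π * I * (24 * F z) / r + m * (2 * π * I) := by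
      have : 24 * F (γ • z) = 24 * F z + (r : ℂ) * m := by linear_combination hm
      rw [this]
      field_simp
    show Complex.exp _ = Complex.exp _
    rw [e, Complex.exp_add, Complex.exp_int_mul_two_pi_mul_I, mul_one]
  · intro z
    show Complex.exp _ ^ r = _
    rw [← Complex.exp_nat_mul]
    congr 1
    field_simp

end

end Fermat.Agent.S16Lib
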