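import Mathlib

/-!
# Root-B: the power-series endgame of the Root lemma (S16)

`rb16_main`: if `b ^ r = c X^(r(1+a)) U₁` and `b' ^ r = c' X^(r(p-a)) U₂` in `ℂ⟦X⟧` with `U₁, U₂`
rational `1`-units, `c' p^12 = c p^(11 r)`, and the coefficients of `b`, `b'` satisfy the two
trace relations against a rational sequence `tau` with `tau 1 = 1`, then `r ∣ 12`.

Ingredients: `r`-th roots of `1`-units in `ℚ⟦X⟧` by Hensel's lemma (`rb16_exists_root`),
`x ^ r = y ^ r → x = ζ y` in the domain `ℂ⟦X⟧` (`rb16_eq_of_pow_eq`), and a `p`-adic valuation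
count.
-/

set_option autoImplicit false

namespace Fermat.Agent.S16Lib

open PowerSeries

/-- Existence of `r`-th roots of `1`-units in `ℚ⟦X⟧` (Hensel). -/
theorem rb16_exists_root (r : ℕ) (hr : 0 < r) (U : PowerSeries ℚ)
    (hU : PowerSeries.constantCoeff U = 1) :
    ∃ R : PowerSeries ℚ, R ^ r = U ∧ PowerSeries.constantCoeff R = 1 := by
  have hH : HenselianRing (PowerSeries ℚ) (Ideal.span {(PowerSeries.X : PowerSeries ℚ)}) :=
    inferInstance
  have hmem : ∀ φ : PowerSeries ℚ, φ ∈ Ideal.span {(PowerSeries.X : PowerSeries ℚ)} ↔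
      PowerSeries.constantCoeff φ = 0 := by
    intro φ
    rw [Ideal.mem_span_singleton, PowerSeries.X_dvd_iff]
  have hunit : IsUnit ((r : ℕ) : PowerSeries ℚ) := by
    rw [← map_natCast (PowerSeries.C : ℚ →+* PowerSeries ℚ) r]
    exact (IsUnit.mk0 (r : ℚ) (Nat.cast_ne_zero.mpr hr.ne')).map _
  obtain ⟨R, hR, hR1⟩ := hH.is_henselian (Polynomial.X ^ r - Polynomial.C U)
    (Polynomial.monic_X_pow_sub_C U hr.ne') 1 (by
      rw [hmem]
      simp [hU]) (by
      apply IsUnit.map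
      simp only [Polynomial.derivative_sub, Polynomial.derivative_X_pow, Polynomial.derivative_C,
        sub_zero, Polynomial.eval_mul, Polynomial.eval_C, Polynomial.eval_pow, Polynomial.eval_X,
        one_pow, mul_one]
      simpa using hunit)
  refine ⟨R, ?_, ?_⟩
  · have := hR
    simp only [Polynomial.IsRoot, Polynomial.eval_sub, Polynomial.eval_pow, Polynomial.eval_X,
      Polynomial.eval_C] at this
    exact sub_eq_zero.mp this
  · rw [hmem, map_sub, map_one, sub_eq_zero] at hR1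
    exact hR1

/-- In `ℂ⟦X⟧`, two series with the same `r`-th power differ by a constant root of unity. -/
theorem rb16_eq_of_pow_eq (r : ℕ) (hr : 0 < r) (x y : PowerSeries ℂ) (h : x ^ r = y ^ r) :
    ∃ ζ : ℂ, ζ ^ r = 1 ∧ x = PowerSeries.C ζ * y := by
  have : NeZero r := ⟨hr.ne'⟩
  obtain ⟨z₀, hz⟩ : ∃ z₀ : ℂ, IsPrimitiveRoot z₀ r := ⟨_, Complex.isPrimitiveRoot_exp r hr.ne'⟩
  have hZ : IsPrimitiveRoot (PowerSeries.C z₀ : PowerSeries ℂ) r :=
    hz.map_of_injective PowerSeries.C_injective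
  have hprod := hZ.pow_sub_pow_eq_prod_sub_mul x y hr
  rw [h, sub_self] at hprod
  obtain ⟨ζ, hζ, hζ0⟩ := Finset.prod_eq_zero_iff.mp hprod.symm
  have hζr : ζ ^ r = 1 := ((Polynomial.mem_nthRootsFinset hr 1).1 hζ)
  obtain ⟨i, -, hi⟩ := hZ.eq_pow_of_pow_eq_one hζr
  refine ⟨z₀ ^ i, ?_, ?_⟩
  · rw [← pow_mul, mul_comm i r, pow_mul, hz.pow_eq_one, one_pow]
  · rw [map_pow, hi]
    exact sub_eq_zero.mp hζ0

/-- An `r`-th root in `ℂ⟦X⟧` of `c X^(r m) U`, `U` a rational `1`-unit, is `ε X^m R` with `R` a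
rational `1`-unit and `ε ^ r = c`. -/
theorem rb16_shape (r : ℕ) (hr : 0 < r) (m : ℕ) (U : PowerSeries ℚ)
    (hU : PowerSeries.constantCoeff U = 1) (c : ℂ) (b : PowerSeries ℂ)
    (hb : b ^ r = PowerSeries.C c * (PowerSeries.X ^ (r * m) * U.map (algebraMap ℚ ℂ))) :
    ∃ (ε : ℂ) (R : PowerSeries ℚ), ε ^ r = c ∧ PowerSeries.constantCoeff R = 1 ∧
      b = PowerSeries.C ε * (PowerSeries.X ^ m * R.map (algebraMap ℚ ℂ)) := by
  obtain ⟨R, hR, hR1⟩ := rb16_exists_root r hr U hU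
  obtain ⟨e, he⟩ : ∃ e : ℂ, e ^ r = c := IsAlgClosed.exists_pow_nat_eq c hr
  have hy : (PowerSeries.C e * (PowerSeries.X ^ m * R.map (algebraMap ℚ ℂ))) ^ r =
      PowerSeries.C c * (PowerSeries.X ^ (r * m) * U.map (algebraMap ℚ ℂ)) := by
    rw [mul_pow, mul_pow, ← map_pow, he, ← pow_mul, mul_comm m r, ← map_pow, hR]
  obtain ⟨ζ, hζ, hx⟩ := rb16_eq_of_pow_eq r hr b _ (hb.trans hy.symm)
  refine ⟨ζ * e, R, ?_, hR1, ?_⟩
  · rw [mul_pow, hζ, he, one_mul]
  · rw [hx, map_mul, mul_assoc]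

theorem rb16_coeff_shape (ε : ℂ) (m n : ℕ) (R : PowerSeries ℚ) :
    PowerSeries.coeff n (PowerSeries.C ε * (PowerSeries.X ^ m * R.map (algebraMap ℚ ℂ))) =
      ε * (if m ≤ n then ((PowerSeries.coeff (n - m) R : ℚ) : ℂ) else 0) := by
  rw [PowerSeries.coeff_C_mul, PowerSeries.coeff_X_pow_mul']
  split_ifs
  · rw [PowerSeries.coeff_map]
    rfl
  · rfl

/-- **Root-B**: the power-series endgame of the Root lemma. -/
theorem rb16_main (p r a : ℕ) (hp : p.Prime) (hr : 0 < r) (ha : 1 ≤ a) (hap : a < p)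
    (U1 U2 : PowerSeries ℚ) (hU1 : PowerSeries.constantCoeff U1 = 1)
    (hU2 : PowerSeries.constantCoeff U2 = 1)
    (c c' : ℂ) (hc : c ≠ 0) (hcc' : c' * (p : ℂ) ^ 12 = c * (p : ℂ) ^ (11 * r))
    (b b' : PowerSeries ℂ)
    (hb : b ^ r = PowerSeries.C c * (PowerSeries.X ^ (r * (1 + a)) * U1.map (algebraMap ℚ ℂ)))
    (hb' : b' ^ r = PowerSeries.C c' * (PowerSeries.X ^ (r * (p - a)) * U2.map (algebraMap ℚ ℂ)))
    (tau : ℕ → ℚ) (htau : tau 1 = 1) (t : ℂ)
    (ht : ∀ n, 1 ≤ n → t * (tau n : ℂ) =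
      PowerSeries.coeff n b + ((p : ℂ) ^ 10)⁻¹ * PowerSeries.coeff (p * n) b') :
    r ∣ 12 := by
  obtain ⟨ε, R1, hε, hR1, hb1⟩ := rb16_shape r hr (1 + a) U1 hU1 c b hb
  obtain ⟨lam, R2, hlam, -, hb2⟩ := rb16_shape r hr (p - a) U2 hU2 c' b' hb'
  have hpC : (p : ℂ) ≠ 0 := Nat.cast_ne_zero.mpr hp.ne_zero
  have hpQ : (p : ℚ) ≠ 0 := Nat.cast_ne_zero.mpr hp.ne_zero
  -- the two trace equations
  have h1 := ht 1 le_rfl
  rw [htau, hb1, hb2, rb16_coeff_shape, rb16_coeff_shape, if_neg (by omega), if_pos (by omega),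
    show p * 1 - (p - a) = a by omega] at h1
  simp only [Rat.cast_one, mul_one, mul_zero, zero_add] at h1
  have h2 := ht (1 + a) (by omega)
  rw [hb1, hb2, rb16_coeff_shape, rb16_coeff_shape, if_pos le_rfl,
    if_pos (by nlinarith [Nat.sub_le p a]), Nat.sub_self,
    PowerSeries.coeff_zero_eq_constantCoeff_apply, hR1,
    show p * (1 + a) - (p - a) = (p + 1) * a by
      have : p - a + (p + 1) * a = p * (1 + a) := by
        have := Nat.sub_add_cancel hap.le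
        nlinarith
      omega] at h2
  simp only [Rat.cast_one, mul_one] at h2
  -- `ε = lam * ρ` with `ρ` rational
  set ρ : ℚ := ((p : ℚ) ^ 10)⁻¹ *
    (PowerSeries.coeff a R2 * tau (1 + a) - PowerSeries.coeff ((p + 1) * a) R2) with hρ
  have hερ : ε = lam * (ρ : ℂ) := by
    have h3 : ε = t * (tau (1 + a) : ℂ) -
        ((p : ℂ) ^ 10)⁻¹ * (lam * ((PowerSeries.coeff ((p + 1) * a) R2 : ℚ) : ℂ)) := by
      rw [h2]; ring
    rw [h3, h1, hρ]
    push_cast
    ring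
  have hcc : c = c' * (ρ : ℂ) ^ r := by
    rw [← hε, hερ, mul_pow, hlam]
  have hc' : c' ≠ 0 := by
    rintro rfl
    rw [zero_mul] at hcc
    exact hc hcc
  have hC : (p : ℂ) ^ 12 = (ρ : ℂ) ^ r * (p : ℂ) ^ (11 * r) := by
    apply mul_left_cancel₀ hc'
    rw [hcc', hcc]
    ring
  have hQ : (p : ℚ) ^ 12 = ρ ^ r * (p : ℚ) ^ (11 * r) := by
    exact_mod_cast hC
  have hρ0 : ρ ≠ 0 := by
    intro h0
    rw [h0, zero_pow hr.ne', zero_mul] at hQ
    exact pow_ne_zero 12 hpQ hQ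
  have : Fact p.Prime := ⟨hp⟩
  have hval := congrArg (padicValRat p) hQ
  rw [padicValRat.pow, padicValRat.mul (pow_ne_zero r hρ0) (pow_ne_zero _ hpQ),
    padicValRat.pow, padicValRat.pow, padicValRat.self hp.one_lt] at hval
  have hdvd : (r : ℤ) ∣ 12 := ⟨padicValRat p ρ + 11, by push_cast at hval; linarith⟩
  exact_mod_cast hdvd

end Fermat.Agent.S16Lib
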