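/-
S16 (Eisenstein ideal index), chunk "Root-Q" (helper2): the `q`-expansion half of Root.
If `G ^ r = c • (Δ ^ m * t_p)` (resp. `c • (t_p ^ m * Δ)`) as functions on `ℍ`, where
`t_p = p ^ 11 Δ(p z)` is `LibS23.tFun p`, then `(qx G) ^ r` is `C (c p^11) X ^ (m + p) U` (resp.
`C (c p^(11 m)) X ^ (p m + 1) U'`) with `U`, `U'` integral power series with constant term `1`.
-/
import Fermat.Agent.Lib.S24.QBridge
import Fermat.Agent.Lib.S23.DeltaN

set_option autoImplicit false

open UpperHalfPlane ModularForm CongruenceSubgroup MatrixGroups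
open Fermat.Agent.LibS23 Fermat.Agent.S24Lib

namespace Fermat.Agent.S16Lib

/-- The substitution `X ↦ X ^ p` in a power series. -/
noncomputable def rq16_V (p : ℕ) (E : PowerSeries ℤ) : PowerSeries ℤ :=
  PowerSeries.mk fun n => if p ∣ n then PowerSeries.coeff (n / p) E else 0

theorem rq16_V_constantCoeff (p : ℕ) (E : PowerSeries ℤ) :
    PowerSeries.constantCoeff (rq16_V p E) = PowerSeries.constantCoeff E := by
  rw [← PowerSeries.coeff_zero_eq_constantCoeff_apply, rq16_V, PowerSeries.coeff_mk,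
    if_pos (dvd_zero p), Nat.zero_div, PowerSeries.coeff_zero_eq_constantCoeff_apply]

/-- The formal unit of `Δ`. -/
noncomputable abbrev rq16_E : PowerSeries ℤ := ModularCurve.dedekindEtaUnit

theorem rq16_qx_tFun (p : ℕ) [NeZero p] :
    qx (tFun p) = PowerSeries.C ((p : ℂ) ^ 11)
      * (PowerSeries.X ^ p * (rq16_V p rq16_E).map (Int.castRingHom ℂ)) := by
  have hp : 0 < p := Nat.pos_of_ne_zero (NeZero.ne p)
  ext n
  rw [qx_tFun_coeff, PowerSeries.coeff_C_mul, PowerSeries.coeff_X_pow_mul', qx_discriminant_eq]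
  by_cases hpn : p ∣ n
  · obtain ⟨m, rfl⟩ := hpn
    rw [if_pos (dvd_mul_right p m), Nat.mul_div_cancel_left m hp]
    rcases Nat.eq_zero_or_pos m with rfl | hm
    · rw [mul_zero, if_neg (by omega), PowerSeries.coeff_zero_eq_constantCoeff_apply, map_mul,
        PowerSeries.constantCoeff_X, zero_mul]
    · obtain ⟨k, rfl⟩ : ∃ k, m = k + 1 := ⟨m - 1, by omega⟩
      rw [if_pos (by nlinarith), PowerSeries.coeff_succ_X_mul, PowerSeries.coeff_map,
        PowerSeries.coeff_map, rq16_V, PowerSeries.coeff_mk]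
      have h1 : p * (k + 1) - p = p * k := by
        rw [mul_add, mul_one, Nat.add_sub_cancel]
      rw [h1, if_pos (dvd_mul_right p k), Nat.mul_div_cancel_left k hp]
  · rw [if_neg hpn]
    by_cases hle : p ≤ n
    · rw [if_pos hle, PowerSeries.coeff_map, rq16_V, PowerSeries.coeff_mk, if_neg, map_zero,
        mul_zero]
      intro h
      apply hpn
      have h2 := dvd_add h (dvd_refl p)
      rwa [Nat.sub_add_cancel hle] at h2
    · rw [if_neg hle, mul_zero]

theorem rq16_map_map (U : PowerSeries ℤ) :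
    (U.map (Int.castRingHom ℚ)).map (algebraMap ℚ ℂ) = U.map (Int.castRingHom ℂ) := by
  ext n
  simp [PowerSeries.coeff_map]

/-- `q`-expansion of `G` when `G ^ r = c • (Δ ^ m * t_p)`. -/
theorem rq16_hb_core (p : ℕ) [NeZero p] (r m : ℕ) (c : ℂ) {G : ℍ → ℂ} (hG : QExp G)
    (hpow : G ^ r = c • ((ModularForm.discriminant : ℍ → ℂ) ^ m * tFun p)) :
    ∃ U1 : PowerSeries ℚ, PowerSeries.constantCoeff U1 = 1 ∧
      (qx G) ^ r = PowerSeries.C (c * (p : ℂ) ^ 11)
        * (PowerSeries.X ^ (m + p) * U1.map (algebraMap ℚ ℂ)) := by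
  refine ⟨(rq16_E ^ m * rq16_V p rq16_E).map (Int.castRingHom ℚ), ?_, ?_⟩
  · rw [← PowerSeries.coeff_zero_eq_constantCoeff_apply, PowerSeries.coeff_map,
      PowerSeries.coeff_zero_eq_constantCoeff_apply, map_mul, map_pow, rq16_V_constantCoeff,
      ModularCurve.constantCoeff_dedekindEtaUnit]
    simp
  · rw [← qx_pow hG, hpow, qx_smul c ((QExp.discriminant.pow m).mul (QExp.tFun p)),
      qx_mul (QExp.discriminant.pow m) (QExp.tFun p), qx_pow QExp.discriminant, rq16_qx_tFun,
      qx_discriminant_eq, rq16_map_map, PowerSeries.smul_eq_C_mul]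
    simp only [map_mul, map_pow]
    ring

/-- `q`-expansion of `G` when `G ^ r = c • (t_p ^ m * Δ)`. -/
theorem rq16_hb'_core (p : ℕ) [NeZero p] (r m : ℕ) (c : ℂ) {G : ℍ → ℂ} (hG : QExp G)
    (hpow : G ^ r = c • (tFun p ^ m * (ModularForm.discriminant : ℍ → ℂ))) :
    ∃ U2 : PowerSeries ℚ, PowerSeries.constantCoeff U2 = 1 ∧
      (qx G) ^ r = PowerSeries.C (c * (p : ℂ) ^ (11 * m))
        * (PowerSeries.X ^ (p * m + 1) * U2.map (algebraMap ℚ ℂ)) := by
  refine ⟨(rq16_V p rq16_E ^ m * rq16_E).map (Int.castRingHom ℚ), ?_, ?_⟩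
  · rw [← PowerSeries.coeff_zero_eq_constantCoeff_apply, PowerSeries.coeff_map,
      PowerSeries.coeff_zero_eq_constantCoeff_apply, map_mul, map_pow, rq16_V_constantCoeff,
      ModularCurve.constantCoeff_dedekindEtaUnit]
    simp
  · rw [← qx_pow hG, hpow, qx_smul c (((QExp.tFun p).pow m).mul QExp.discriminant),
      qx_mul ((QExp.tFun p).pow m) QExp.discriminant, qx_pow (QExp.tFun p), rq16_qx_tFun,
      qx_discriminant_eq, rq16_map_map, PowerSeries.smul_eq_C_mul]
    simp only [map_mul, map_pow]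
    ring

end Fermat.Agent.S16Lib
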