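import Fermat.Agent.Lib.S16.Transversal
import Fermat.Agent.Lib.S16.EisFricke
import Fermat.Prelude.Def_ModularForm_HeckeOperatorForms

/-!
# S16 library: the trace from `Γ₀(p)` to level one, with `q`-expansion (prefix `tw16_`)

For `H ∈ M_k(Γ₀(p))` and `HW = H ∣[k] W_p` (Fricke), the trace `∑_{SL₂(ℤ)/Γ₀(p)} H ∣ γ` is
`H + p^(2-k) U_p(HW)`; it is a level one form with coefficients
`a_n(H) + p^(2-k) a_{pn}(HW)`.
-/

set_option autoImplicit false

namespace Fermat.Agent.S16Lib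

open UpperHalfPlane ModularForm CongruenceSubgroup MatrixGroups Matrix.SpecialLinearGroup
open SlashInvariantForm ModularFormClass
open Fermat.Agent.LibS23 Fermat.Agent.S20Lib
open scoped Manifold Topology

/-- the scalar matrix `c · 1`, `c ≠ 0` -/
noncomputable def tw16_scal (c : ℝ) (hc : c * c ≠ 0) : GL (Fin 2) ℝ := upperTriangularGL c 0 c hc

theorem tw16_scal_smul (c : ℝ) (hc : c * c ≠ 0) (z : ℍ) : tw16_scal c hc • z = z := by
  have hc0 : c ≠ 0 := fun h => hc (by rw [h, mul_zero])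
  have hdet : 0 < (tw16_scal c hc).det.val := by
    rw [tw16_scal, Matrix.GeneralLinearGroup.val_det_apply, val_upperTriangularGL,
      Matrix.det_fin_two_of]
    have := mul_self_pos.mpr hc0
    linarith
  apply UpperHalfPlane.ext
  rw [UpperHalfPlane.coe_smul_of_det_pos hdet]
  have hcc : (c : ℂ) ≠ 0 := by exact_mod_cast hc0
  simp [UpperHalfPlane.num, UpperHalfPlane.denom, tw16_scal, val_upperTriangularGL]
  field_simp

/-- weight `k` slash by a positive scalar matrix is multiplication by `c^(k-2)` -/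
theorem tw16_slash_scal (k : ℤ) (c : ℝ) (hc0 : 0 < c) (f : ℍ → ℂ) :
    f ∣[k] tw16_scal c (mul_self_pos.mpr hc0.ne').ne' = ((c : ℂ) ^ (k - 2)) • f := by
  have hc : c * c ≠ 0 := (mul_self_pos.mpr hc0.ne').ne'
  have hcc : (c : ℂ) ≠ 0 := by exact_mod_cast hc0.ne'
  have hdetv : (tw16_scal c hc).det.val = c * c := by
    rw [tw16_scal, Matrix.GeneralLinearGroup.val_det_apply, val_upperTriangularGL,
      Matrix.det_fin_two_of]
    ring
  have hdet : 0 < (tw16_scal c hc).det.val := by rw [hdetv]; exact mul_self_pos.mpr hc0.ne'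
  ext z
  rw [ModularForm.slash_apply, UpperHalfPlane.σ, if_pos hdet, tw16_scal_smul, hdetv,
    abs_of_pos (mul_self_pos.mpr hc0.ne')]
  have hden : denom (tw16_scal c hc) z = (c : ℂ) := by
    simp [UpperHalfPlane.denom, tw16_scal, val_upperTriangularGL]
  rw [hden]
  simp only [ContinuousAlgEquiv.refl_apply, Pi.smul_apply, smul_eq_mul]
  push_cast
  rw [mul_zpow, mul_assoc, ← zpow_add₀ hcc, ← zpow_add₀ hcc, mul_comm]
  congr 2
  ring

variable (p : ℕ)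

/-- `W_p · [[1, j], [0, p]] = p · (S T^j)` -/
theorem tw16_W_mul_heckeMatrix [NeZero p] (j : ℕ) :
    ep16_W p * heckeMatrix p j
      = tw16_scal (p : ℝ) (mul_self_pos.mpr (Nat.cast_ne_zero.mpr (NeZero.ne p))).ne'
        * (mapGL ℝ (tw16_rep j) : GL (Fin 2) ℝ) := by
  have hp : p ≠ 0 := NeZero.ne p
  have hrep : ∀ a b : Fin 2, (mapGL ℝ (tw16_rep j) : GL (Fin 2) ℝ) a b
      = (((!![0, -1; 1, (j : ℤ)] : Matrix (Fin 2) (Fin 2) ℤ) a b : ℤ) : ℝ) := by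
    intro a b
    rw [← tw16_rep_val]
    simp
  apply Matrix.GeneralLinearGroup.ext
  intro a b
  simp only [Matrix.GeneralLinearGroup.coe_mul, Matrix.mul_apply, Fin.sum_univ_two, hrep,
    ep16_W_val hp, val_heckeMatrix hp, tw16_scal, val_upperTriangularGL]
  fin_cases a <;> fin_cases b <;> simp

variable [Fact p.Prime]

/-- the trace of `H` as a function: `∑_q H ∣ q = H + p^(2-k) U_p (H ∣ W)`. -/
theorem tw16_trace_fun (k : ℤ) (H HW : ModularForm (Gamma0 p) k)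
    (hHW : (⇑HW : ℍ → ℂ) = (⇑H : ℍ → ℂ) ∣[k] ep16_W p) :
    ∑ q : Q p, quotientFunc H q = (⇑H : ℍ → ℂ) + ((p : ℂ) ^ (2 - k)) • heckeU k p ⇑HW := by
  have : NeZero p := ⟨(Fact.out : p.Prime).ne_zero⟩
  have hp : p ≠ 0 := NeZero.ne p
  have hp0 : (0 : ℝ) < p := by exact_mod_cast Nat.pos_of_ne_zero hp
  have hpc : (p : ℂ) ≠ 0 := by exact_mod_cast hp
  rw [tw16_sum_coset, quotientFunc_q0, heckeU_def, Finset.smul_sum,
    ← Fin.sum_univ_eq_sum_range (fun j => ((p : ℂ) ^ (2 - k)) • ((⇑HW : ℍ → ℂ) ∣[k] heckeMatrix p j)) p]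
  congr 1
  refine Finset.sum_congr rfl fun j _ => ?_
  have h1 : quotientFunc H (tw16_coset p (some j))
      = (⇑H : ℍ → ℂ) ∣[k] (mapGL ℝ (tw16_rep (j : ℕ)) : GL (Fin 2) ℝ) := by
    rw [tw16_coset, quotientFunc_mk]
    congr 1
    simp [toSL]
  have h2 : (⇑HW : ℍ → ℂ) ∣[k] heckeMatrix p (j : ℕ)
      = ((p : ℂ) ^ (k - 2)) • ((⇑H : ℍ → ℂ) ∣[k] (mapGL ℝ (tw16_rep (j : ℕ)) : GL (Fin 2) ℝ)) := by
    rw [hHW, ← SlashAction.slash_mul, tw16_W_mul_heckeMatrix, SlashAction.slash_mul,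
      tw16_slash_scal k (p : ℝ) hp0]
    have h3 : ((((p : ℝ) : ℂ) ^ (k - 2)) • (⇑H : ℍ → ℂ)) ∣[k]
          (mapGL ℝ (tw16_rep (j : ℕ)) : GL (Fin 2) ℝ)
        = (((p : ℝ) : ℂ) ^ (k - 2)) •
          ((⇑H : ℍ → ℂ) ∣[k] (mapGL ℝ (tw16_rep (j : ℕ)) : GL (Fin 2) ℝ)) :=
      ModularForm.SL_smul_slash k (tw16_rep (j : ℕ)) (⇑H : ℍ → ℂ) (((p : ℝ) : ℂ) ^ (k - 2))
    rw [h3, Complex.ofReal_natCast]
  rw [h1, h2, smul_smul, ← zpow_add₀ hpc]
  simp

/-- **Trace formula, general weight**: for `H ∈ M_k(Γ₀(p))` and `HW = H ∣[k] W_p` there is a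
level one form `T` of weight `k` with `a_n(T) = a_n(H) + p^(2-k) a_{pn}(HW)`. -/
theorem tw16_trace_of (k : ℤ) (H HW : ModularForm (Gamma0 p) k)
    (hHW : (⇑HW : ℍ → ℂ) = (⇑H : ℍ → ℂ) ∣[k] ep16_W p) :
    ∃ T : ModularForm 𝒮ℒ k, ∀ n : ℕ,
      qCoeff T n = qCoeff H n + (p : ℂ) ^ (2 - k) * qCoeff HW (p * n) := by
  have : NeZero p := ⟨(Fact.out : p.Prime).ne_zero⟩
  have hp : p ≠ 0 := NeZero.ne p
  obtain ⟨T, hT⟩ := (fam_quotientFunc H).trace
  refine ⟨T, fun n => ?_⟩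
  have hU : QExp (heckeU k p ⇑HW) := QExp.of_gamma0 (ModularForm.heckeULin k (dvd_refl p) HW)
  have hH : QExp (⇑H : ℍ → ℂ) := QExp.of_gamma0 H
  have e : qx (⇑T : ℍ → ℂ) = qx (⇑H : ℍ → ℂ) + ((p : ℂ) ^ (2 - k)) • qx (heckeU k p ⇑HW) := by
    rw [hT, tw16_trace_fun p k H HW hHW, qx_add hH (hU.smul _), qx_smul _ hU]
  have e' := congrArg (PowerSeries.coeff n) e
  rw [map_add, PowerSeries.coeff_smul, smul_eq_mul] at e'
  have e2 := ModularFormClass.qCoeff_heckeU HW (one_mem_strictPeriods_Gamma0 p) hp n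
  rw [coeffHeckeU_apply, mul_comm n p] at e2
  rw [← e2]
  exact e'

end Fermat.Agent.S16Lib
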