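/-
S16 (Eisenstein ideal index), chunk "RootCore" (helper2): the form-level core of Root.
If `G ∈ M₁₂(Γ₀(p))` satisfies `G ^ r = (c₀ / p^11) • (Δ^(r-1) t_p)` and
`(G ∣ W_p) ^ r = (c₀ / p) • (t_p^(r-1) Δ)` (`t_p = p^11 Δ(p z)`), with `r ∣ p - 1`, then `r ∣ 12`.
Proof: `q`-expansions (RootQ), the trace to level one (TraceW) which is a multiple of `Δ` (L1),
and the power series algebra of RootB.
-/
import Fermat.Agent.Lib.S16.TraceW
import Fermat.Agent.Lib.S16.FrickeForm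
import Fermat.Agent.Lib.S16.RootQ
import Fermat.Agent.Lib.S16.RootB
import Fermat.Agent.Lib.S16.L1

set_option autoImplicit false

namespace Fermat.Agent.S16Lib

open UpperHalfPlane ModularForm CongruenceSubgroup MatrixGroups Matrix.SpecialLinearGroup
open ModularFormClass
open Fermat.Agent.LibS23

theorem rc16_constantCoeff_eq_zero {r m : ℕ} (hr : 1 ≤ r) (hm : 1 ≤ m) {c : ℂ}
    {U : PowerSeries ℂ} {b : PowerSeries ℂ}
    (hb : b ^ r = PowerSeries.C c * (PowerSeries.X ^ m * U)) :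
    PowerSeries.coeff 0 b = 0 := by
  have h1 : PowerSeries.constantCoeff (b ^ r) = 0 := by
    rw [hb, map_mul, map_mul, map_pow, PowerSeries.constantCoeff_X, zero_pow (by omega)]
    ring
  rw [map_pow] at h1
  rw [PowerSeries.coeff_zero_eq_constantCoeff_apply]
  exact (pow_eq_zero_iff (by omega)).mp h1

/-- **Root, form level.** -/
theorem rc16_root_core (p : ℕ) [Fact p.Prime] (r : ℕ) (hr : 1 ≤ r) (hrp : r ∣ p - 1)
    (c0 : ℂ) (hc0 : c0 ≠ 0) (G : ModularForm (Gamma0 p) 12)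
    (hG : (⇑G : ℍ → ℂ) ^ r
      = (c0 / (p : ℂ) ^ 11) • ((ModularForm.discriminant : ℍ → ℂ) ^ (r - 1) * tFun p))
    (hGW : ((⇑G : ℍ → ℂ) ∣[(12 : ℤ)] ep16_W p) ^ r
      = (c0 / (p : ℂ)) • (tFun p ^ (r - 1) * (ModularForm.discriminant : ℍ → ℂ))) :
    r ∣ 12 := by
  have hp : p.Prime := Fact.out
  have : NeZero p := ⟨hp.ne_zero⟩
  have hp2 : 2 ≤ p := hp.two_le
  have hpc : (p : ℂ) ≠ 0 := by exact_mod_cast hp.ne_zero
  obtain ⟨a, ha⟩ := hrp
  have ha1 : 1 ≤ a := by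
    rcases Nat.eq_zero_or_pos a with h | h
    · rw [h, mul_zero] at ha
      omega
    · exact h
  have hap : a < p := by
    have : a ≤ r * a := Nat.le_mul_of_pos_left a (by omega)
    omega
  set GW := tw16_fricke p 12 G with hGWdef
  obtain ⟨U1, hU1, hb⟩ := rq16_hb_core p r (r - 1) (c0 / (p : ℂ) ^ 11) (QExp.of_gamma0 G) hG
  obtain ⟨U2, hU2, hb'⟩ := rq16_hb'_core p r (r - 1) (c0 / (p : ℂ)) (QExp.of_gamma0 GW)
    (by rw [hGWdef, tw16_fricke_coe]; exact hGW)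
  have e1 : r - 1 + p = r * (1 + a) := by
    have : r * (1 + a) = r + r * a := by ring
    omega
  have e2 : p * (r - 1) + 1 = r * (p - a) := by
    obtain ⟨r', rfl⟩ : ∃ r', r = r' + 1 := ⟨r - 1, by omega⟩
    have h3 : (r' + 1) * (p - a) + (r' + 1) * a = (r' + 1) * p := by
      rw [← mul_add, Nat.sub_add_cancel hap.le]
    have h4 : p * (r' + 1 - 1) + 1 + (r' + 1) * a = (r' + 1) * p := by
      rw [← ha, Nat.add_sub_cancel]
      have : (r' + 1) * p = p * r' + p := by ring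
      omega
    omega
  have ec : c0 / (p : ℂ) ^ 11 * (p : ℂ) ^ 11 = c0 := by
    field_simp
  rw [e1, ec] at hb
  rw [e2] at hb'
  have hcc' : c0 / (p : ℂ) * (p : ℂ) ^ (11 * (r - 1)) * (p : ℂ) ^ 12 = c0 * (p : ℂ) ^ (11 * r) := by
    obtain ⟨r', rfl⟩ : ∃ r', r = r' + 1 := ⟨r - 1, by omega⟩
    rw [Nat.add_sub_cancel, show 11 * (r' + 1) = 11 * r' + 11 by ring, pow_add]
    field_simp
  obtain ⟨T, hT⟩ := tw16_trace_of (p := p) 12 G GW (tw16_fricke_coe p 12 G)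
  have hb0 : PowerSeries.coeff 0 (qx (⇑G)) = 0 :=
    rc16_constantCoeff_eq_zero hr (by nlinarith) hb
  have hb'0 : PowerSeries.coeff 0 (qx (⇑GW)) = 0 :=
    rc16_constantCoeff_eq_zero hr (by
      have : 1 ≤ p - a := by omega
      nlinarith) hb'
  have hT0 : qCoeff (⇑T) 0 = 0 := by
    rw [hT 0, mul_zero]
    show PowerSeries.coeff 0 (qx (⇑G)) + _ * PowerSeries.coeff 0 (qx (⇑GW)) = 0
    rw [hb0, hb'0]
    ring
  obtain ⟨t, -, ht⟩ := l1_S12 T hT0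
  refine rb16_main p r a hp (by omega) ha1 hap U1 U2 hU1 hU2 c0
    (c0 / (p : ℂ) * (p : ℂ) ^ (11 * (r - 1))) hc0 hcc' (qx (⇑G)) (qx (⇑GW)) hb hb'
    (fun n => (l1_tau n : ℚ)) (by simp [l1_tau_one]) t ?_
  intro n _
  have h1 := hT n
  rw [ht n] at h1
  have hz : (p : ℂ) ^ ((2 : ℤ) - 12) = ((p : ℂ) ^ 10)⁻¹ := by
    rw [show ((2 : ℤ) - 12) = -((10 : ℕ) : ℤ) by norm_num, zpow_neg, zpow_natCast]
  rw [hz] at h1
  have h2 : ((((l1_tau n : ℤ) : ℚ) : ℂ)) = ((l1_tau n : ℤ) : ℂ) := by norm_cast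
  rw [h2]
  exact h1

end Fermat.Agent.S16Lib
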