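/-
S16 (Eisenstein ideal index), chunk "Root" (lead): the root statement.

If `v` is a holomorphic `Γ₀(p)`-invariant function on the upper half plane with
`v ^ r = c · Δ(p z) / Δ(z)` (`c ≠ 0`, `r ∣ p - 1`), then `r ∣ 12`.

`B = Δ · v` is a modular form of weight 12 on `Γ₀(p)` (bounded at every cusp because its `r`-th
power is `c' Δ^(r-1) · t_p` up to slashing, `t_p = p^11 Δ(p z)`), its Fricke transform satisfies
`(B ∣ W_p) ^ r = c' p^10 · t_p^(r-1) Δ`, and the form-level core `rc16_root_core` (trace to level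
one, `S₁₂ = ℂ Δ`, rational `r`-th roots of `q`-series) concludes.  Combined with `lg16_lower` this
is the lower-bound half of the frame.
-/
import Fermat.Agent.Lib.S16.RootCore
import Fermat.Agent.Lib.S16.LowerGlue

set_option autoImplicit false

namespace Fermat.Agent.S16Lib

open UpperHalfPlane ModularForm CongruenceSubgroup MatrixGroups Filter Matrix.SpecialLinearGroup
open scoped Manifold Topology
open Fermat.Agent.LibS23

/-- the function `Δ · v` -/
noncomputable def rt16_Bfun (v : ℍ → ℂ) : ℍ → ℂ := fun z => ModularForm.discriminant z * v z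

theorem rt16_Bfun_pow (p : ℕ) (r : ℕ) (hr : 0 < r) (v : ℍ → ℂ) (c : ℂ)
    (hpow : ∀ z : ℍ, v z ^ r * ModularForm.discriminant z = c * tFun p z) (z : ℍ) :
    rt16_Bfun v z ^ r = c * (ModularForm.discriminant z ^ (r - 1) * tFun p z) := by
  obtain ⟨s, rfl⟩ : ∃ s, r = s + 1 := ⟨r - 1, by omega⟩
  rw [rt16_Bfun, mul_pow, Nat.add_sub_cancel, pow_succ]
  linear_combination (ModularForm.discriminant z ^ s) * hpow z

theorem rt16_disc_smul (γ : SL(2, ℤ)) (z : ℍ) :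
    ModularForm.discriminant (γ • z) = ModularForm.discriminant z * denom γ z ^ (12 : ℕ) := by
  have h := congrFun (discriminant_slash_SL γ) z
  have h' : (ModularForm.discriminant ∣[(12 : ℤ)] (mapGL ℝ γ)) z
      = ModularForm.discriminant (γ • z) * denom γ z ^ (-(12 : ℤ)) :=
    SL_slash_apply ModularForm.discriminant γ z
  rw [h'] at h
  have hd : denom γ z ≠ 0 := denom_ne_zero _ z
  rw [← h, mul_assoc, zpow_neg, zpow_ofNat, inv_mul_cancel₀ (pow_ne_zero _ hd), mul_one]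

theorem rt16_Bfun_slash (v : ℍ → ℂ) (γ : SL(2, ℤ)) (z : ℍ) :
    (rt16_Bfun v ∣[(12 : ℤ)] γ) z = ModularForm.discriminant z * v (γ • z) := by
  rw [SL_slash_apply, rt16_Bfun, rt16_disc_smul]
  have hd : denom γ z ≠ 0 := denom_ne_zero _ z
  rw [zpow_neg, zpow_ofNat]
  field_simp

theorem rt16_bdd_of_pow {f g : ℍ → ℂ} {r : ℕ} (hr : 0 < r) (hg : IsBoundedAtImInfty g)
    (h : ∀ z, f z ^ r = g z) : IsBoundedAtImInfty f := by
  rw [UpperHalfPlane.isBoundedAtImInfty_iff] at hg ⊢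
  obtain ⟨M, A, hM⟩ := hg
  refine ⟨max 1 M, A, fun z hz => ?_⟩
  by_cases h1 : ‖f z‖ ≤ 1
  · exact le_trans h1 (le_max_left _ _)
  · rw [not_le] at h1
    have h2 : ‖f z‖ ≤ ‖f z‖ ^ r := le_self_pow₀ h1.le (by omega)
    have h3 : ‖f z‖ ^ r = ‖g z‖ := by rw [← norm_pow, h z]
    have h4 := hM z hz
    rw [← h3] at h4
    exact le_trans (h2.trans h4) (le_max_right _ _)


theorem rt16_tFun_smul (p : ℕ) (γ : SL(2, ℤ)) (z : ℍ) :
    tFun p (γ • z) = (tFun p ∣[(12 : ℤ)] (mapGL ℝ γ)) z * denom γ z ^ (12 : ℕ) := by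
  have h' : (tFun p ∣[(12 : ℤ)] (mapGL ℝ γ)) z
      = tFun p (γ • z) * denom γ z ^ (-(12 : ℤ)) :=
    SL_slash_apply (tFun p) γ z
  have hd : denom γ z ≠ 0 := denom_ne_zero _ z
  rw [h', mul_assoc, zpow_neg, zpow_ofNat, inv_mul_cancel₀ (pow_ne_zero _ hd), mul_one]

theorem rt16_Bfun_slash_pow (p : ℕ) (r : ℕ) (hr : 0 < r) (v : ℍ → ℂ) (c : ℂ)
    (hpow : ∀ z : ℍ, v z ^ r * ModularForm.discriminant z = c * tFun p z) (γ : SL(2, ℤ)) (z : ℍ) :
    (rt16_Bfun v ∣[(12 : ℤ)] γ) z ^ r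
      = ModularForm.discriminant z ^ (r - 1) * (c * (tFun p ∣[(12 : ℤ)] (mapGL ℝ γ)) z) := by
  obtain ⟨s, rfl⟩ : ∃ s, r = s + 1 := ⟨r - 1, by omega⟩
  rw [rt16_Bfun_slash, mul_pow, Nat.add_sub_cancel, pow_succ]
  have h1 := hpow (γ • z)
  rw [rt16_disc_smul, rt16_tFun_smul] at h1
  have hd : denom γ z ^ (12 : ℕ) ≠ 0 := pow_ne_zero _ (denom_ne_zero _ z)
  have h2 : v (γ • z) ^ (s + 1) * ModularForm.discriminant z
      = c * (tFun p ∣[(12 : ℤ)] (mapGL ℝ γ)) z := by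
    apply mul_right_cancel₀ hd
    linear_combination h1
  linear_combination (ModularForm.discriminant z ^ s) * h2

theorem rt16_Bfun_slash_bdd (p : ℕ) [NeZero p] (r : ℕ) (hr : 0 < r) (v : ℍ → ℂ) (c : ℂ)
    (hpow : ∀ z : ℍ, v z ^ r * ModularForm.discriminant z = c * tFun p z) (γ : SL(2, ℤ)) :
    IsBoundedAtImInfty (rt16_Bfun v ∣[(12 : ℤ)] γ) := by
  have hΔ : IsBoundedAtImInfty (ModularForm.discriminant : ℍ → ℂ) := QExp.discriminant.2.2
  have ht : IsBoundedAtImInfty (tFun p ∣[(12 : ℤ)] (mapGL ℝ γ)) :=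
    ModularFormClass.bdd_at_infty_slash (tForm p) γ
  have hΔr : IsBoundedAtImInfty ((ModularForm.discriminant : ℍ → ℂ) ^ (r - 1)) := by
    induction (r - 1) with
    | zero =>
      rw [pow_zero]
      exact Filter.const_boundedAtFilter _ (1 : ℂ)
    | succ n ih => rw [pow_succ]; exact ih.mul hΔ
  have hg : IsBoundedAtImInfty (fun z : ℍ => ModularForm.discriminant z ^ (r - 1)
      * (c * (tFun p ∣[(12 : ℤ)] (mapGL ℝ γ)) z)) :=
    hΔr.mul ((Filter.const_boundedAtFilter _ c).mul ht)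
  exact rt16_bdd_of_pow hr hg (rt16_Bfun_slash_pow p r hr v c hpow γ)

/-- `B = Δ · v` as a modular form of weight 12 on `Γ₀(p)`. -/
noncomputable def rt16_B (p : ℕ) [NeZero p] (r : ℕ) (hr : 0 < r) (v : ℍ → ℂ) (hv : MDiff v)
    (hinv : ∀ γ ∈ Gamma0 p, ∀ z : ℍ, v (γ • z) = v z) (c : ℂ)
    (hpow : ∀ z : ℍ, v z ^ r * ModularForm.discriminant z = c * tFun p z) :
    ModularForm (Gamma0 p) 12 where
  toFun := rt16_Bfun v
  slash_action_eq' := by
    rintro x ⟨γ, hγ, rfl⟩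
    ext z
    have h := rt16_Bfun_slash v γ z
    rw [hinv γ hγ z] at h
    exact h
  holo' := QExp.discriminant.2.1.mul hv
  bdd_at_cusps' := fun {c'} hc => by
    rw [OnePoint.isBoundedAt_iff_forall_SL2Z (hc.mono (ep16_gamma0_le_SL p))]
    intro γ _
    exact rt16_Bfun_slash_bdd p r hr v c hpow γ


theorem rt16_coe_B (p : ℕ) [NeZero p] (r : ℕ) (hr : 0 < r) (v : ℍ → ℂ) (hv : MDiff v)
    (hinv : ∀ γ ∈ Gamma0 p, ∀ z : ℍ, v (γ • z) = v z) (c : ℂ)
    (hpow : ∀ z : ℍ, v z ^ r * ModularForm.discriminant z = c * tFun p z) :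
    (⇑(rt16_B p r hr v hv hinv c hpow) : ℍ → ℂ) = rt16_Bfun v := rfl

/-! ### The Fricke side -/

/-- the Fricke transform of `B` -/
noncomputable def rt16_Bs (p : ℕ) (v : ℍ → ℂ) : ℍ → ℂ := rt16_Bfun v ∣[(12 : ℤ)] ep16_W p

theorem rt16_Bs_apply (p : ℕ) [NeZero p] (v : ℍ → ℂ) (z : ℍ) :
    rt16_Bs p v z = tFun p z * v (ModularGroup.S • (heckeDiagMatrix p • z)) := by
  have hp : p ≠ 0 := NeZero.ne p
  rw [rt16_Bs, ep16_W, SlashAction.slash_mul, slash_heckeDiagMatrix_apply 12 hp]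
  have hS : (rt16_Bfun v ∣[(12 : ℤ)] (mapGL ℝ ModularGroup.S)) (heckeDiagMatrix p • z)
      = ModularForm.discriminant (heckeDiagMatrix p • z)
        * v (ModularGroup.S • (heckeDiagMatrix p • z)) :=
    rt16_Bfun_slash v ModularGroup.S _
  rw [hS, tFun_apply]
  norm_num
  ring

theorem rt16_Bs_pow (p : ℕ) [NeZero p] (r : ℕ) (hr : 0 < r) (v : ℍ → ℂ) (c : ℂ)
    (hpow : ∀ z : ℍ, v z ^ r * ModularForm.discriminant z = c * tFun p z) (z : ℍ) :
    rt16_Bs p v z ^ r = (c * (p : ℂ) ^ 10) * (tFun p z ^ (r - 1) * ModularForm.discriminant z) := by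
  have hp : p ≠ 0 := NeZero.ne p
  have hpc : (p : ℂ) ≠ 0 := by exact_mod_cast hp
  have hz : (z : ℂ) ≠ 0 := z.ne_zero
  obtain ⟨s, rfl⟩ : ∃ s, r = s + 1 := ⟨r - 1, by omega⟩
  have h1 := hpow (ModularGroup.S • (heckeDiagMatrix p • z))
  rw [rt16_disc_smul, tFun_apply p (ModularGroup.S • (heckeDiagMatrix p • z)),
    ep16_smul_S_diag hp, rt16_disc_smul ModularGroup.S z, ModularGroup.denom_S,
    ModularGroup.denom_S, coe_heckeDiagMatrix_smul hp] at h1
  have h2 : tFun p z = (p : ℂ) ^ 11 * ModularForm.discriminant (heckeDiagMatrix p • z) :=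
    tFun_apply p z
  rw [rt16_Bs_apply, mul_pow, Nat.add_sub_cancel, pow_succ, h2]
  have h3 : v (ModularGroup.S • (heckeDiagMatrix p • z)) ^ (s + 1)
      * ((p : ℂ) ^ 11 * ModularForm.discriminant (heckeDiagMatrix p • z))
      = c * (p : ℂ) ^ 10 * ModularForm.discriminant z := by
    have hne : ((p : ℂ) * (z : ℂ)) ^ 12 ≠ 0 := pow_ne_zero _ (mul_ne_zero hpc hz)
    apply mul_right_cancel₀ hne
    linear_combination (p : ℂ) ^ 11 * h1
  linear_combination ((p : ℂ) ^ 11 * ModularForm.discriminant (heckeDiagMatrix p • z)) ^ s * h3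



/-- **Root.** A holomorphic `Γ₀(p)`-invariant `r`-th root of `c · Δ(p z) / Δ(z)` exists only for
`r ∣ 12` (given `r ∣ p - 1`). -/
theorem rt16_root (p : ℕ) [Fact p.Prime] (r : ℕ) (hr : 1 ≤ r) (hrp : r ∣ p - 1)
    (v : ℍ → ℂ) (hv : MDiff v)
    (hinv : ∀ γ ∈ Gamma0 p, ∀ z : ℍ, v (γ • z) = v z) (c : ℂ) (hc : c ≠ 0)
    (hpow : ∀ z : ℍ, v z ^ r
      = c * ModularForm.discriminant (heckeDiagMatrix p • z) / ModularForm.discriminant z) :
    r ∣ 12 := by
  have hp : p.Prime := Fact.out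
  have : NeZero p := ⟨hp.ne_zero⟩
  have hpc : (p : ℂ) ≠ 0 := by exact_mod_cast hp.ne_zero
  have hr0 : 0 < r := hr
  have hpow' : ∀ z : ℍ, v z ^ r * ModularForm.discriminant z = (c / (p : ℂ) ^ 11) * tFun p z := by
    intro z
    have hΔ : ModularForm.discriminant z ≠ 0 := discriminant_ne_zero z
    rw [hpow z, tFun_apply]
    field_simp
  refine rc16_root_core p r hr hrp c hc (rt16_B p r hr0 v hv hinv (c / (p : ℂ) ^ 11) hpow') ?_ ?_
  · funext z
    simp only [rt16_coe_B, Pi.pow_apply, Pi.smul_apply, Pi.mul_apply, smul_eq_mul]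
    exact rt16_Bfun_pow p r hr0 v _ hpow' z
  · funext z
    have h := rt16_Bs_pow p r hr0 v _ hpow' z
    have hc' : c / (p : ℂ) ^ 11 * (p : ℂ) ^ 10 = c / (p : ℂ) := by
      field_simp
    rw [hc'] at h
    simp only [rt16_coe_B, Pi.pow_apply, Pi.smul_apply, Pi.mul_apply, smul_eq_mul]
    exact h

/-- **The lower bound** (the `hL` input of the frame `fr16_main'`). -/
theorem rt16_lower (p : ℕ) [Fact p.Prime] :
    ∀ P : ModularCurve.HeckeAlg,
      ((CuspForm.latticeRestrictHom p ∅).toRingHom.comp (CuspForm.heckeEvalForms p 2)) P = 0 →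
      ((ModularCurve.eisensteinNumerator p : ℕ) : ℤ)
        ∣ MvPolynomial.aeval (ModularCurve.eisensteinSystem p) P :=
  lg16_lower p fun r hr hrp v hv hinv c hc hpow _ _ _ =>
    rt16_root p r hr hrp v hv hinv c hc hpow

end Fermat.Agent.S16Lib
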