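import Fermat.Agent.Lib.S16.TraceW
import Fermat.Agent.Lib.S16.FrickeForm
import Fermat.Agent.Lib.S16.RootQ
import Fermat.Agent.Lib.S16.RootB
import Fermat.Agent.Lib.S16.L1
import Fermat.Agent.Lib.S16.LowerGlue

/-!
# S16 library: the root statement (prefix `rf16_`)

If `v` is holomorphic on the upper half plane, invariant under `Γ₀(p)` and
`v ^ r = c Δ(p z) / Δ(z)` with `c ≠ 0` and `r ∣ p - 1`, then `r ∣ 12`.

The function `G = Δ v` is a modular form of weight `12` on `Γ₀(p)` (bounded at the cusps since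
`G ^ r` is a constant times `Δ ^ (r - 1) t_p`), its Fricke transform satisfies
`(G ∣ W) ^ r = (c / p) t_p ^ (r - 1) Δ`, and the trace to level one is a multiple of `Δ`; the
formal statement `rb16_main` then gives `r ∣ 12`.
-/

set_option autoImplicit false

namespace Fermat.Agent.S16Lib

open UpperHalfPlane ModularForm CongruenceSubgroup MatrixGroups Matrix.SpecialLinearGroup
open ModularFormClass
open Fermat.Agent.LibS23 Fermat.Agent.S24Lib
open Fermat.Agent.H4 Fermat.Agent.S21Lib ModularCurve ModularCurve.Period CuspForm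
open scoped Manifold Topology

theorem rf16_le_of_pow_le {x B : ℝ} {m : ℕ} (_hx : 0 ≤ x) (h : x ^ (m + 1) ≤ B) :
    x ≤ max 1 B := by
  rcases le_total x 1 with h1 | h1
  · exact le_max_of_le_left h1
  · refine le_max_of_le_right (le_trans ?_ h)
    calc x = x ^ 1 := (pow_one x).symm
      _ ≤ x ^ (m + 1) := pow_le_pow_right₀ h1 (by omega)

/-- Slashing a pointwise identity `G ^ (m + 1) = c A ^ m B` between weight `k` functions. -/
theorem rf16_slash_pow (k : ℤ) (g : GL (Fin 2) ℝ) (G A B : ℍ → ℂ) (c : ℂ) (m : ℕ)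
    (hpow : ∀ z, G z ^ (m + 1) = c * (A z ^ m * B z)) (z : ℍ) :
    (G ∣[k] g) z ^ (m + 1) = σ g c * ((A ∣[k] g) z ^ m * (B ∣[k] g) z) := by
  simp only [ModularForm.slash_apply]
  rw [mul_pow, mul_pow, ← map_pow, hpow, map_mul, map_mul, map_pow]
  ring

/-- If `G ^ (m + 1) = c A ^ m B` and `A ∣ g`, `B ∣ g` are bounded at `i∞`, so is `G ∣ g`. -/
theorem rf16_bdd (k : ℤ) (g : GL (Fin 2) ℝ) (G A B : ℍ → ℂ) (c : ℂ) (m : ℕ)
    (hpow : ∀ z, G z ^ (m + 1) = c * (A z ^ m * B z))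
    (hA : IsBoundedAtImInfty (A ∣[k] g)) (hB : IsBoundedAtImInfty (B ∣[k] g)) :
    IsBoundedAtImInfty (G ∣[k] g) := by
  rw [isBoundedAtImInfty_iff] at hA hB ⊢
  obtain ⟨Ma, Aa, ha⟩ := hA
  obtain ⟨Mb, Ab, hb⟩ := hB
  refine ⟨max 1 (‖c‖ * (Ma ^ m * Mb)), max Aa Ab, fun z hz => ?_⟩
  have h1 := ha z (le_trans (le_max_left _ _) hz)
  have h2 := hb z (le_trans (le_max_right _ _) hz)
  apply rf16_le_of_pow_le (m := m) (norm_nonneg _)
  rw [← norm_pow, rf16_slash_pow k g G A B c m hpow z, norm_mul, norm_mul, norm_pow, norm_σ]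
  have h3 : ‖(A ∣[k] g) z‖ ^ m ≤ Ma ^ m := pow_le_pow_left₀ (norm_nonneg _) h1 m
  have h4 : ‖(A ∣[k] g) z‖ ^ m * ‖(B ∣[k] g) z‖ ≤ Ma ^ m * Mb :=
    mul_le_mul h3 h2 (norm_nonneg _) (le_trans (pow_nonneg (norm_nonneg _) m) h3)
  exact mul_le_mul_of_nonneg_left h4 (norm_nonneg _)

/-- `Δ(-1/u) = u ^ 12 Δ(u)`. -/
theorem rf16_disc_S (u : ℍ) :
    ModularForm.discriminant (ModularGroup.S • u) = (u : ℂ) ^ 12 * ModularForm.discriminant u := by
  have h := congrFun (discriminant_slash_SL ModularGroup.S) u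
  have h' : ((ModularForm.discriminant : ℍ → ℂ) ∣[(12 : ℤ)] (mapGL ℝ ModularGroup.S)) u
      = ModularForm.discriminant (ModularGroup.S • u) * denom ModularGroup.S (u : ℂ) ^ (-(12 : ℤ)) :=
    SL_slash_apply (ModularForm.discriminant : ℍ → ℂ) ModularGroup.S u
  rw [h', ModularGroup.denom_S] at h
  have hu : (u : ℂ) ≠ 0 := u.ne_zero
  have h2 : (u : ℂ) ^ (-(12 : ℤ)) = ((u : ℂ) ^ 12)⁻¹ := by
    rw [zpow_neg]
    norm_cast
  rw [h2] at h
  rw [← h]
  field_simp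

section

variable (p : ℕ) [Fact p.Prime]

/-- `(Δ v) ^ (m + 1) = (c / p ^ 11) Δ ^ m t_p`. -/
theorem rf16_G_pow (m : ℕ) (v : ℍ → ℂ) (c : ℂ)
    (hpow : ∀ z : ℍ, v z ^ (m + 1)
      = c * ModularForm.discriminant (heckeDiagMatrix p • z) / ModularForm.discriminant z)
    (z : ℍ) :
    (ModularForm.discriminant z * v z) ^ (m + 1)
      = (c / (p : ℂ) ^ 11) * (ModularForm.discriminant z ^ m * tFun p z) := by
  have : NeZero p := ⟨(Fact.out : p.Prime).ne_zero⟩
  have hpc : (p : ℂ) ≠ 0 := Nat.cast_ne_zero.mpr (NeZero.ne p)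
  have h1 := ModularForm.discriminant_ne_zero z
  rw [mul_pow, hpow, tFun_apply]
  field_simp
  ring

/-- `(Δ v) ∣[12] W_p = t_p · v ∘ W_p`. -/
theorem rf16_GW_apply (v : ℍ → ℂ) (z : ℍ) :
    ((fun w : ℍ => ModularForm.discriminant w * v w) ∣[(12 : ℤ)] ep16_W p) z
      = tFun p z * v (ModularGroup.S • (heckeDiagMatrix p • z)) := by
  have : NeZero p := ⟨(Fact.out : p.Prime).ne_zero⟩
  have hp : p ≠ 0 := NeZero.ne p
  have hpc : (p : ℂ) ≠ 0 := Nat.cast_ne_zero.mpr hp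
  rw [ep16_W, SlashAction.slash_mul, slash_heckeDiagMatrix_apply 12 hp, tFun_apply]
  have hS : ((fun w : ℍ => ModularForm.discriminant w * v w) ∣[(12 : ℤ)]
        (mapGL ℝ ModularGroup.S)) (heckeDiagMatrix p • z)
      = ModularForm.discriminant (ModularGroup.S • (heckeDiagMatrix p • z))
          * v (ModularGroup.S • (heckeDiagMatrix p • z))
          * denom ModularGroup.S ((heckeDiagMatrix p • z : ℍ) : ℂ) ^ (-(12 : ℤ)) :=
    SL_slash_apply (fun w : ℍ => ModularForm.discriminant w * v w) ModularGroup.S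
      (heckeDiagMatrix p • z)
  rw [hS, rf16_disc_S, ModularGroup.denom_S]
  have hw : ((heckeDiagMatrix p • z : ℍ) : ℂ) ≠ 0 := (heckeDiagMatrix p • z).ne_zero
  have h2 : ((heckeDiagMatrix p • z : ℍ) : ℂ) ^ (-(12 : ℤ))
      = (((heckeDiagMatrix p • z : ℍ) : ℂ) ^ 12)⁻¹ := by
    rw [zpow_neg]
    norm_cast
  rw [h2]
  have h3 : ((p : ℂ)) ^ ((12 : ℤ) - 1) = (p : ℂ) ^ 11 := by
    norm_num
  rw [h3]
  field_simp

/-- `(t_p · v ∘ W_p) ^ (m + 1) = (c / p) t_p ^ m Δ`. -/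
theorem rf16_GW_pow (m : ℕ) (v : ℍ → ℂ) (c : ℂ)
    (hpow : ∀ z : ℍ, v z ^ (m + 1)
      = c * ModularForm.discriminant (heckeDiagMatrix p • z) / ModularForm.discriminant z)
    (z : ℍ) :
    (tFun p z * v (ModularGroup.S • (heckeDiagMatrix p • z))) ^ (m + 1)
      = (c / (p : ℂ)) * (tFun p z ^ m * ModularForm.discriminant z) := by
  have : NeZero p := ⟨(Fact.out : p.Prime).ne_zero⟩
  have hp : p ≠ 0 := NeZero.ne p
  have hpc : (p : ℂ) ≠ 0 := Nat.cast_ne_zero.mpr hp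
  have h1 := ModularForm.discriminant_ne_zero z
  have h2 := ModularForm.discriminant_ne_zero (heckeDiagMatrix p • z)
  have hz : (z : ℂ) ≠ 0 := z.ne_zero
  rw [mul_pow, hpow, ep16_smul_S_diag hp, rf16_disc_S, rf16_disc_S, tFun_apply,
    coe_heckeDiagMatrix_smul hp]
  field_simp
  ring

/-- The modular form `G = Δ v` of weight `12` on `Γ₀(p)`. -/
theorem rf16_exists_G (m : ℕ) (v : ℍ → ℂ) (hv : MDiff v)
    (hinv : ∀ γ ∈ Gamma0 p, ∀ z : ℍ, v (γ • z) = v z) (c : ℂ)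
    (hpow : ∀ z : ℍ, v z ^ (m + 1)
      = c * ModularForm.discriminant (heckeDiagMatrix p • z) / ModularForm.discriminant z) :
    ∃ G : ModularForm (Gamma0 p) 12,
      (⇑G : ℍ → ℂ) = fun z => ModularForm.discriminant z * v z := by
  have : NeZero p := ⟨(Fact.out : p.Prime).ne_zero⟩
  refine ⟨{ toFun := fun z => ModularForm.discriminant z * v z
            slash_action_eq' := ?_
            holo' := ?_
            bdd_at_cusps' := ?_ }, rfl⟩
  · rintro x ⟨γ, hγ, rfl⟩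
    ext z
    have h1 : ((fun w : ℍ => ModularForm.discriminant w * v w) ∣[(12 : ℤ)] (mapGL ℝ γ)) z
        = ModularForm.discriminant (γ • z) * v (γ • z) * denom γ (z : ℂ) ^ (-(12 : ℤ)) :=
      SL_slash_apply (fun w : ℍ => ModularForm.discriminant w * v w) γ z
    have h2 := congrFun (discriminant_slash_SL γ) z
    have h2' : ((ModularForm.discriminant : ℍ → ℂ) ∣[(12 : ℤ)] (mapGL ℝ γ)) z
        = ModularForm.discriminant (γ • z) * denom γ (z : ℂ) ^ (-(12 : ℤ)) :=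
      SL_slash_apply (ModularForm.discriminant : ℍ → ℂ) γ z
    rw [h2'] at h2
    refine h1.trans ?_
    rw [hinv γ hγ z, ← h2]
    ring
  · exact (ModularFormClass.holo CuspForm.discriminant).mul hv
  · intro c' hc' g hg
    exact rf16_bdd 12 g _ ModularForm.discriminant (tFun p) _ m (rf16_G_pow p m v c hpow)
      (ModularFormClass.bdd_at_cusps CuspForm.discriminant (hc'.mono (ep16_gamma0_le_SL p)) g hg)
      ((tForm p).bdd_at_cusps' hc' g hg)

/-- **The root statement**: a holomorphic `Γ₀(p)`-invariant `r`-th root of `c Δ(pz)/Δ(z)`,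
`r ∣ p - 1`, exists only if `r ∣ 12`. -/
theorem rf16_root (r : ℕ) (hr : 1 ≤ r) (hrp : r ∣ p - 1) (v : ℍ → ℂ) (hv : MDiff v)
    (hinv : ∀ γ ∈ Gamma0 p, ∀ z : ℍ, v (γ • z) = v z) (c : ℂ) (hc : c ≠ 0)
    (hpow : ∀ z : ℍ, v z ^ r
      = c * ModularForm.discriminant (heckeDiagMatrix p • z) / ModularForm.discriminant z) :
    r ∣ 12 := by
  have hp : p.Prime := Fact.out
  have : NeZero p := ⟨hp.ne_zero⟩
  have hp2 := hp.two_le
  have hpc : (p : ℂ) ≠ 0 := Nat.cast_ne_zero.mpr hp.ne_zero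
  obtain ⟨m, rfl⟩ : ∃ m, r = m + 1 := ⟨r - 1, by omega⟩
  obtain ⟨a, ha⟩ := hrp
  have ha1 : 1 ≤ a := by
    rcases Nat.eq_zero_or_pos a with rfl | h
    · rw [mul_zero] at ha
      omega
    · exact h
  have hap : a < p := by
    have h1 : a ≤ (m + 1) * a := Nat.le_mul_of_pos_left a (by omega)
    omega
  obtain ⟨G, hG⟩ := rf16_exists_G p m v hv hinv c hpow
  have hGW : (⇑(tw16_fricke p 12 G) : ℍ → ℂ) = (⇑G : ℍ → ℂ) ∣[(12 : ℤ)] ep16_W p :=
    tw16_fricke_coe p 12 G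
  have hQG : QExp (⇑G : ℍ → ℂ) := QExp.of_gamma0 G
  have hQGW : QExp (⇑(tw16_fricke p 12 G) : ℍ → ℂ) := QExp.of_gamma0 _
  have hGpow : (⇑G : ℍ → ℂ) ^ (m + 1)
      = (c / (p : ℂ) ^ 11) • ((ModularForm.discriminant : ℍ → ℂ) ^ m * tFun p) := by
    funext z
    rw [hG]
    simp only [Pi.pow_apply, Pi.smul_apply, Pi.mul_apply, smul_eq_mul]
    exact rf16_G_pow p m v c hpow z
  have hGWpow : (⇑(tw16_fricke p 12 G) : ℍ → ℂ) ^ (m + 1)
      = (c / (p : ℂ)) • (tFun p ^ m * (ModularForm.discriminant : ℍ → ℂ)) := by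
    funext z
    rw [hGW, hG]
    simp only [Pi.pow_apply, Pi.smul_apply, Pi.mul_apply, smul_eq_mul]
    rw [rf16_GW_apply p v z]
    exact rf16_GW_pow p m v c hpow z
  obtain ⟨U1, hU1, hb⟩ := rq16_hb_core p (m + 1) m (c / (p : ℂ) ^ 11) hQG hGpow
  obtain ⟨U2, hU2, hb'⟩ := rq16_hb'_core p (m + 1) m (c / (p : ℂ)) hQGW hGWpow
  have hc1 : c / (p : ℂ) ^ 11 * (p : ℂ) ^ 11 = c := by field_simp
  have he1 : m + p = (m + 1) * (1 + a) := by
    have h1 : (m + 1) * (1 + a) = (m + 1) + (m + 1) * a := by ring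
    rw [h1, ← ha]
    omega
  have he2 : p * m + 1 = (m + 1) * (p - a) := by
    have h1 : (m + 1) * p = p * m + p := by ring
    rw [Nat.mul_sub, ← ha, h1]
    omega
  rw [hc1, he1] at hb
  rw [he2] at hb'
  -- the constant terms vanish
  have h0G : qCoeff (⇑G : ℍ → ℂ) 0 = 0 := by
    have hpos : (m + 1) * (1 + a) ≠ 0 := by positivity
    have h1 : PowerSeries.constantCoeff (qx (⇑G : ℍ → ℂ) ^ (m + 1)) = 0 := by
      rw [hb]
      simp only [map_mul, map_pow, PowerSeries.constantCoeff_X, zero_pow hpos, zero_mul,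
        mul_zero]
    rw [map_pow] at h1
    have h2 := pow_eq_zero_iff (n := m + 1) (by omega) |>.mp h1
    rw [← PowerSeries.coeff_zero_eq_constantCoeff_apply] at h2
    exact h2
  have h0GW : qCoeff (⇑(tw16_fricke p 12 G) : ℍ → ℂ) 0 = 0 := by
    have hpos : (m + 1) * (p - a) ≠ 0 := by
      rw [← he2]
      omega
    have h1 : PowerSeries.constantCoeff
        (qx (⇑(tw16_fricke p 12 G) : ℍ → ℂ) ^ (m + 1)) = 0 := by
      rw [hb']
      simp only [map_mul, map_pow, PowerSeries.constantCoeff_X, zero_pow hpos, zero_mul,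
        mul_zero]
    rw [map_pow] at h1
    have h2 := pow_eq_zero_iff (n := m + 1) (by omega) |>.mp h1
    rw [← PowerSeries.coeff_zero_eq_constantCoeff_apply] at h2
    exact h2
  obtain ⟨T, hT⟩ := tw16_trace_of p 12 G (tw16_fricke p 12 G) hGW
  have hT0 : qCoeff (⇑T : ℍ → ℂ) 0 = 0 := by
    rw [hT 0, h0G, mul_zero, h0GW, mul_zero, add_zero]
  obtain ⟨t, -, ht⟩ := l1_S12 T hT0
  have hz : (p : ℂ) ^ ((2 : ℤ) - 12) = ((p : ℂ) ^ 10)⁻¹ := by
    rw [show (2 : ℤ) - 12 = -(10 : ℤ) by norm_num, zpow_neg]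
    norm_cast
  refine rb16_main p (m + 1) a hp (by omega) ha1 hap U1 U2 hU1 hU2 c
    (c / (p : ℂ) * (p : ℂ) ^ (11 * m)) hc ?_ (qx (⇑G : ℍ → ℂ))
    (qx (⇑(tw16_fricke p 12 G) : ℍ → ℂ)) hb hb' (fun n => (l1_tau n : ℚ)) ?_ t (fun n _ => ?_)
  · field_simp
    ring
  · simp [l1_tau_one]
  · have h1 := hT n
    rw [ht n, hz] at h1
    rw [Rat.cast_intCast, h1]
    rfl

/-- **The lower bound** `hL` of `fr16_main'`. -/
theorem rf16_lower :
    ∀ P : HeckeAlg, ((latticeRestrictHom p ∅).toRingHom.comp (heckeEvalForms p 2)) P = 0 →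
      ((eisensteinNumerator p : ℕ) : ℤ) ∣ MvPolynomial.aeval (eisensteinSystem p) P :=
  lg16_lower p fun r hr hrp v hv hinv c hc hpow _ _ _ => rf16_root p r hr hrp v hv hinv c hc hpow

end

end Fermat.Agent.S16Lib
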