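import Mathlib

/-!
# Constructor for modular forms on `Γ₀(p)`, `p` prime (S16, prefix `rm16_`)

`rm16_form`: a holomorphic `F : ℍ → ℂ` that is weight-`k` invariant under `Γ₀(p)` and such that
`F` and `F ∣[k] S` are bounded at `i∞` is a `ModularForm (Gamma0 p) k` (with `⇑ = F` by `rfl`).
Boundedness at every cusp comes from the coset decomposition
`SL(2,ℤ) = Γ₀(p) ∪ ⋃ⱼ Γ₀(p) · S Tʲ` (`rm16_coset_cases`).
-/

set_option autoImplicit false

namespace Fermat.Agent.S16Lib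

open UpperHalfPlane ModularForm CongruenceSubgroup MatrixGroups Matrix.SpecialLinearGroup
open scoped Manifold Topology

/-- Every element of `SL(2,ℤ)` lies in `Γ₀(p)` or in `Γ₀(p) · S Tʲ` (`p` prime). -/
theorem rm16_coset_cases (p : ℕ) [hp : Fact p.Prime] (γ : SL(2, ℤ)) :
    γ ∈ Gamma0 p ∨ ∃ g ∈ Gamma0 p, ∃ j : ℤ, γ = g * (ModularGroup.S * ModularGroup.T ^ j) := by
  by_cases h : (p : ℤ) ∣ γ 1 0
  · left
    rw [Gamma0_mem]
    exact (ZMod.intCast_zmod_eq_zero_iff_dvd _ _).2 h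
  · right
    have hcop : IsCoprime (p : ℤ) (γ 1 0) :=
      (Prime.coprime_iff_not_dvd (Nat.prime_iff_prime_int.mp hp.out)).2 h
    obtain ⟨u, v, huv⟩ := hcop
    refine ⟨γ * (ModularGroup.S * ModularGroup.T ^ (v * γ 1 1))⁻¹, ?_, v * γ 1 1, ?_⟩
    · rw [Gamma0_mem, ZMod.intCast_zmod_eq_zero_iff_dvd]
      have hST : ((ModularGroup.S * ModularGroup.T ^ (v * γ 1 1) : SL(2, ℤ)) :
          Matrix (Fin 2) (Fin 2) ℤ) = !![0, -1; 1, v * γ 1 1] := by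
        rw [Matrix.SpecialLinearGroup.coe_mul, ModularGroup.coe_T_zpow, ModularGroup.coe_S]
        ext a b
        fin_cases a <;> fin_cases b <;> simp [Matrix.mul_apply, Fin.sum_univ_two]
      have hinv : (((ModularGroup.S * ModularGroup.T ^ (v * γ 1 1))⁻¹ : SL(2, ℤ)) :
          Matrix (Fin 2) (Fin 2) ℤ) = !![v * γ 1 1, 1; -1, 0] := by
        rw [Matrix.SpecialLinearGroup.coe_inv, hST, Matrix.adjugate_fin_two_of]
        simp
      have hentry : (γ * (ModularGroup.S * ModularGroup.T ^ (v * γ 1 1))⁻¹ : SL(2, ℤ)) 1 0 =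
          γ 1 0 * (v * γ 1 1) - γ 1 1 := by
        rw [Matrix.SpecialLinearGroup.coe_mul, hinv]
        simp [Matrix.mul_apply, Fin.sum_univ_two]
        ring
      rw [hentry]
      refine ⟨-(u * γ 1 1), ?_⟩
      linear_combination (γ 1 1) * huv
    · rw [inv_mul_cancel_right]

theorem rm16_gamma0_le_SL (p : ℕ) :
    (Gamma0 p : Subgroup (GL (Fin 2) ℝ)) ≤ 𝒮ℒ := by
  rintro x ⟨γ, -, rfl⟩
  exact ⟨γ, rfl⟩

/-- Boundedness at all cusps of `Γ₀(p)` from boundedness at `i∞` of `F` and of `F ∣ S`. -/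
theorem rm16_isBoundedAt (p : ℕ) [Fact p.Prime] (k : ℤ) (F : ℍ → ℂ)
    (inv : ∀ γ : SL(2, ℤ), γ ∈ Gamma0 p → F ∣[k] γ = F)
    (hb : IsBoundedAtImInfty F) (hb0 : IsBoundedAtImInfty (F ∣[k] ModularGroup.S))
    {c : OnePoint ℝ} (hc : IsCusp c (Gamma0 p : Subgroup (GL (Fin 2) ℝ))) :
    c.IsBoundedAt F k := by
  rw [OnePoint.isBoundedAt_iff_forall_SL2Z (hc.mono (rm16_gamma0_le_SL p))]
  intro γ _
  rcases rm16_coset_cases p γ with h | ⟨g, hg, j, rfl⟩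
  · rw [inv γ h]
    exact hb
  · rw [SlashAction.slash_mul, inv g hg, SlashAction.slash_mul]
    refine UpperHalfPlane.IsBoundedAtImInfty.slash k ?_ hb0
    have h1 : ((mapGL ℝ (ModularGroup.T ^ j) : GL (Fin 2) ℝ) : Matrix (Fin 2) (Fin 2) ℝ) 1 0 =
        (((ModularGroup.T ^ j : SL(2, ℤ)) : Matrix (Fin 2) (Fin 2) ℤ) 1 0 : ℝ) := by
      rw [mapGL_coe_matrix]
      rfl
    rw [ModularGroup.coe_T_zpow] at h1
    rw [h1]
    simp

/-- **Constructor**: a holomorphic function on `ℍ`, weight-`k` invariant under `Γ₀(p)`, bounded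
at `i∞` together with its `S`-transform, is a modular form on `Γ₀(p)`. -/
noncomputable def rm16_form (p : ℕ) [Fact p.Prime] (k : ℤ) (F : ℍ → ℂ) (hol : MDiff F)
    (inv : ∀ γ : SL(2, ℤ), γ ∈ Gamma0 p → F ∣[k] γ = F)
    (hb : IsBoundedAtImInfty F) (hb0 : IsBoundedAtImInfty (F ∣[k] ModularGroup.S)) :
    ModularForm (Gamma0 p) k where
  toFun := F
  slash_action_eq' := by
    rintro x ⟨γ, hγ, rfl⟩
    exact inv γ hγ
  holo' := hol
  bdd_at_cusps' := fun {c} hc => rm16_isBoundedAt p k F inv hb hb0 hc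

@[simp] theorem rm16_form_coe (p : ℕ) [Fact p.Prime] (k : ℤ) (F : ℍ → ℂ) (hol : MDiff F)
    (inv : ∀ γ : SL(2, ℤ), γ ∈ Gamma0 p → F ∣[k] γ = F)
    (hb : IsBoundedAtImInfty F) (hb0 : IsBoundedAtImInfty (F ∣[k] ModularGroup.S)) :
    (⇑(rm16_form p k F hol inv hb hb0) : ℍ → ℂ) = F := rfl

theorem rm16_mk (p : ℕ) [Fact p.Prime] (k : ℤ) (F : ℍ → ℂ) (hol : MDiff F)
    (inv : ∀ γ : SL(2, ℤ), γ ∈ Gamma0 p → F ∣[k] γ = F)
    (hb : IsBoundedAtImInfty F) (hb0 : IsBoundedAtImInfty (F ∣[k] ModularGroup.S)) :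
    ∃ G : ModularForm (Gamma0 p) k, (⇑G : ℍ → ℂ) = F :=
  ⟨rm16_form p k F hol inv hb hb0, rfl⟩

end Fermat.Agent.S16Lib
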