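import Fermat.Agent.Lib.S20.ProjLineCoset
import Fermat.Agent.Lib.S23.Sym
import Fermat.Prelude.Thm_ModularFormClass_qCoeff_heckeU

/-!
# S16: explicit coset transversal `1, S T^j` of `Γ₀(p)` in `SL(2,ℤ)`, `p` prime (prefix `tw16_`)
-/

set_option autoImplicit false

namespace Fermat.Agent.S16Lib

open UpperHalfPlane ModularForm CongruenceSubgroup MatrixGroups Matrix.SpecialLinearGroup
open SlashInvariantForm
open Fermat.Agent.LibS23 Fermat.Agent.S20Lib
open scoped Manifold Topology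

section cosets

variable (p : ℕ)

/-- the coset representative `S T^j` -/
noncomputable def tw16_rep (j : ℕ) : SL(2, ℤ) := ModularGroup.S * ModularGroup.T ^ j

theorem tw16_rep_val (j : ℕ) :
    (tw16_rep j : Matrix (Fin 2) (Fin 2) ℤ) = !![0, -1; 1, (j : ℤ)] := by
  have hT : ((ModularGroup.T ^ j : SL(2, ℤ)) : Matrix (Fin 2) (Fin 2) ℤ) = !![1, (j : ℤ); 0, 1] := by
    have := ModularGroup.coe_T_zpow (j : ℤ)
    rw [zpow_natCast] at this
    exact this
  rw [tw16_rep, Matrix.SpecialLinearGroup.coe_mul, hT, ModularGroup.coe_S]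
  ext a b
  fin_cases a <;> fin_cases b <;> simp [Matrix.mul_apply, Fin.sum_univ_two]

theorem tw16_rep_inv_val (j : ℕ) :
    (((tw16_rep j)⁻¹ : SL(2, ℤ)) : Matrix (Fin 2) (Fin 2) ℤ) = !![(j : ℤ), 1; -1, 0] := by
  rw [Matrix.SpecialLinearGroup.coe_inv, tw16_rep_val, Matrix.adjugate_fin_two_of]
  simp

variable [NeZero p]

/-- the cosets: `none ↦ Γ₀(p)`, `some j ↦ (S T^j)⁻¹ Γ₀(p)` -/
noncomputable def tw16_coset : Option (Fin p) → Q p
  | none => (q0 : Q p)
  | some j => ((toSL (tw16_rep (j : ℕ))⁻¹ : ↥(𝒮ℒ)) : Q p)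

theorem tw16_cosetEquiv_none : P1.cosetEquiv p (tw16_coset p none) = P1.base p := by
  have h : (q0 : Q p) = ((toSL (1 : SL(2, ℤ)) : ↥(𝒮ℒ)) : Q p) := by
    rw [q0]
    congr 1
    apply Subtype.ext
    simp [toSL]
  rw [tw16_coset, h, P1.cosetEquiv_mk_toSL, one_smul]

theorem tw16_cosetEquiv_some (j : Fin p) :
    P1.cosetEquiv p (tw16_coset p (some j)) =
      P1.mk (((j : ℕ) : ℤ) : ZMod p) (((-1 : ℤ)) : ZMod p) ⟨0, -1, by push_cast; ring⟩ := by
  rw [tw16_coset, P1.cosetEquiv_mk_toSL, P1.smul_base, P1.mk_eq_mk_iff]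
  have h := tw16_rep_inv_val (j : ℕ)
  have h00 : (((tw16_rep (j : ℕ))⁻¹ : SL(2, ℤ)) : Matrix (Fin 2) (Fin 2) ℤ) 0 0 = ((j : ℕ) : ℤ) := by
    rw [h]; rfl
  have h10 : (((tw16_rep (j : ℕ))⁻¹ : SL(2, ℤ)) : Matrix (Fin 2) (Fin 2) ℤ) 1 0 = -1 := by
    rw [h]; rfl
  rw [h00, h10]

theorem tw16_coset_injective [hp : Fact p.Prime] : Function.Injective (tw16_coset p) := by
  haveI : Fact (1 < p) := ⟨hp.out.one_lt⟩
  intro a b hab
  have h := congrArg (P1.cosetEquiv p) hab
  cases a with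
  | none =>
    cases b with
    | none => rfl
    | some j =>
      exfalso
      rw [tw16_cosetEquiv_none, tw16_cosetEquiv_some, P1.base, P1.mk_eq_mk_iff] at h
      simp at h
  | some i =>
    cases b with
    | none =>
      exfalso
      rw [tw16_cosetEquiv_none, tw16_cosetEquiv_some, P1.base, P1.mk_eq_mk_iff] at h
      simp at h
    | some j =>
      rw [tw16_cosetEquiv_some, tw16_cosetEquiv_some, P1.mk_eq_mk_iff] at h
      have h2 : (((i : ℕ) : ℤ) : ZMod p) = (((j : ℕ) : ℤ) : ZMod p) := by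
        have := congrArg (fun x : ZMod p => -x) h
        simpa using this
      have h3 : ((i : ℕ) : ZMod p) = ((j : ℕ) : ZMod p) := by
        simpa using h2
      rw [ZMod.natCast_eq_natCast_iff'] at h3
      rw [Nat.mod_eq_of_lt i.2, Nat.mod_eq_of_lt j.2] at h3
      exact congrArg some (Fin.ext h3)

theorem tw16_coset_bijective [hp : Fact p.Prime] : Function.Bijective (tw16_coset p) := by
  refine (Fintype.bijective_iff_injective_and_card _).2 ⟨tw16_coset_injective p, ?_⟩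
  rw [card_Q, Fintype.card_option, Fintype.card_fin]
  have := dedekindPsi_prime_pow (p := p) (n := 0) hp.out
  simpa using this.symm

/-- sums over the coset space, for prime level -/
theorem tw16_sum_coset [hp : Fact p.Prime] {M : Type*} [AddCommMonoid M] (φ : Q p → M) :
    ∑ q, φ q = φ (q0 : Q p) + ∑ j : Fin p, φ (tw16_coset p (some j)) := by
  rw [← Equiv.sum_comp (Equiv.ofBijective _ (tw16_coset_bijective p)) φ, Fintype.sum_option]
  rfl

end cosets

end Fermat.Agent.S16Lib
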