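/-
S16 (helper1): the trace formula from level `p` to level one, general weight.

* `tb16_fricke p k H : ModularForm (Gamma0 p) k` — the Fricke transform `H ∣[k] W_p`,
  `W_p = ep16_W p = [[0,-1],[p,0]]`;
* `tb16_trace`: there is a level-one form `T` of weight `k` with
  `qCoeff T n = qCoeff H n + p^(2-k) * qCoeff (H ∣[k] W_p) (p * n)`.
-/
import Fermat.Agent.Lib.S16.Transversal
import Fermat.Agent.Lib.S16.EisFricke
import Fermat.Prelude.Def_ModularForm_HeckeOperatorForms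

set_option autoImplicit false

namespace Fermat.Agent.S16Lib

open UpperHalfPlane ModularForm CongruenceSubgroup MatrixGroups Matrix.SpecialLinearGroup
  ModularFormClass
open SlashInvariantForm
open Fermat.Agent.LibS23 Fermat.Agent.S20Lib
open scoped Manifold Topology

/-- `W_p` normalises `Γ₀(p)`: `W γ = γ'' W` with `γ'' ∈ Γ₀(p)`. -/
theorem tb16_W_mul_gamma0 (p : ℕ) [NeZero p] (γ : SL(2, ℤ)) (hγ : γ ∈ Gamma0 p) :
    ∃ γ' : SL(2, ℤ), γ' ∈ Gamma0 p ∧ ep16_W p * (mapGL ℝ γ) = (mapGL ℝ γ') * ep16_W p := by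
  have hp : p ≠ 0 := NeZero.ne p
  rw [Gamma0_mem] at hγ
  obtain ⟨c', hc'⟩ : (p : ℤ) ∣ γ 1 0 := (ZMod.intCast_zmod_eq_zero_iff_dvd _ _).mp hγ
  have hdet : γ 0 0 * γ 1 1 - γ 0 1 * γ 1 0 = 1 := by
    have := γ.det_coe
    rw [Matrix.det_fin_two] at this
    exact this
  refine ⟨⟨!![γ 1 1, -c'; -(p * γ 0 1), γ 0 0], ?_⟩, ?_, ?_⟩
  · rw [Matrix.det_fin_two_of]
    rw [hc'] at hdet
    linarith
  · rw [Gamma0_mem]
    simp
  · apply Units.ext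
    rw [Units.val_mul, Units.val_mul, ep16_W_val hp]
    ext i j
    fin_cases i <;> fin_cases j <;>
      simp [mapGL_coe_matrix, Matrix.mul_apply, Fin.sum_univ_two, hc'] <;> ring

open ConjAct Pointwise in
theorem tb16_gamma0_le (p : ℕ) [NeZero p] :
    (Gamma0 p : Subgroup (GL (Fin 2) ℝ)) ≤
      toConjAct (ep16_W p)⁻¹ • (Gamma0 p : Subgroup (GL (Fin 2) ℝ)) := by
  rintro _ ⟨γ, hγ, rfl⟩
  rw [map_inv, Subgroup.mem_inv_pointwise_smul_iff, toConjAct_smul]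
  obtain ⟨γ', hγ', h⟩ := tb16_W_mul_gamma0 p γ hγ
  refine ⟨γ', hγ', ?_⟩
  rw [h, mul_inv_cancel_right]

/-- The Fricke transform `H ∣[k] W_p` as a modular form on `Γ₀(p)`. -/
noncomputable def tb16_fricke (p : ℕ) [NeZero p] (k : ℤ) (H : ModularForm (Gamma0 p) k) :
    ModularForm (Gamma0 p) k where
  toFun := (⇑H : ℍ → ℂ) ∣[k] ep16_W p
  slash_action_eq' γ hγ :=
    (ModularForm.translate H (ep16_W p)).slash_action_eq' γ (tb16_gamma0_le p hγ)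
  holo' := (ModularForm.translate H (ep16_W p)).holo'
  bdd_at_cusps' hc :=
    (ModularForm.translate H (ep16_W p)).bdd_at_cusps' (hc.mono (tb16_gamma0_le p))

@[simp] theorem tb16_coe_fricke (p : ℕ) [NeZero p] (k : ℤ) (H : ModularForm (Gamma0 p) k) :
    (⇑(tb16_fricke p k H) : ℍ → ℂ) = (⇑H : ℍ → ℂ) ∣[k] ep16_W p := rfl

/-- `(H ∣ W_p) ∣ [[1,j],[0,p]] = p^(k-2) • H ∣ (S T^j)`. -/
theorem tb16_slash_rep (p : ℕ) [NeZero p] (k : ℤ) (H : ℍ → ℂ) (j : ℕ) :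
    (H ∣[k] ep16_W p) ∣[k] heckeMatrix p j
      = (p : ℂ) ^ (k - 2) • (H ∣[k] mapGL ℝ (tw16_rep j)) := by
  have hp : p ≠ 0 := NeZero.ne p
  have hpc : (p : ℂ) ≠ 0 := by exact_mod_cast hp
  ext τ
  rw [slash_heckeMatrix_apply k hp, ep16_W, SlashAction.slash_mul,
    slash_heckeDiagMatrix_apply k hp]
  have hpt : heckeDiagMatrix p • (heckeMatrix p j • τ) = (ModularGroup.T ^ (j : ℤ)) • τ := by
    apply UpperHalfPlane.ext
    rw [coe_heckeDiagMatrix_smul hp, coe_heckeMatrix_smul hp, ModularGroup.coe_T_zpow_smul_eq]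
    push_cast
    field_simp
  rw [hpt]
  have hS : (H ∣[k] mapGL ℝ ModularGroup.S) ((ModularGroup.T ^ (j : ℤ)) • τ)
      = H (ModularGroup.S • ((ModularGroup.T ^ (j : ℤ)) • τ)) *
          denom ModularGroup.S (((ModularGroup.T ^ (j : ℤ)) • τ : ℍ) : ℂ) ^ (-k) :=
    SL_slash_apply H ModularGroup.S _
  have hR : (H ∣[k] mapGL ℝ (tw16_rep j)) τ
      = H (tw16_rep j • τ) * denom (tw16_rep j) (τ : ℂ) ^ (-k) :=
    SL_slash_apply H (tw16_rep j) τ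
  have hrep : tw16_rep j • τ = ModularGroup.S • ((ModularGroup.T ^ (j : ℤ)) • τ) := by
    rw [tw16_rep, mul_smul, zpow_natCast]
  have hden : denom (tw16_rep j) (τ : ℂ) = (τ : ℂ) + j := by
    rw [ModularGroup.denom_apply, tw16_rep_val]
    simp
  rw [Pi.smul_apply, smul_eq_mul, hS, hR, hrep, hden, ModularGroup.denom_S,
    ModularGroup.coe_T_zpow_smul_eq]
  have e : (p : ℂ) ^ (k - 2) = (p : ℂ)⁻¹ * (p : ℂ) ^ (k - 1) := by
    rw [show k - 2 = -1 + (k - 1) by ring, zpow_add₀ hpc, zpow_neg_one]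
  rw [e]
  push_cast
  ring

/-- The trace of `H` to level one, as a function:
`∑_q H ∣ q = H + p^(2-k) • U_p (H ∣ W_p)`. -/
theorem tb16_trace_fun (p : ℕ) [hp : Fact p.Prime] (k : ℤ) (H : ModularForm (Gamma0 p) k) :
    (∑ q : Q p, quotientFunc H q)
      = (⇑H : ℍ → ℂ) + (p : ℂ) ^ (2 - k) • heckeU k p ((⇑H : ℍ → ℂ) ∣[k] ep16_W p) := by
  have hpc : (p : ℂ) ≠ 0 := by exact_mod_cast hp.out.ne_zero
  rw [tw16_sum_coset p (fun q => quotientFunc H q), quotientFunc_q0]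
  congr 1
  rw [heckeU_def, Finset.smul_sum, ← Fin.sum_univ_eq_sum_range
    (fun j => (p : ℂ) ^ (2 - k) • (((⇑H : ℍ → ℂ) ∣[k] ep16_W p) ∣[k] heckeMatrix p j)) p]
  refine Finset.sum_congr rfl fun j _ => ?_
  rw [tb16_slash_rep, smul_smul, ← zpow_add₀ hpc, show 2 - k + (k - 2) = 0 by ring, zpow_zero,
    one_smul]
  show quotientFunc H ⟦toSL (tw16_rep (j : ℕ))⁻¹⟧ = _
  rw [quotientFunc_mk]
  congr 1
  simp [toSL]

/-- **Trace formula.** For `H ∈ M_k(Γ₀(p))` there is a level-one form `T` of weight `k` with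
`T = H + p^(2-k) U_p (H ∣ W_p)`; in particular
`a_n(T) = a_n(H) + p^(2-k) a_{pn}(H ∣ W_p)`. -/
theorem tb16_trace (p : ℕ) [hp : Fact p.Prime] (k : ℤ) (H : ModularForm (Gamma0 p) k) :
    ∃ T : ModularForm 𝒮ℒ k,
      (⇑T : ℍ → ℂ) = (⇑H : ℍ → ℂ) + (p : ℂ) ^ (2 - k) • heckeU k p (⇑(tb16_fricke p k H)) ∧
      ∀ n : ℕ, qCoeff (⇑T) n
        = qCoeff (⇑H) n + (p : ℂ) ^ (2 - k) * qCoeff (⇑(tb16_fricke p k H)) (p * n) := by
  obtain ⟨T, hT⟩ := (fam_quotientFunc (N := p) H).trace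
  have hfun : (⇑T : ℍ → ℂ)
      = (⇑H : ℍ → ℂ) + (p : ℂ) ^ (2 - k) • heckeU k p (⇑(tb16_fricke p k H)) := by
    rw [hT, tb16_trace_fun, tb16_coe_fricke]
  refine ⟨T, hfun, fun n => ?_⟩
  have hU : (⇑(ModularForm.heckeULin k (dvd_refl p) (tb16_fricke p k H)) : ℍ → ℂ)
      = heckeU k p (⇑(tb16_fricke p k H)) := rfl
  have hQ : QExp (heckeU k p (⇑(tb16_fricke p k H))) := by
    rw [← hU]
    exact QExp.of_gamma0 _
  have hcoef := ModularFormClass.qCoeff_heckeU (tb16_fricke p k H)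
    (CongruenceSubgroup.one_mem_strictPeriods_Gamma0 p) hp.out.ne_zero n (k := k)
  rw [ModularForm.coeffHeckeU_apply] at hcoef
  show (qx (⇑T)).coeff n = _
  rw [hfun, qx_add (QExp.of_gamma0 H) (hQ.smul _), qx_smul _ hQ, map_add,
    PowerSeries.coeff_smul, smul_eq_mul, mul_comm p n]
  congr 1
  rw [← hcoef]
  rfl

/-- The trace formula, for any form `HW` on `Γ₀(p)` whose underlying function is `H ∣[k] W_p`. -/
theorem tb16_trace_of (p : ℕ) [Fact p.Prime] (k : ℤ) (H HW : ModularForm (Gamma0 p) k)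
    (hHW : (⇑HW : ℍ → ℂ) = (⇑H : ℍ → ℂ) ∣[k] ep16_W p) :
    ∃ T : ModularForm 𝒮ℒ k, ∀ n : ℕ,
      qCoeff (⇑T) n = qCoeff (⇑H) n + (p : ℂ) ^ (2 - k) * qCoeff (⇑HW) (p * n) := by
  obtain ⟨T, -, hT⟩ := tb16_trace p k H
  refine ⟨T, fun n => ?_⟩
  rw [hT n, tb16_coe_fricke, ← hHW]

/-- The trace formula with the function-level identity `T = H + p^(2-k) U_p HW`. -/
theorem tb16_trace_of' (p : ℕ) [Fact p.Prime] (k : ℤ) (H HW : ModularForm (Gamma0 p) k)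
    (hHW : (⇑HW : ℍ → ℂ) = (⇑H : ℍ → ℂ) ∣[k] ep16_W p) :
    ∃ T : ModularForm 𝒮ℒ k,
      (⇑T : ℍ → ℂ) = (⇑H : ℍ → ℂ) + (p : ℂ) ^ (2 - k) • heckeU k p (⇑HW) ∧
      ∀ n : ℕ, qCoeff (⇑T) n = qCoeff (⇑H) n + (p : ℂ) ^ (2 - k) * qCoeff (⇑HW) (p * n) := by
  obtain ⟨T, hf, hT⟩ := tb16_trace p k H
  refine ⟨T, ?_, fun n => ?_⟩
  · rw [hf, tb16_coe_fricke, ← hHW]
  · rw [hT n, tb16_coe_fricke, ← hHW]

end Fermat.Agent.S16Lib
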