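import Fermat.Agent.Lib.S16.EisFricke
import Fermat.Agent.Lib.S23.LevelOne

/-!
# S16 library: TR1 and TR2 from the general trace formula (glue)

From the trace-to-level-one formula (`htr`) and the existence of the Fricke transform as a form
(`hfr`), both taken as hypotheses here:

* `tg16_fricke_neg` : in weight two, `a_n(H ∣ W) = - a_{pn}(H)`;
* `tg16_TR1` : `a_{p² n}(H) = a_n(H)`;
* `tg16_TR2` : the trace of `H²` is a level one form of weight four with explicit coefficients.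
-/

set_option autoImplicit false

namespace Fermat.Agent.S16Lib

open UpperHalfPlane ModularForm CongruenceSubgroup MatrixGroups ModularFormClass
open Fermat.Agent.LibS23

theorem tg16_W_det {p : ℕ} (hp : p ≠ 0) : ((ep16_W p).det : ℝ) = p := by
  rw [Matrix.GeneralLinearGroup.val_det_apply, ep16_W_val hp, Matrix.det_fin_two_of]
  simp

theorem tg16_W_coe_smul {p : ℕ} (hp : p ≠ 0) (z : ℍ) :
    ((ep16_W p • z : ℍ) : ℂ) = -1 / ((p : ℂ) * (z : ℂ)) := by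
  have hpos : 0 < ((ep16_W p).det : ℝ) := by
    rw [tg16_W_det hp]; exact_mod_cast Nat.pos_of_ne_zero hp
  rw [coe_smul_of_det_pos hpos]
  simp [num, denom, ep16_W_val hp]

theorem tg16_W_smul_smul {p : ℕ} (hp : p ≠ 0) (z : ℍ) : ep16_W p • (ep16_W p • z) = z := by
  apply UpperHalfPlane.ext
  rw [tg16_W_coe_smul hp, tg16_W_coe_smul hp]
  have hpc : (p : ℂ) ≠ 0 := by exact_mod_cast hp
  have hz : (z : ℂ) ≠ 0 := z.ne_zero
  field_simp

theorem tg16_slash_W_apply (k : ℤ) {p : ℕ} (hp : p ≠ 0) (f : ℍ → ℂ) (z : ℍ) :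
    (f ∣[k] ep16_W p) z = f (ep16_W p • z) * (p : ℂ) ^ (k - 1) * ((p : ℂ) * (z : ℂ)) ^ (-k) := by
  have hdet := tg16_W_det hp
  have hpos : 0 < ((ep16_W p).det : ℝ) := by
    rw [hdet]; exact_mod_cast Nat.pos_of_ne_zero hp
  rw [ModularForm.slash_apply, hdet]
  have hpos' : 0 < ((ep16_W p : GL (Fin 2) ℝ) : Matrix (Fin 2) (Fin 2) ℝ).det := by
    rw [← Matrix.GeneralLinearGroup.val_det_apply]; exact hpos
  have hσ : σ (ep16_W p) (f (ep16_W p • z)) = f (ep16_W p • z) := by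
    simp [σ, hpos']
  have hden : denom (ep16_W p) (z : ℂ) = (p : ℂ) * (z : ℂ) := by
    simp [denom, ep16_W_val hp]
  rw [hσ, hden]
  simp

/-- In weight two the Fricke slash is an involution. -/
theorem tg16_slash_W_W {p : ℕ} (hp : p ≠ 0) (f : ℍ → ℂ) :
    (f ∣[(2 : ℤ)] ep16_W p) ∣[(2 : ℤ)] ep16_W p = f := by
  ext z
  rw [tg16_slash_W_apply 2 hp, tg16_slash_W_apply 2 hp, tg16_W_smul_smul hp, tg16_W_coe_smul hp]
  have hpc : (p : ℂ) ≠ 0 := by exact_mod_cast hp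
  have hz : (z : ℂ) ≠ 0 := z.ne_zero
  norm_num
  field_simp

theorem tg16_levelOne_two_qCoeff (T : ModularForm 𝒮ℒ 2) (n : ℕ) : qCoeff T n = 0 := by
  have h0 : T = 0 := (rank_zero_iff_forall_zero.mp levelOne_weight_two_rank_zero) T
  rw [h0, qCoeff, FunLike.coe_zero, qExpansion_zero, map_zero]

section Glue

variable (p : ℕ) [Fact p.Prime]
  (htr : ∀ (k : ℤ) (H HW : ModularForm (Gamma0 p) k),
    (⇑HW : ℍ → ℂ) = (⇑H : ℍ → ℂ) ∣[k] ep16_W p →
    ∃ T : ModularForm 𝒮ℒ k, ∀ n : ℕ,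
      qCoeff T n = qCoeff H n + (p : ℂ) ^ (2 - k) * qCoeff HW (p * n))

include htr in
/-- In weight two: `a_n(H ∣ W) = - a_{pn}(H)`. -/
theorem tg16_fricke_neg (H HW : ModularForm (Gamma0 p) 2)
    (hHW : (⇑HW : ℍ → ℂ) = (⇑H : ℍ → ℂ) ∣[(2 : ℤ)] ep16_W p) (n : ℕ) :
    qCoeff HW n = - qCoeff H (p * n) := by
  have hp : p ≠ 0 := (Fact.out : p.Prime).ne_zero
  have hH : (⇑H : ℍ → ℂ) = (⇑HW : ℍ → ℂ) ∣[(2 : ℤ)] ep16_W p := by
    rw [hHW, tg16_slash_W_W hp]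
  obtain ⟨T, hT⟩ := htr 2 HW H hH
  have h := hT n
  rw [tg16_levelOne_two_qCoeff] at h
  simp only [sub_self, zpow_zero, one_mul] at h
  exact eq_neg_of_add_eq_zero_left h.symm

include htr in
/-- **TR1**: `a_{p² n}(H) = a_n(H)` for `H ∈ M₂(Γ₀(p))`. -/
theorem tg16_TR1
    (hfr : ∀ (k : ℤ) (H : ModularForm (Gamma0 p) k), ∃ HW : ModularForm (Gamma0 p) k,
      (⇑HW : ℍ → ℂ) = (⇑H : ℍ → ℂ) ∣[k] ep16_W p)
    (H : ModularForm (Gamma0 p) 2) (n : ℕ) :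
    qCoeff H (p * (p * n)) = qCoeff H n := by
  obtain ⟨HW, hHW⟩ := hfr 2 H
  obtain ⟨T, hT⟩ := htr 2 H HW hHW
  have h := hT n
  rw [tg16_levelOne_two_qCoeff] at h
  simp only [sub_self, zpow_zero, one_mul] at h
  have h2 := tg16_fricke_neg p htr H HW hHW (p * n)
  rw [h2] at h
  linear_combination h

include htr in
/-- **TR2**: the trace of `H²` to level one. -/
theorem tg16_TR2
    (hfr : ∀ (k : ℤ) (H : ModularForm (Gamma0 p) k), ∃ HW : ModularForm (Gamma0 p) k,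
      (⇑HW : ℍ → ℂ) = (⇑H : ℍ → ℂ) ∣[k] ep16_W p)
    (H : ModularForm (Gamma0 p) 2) :
    ∃ T : ModularForm 𝒮ℒ 4, ∀ n : ℕ,
      qCoeff T n = PowerSeries.coeff n ((qExpansion 1 H) ^ 2)
        + (p : ℂ)⁻¹ * PowerSeries.coeff (p * n)
            ((PowerSeries.mk fun k => PowerSeries.coeff (p * k) (qExpansion 1 H)) ^ 2) := by
  have hp : p ≠ 0 := (Fact.out : p.Prime).ne_zero
  have hpc : (p : ℂ) ≠ 0 := by exact_mod_cast hp
  obtain ⟨HW, hHW⟩ := hfr 2 H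
  have h4 : (2 : ℤ) + 2 = 4 := by norm_num
  set H2 : ModularForm (Gamma0 p) 4 := ModularForm.mcast h4 (H.mul H) with hH2
  set HW2 : ModularForm (Gamma0 p) 4 := (p : ℂ) • ModularForm.mcast h4 (HW.mul HW) with hHW2
  have hH2c : (⇑H2 : ℍ → ℂ) = ⇑H * ⇑H := rfl
  have hHW2c : (⇑HW2 : ℍ → ℂ) = (p : ℂ) • (⇑HW * ⇑HW) := rfl
  have hslash : (⇑HW2 : ℍ → ℂ) = (⇑H2 : ℍ → ℂ) ∣[(4 : ℤ)] ep16_W p := by
    rw [hH2c, hHW2c, ← h4, ModularForm.mul_slash, ← hHW, tg16_W_det hp]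
    ext z
    simp
  obtain ⟨T, hT⟩ := htr 4 H2 HW2 hslash
  refine ⟨T, fun n => ?_⟩
  rw [hT n]
  have hQ : QExp (⇑H : ℍ → ℂ) := QExp.of_gamma0 H
  have hQW : QExp (⇑HW : ℍ → ℂ) := QExp.of_gamma0 HW
  have e1 : qCoeff H2 n = PowerSeries.coeff n ((qExpansion 1 H) ^ 2) := by
    rw [qCoeff, hH2c, pow_two]
    exact congrArg (PowerSeries.coeff n) (qx_mul hQ hQ)
  have hqW : qExpansion 1 (⇑HW : ℍ → ℂ)
      = - PowerSeries.mk fun k => PowerSeries.coeff (p * k) (qExpansion 1 H) := by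
    ext m
    rw [map_neg, PowerSeries.coeff_mk]
    exact tg16_fricke_neg p htr H HW hHW m
  have e2 : qCoeff HW2 (p * n) = (p : ℂ) * PowerSeries.coeff (p * n)
      ((PowerSeries.mk fun k => PowerSeries.coeff (p * k) (qExpansion 1 H)) ^ 2) := by
    rw [qCoeff, hHW2c]
    have h1 : qExpansion 1 ((p : ℂ) • ((⇑HW : ℍ → ℂ) * ⇑HW))
        = (p : ℂ) • (qExpansion 1 (⇑HW : ℍ → ℂ) * qExpansion 1 (⇑HW : ℍ → ℂ)) := by
      have := qx_smul (p : ℂ) (hQW.mul hQW)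
      rw [qx_mul hQW hQW] at this
      exact this
    rw [h1, hqW, neg_mul_neg, ← pow_two, PowerSeries.coeff_smul, smul_eq_mul]
  rw [e1, e2]
  congr 1
  rw [← mul_assoc]
  congr 1
  have : (2 : ℤ) - 4 = -2 := by norm_num
  rw [this, zpow_neg, zpow_ofNat]
  field_simp

end Glue

end Fermat.Agent.S16Lib
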