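import Fermat.Agent.Lib.S16.Transversal
import Fermat.Agent.Lib.S16.EisFricke
import Fermat.Prelude.Def_ModularForm_HeckeOperatorForms

/-!
# S16 library: the trace from `Γ₀(p)` to level one and its `q`-expansion (prefix `tp16_`)

For `H ∈ M_k(Γ₀(p))`, `p` prime, the trace `H + ∑_{j<p} H ∣[k] S T^j` is a level-one form and
`∑_{j<p} H ∣[k] S T^j = p^(2-k) • U_p (H ∣[k] W_p)` with `W_p = ep16_W p`.  Hence

`qCoeff T n = qCoeff H n + p^(2-k) * qCoeff (H ∣[k] W_p) (p * n)`.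
-/

set_option autoImplicit false

namespace Fermat.Agent.S16Lib

open UpperHalfPlane ModularForm CongruenceSubgroup MatrixGroups Matrix.SpecialLinearGroup
open SlashInvariantForm ModularFormClass
open Fermat.Agent.LibS23 Fermat.Agent.S20Lib
open scoped Manifold Topology

/-- `diag(p,1) • ((z + j)/p) = z + j`. -/
theorem tp16_diag_hecke_smul {p : ℕ} (hp : p ≠ 0) (j : ℕ) (z : ℍ) :
    heckeDiagMatrix p • (heckeMatrix p j • z) = (((j : ℕ) : ℤ) : ℝ) +ᵥ z := by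
  apply UpperHalfPlane.ext
  rw [coe_heckeDiagMatrix_smul hp, coe_heckeMatrix_smul hp, coe_vadd]
  have hpc : (p : ℂ) ≠ 0 := by exact_mod_cast hp
  push_cast
  field_simp
  ring

/-- Slashing by `T^n` is translation by `n`, in any weight. -/
theorem tp16_slash_T (k : ℤ) (g : ℍ → ℂ) (n : ℤ) (w : ℍ) :
    (g ∣[k] (mapGL ℝ (ModularGroup.T ^ n) : GL (Fin 2) ℝ)) w = g ((n : ℝ) +ᵥ w) := by
  have h := ModularForm.SL_slash_apply (k := k) g (ModularGroup.T ^ n) w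
  rw [ModularForm.SL_slash] at h
  rw [modular_T_zpow_smul] at h
  have hd : denom (toGL ((Matrix.SpecialLinearGroup.map (Int.castRingHom ℝ)) (ModularGroup.T ^ n)))
      (w : ℂ) = 1 := by
    have e10 : (ModularGroup.T ^ n : SL(2, ℤ)) 1 0 = 0 := by simp [ModularGroup.coe_T_zpow]
    have e11 : (ModularGroup.T ^ n : SL(2, ℤ)) 1 1 = 1 := by simp [ModularGroup.coe_T_zpow]
    have e : denom (toGL ((Matrix.SpecialLinearGroup.map (Int.castRingHom ℝ))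
        (ModularGroup.T ^ n))) (w : ℂ) =
        ((((ModularGroup.T ^ n : SL(2, ℤ)) 1 0 : ℤ) : ℝ) : ℂ) * w +
          ((((ModularGroup.T ^ n : SL(2, ℤ)) 1 1 : ℤ) : ℝ) : ℂ) := rfl
    rw [e, e10, e11]
    simp
  rw [hd, one_zpow, mul_one] at h
  exact h

/-- **The coset identity**: `f ∣[k] S T^j = p^(2-k) • ((f ∣[k] W_p) ∣[k] [[1,j],[0,p]])`. -/
theorem tp16_slash_rep {p : ℕ} (hp : p ≠ 0) (k : ℤ) (f : ℍ → ℂ) (j : ℕ) :
    f ∣[k] (mapGL ℝ (tw16_rep j) : GL (Fin 2) ℝ)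
      = (p : ℂ) ^ (2 - k) • ((f ∣[k] ep16_W p) ∣[k] heckeMatrix p j) := by
  have hpc : (p : ℂ) ≠ 0 := by exact_mod_cast hp
  ext z
  rw [tw16_rep, map_mul, SlashAction.slash_mul, ← zpow_natCast, tp16_slash_T]
  rw [Pi.smul_apply, slash_heckeMatrix_apply k hp, ep16_W, SlashAction.slash_mul,
    slash_heckeDiagMatrix_apply k hp, tp16_diag_hecke_smul hp, smul_eq_mul]
  have e : (p : ℂ) ^ (2 - k) * ((p : ℂ)⁻¹ * (p : ℂ) ^ (k - 1)) = 1 := by
    rw [← zpow_neg_one, ← zpow_add₀ hpc, ← zpow_add₀ hpc,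
      show (2 - k + (-1 + (k - 1))) = 0 by ring, zpow_zero]
  rw [← mul_assoc, ← mul_assoc, mul_assoc ((p : ℂ) ^ (2 - k)), e, one_mul]

/-- **The coset sum**: `∑_{j<p} f ∣[k] S T^j = p^(2-k) • U_p (f ∣[k] W_p)`. -/
theorem tp16_sum_rep {p : ℕ} (hp : p ≠ 0) (k : ℤ) (f : ℍ → ℂ) :
    ∑ j ∈ Finset.range p, f ∣[k] (mapGL ℝ (tw16_rep j) : GL (Fin 2) ℝ)
      = (p : ℂ) ^ (2 - k) • heckeU k p (f ∣[k] ep16_W p) := by
  rw [heckeU_def, Finset.smul_sum]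
  exact Finset.sum_congr rfl fun j _ => tp16_slash_rep hp k f j

/-- **The trace as a function**: `H + p^(2-k) • U_p (H ∣[k] W_p)` is a level-one form. -/
theorem tp16_trace_fun (p : ℕ) [Fact p.Prime] (k : ℤ) (H : ModularForm (Gamma0 p) k) :
    IsLO k ((⇑H : ℍ → ℂ) + (p : ℂ) ^ (2 - k) • heckeU k p ((⇑H : ℍ → ℂ) ∣[k] ep16_W p)) := by
  have hp : p ≠ 0 := (Fact.out : p.Prime).ne_zero
  have : NeZero p := ⟨hp⟩
  have h := (fam_quotientFunc H).trace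
  rw [tw16_sum_coset p (quotientFunc H), quotientFunc_q0] at h
  have e : ∑ j : Fin p, quotientFunc H (tw16_coset p (some j))
      = ∑ j ∈ Finset.range p, (⇑H : ℍ → ℂ) ∣[k] (mapGL ℝ (tw16_rep j) : GL (Fin 2) ℝ) := by
    rw [← Fin.sum_univ_eq_sum_range
      (fun j => (⇑H : ℍ → ℂ) ∣[k] (mapGL ℝ (tw16_rep j) : GL (Fin 2) ℝ)) p]
    refine Finset.sum_congr rfl fun j _ => ?_
    show quotientFunc H ⟦toSL (tw16_rep (j : ℕ))⁻¹⟧ = _
    rw [quotientFunc_mk]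
    congr 1
    simp [toSL]
  rw [e, tp16_sum_rep hp] at h
  exact h

/-- **The trace formula** (general weight): a level-one form `T` with
`qCoeff T n = qCoeff H n + p^(2-k) * qCoeff (H ∣[k] W_p) (p n)`. -/
theorem tp16_trace (p : ℕ) [Fact p.Prime] (k : ℤ) (H HW : ModularForm (Gamma0 p) k)
    (hHW : (⇑HW : ℍ → ℂ) = (⇑H : ℍ → ℂ) ∣[k] ep16_W p) :
    ∃ T : ModularForm 𝒮ℒ k, ∀ n : ℕ,
      qCoeff T n = qCoeff H n + (p : ℂ) ^ (2 - k) * qCoeff HW (p * n) := by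
  have hp : p ≠ 0 := (Fact.out : p.Prime).ne_zero
  have : NeZero p := ⟨hp⟩
  obtain ⟨T, hT⟩ := tp16_trace_fun p k H
  refine ⟨T, fun n => ?_⟩
  rw [← hHW] at hT
  have hU : QExp (heckeU k p (⇑HW : ℍ → ℂ)) :=
    QExp.of_gamma0 (ModularForm.heckeULin k (dvd_refl p) HW)
  have h1 : qCoeff (heckeU k p (⇑HW : ℍ → ℂ)) n = qCoeff (⇑HW : ℍ → ℂ) (p * n) := by
    have := ModularFormClass.qCoeff_heckeU HW (CongruenceSubgroup.one_mem_strictPeriods_Gamma0 p)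
      hp n
    rw [coeffHeckeU_apply, mul_comm n p] at this
    exact this
  show (qx (⇑T : ℍ → ℂ)).coeff n = _
  rw [hT, qx_add (QExp.of_gamma0 H) (hU.smul _), qx_smul _ hU]
  simp only [map_add, PowerSeries.coeff_smul, smul_eq_mul]
  congr 2

end Fermat.Agent.S16Lib
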