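import Fermat.Agent.Lib.S16.TraceW
import Fermat.Agent.Lib.S16.FrickeForm

/-!
# S16 library: trace identities for forms on `Γ₀(p)` (prefix `tw16_`)

* `tw16_trace`: the level one trace form of `H ∈ M_k(Γ₀(p))` with its `q`-expansion.
* `tw16_fricke_two_qCoeff`: in weight two, `H ∣ W_p = -U_p H`.
* `tw16_TR1`: in weight two, `U_p (U_p H) = H`.
* `tw16_TR2`: the trace of `H²` as a level one form of weight four, with its coefficients.
-/

set_option autoImplicit false

namespace Fermat.Agent.S16Lib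

open UpperHalfPlane ModularForm CongruenceSubgroup MatrixGroups Matrix.SpecialLinearGroup
open SlashInvariantForm ModularFormClass
open Fermat.Agent.LibS23 Fermat.Agent.S20Lib
open scoped Manifold Topology

/-- weight two slash by a nonzero scalar matrix is trivial -/
theorem tw16_slash_scal_two (c : ℝ) (hc : c * c ≠ 0) (f : ℍ → ℂ) :
    f ∣[(2 : ℤ)] tw16_scal c hc = f := by
  have hc0 : c ≠ 0 := fun h => hc (by rw [h, mul_zero])
  have hcc : (c : ℂ) ≠ 0 := by exact_mod_cast hc0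
  have hdetv : (tw16_scal c hc).det.val = c * c := by
    rw [tw16_scal, Matrix.GeneralLinearGroup.val_det_apply, val_upperTriangularGL,
      Matrix.det_fin_two_of]
    ring
  have hdet : 0 < (tw16_scal c hc).det.val := by rw [hdetv]; exact mul_self_pos.mpr hc0
  ext z
  rw [ModularForm.slash_apply, UpperHalfPlane.σ, if_pos hdet, tw16_scal_smul, hdetv,
    abs_of_pos (mul_self_pos.mpr hc0)]
  have hden : denom (tw16_scal c hc) z = (c : ℂ) := by
    simp [UpperHalfPlane.denom, tw16_scal, val_upperTriangularGL]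
  rw [hden]
  simp only [ContinuousAlgEquiv.refl_apply]
  push_cast
  rw [zpow_one, zpow_neg, zpow_ofNat]
  field_simp

variable (p : ℕ)

/-- `W_p² = -p` -/
theorem tw16_W_mul_W [NeZero p] :
    ep16_W p * ep16_W p
      = tw16_scal (-(p : ℝ)) (mul_self_pos.mpr
          (neg_ne_zero.mpr (Nat.cast_ne_zero.mpr (NeZero.ne p)))).ne' := by
  have hp : p ≠ 0 := NeZero.ne p
  apply Matrix.GeneralLinearGroup.ext
  intro a b
  simp only [Matrix.GeneralLinearGroup.coe_mul, Matrix.mul_apply, Fin.sum_univ_two,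
    ep16_W_val hp, tw16_scal, val_upperTriangularGL]
  fin_cases a <;> fin_cases b <;> simp

variable [Fact p.Prime]

/-- **Trace formula, general weight**: for `H ∈ M_k(Γ₀(p))` there is a level one form `T` of
weight `k` with `a_n(T) = a_n(H) + p^(2-k) a_{pn}(H ∣[k] W_p)`. -/
theorem tw16_trace (k : ℤ) (H : ModularForm (Gamma0 p) k) :
    ∃ T : ModularForm 𝒮ℒ k, ∀ n : ℕ,
      qCoeff T n = qCoeff H n + (p : ℂ) ^ (2 - k) * qCoeff (tw16_fricke p k H) (p * n) :=
  tw16_trace_of p k H (tw16_fricke p k H) (tw16_fricke_coe p k H)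

/-- in weight two the Fricke involution is an involution on functions -/
theorem tw16_fricke_fricke_two (H : ModularForm (Gamma0 p) 2) :
    (⇑(tw16_fricke p 2 (tw16_fricke p 2 H)) : ℍ → ℂ) = ⇑H := by
  have : NeZero p := ⟨(Fact.out : p.Prime).ne_zero⟩
  rw [tw16_fricke_coe, tw16_fricke_coe, ← SlashAction.slash_mul, tw16_W_mul_W,
    tw16_slash_scal_two]

/-- weight two: `a_n(H) + a_{pn}(H ∣ W_p) = 0`. -/
theorem tw16_two_aux (H : ModularForm (Gamma0 p) 2) (n : ℕ) :
    qCoeff H n + qCoeff (tw16_fricke p 2 H) (p * n) = 0 := by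
  obtain ⟨T, hT⟩ := tw16_trace p 2 H
  have hT0 : T = 0 := rank_zero_iff_forall_zero.mp levelOne_weight_two_rank_zero T
  have h := hT n
  rw [hT0] at h
  have h0 : qCoeff (⇑(0 : ModularForm 𝒮ℒ 2) : ℍ → ℂ) n = 0 := by
    have h00 : (⇑(0 : ModularForm 𝒮ℒ 2) : ℍ → ℂ) = 0 := rfl
    rw [h00]
    unfold qCoeff
    rw [qExpansion_zero]
    simp
  rw [h0] at h
  rw [h]
  simp

/-- **weight two**: `H ∣ W_p = -U_p H` on `q`-expansions. -/
theorem tw16_fricke_two_qCoeff (H : ModularForm (Gamma0 p) 2) (n : ℕ) :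
    qCoeff (tw16_fricke p 2 H) n = -qCoeff H (p * n) := by
  have h := tw16_two_aux p (tw16_fricke p 2 H) n
  rw [tw16_fricke_fricke_two] at h
  linear_combination h

/-- **(TR1)** weight two: `U_p (U_p H) = H` on `q`-expansions. -/
theorem tw16_TR1 (H : ModularForm (Gamma0 p) 2) (n : ℕ) :
    qCoeff H (p * (p * n)) = qCoeff H n := by
  have h1 := tw16_two_aux p H n
  have h2 := tw16_fricke_two_qCoeff p H (p * n)
  rw [h2] at h1
  linear_combination -h1

omit [Fact p.Prime] in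
theorem tw16_det_W [NeZero p] : ((ep16_W p).det : ℝ) = p := by
  rw [Matrix.GeneralLinearGroup.val_det_apply, ep16_W_val (NeZero.ne p), Matrix.det_fin_two_of]
  ring

/-- **(TR2)** the trace of `H²`, `H ∈ M_2(Γ₀(p))`, is a level one form of weight four with
coefficients `a_n(H²) + p⁻¹ a_{pn}((U_p H)²)`. -/
theorem tw16_TR2 (H : ModularForm (Gamma0 p) 2) :
    ∃ T : ModularForm 𝒮ℒ 4, ∀ n : ℕ,
      qCoeff T n = PowerSeries.coeff n ((qExpansion 1 H) ^ 2)
        + (p : ℂ)⁻¹ * PowerSeries.coeff (p * n)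
            ((PowerSeries.mk fun k => PowerSeries.coeff (p * k) (qExpansion 1 H)) ^ 2) := by
  have : NeZero p := ⟨(Fact.out : p.Prime).ne_zero⟩
  have hp : p ≠ 0 := NeZero.ne p
  have hpc : (p : ℂ) ≠ 0 := by exact_mod_cast hp
  have hp0 : (0 : ℝ) < p := by exact_mod_cast Nat.pos_of_ne_zero hp
  obtain ⟨T, hT⟩ := tw16_trace p (2 + 2) (H.mul H)
  refine ⟨T, fun n => ?_⟩
  have hH : QExp (⇑H : ℍ → ℂ) := QExp.of_gamma0 H
  have hHW : QExp (⇑(tw16_fricke p 2 H) : ℍ → ℂ) := QExp.of_gamma0 _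
  have hF : (⇑(H.mul H) : ℍ → ℂ) = ⇑H * ⇑H := ModularForm.coe_mul H H
  have e1 : qCoeff (H.mul H) n = PowerSeries.coeff n ((qExpansion 1 H) ^ 2) := by
    unfold qCoeff
    rw [hF, sq]
    exact congrArg (PowerSeries.coeff n) (qx_mul hH hH)
  have e2 : (⇑(tw16_fricke p (2 + 2) (H.mul H)) : ℍ → ℂ)
      = (p : ℂ) • ((⇑(tw16_fricke p 2 H) : ℍ → ℂ) * ⇑(tw16_fricke p 2 H)) := by
    rw [tw16_fricke_coe, tw16_fricke_coe, hF, ModularForm.mul_slash, tw16_det_W,
      abs_of_pos hp0]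
    ext z
    simp
  have e3 : qx (⇑(tw16_fricke p 2 H) : ℍ → ℂ)
      = -(PowerSeries.mk fun k => PowerSeries.coeff (p * k) (qExpansion 1 H)) := by
    ext m
    rw [map_neg, PowerSeries.coeff_mk]
    exact tw16_fricke_two_qCoeff p H m
  have e4 : qCoeff (tw16_fricke p (2 + 2) (H.mul H)) (p * n)
      = (p : ℂ) * PowerSeries.coeff (p * n)
          ((PowerSeries.mk fun k => PowerSeries.coeff (p * k) (qExpansion 1 H)) ^ 2) := by
    unfold qCoeff
    rw [e2]
    have h6 := qx_smul (p : ℂ) (hHW.mul hHW)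
    have h7 : qx (⇑(tw16_fricke p 2 H) : ℍ → ℂ) * qx (⇑(tw16_fricke p 2 H) : ℍ → ℂ)
        = (PowerSeries.mk fun k => PowerSeries.coeff (p * k) (qExpansion 1 H)) ^ 2 := by
      rw [e3, neg_mul_neg, sq]
    have h8 : qExpansion 1 ((p : ℂ) • ((⇑(tw16_fricke p 2 H) : ℍ → ℂ) * ⇑(tw16_fricke p 2 H)))
        = (p : ℂ) • (PowerSeries.mk fun k => PowerSeries.coeff (p * k) (qExpansion 1 H)) ^ 2 := by
      rw [← h7, ← qx_mul hHW hHW]
      exact h6
    rw [h8, PowerSeries.coeff_smul, smul_eq_mul]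
  rw [hT n, e1, e4]
  have e5 : (p : ℂ) ^ ((2 : ℤ) - (2 + 2)) = ((p : ℂ) ^ 2)⁻¹ := by
    rw [show ((2 : ℤ) - (2 + 2)) = -((2 : ℕ) : ℤ) by norm_num, zpow_neg, zpow_natCast]
  rw [e5]
  field_simp

end Fermat.Agent.S16Lib
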