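/-
S16, UPPER (helper5): the final UPPER statement (the `hU` hypothesis of the frame) from

* the trace relations (TR1), (TR2) for weight two forms on `Γ₀(p)` (`bw16_TR1`, `bw16_TR2`),
* the discriminant no-go statement in integer shape for `p ≡ 3 mod 4` (or only `p ≡ 7 mod 8`).
-/
import Fermat.Agent.Lib.S16.BW
import Fermat.Agent.Lib.S16.NoGo2

set_option autoImplicit false

namespace Fermat.Agent.S16Lib

open UpperHalfPlane ModularForm CongruenceSubgroup MatrixGroups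
open Fermat.Agent.LibS23

/-- **UPPER**, from (TR1), (TR2) and the discriminant no-go statement for `p ≡ 3 mod 4`. -/
theorem uf16_upper (p : ℕ) [Fact p.Prime]
    (hTR1 : ∀ H : ModularForm (Gamma0 p) 2, bw16_TR1 p H)
    (hTR2 : ∀ H : ModularForm (Gamma0 p) 2, bw16_TR2 p H)
    (hBD : p % 4 = 3 → ∀ (X : ModularForm (Gamma0 p) 2) (D : ℤ), Odd D → ∀ Y : PowerSeries ℤ,
      qx ⇑X = (PowerSeries.C D + 8 * Y).map (Int.castRingHom ℂ) → False)
    (l : ℕ) (hl : l.Prime) (a : ℕ) (f : CuspForm (Gamma0 p) 2)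
    (hf : ∀ k, 1 ≤ k → ∃ c : ℤ,
      ModularFormClass.qCoeff f k = (sigp p k : ℂ) + (l : ℂ) ^ a * c) :
    l ^ a ∣ ModularCurve.eisensteinNumerator p :=
  ng16_upperCore' p (fun h X => bw16_NG3 p h X (hTR1 X) (hTR2 X))
    (fun h X => bw16_NG5 p h X (hTR1 X) (hTR2 X)) hBD l hl a f hf

/-- **UPPER**, from (TR1), (TR2) and the discriminant no-go statement for `p ≡ 7 mod 8` only
(the case `p ≡ 3 mod 8` is covered by `bw16_NG6`). -/
theorem uf16_upper' (p : ℕ) [Fact p.Prime]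
    (hTR1 : ∀ H : ModularForm (Gamma0 p) 2, bw16_TR1 p H)
    (hTR2 : ∀ H : ModularForm (Gamma0 p) 2, bw16_TR2 p H)
    (hBD : p % 8 = 7 → ∀ (X : ModularForm (Gamma0 p) 2) (D : ℤ), Odd D → ∀ Y : PowerSeries ℤ,
      qx ⇑X = (PowerSeries.C D + 8 * Y).map (Int.castRingHom ℂ) → False)
    (l : ℕ) (hl : l.Prime) (a : ℕ) (f : CuspForm (Gamma0 p) 2)
    (hf : ∀ k, 1 ≤ k → ∃ c : ℤ,
      ModularFormClass.qCoeff f k = (sigp p k : ℂ) + (l : ℂ) ^ a * c) :
    l ^ a ∣ ModularCurve.eisensteinNumerator p := by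
  refine uf16_upper p hTR1 hTR2 (fun h4 => ?_) l hl a f hf
  rcases (show p % 8 = 3 ∨ p % 8 = 7 by omega) with h | h
  · exact ng16_BD_of_cong p (fun X => bw16_NG6 p h X hTR2)
  · exact hBD h

end Fermat.Agent.S16Lib
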