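/-
S16, UPPER (helper5): the UPPER half, unconditionally.

`uf16_done` is verbatim the `hU` hypothesis of the frame theorem `fr16_main'`: an integral
cusp form on `Γ₀(p)` which is congruent modulo `l ^ a` to the non-constant part of the
Eisenstein series forces `l ^ a ∣ eisensteinNumerator p`.

Inputs: the `V_q`-trick (NG1, NG2, NG4), the trace relations (TR1), (TR2) (NG3, NG5), and the
discriminant no-go statement (NG6).
-/
import Fermat.Agent.Lib.S16.UpperFinal
import Fermat.Agent.Lib.S16.TraceTR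
import Fermat.Agent.Lib.S16.BdForms

set_option autoImplicit false

namespace Fermat.Agent.S16Lib

open UpperHalfPlane ModularForm CongruenceSubgroup MatrixGroups

/-- (TR2) in the coefficient form used by the B-W no-go theorems -/
theorem uf16_TR2 (p : ℕ) [Fact p.Prime] (H : ModularForm (Gamma0 p) 2) : bw16_TR2 p H :=
  bw16_TR2_of_trace p (Fact.out : p.Prime).ne_zero H (tw16_TR2 p H)

/-- **NG3**: for `p ≡ 1 mod 3` no weight two form on `Γ₀(p)` is `≡ 1 mod 3`. -/
theorem uf16_NG3 (p : ℕ) [Fact p.Prime] (h : p % 3 = 1) (X : ModularForm (Gamma0 p) 2) :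
    ¬ Cong p 3 1 X :=
  bw16_NG3 p h X (fun n => tw16_TR1 p X n) (uf16_TR2 p X)

/-- **NG5**: for `p ≡ 1 mod 4` no weight two form on `Γ₀(p)` is `≡ 1 mod 4`. -/
theorem uf16_NG5 (p : ℕ) [Fact p.Prime] (h : p % 4 = 1) (X : ModularForm (Gamma0 p) 2) :
    ¬ Cong p 2 2 X :=
  bw16_NG5 p h X (fun n => tw16_TR1 p X n) (uf16_TR2 p X)

/-- **UPPER** (the `hU` hypothesis of `fr16_main'`). -/
theorem uf16_done (p : ℕ) [Fact p.Prime] (l : ℕ) (hl : l.Prime) (a : ℕ)
    (f : CuspForm (Gamma0 p) 2)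
    (hf : ∀ k, 1 ≤ k → ∃ c : ℤ,
      ModularFormClass.qCoeff f k = (sigp p k : ℂ) + (l : ℂ) ^ a * c) :
    l ^ a ∣ ModularCurve.eisensteinNumerator p :=
  ng16_upperCore' p (uf16_NG3 p) (uf16_NG5 p)
    (fun h X D hD Y hX => bd16_main p (by rintro rfl; omega) X D hD Y hX) l hl a f hf

end Fermat.Agent.S16Lib
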