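/-
S16 (helper1): the `W`-trace argument.

If `X ∈ M₂(Γ₀(p))` has `q`-expansion `≡ 1 mod ℓ^s` (`Cong p ℓ s X`), `ℓ ≠ p`, `ℓ^s ∣ 504`,
then `ℓ^s ∣ p³ + 1`.  Consequences: `wt16_NG3` (`ℓ = 3`, `p ≡ 1 mod 3`, `s = 1`) and
`wt16_NG5` (`ℓ = 2`, `p ≡ 1 mod 4`, `s = 2`).

Proof: `M = X³ - E₆` is `≡ 0 mod ℓ^s` at `∞`; its Fricke transform is `≡ -p²(1 + p³)` times a
constant; the trace of `M · p¹¹Δ(pz)` to level one is a cusp form of weight `18`, hence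
`β Δ E₆`; comparing the coefficients of `q` and `q^p` and using `τ(p²) = τ(p)² - p¹¹`.
-/
import Fermat.Agent.Lib.S16.TrB
import Fermat.Agent.Lib.S16.L1
import Fermat.Agent.Lib.S16.Defs
import Fermat.Agent.Lib.S20.Basic

set_option autoImplicit false

namespace Fermat.Agent.S16Lib

open UpperHalfPlane ModularForm CongruenceSubgroup MatrixGroups Matrix.SpecialLinearGroup
  ModularFormClass EisensteinSeries
open Fermat.Agent.LibS23 Fermat.Agent.S20Lib Fermat.Agent.S24Lib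
open scoped Manifold Topology

/-! ### Slash by the Fricke matrix -/

theorem wt16_slash_W_apply (p : ℕ) [NeZero p] (k : ℤ) (f : ℍ → ℂ) (z : ℍ) :
    (f ∣[k] ep16_W p) z
      = (p : ℂ) ^ (k - 1) * (f (ModularGroup.S • (heckeDiagMatrix p • z))
          * ((p : ℂ) * (z : ℂ)) ^ (-k)) := by
  have hp : p ≠ 0 := NeZero.ne p
  rw [ep16_W, SlashAction.slash_mul, slash_heckeDiagMatrix_apply k hp]
  have hS : (f ∣[k] mapGL ℝ ModularGroup.S) (heckeDiagMatrix p • z)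
      = f (ModularGroup.S • (heckeDiagMatrix p • z)) *
          denom ModularGroup.S ((heckeDiagMatrix p • z : ℍ) : ℂ) ^ (-k) :=
    SL_slash_apply f ModularGroup.S _
  rw [hS, ModularGroup.denom_S, coe_heckeDiagMatrix_smul hp]

theorem wt16_S_diag_S_diag (p : ℕ) [NeZero p] (z : ℍ) :
    ModularGroup.S • (heckeDiagMatrix p • (ModularGroup.S • (heckeDiagMatrix p • z))) = z := by
  have hp : p ≠ 0 := NeZero.ne p
  rw [ep16_smul_S_diag hp]
  apply UpperHalfPlane.ext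
  rw [modular_S_smul, modular_S_smul, UpperHalfPlane.coe_mk, UpperHalfPlane.coe_mk]
  have hz : (z : ℂ) ≠ 0 := z.ne_zero
  field_simp

/-- `W_p² = -p` acts on weight `k` (even) by `p^(k-2)`. -/
theorem wt16_slash_W_W (p : ℕ) [NeZero p] (k : ℤ) (hk : Even k) (f : ℍ → ℂ) :
    (f ∣[k] ep16_W p) ∣[k] ep16_W p = (p : ℂ) ^ (k - 2) • f := by
  have hp : p ≠ 0 := NeZero.ne p
  have hpc : (p : ℂ) ≠ 0 := by exact_mod_cast hp
  ext z
  have hz : (z : ℂ) ≠ 0 := z.ne_zero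
  rw [wt16_slash_W_apply, wt16_slash_W_apply, wt16_S_diag_S_diag, ep16_coe_S_diag hp,
    Pi.smul_apply, smul_eq_mul]
  have h1 : (p : ℂ) * (-1 / ((p : ℂ) * (z : ℂ))) = -((z : ℂ))⁻¹ := by
    field_simp
  rw [h1, Even.neg_zpow hk.neg, inv_zpow', neg_neg, mul_zpow]
  have e1 : (p : ℂ) ^ (k - 1) * (p : ℂ) ^ (k - 1) * (p : ℂ) ^ (-k) = (p : ℂ) ^ (k - 2) := by
    rw [← zpow_add₀ hpc, ← zpow_add₀ hpc]
    congr 1
    ring
  have e2 : (z : ℂ) ^ k * (z : ℂ) ^ (-k) = 1 := by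
    rw [← zpow_add₀ hz, add_neg_cancel, zpow_zero]
  calc (p : ℂ) ^ (k - 1) * ((p : ℂ) ^ (k - 1) * (f z * (z : ℂ) ^ k)
        * ((p : ℂ) ^ (-k) * (z : ℂ) ^ (-k)))
      = ((p : ℂ) ^ (k - 1) * (p : ℂ) ^ (k - 1) * (p : ℂ) ^ (-k)) * f z
          * ((z : ℂ) ^ k * (z : ℂ) ^ (-k)) := by ring
    _ = (p : ℂ) ^ (k - 2) * f z := by rw [e1, e2, mul_one]

theorem wt16_abs_det_W (p : ℕ) [NeZero p] : |((ep16_W p).det : ℝ)| = (p : ℝ) := by
  have hp : p ≠ 0 := NeZero.ne p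
  rw [Matrix.GeneralLinearGroup.val_det_apply, ep16_W_val hp, Matrix.det_fin_two_of]
  simp

/-- `Δ ∣ W_p = p¹¹ Δ(pz)`. -/
theorem wt16_disc_slash_W (p : ℕ) :
    (ModularForm.discriminant : ℍ → ℂ) ∣[(12 : ℤ)] ep16_W p = tFun p := by
  rw [ep16_W, SlashAction.slash_mul, discriminant_slash_SL, tFun]

/-- `(p¹¹ Δ(pz)) ∣ W_p = p¹⁰ Δ`. -/
theorem wt16_tFun_slash_W (p : ℕ) [NeZero p] :
    tFun p ∣[(12 : ℤ)] ep16_W p = (p : ℂ) ^ (10 : ℕ) • (ModularForm.discriminant : ℍ → ℂ) := by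
  rw [← wt16_disc_slash_W, wt16_slash_W_W p 12 (by decide)]
  norm_num

/-! ### Weight two: `X ∣ W_p = -U_p X` -/

/-- In weight `2` the trace to level one vanishes: `a_n(X ∣ W_p) = -a_{pn}(X)`. -/
theorem wt16_qc_fricke_two (p : ℕ) [hp : Fact p.Prime] (X : ModularForm (Gamma0 p) 2) (n : ℕ) :
    qCoeff (⇑(tb16_fricke p 2 X)) n = -qCoeff (⇑X) (p * n) := by
  have hHW : (⇑X : ℍ → ℂ) = (⇑(tb16_fricke p 2 X) : ℍ → ℂ) ∣[(2 : ℤ)] ep16_W p := by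
    rw [tb16_coe_fricke, wt16_slash_W_W p 2 even_two]
    simp
  obtain ⟨T, hT⟩ := tb16_trace_of p 2 (tb16_fricke p 2 X) X hHW
  have hT0 : T = 0 := rank_zero_iff_forall_zero.mp levelOne_weight_two_rank_zero T
  have h := hT n
  rw [hT0, l1_qc_zero_form] at h
  have h2 : (p : ℂ) ^ ((2 : ℤ) - 2) = 1 := by norm_num
  rw [h2, one_mul] at h
  exact eq_neg_of_add_eq_zero_left h.symm

/-! ### `q`-expansion of `f(pz)` -/

/-- If `G τ = c · f(pτ)` for a level-one form `f`, then `a_n(G) = c · a_{n/p}(f)` for `p ∣ n`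
and `0` otherwise. -/
theorem wt16_qx_diag (p : ℕ) [NeZero p] {k w : ℤ} (G : ModularForm (Gamma0 p) k)
    (f : ModularForm 𝒮ℒ w) (c : ℂ) (hG : ∀ τ : ℍ, G τ = c * f (heckeDiagMatrix p • τ)) (n : ℕ) :
    (qx (⇑G)).coeff n = if p ∣ n then c * (qx (⇑f)).coeff (n / p) else 0 := by
  have hN : p ≠ 0 := NeZero.ne p
  have hNpos : 0 < p := Nat.pos_of_ne_zero hN
  set a : ℕ → ℂ := fun m => (qx (⇑f)).coeff m with ha
  set d : ℕ → ℂ := fun n => if p ∣ n then c * a (n / p) else 0 with hd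
  suffices h : ∀ τ : ℍ, HasSum (fun m ↦ d m • Function.Periodic.qParam 1 τ ^ m) (G τ) from
    (ModularFormClass.qExpansion_coeff_unique one_pos
      (CongruenceSubgroup.one_mem_strictPeriods_Gamma0 p) (f := G) h n).symm
  intro τ
  have hQ := QExp.of_levelOne f
  have hΔ : HasSum (fun m : ℕ => a m • Function.Periodic.qParam 1
      ((heckeDiagMatrix p • τ : ℍ) : ℂ) ^ m) (f (heckeDiagMatrix p • τ)) :=
    hasSum_qExpansion one_pos hQ.1 hQ.2.1 hQ.2.2 (heckeDiagMatrix p • τ)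
  have hq : Function.Periodic.qParam 1 ((heckeDiagMatrix p • τ : ℍ) : ℂ)
      = Function.Periodic.qParam 1 (τ : ℂ) ^ p := by
    rw [coe_heckeDiagMatrix_smul hN]
    simp only [Function.Periodic.qParam]
    rw [← Complex.exp_nat_mul]
    congr 1
    push_cast
    ring
  rw [hq] at hΔ
  have hΔ' := hΔ.mul_left c
  rw [hG τ]
  have hinj : Function.Injective (fun m : ℕ => m * p) := fun a b hab =>
    Nat.eq_of_mul_eq_mul_right hNpos hab
  have hzero : ∀ x ∉ Set.range (fun m : ℕ => m * p),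
      (fun m ↦ d m • Function.Periodic.qParam 1 (τ : ℂ) ^ m) x = 0 := by
    intro x hx
    have : ¬ p ∣ x := by
      rintro ⟨m, rfl⟩
      exact hx ⟨m, by simp [mul_comm]⟩
    simp only [hd, this, if_false, zero_smul]
  rw [← hinj.hasSum_iff hzero]
  have hfun : ((fun m ↦ d m • Function.Periodic.qParam 1 (τ : ℂ) ^ m) ∘ fun m : ℕ => m * p)
      = fun m : ℕ => c * (a m • (Function.Periodic.qParam 1 (τ : ℂ) ^ p) ^ m) := by
    funext m
    have h1 : p ∣ m * p := dvd_mul_left p m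
    have h2 : m * p / p = m := Nat.mul_div_cancel m hNpos
    simp only [Function.comp_apply, hd, h1, if_true, h2, smul_eq_mul]
    rw [← pow_mul, mul_comm p m]
    ring
  rw [hfun]
  exact hΔ'

/-- `E₆ ∣ W_p` as a form on `Γ₀(p)`: the function `p⁵ E₆(pz)`. -/
theorem wt16_E6_slash_W (p : ℕ) [NeZero p] (τ : ℍ) :
    ((⇑E₆ : ℍ → ℂ) ∣[(6 : ℤ)] ep16_W p) τ = (p : ℂ) ^ (5 : ℕ) * E₆ (heckeDiagMatrix p • τ) := by
  have hp : p ≠ 0 := NeZero.ne p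
  have hS : (⇑E₆ : ℍ → ℂ) ∣[(6 : ℤ)] mapGL ℝ ModularGroup.S = ⇑E₆ :=
    SlashInvariantFormClass.slash_action_eq E₆ _ ⟨ModularGroup.S, rfl⟩
  rw [ep16_W, SlashAction.slash_mul, hS, slash_heckeDiagMatrix_apply 6 hp]
  norm_num

/-! ### The form `F = (X³ - E₆) · p¹¹Δ(pz)` and its Fricke transform -/

theorem wt16_cube_slash (p : ℕ) [NeZero p] (f : ℍ → ℂ) :
    (f ^ 3) ∣[(6 : ℤ)] ep16_W p = (p : ℂ) ^ 2 • (f ∣[(2 : ℤ)] ep16_W p) ^ 3 := by
  have h6 : (6 : ℤ) = 2 + 2 + 2 := by norm_num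
  have hf : f ^ 3 = f * f * f := by ring
  rw [hf, h6, ModularForm.mul_slash, ModularForm.mul_slash, wt16_abs_det_W]
  ext z
  simp only [Pi.smul_apply, Pi.mul_apply, Pi.pow_apply, Complex.real_smul, smul_eq_mul]
  push_cast
  ring

theorem wt16_sub_slash (k : ℤ) (A : GL (Fin 2) ℝ) (f g : ℍ → ℂ) :
    (f - g) ∣[k] A = f ∣[k] A - g ∣[k] A := by
  rw [sub_eq_add_neg, SlashAction.add_slash, SlashAction.neg_slash, ← sub_eq_add_neg]

/-- The Fricke transform of `(f³ - E₆) · p¹¹Δ(pz)`, normalised. -/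
theorem wt16_F_slash_W (p : ℕ) [NeZero p] (f : ℍ → ℂ) :
    ((f ^ 3 - ⇑E₆) * tFun p) ∣[((6 : ℤ) + 12)] ep16_W p
      = (p : ℂ) ^ 16 •
          (((p : ℂ)⁻¹ ^ 3 • ((f ∣[(2 : ℤ)] ep16_W p) ^ 3 * (ModularForm.discriminant : ℍ → ℂ)))
          - ((((p : ℂ) ^ 5)⁻¹ • ((⇑E₆ : ℍ → ℂ) ∣[(6 : ℤ)] ep16_W p))
              * (ModularForm.discriminant : ℍ → ℂ))) := by
  have hp : p ≠ 0 := NeZero.ne p
  have hpc : (p : ℂ) ≠ 0 := by exact_mod_cast hp
  rw [ModularForm.mul_slash, wt16_abs_det_W, wt16_tFun_slash_W, wt16_sub_slash, wt16_cube_slash]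
  ext z
  simp only [Pi.smul_apply, Pi.mul_apply, Pi.pow_apply, Pi.sub_apply, Complex.real_smul,
    smul_eq_mul]
  push_cast
  field_simp

/-! ### The main argument -/

section main

variable {ℓ : ℕ} [Fact ℓ.Prime]

theorem wt16_cong_pdvd {p s : ℕ} {X : ModularForm (Gamma0 p) 2} (hX : Cong p ℓ s X) :
    l1_PDvd ℓ s (qx (⇑X) - 1) := by
  intro n
  rw [map_sub, PowerSeries.coeff_one]
  rcases Nat.eq_zero_or_pos n with rfl | hn
  · have h1 : (PowerSeries.coeff 0) (qx (⇑X)) = 1 := hX.1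
    rw [if_pos rfl, h1, sub_self]
    exact l1_Dvd.zero'
  · rw [if_neg (by omega), sub_zero]
    exact l1_Dvd_iff.mpr (hX.2 n hn)

/-- **The `W`-trace theorem.** -/
theorem wt16_main (p ℓ s : ℕ) [hp : Fact p.Prime] [hℓ : Fact ℓ.Prime] (hℓp : ℓ ≠ p)
    (hs : (ℓ : ℤ) ^ s ∣ 504) (X : ModularForm (Gamma0 p) 2) (hX : Cong p ℓ s X) :
    (ℓ : ℤ) ^ s ∣ (p : ℤ) ^ 3 + 1 := by
  have hp0 : p ≠ 0 := hp.out.ne_zero
  have hpc : (p : ℂ) ≠ 0 := by exact_mod_cast hp0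
  have hℓp' : ¬ ℓ ∣ p := fun h => hℓp ((Nat.prime_dvd_prime_iff_eq hℓ.out hp.out).mp h)
  have hpinv : ((p : ℂ))⁻¹ ∈ l1_Zl ℓ := l1_inv_nat_mem hℓp'
  -- the forms
  obtain ⟨X3a, hX3a, -⟩ := exists_pow X 3
  obtain ⟨X3, hX3, -⟩ := exists_cast (show ((3 : ℕ) : ℤ) * 2 = 6 by norm_num) X3a
  obtain ⟨F, hF⟩ : ∃ F : ModularForm (Gamma0 p) ((6 : ℤ) + 12),
      (⇑F : ℍ → ℂ) = ((⇑X : ℍ → ℂ) ^ 3 - ⇑E₆) * tFun p := by
    refine ⟨(X3 - basicRestrict E₆).mul (tForm p), ?_⟩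
    show ((⇑X3 : ℍ → ℂ) - ⇑E₆) * tFun p = _
    rw [hX3, hX3a]
  have hQX : QExp (⇑X : ℍ → ℂ) := QExp.of_gamma0 X
  have hQXW : QExp (⇑(tb16_fricke p 2 X) : ℍ → ℂ) := QExp.of_gamma0 _
  have hQE6 : QExp (⇑E₆ : ℍ → ℂ) := QExp.of_levelOne E₆
  have hQE6W : QExp (⇑(tb16_fricke p 6 (basicRestrict E₆)) : ℍ → ℂ) := QExp.of_gamma0 _
  have hQΔ : QExp (ModularForm.discriminant : ℍ → ℂ) := QExp.discriminant
  have hQt : QExp (tFun p) := QExp.tFun p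
  -- `q`-expansion of `F`
  have hqF : qx (⇑F) = (qx (⇑X) ^ 3 - qx (⇑E₆)) * qx (tFun p) := by
    rw [hF, qx_mul ((hQX.pow 3).sub hQE6) hQt, qx_sub (hQX.pow 3) hQE6, qx_pow hQX]
  -- `F ∣ W`
  have hFWfun : (⇑(tb16_fricke p ((6 : ℤ) + 12) F) : ℍ → ℂ) = (p : ℂ) ^ 16 •
      (((p : ℂ)⁻¹ ^ 3 • ((⇑(tb16_fricke p 2 X) : ℍ → ℂ) ^ 3
          * (ModularForm.discriminant : ℍ → ℂ)))
        - ((((p : ℂ) ^ 5)⁻¹ • (⇑(tb16_fricke p 6 (basicRestrict E₆)) : ℍ → ℂ))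
            * (ModularForm.discriminant : ℍ → ℂ))) := by
    rw [tb16_coe_fricke, hF, wt16_F_slash_W]
    rfl
  have hqFW : qx (⇑(tb16_fricke p ((6 : ℤ) + 12) F)) = PowerSeries.C ((p : ℂ) ^ 16) *
      (PowerSeries.C ((p : ℂ)⁻¹ ^ 3) *
          (qx (⇑(tb16_fricke p 2 X)) ^ 3 * qx ModularForm.discriminant)
        - (PowerSeries.C (((p : ℂ) ^ 5)⁻¹) * qx (⇑(tb16_fricke p 6 (basicRestrict E₆))))
            * qx ModularForm.discriminant) := by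
    have h1 : QExp ((⇑(tb16_fricke p 2 X) : ℍ → ℂ) ^ 3 * (ModularForm.discriminant : ℍ → ℂ)) :=
      (hQXW.pow 3).mul hQΔ
    have h2 : QExp ((((p : ℂ) ^ 5)⁻¹ • (⇑(tb16_fricke p 6 (basicRestrict E₆)) : ℍ → ℂ))) :=
      hQE6W.smul _
    have h3 : QExp ((((p : ℂ) ^ 5)⁻¹ • (⇑(tb16_fricke p 6 (basicRestrict E₆)) : ℍ → ℂ))
        * (ModularForm.discriminant : ℍ → ℂ)) := h2.mul hQΔ
    rw [hFWfun, qx_smul _ ((h1.smul _).sub h3), qx_sub (h1.smul _) h3, qx_smul _ h1,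
      qx_mul (hQXW.pow 3) hQΔ, qx_pow hQXW, qx_mul h2 hQΔ, qx_smul _ hQE6W]
    simp only [PowerSeries.smul_eq_C_mul]
  -- coefficients of `X ∣ W` and `E₆ ∣ W`
  have hxw : ∀ n, (qx (⇑(tb16_fricke p 2 X))).coeff n = -(qx (⇑X)).coeff (p * n) :=
    fun n => wt16_qc_fricke_two p X n
  have he6w : ∀ n, (qx (⇑(tb16_fricke p 6 (basicRestrict E₆)))).coeff n
      = if p ∣ n then (p : ℂ) ^ (5 : ℕ) * (qx (⇑E₆)).coeff (n / p) else 0 :=
    fun n => wt16_qx_diag p (tb16_fricke p 6 (basicRestrict E₆)) E₆ ((p : ℂ) ^ (5 : ℕ))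
      (fun τ => wt16_E6_slash_W p τ) n
  -- congruences
  have hx1 : l1_PDvd ℓ s (qx (⇑X) - 1) := wt16_cong_pdvd hX
  have hx0 : l1_PDvd ℓ 0 (qx (⇑X)) := by
    have := (hx1.mono (Nat.zero_le s)).add l1_PDvd.one'
    rwa [sub_add_cancel] at this
  have hxw1 : l1_PDvd ℓ s (qx (⇑(tb16_fricke p 2 X)) - (-1)) := by
    intro n
    have h := hx1 (p * n)
    rw [map_sub, PowerSeries.coeff_one] at h
    rw [map_sub, map_neg, PowerSeries.coeff_one, hxw n]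
    have hiff : (p * n = 0) ↔ (n = 0) := by simp [hp0]
    by_cases hn : n = 0
    · rw [if_pos hn]
      rw [if_pos (hiff.mpr hn)] at h
      have := h.neg
      convert this using 1
      ring
    · rw [if_neg hn]
      rw [if_neg (fun h' => hn (hiff.mp h'))] at h
      have := h.neg
      convert this using 1
      ring
  have hxw0 : l1_PDvd ℓ 0 (qx (⇑(tb16_fricke p 2 X))) := by
    have := (hxw1.mono (Nat.zero_le s)).add (l1_PDvd.one' (ℓ := ℓ)).neg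
    rwa [sub_add_cancel] at this
  have hve6 : ∀ n, (PowerSeries.C (((p : ℂ) ^ 5)⁻¹) *
      qx (⇑(tb16_fricke p 6 (basicRestrict E₆)))).coeff n
        = if p ∣ n then (qx (⇑E₆)).coeff (n / p) else 0 := by
    intro n
    rw [PowerSeries.coeff_C_mul, he6w n]
    split_ifs
    · rw [← mul_assoc, inv_mul_cancel₀ (pow_ne_zero 5 hpc), one_mul]
    · rw [mul_zero]
  have hE6c : l1_PDvd ℓ s (qx (⇑E₆) - 1) := l1_E6_congr hs
  have hve61 : l1_PDvd ℓ s (PowerSeries.C (((p : ℂ) ^ 5)⁻¹) *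
      qx (⇑(tb16_fricke p 6 (basicRestrict E₆))) - 1) := by
    intro n
    rw [map_sub, hve6 n, PowerSeries.coeff_one]
    by_cases hpn : p ∣ n
    · rw [if_pos hpn]
      have h := hE6c (n / p)
      rw [map_sub, PowerSeries.coeff_one] at h
      have hiff : (n / p = 0) ↔ (n = 0) := by
        constructor
        · intro h0
          obtain ⟨m, rfl⟩ := hpn
          rw [Nat.mul_div_cancel_left m hp.out.pos] at h0
          rw [h0, mul_zero]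
        · rintro rfl
          simp
      by_cases hn : n = 0
      · rw [if_pos hn]
        rwa [if_pos (hiff.mpr hn)] at h
      · rw [if_neg hn]
        rwa [if_neg (fun h' => hn (hiff.mp h'))] at h
    · rw [if_neg hpn]
      have hn : n ≠ 0 := fun h0 => hpn (h0 ▸ dvd_zero p)
      rw [if_neg hn, sub_zero]
      exact l1_Dvd.zero'
  have hδ0 : l1_PDvd ℓ 0 (qx ModularForm.discriminant) := l1_disc_int
  have ht0 : l1_PDvd ℓ 0 (qx (tFun p)) := by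
    intro n
    rw [qx_tFun_coeff]
    split_ifs
    · have : (qx ModularForm.discriminant).coeff (n / p) = (l1_tau (n / p) : ℂ) :=
        l1_qc_disc (n / p)
      rw [this]
      exact l1_Dvd_of_mem (mul_mem (pow_mem (l1_nat_mem p) 11) (l1_int_mem _))
    · exact l1_Dvd.zero'
  -- `F ≡ 0`
  have hF1 : l1_PDvd ℓ s (qx (⇑F)) := by
    rw [hqF]
    have h3 : l1_PDvd ℓ s (qx (⇑X) ^ 3 - 1 ^ 3) := l1_PDvd.pow_congr hx0 l1_PDvd.one' hx1 3
    have e : qx (⇑X) ^ 3 - qx (⇑E₆) = (qx (⇑X) ^ 3 - 1 ^ 3) - (qx (⇑E₆) - 1) := by ring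
    rw [e]
    exact (h3.sub hE6c).mul_right ht0
  -- the second term is `≡ c δ`
  have hcmem : -((p : ℂ)⁻¹) ^ 3 - 1 ∈ l1_Zl ℓ := sub_mem (neg_mem (pow_mem hpinv 3)) (one_mem _)
  have hS2 : l1_PDvd ℓ s ((PowerSeries.C ((p : ℂ)⁻¹ ^ 3) *
          (qx (⇑(tb16_fricke p 2 X)) ^ 3 * qx ModularForm.discriminant)
        - (PowerSeries.C (((p : ℂ) ^ 5)⁻¹) * qx (⇑(tb16_fricke p 6 (basicRestrict E₆))))
            * qx ModularForm.discriminant)
        - PowerSeries.C (-((p : ℂ)⁻¹) ^ 3 - 1) * qx ModularForm.discriminant) := by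
    have hC : PowerSeries.C (-((p : ℂ)⁻¹) ^ 3 - 1) = -PowerSeries.C ((p : ℂ)⁻¹ ^ 3) - 1 := by
      rw [map_sub, map_neg, map_one]
    have h3 : l1_PDvd ℓ s (qx (⇑(tb16_fricke p 2 X)) ^ 3 - (-1) ^ 3) :=
      l1_PDvd.pow_congr hxw0 (l1_PDvd.one'.neg) hxw1 3
    have hP : l1_PDvd ℓ 0 (PowerSeries.C ((p : ℂ)⁻¹ ^ 3)) :=
      l1_PDvd_C (l1_Dvd_of_mem (pow_mem hpinv 3))
    have e : (PowerSeries.C ((p : ℂ)⁻¹ ^ 3) *
          (qx (⇑(tb16_fricke p 2 X)) ^ 3 * qx ModularForm.discriminant)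
        - (PowerSeries.C (((p : ℂ) ^ 5)⁻¹) * qx (⇑(tb16_fricke p 6 (basicRestrict E₆))))
            * qx ModularForm.discriminant)
        - PowerSeries.C (-((p : ℂ)⁻¹) ^ 3 - 1) * qx ModularForm.discriminant
        = PowerSeries.C ((p : ℂ)⁻¹ ^ 3) *
            ((qx (⇑(tb16_fricke p 2 X)) ^ 3 - (-1) ^ 3) * qx ModularForm.discriminant)
          - (PowerSeries.C (((p : ℂ) ^ 5)⁻¹) * qx (⇑(tb16_fricke p 6 (basicRestrict E₆))) - 1)
              * qx ModularForm.discriminant := by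
      rw [hC]
      ring
    rw [e]
    exact (hP.mul_left (h3.mul_right hδ0)).sub (hve61.mul_right hδ0)
  -- the trace
  obtain ⟨T, -, hT⟩ := tb16_trace p ((6 : ℤ) + 12) F
  have hTn : ∀ n, qCoeff (⇑T) n = (qx (⇑F)).coeff n +
      (PowerSeries.C ((p : ℂ)⁻¹ ^ 3) *
          (qx (⇑(tb16_fricke p 2 X)) ^ 3 * qx ModularForm.discriminant)
        - (PowerSeries.C (((p : ℂ) ^ 5)⁻¹) * qx (⇑(tb16_fricke p 6 (basicRestrict E₆))))
            * qx ModularForm.discriminant).coeff (p * n) := by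
    intro n
    rw [hT n]
    congr 1
    show (p : ℂ) ^ ((2 : ℤ) - (6 + 12)) *
      (qx (⇑(tb16_fricke p ((6 : ℤ) + 12) F))).coeff (p * n) = _
    rw [hqFW, PowerSeries.coeff_C_mul, ← mul_assoc]
    have h16 : (p : ℂ) ^ ((2 : ℤ) - (6 + 12)) * (p : ℂ) ^ 16 = 1 := by
      rw [show ((2 : ℤ) - (6 + 12)) = -((16 : ℕ) : ℤ) by norm_num, zpow_neg, zpow_natCast,
        inv_mul_cancel₀ (pow_ne_zero 16 hpc)]
    rw [h16, one_mul]
  have hD : ∀ n, l1_Dvd ℓ s (qCoeff (⇑T) n - (-((p : ℂ)⁻¹) ^ 3 - 1) * (l1_tau (p * n) : ℂ)) := by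
    intro n
    have h2 := hS2 (p * n)
    rw [map_sub, PowerSeries.coeff_C_mul] at h2
    have hδn : (qx ModularForm.discriminant).coeff (p * n) = (l1_tau (p * n) : ℂ) :=
      l1_qc_disc _
    rw [hδn] at h2
    rw [hTn n]
    have := (hF1 n).add h2
    convert this using 1
    ring
  -- `T` is a cusp form of weight 18
  have hδc : PowerSeries.constantCoeff (qx ModularForm.discriminant) = 0 := by
    rw [← PowerSeries.coeff_zero_eq_constantCoeff_apply]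
    have := l1_qc_disc 0
    rw [l1_tau_zero] at this
    simpa [qCoeff] using this
  have htc : PowerSeries.constantCoeff (qx (tFun p)) = 0 := by
    rw [← PowerSeries.coeff_zero_eq_constantCoeff_apply, qx_tFun_coeff, if_pos (dvd_zero p),
      Nat.zero_div, PowerSeries.coeff_zero_eq_constantCoeff_apply, hδc, mul_zero]
  have hT0 : qCoeff (⇑T) 0 = 0 := by
    rw [hTn 0, mul_zero, hqF, PowerSeries.coeff_zero_eq_constantCoeff_apply,
      PowerSeries.coeff_zero_eq_constantCoeff_apply]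
    simp [hδc, htc]
  obtain ⟨β, -, hβ⟩ := l1_S18 (ModularForm.mcast (by norm_num : (6 : ℤ) + 12 = 18) T) hT0
  have hTβ : ∀ n, qCoeff (⇑T) n = β * (qx ModularForm.discriminant * qx (⇑E₆)).coeff n := by
    intro n
    have hβ' : qx (⇑T) = PowerSeries.C β * (qx ModularForm.discriminant * qx (⇑E₆)) := hβ
    show (qx (⇑T)).coeff n = _
    rw [hβ', PowerSeries.coeff_C_mul]
  have hc1 : (qx ModularForm.discriminant * qx (⇑E₆)).coeff 1 = 1 := by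
    have h1 : PowerSeries.constantCoeff
        ((ModularCurve.dedekindEtaUnit).map (Int.castRingHom ℂ)) = 1 := by
      rw [← PowerSeries.coeff_zero_eq_constantCoeff_apply, PowerSeries.coeff_map,
        PowerSeries.coeff_zero_eq_constantCoeff_apply, ModularCurve.constantCoeff_dedekindEtaUnit]
      simp
    have h2 : PowerSeries.constantCoeff (qx (⇑E₆)) = 1 := by
      rw [← PowerSeries.coeff_zero_eq_constantCoeff_apply]
      exact l1_qc_E6_zero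
    rw [l1_qx_disc, mul_assoc, show (1 : ℕ) = 0 + 1 from rfl, l1_coeff_X_mul_succ,
      PowerSeries.coeff_zero_eq_constantCoeff_apply, map_mul, h1, h2, mul_one]
  have hcp : l1_Dvd ℓ s ((qx ModularForm.discriminant * qx (⇑E₆)).coeff p - (l1_tau p : ℂ)) := by
    have h := (hδ0.mul_left hE6c) p
    rw [mul_sub, mul_one, map_sub] at h
    have hδp : (qx ModularForm.discriminant).coeff p = (l1_tau p : ℂ) := l1_qc_disc p
    rwa [hδp] at h
  -- the two coefficients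
  have hD1 := hD 1
  have hDp := hD p
  rw [hTβ 1, hc1, mul_one, mul_one] at hD1
  rw [hTβ p] at hDp
  have hτ : (l1_tau (p * p) : ℂ) = (l1_tau p : ℂ) ^ 2 - (p : ℂ) ^ 11 := by
    have := l1_tau_prime_sq hp.out
    rw [pow_two p] at this
    exact_mod_cast this
  have hβmem : β ∈ l1_Zl ℓ := by
    have h := add_mem hD1.mem (mul_mem hcmem (l1_int_mem (l1_tau p)))
    rwa [sub_add_cancel] at h
  have hfin : l1_Dvd ℓ s ((-((p : ℂ)⁻¹) ^ 3 - 1) * (p : ℂ) ^ 11) := by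
    have h1 := (hD1.mul_right (l1_int_mem (l1_tau p))).neg
    have h2 := (hcp.mul_left hβmem).neg
    have := (h1.add h2).add hDp
    convert this using 1
    rw [hτ]
    ring
  have hint : (-((p : ℂ)⁻¹) ^ 3 - 1) * (p : ℂ) ^ 11
      = ((-((p : ℤ) ^ 8 * ((p : ℤ) ^ 3 + 1)) : ℤ) : ℂ) := by
    push_cast
    field_simp
    ring
  rw [hint, l1_Dvd_int_iff, dvd_neg] at hfin
  have hcop : IsCoprime ((ℓ : ℤ) ^ s) ((p : ℤ) ^ 8) :=
    IsCoprime.pow (Nat.isCoprime_iff_coprime.mpr ((Nat.coprime_primes hℓ.out hp.out).mpr hℓp))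
  exact hcop.dvd_of_dvd_mul_left hfin

end main

/-! ### The no-go corollaries -/

/-- **NG3**: for `p ≡ 1 mod 3` there is no `X ∈ M₂(Γ₀(p))` with `X ≡ 1 mod 3`. -/
theorem wt16_NG3 (p : ℕ) [Fact p.Prime] (hp3 : p % 3 = 1) (X : ModularForm (Gamma0 p) 2) :
    ¬ Cong p 3 1 X := by
  intro hX
  have hdvd := wt16_main p 3 1 (by omega) (by norm_num) X hX
  obtain ⟨k, hk⟩ : ∃ k : ℤ, (p : ℤ) = 3 * k + 1 := ⟨(p : ℤ) / 3, by omega⟩
  obtain ⟨t, ht⟩ : ∃ t : ℤ, (3 * k + 1) ^ 3 + 1 = 3 * t + 2 :=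
    ⟨9 * k ^ 3 + 9 * k ^ 2 + 3 * k, by ring⟩
  rw [hk, ht] at hdvd
  norm_num at hdvd

/-- **NG5**: for `p ≡ 1 mod 4` there is no `X ∈ M₂(Γ₀(p))` with `X ≡ 1 mod 4`. -/
theorem wt16_NG5 (p : ℕ) [Fact p.Prime] (hp4 : p % 4 = 1) (X : ModularForm (Gamma0 p) 2) :
    ¬ Cong p 2 2 X := by
  intro hX
  have hdvd := wt16_main p 2 2 (by omega) (by norm_num) X hX
  obtain ⟨k, hk⟩ : ∃ k : ℤ, (p : ℤ) = 4 * k + 1 := ⟨(p : ℤ) / 4, by omega⟩
  obtain ⟨t, ht⟩ : ∃ t : ℤ, (4 * k + 1) ^ 3 + 1 = 4 * t + 2 :=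
    ⟨16 * k ^ 3 + 12 * k ^ 2 + 3 * k, by ring⟩
  rw [hk, ht] at hdvd
  norm_num at hdvd

/-- **NG6** for `p` odd, `p ≢ 7 mod 8`: there is no `X ∈ M₂(Γ₀(p))` with `X ≡ 1 mod 8`. -/
theorem wt16_NG6a (p : ℕ) [Fact p.Prime] (hp2 : p % 2 = 1) (hp8 : p % 8 ≠ 7)
    (X : ModularForm (Gamma0 p) 2) : ¬ Cong p 2 3 X := by
  intro hX
  have hdvd := wt16_main p 2 3 (by omega) (by norm_num) X hX
  obtain ⟨k, r, hk, hr⟩ : ∃ k r : ℤ, (p : ℤ) = 8 * k + r ∧ (r = 1 ∨ r = 3 ∨ r = 5) :=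
    ⟨(p : ℤ) / 8, (p : ℤ) % 8, by omega, by omega⟩
  obtain ⟨t, ht⟩ : ∃ t : ℤ, (8 * k + r) ^ 3 + 1 = 8 * t + (r ^ 3 + 1) :=
    ⟨64 * k ^ 3 + 24 * k ^ 2 * r + 3 * k * r ^ 2, by ring⟩
  rw [hk, ht] at hdvd
  rcases hr with rfl | rfl | rfl <;> norm_num at hdvd

end Fermat.Agent.S16Lib
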